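/-
S16 project (index of the Eisenstein ideal at prime level): core definitions shared by all
`S16x` files.  Captain: helper15.  See table `s16_plan` and `Fermat/Agent/S16x/Spec.lean`.
-/
import Mathlib
import Fermat.Prelude.Def_CuspForm_HeckeLocal
import Fermat.Prelude.Def_CuspForm_HeckeEvalForms
import Fermat.Prelude.Def_HeckeGalois_EichlerShimura
import Fermat.Prelude.Def_ModularCurve_ModularUnit
import Fermat.Agent.S23x.Defs

set_option autoImplicit false

namespace Fermat.Agent.S16x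

open UpperHalfPlane ModularForm ModularFormClass CongruenceSubgroup
open scoped MatrixGroups Manifold

noncomputable section

/-! ### Arithmetic functions -/

/-- `σ'(n)`: the sum of the divisors of `n` that are prime to `p`. -/
def sigP (p n : ℕ) : ℕ := ∑ d ∈ n.divisors.filter (fun d => ¬ p ∣ d), d

/-! ### `ℓ`-integral algebraic numbers -/

/-- The subring of `ℂ` of `ℓ`-integral algebraic numbers: `x` such that `s * x` is an algebraic
integer for some natural number `s` prime to `ℓ`. -/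
def lintRing (ℓ : ℕ) : Subring ℂ where
  carrier := {x | ∃ s : ℕ, s.Coprime ℓ ∧ IsIntegral ℤ ((s : ℂ) * x)}
  mul_mem' := by
    rintro x y ⟨s, hs, hx⟩ ⟨t, ht, hy⟩
    refine ⟨s * t, Nat.Coprime.mul_left hs ht, ?_⟩
    have : ((s * t : ℕ) : ℂ) * (x * y) = ((s : ℂ) * x) * ((t : ℂ) * y) := by push_cast; ring
    rw [this]; exact hx.mul hy
  one_mem' := ⟨1, Nat.coprime_one_left ℓ, by simpa using isIntegral_one⟩
  add_mem' := by
    rintro x y ⟨s, hs, hx⟩ ⟨t, ht, hy⟩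
    refine ⟨s * t, Nat.Coprime.mul_left hs ht, ?_⟩
    have : ((s * t : ℕ) : ℂ) * (x + y) = (t : ℂ) * ((s : ℂ) * x) + (s : ℂ) * ((t : ℂ) * y) := by
      push_cast; ring
    rw [this]
    have ht' : IsIntegral ℤ ((t : ℂ)) := by
      have := isIntegral_algebraMap (R := ℤ) (A := ℂ) (x := (t : ℤ))
      simpa using this
    have hs' : IsIntegral ℤ ((s : ℂ)) := by
      have := isIntegral_algebraMap (R := ℤ) (A := ℂ) (x := (s : ℤ))
      simpa using this
    exact (ht'.mul hx).add (hs'.mul hy)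
  zero_mem' := ⟨1, Nat.coprime_one_left ℓ, by simpa using isIntegral_zero⟩
  neg_mem' := by
    rintro x ⟨s, hs, hx⟩
    exact ⟨s, hs, by simpa using hx.neg⟩


theorem mem_lintRing_iff {ℓ : ℕ} {x : ℂ} :
    x ∈ lintRing ℓ ↔ ∃ s : ℕ, s.Coprime ℓ ∧ IsIntegral ℤ ((s : ℂ) * x) := Iff.rfl

/-- algebraic integers are `ℓ`-integral -/
theorem mem_lintRing_of_isIntegral {ℓ : ℕ} {x : ℂ} (hx : IsIntegral ℤ x) : x ∈ lintRing ℓ :=
  ⟨1, Nat.coprime_one_left ℓ, by simpa using hx⟩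

/-- `ℓ` is not a unit of `lintRing ℓ` (for `ℓ` prime). -/
theorem span_natCast_ne_top (ℓ : ℕ) [hℓ : Fact ℓ.Prime] :
    Ideal.span {((ℓ : ℕ) : lintRing ℓ)} ≠ ⊤ := by
  intro htop
  rw [Ideal.span_singleton_eq_top] at htop
  obtain ⟨y, hy⟩ := htop.exists_right_inv
  obtain ⟨s, hs, hint⟩ := y.2
  have hy' : (ℓ : ℂ) * (y : ℂ) = 1 := by
    have := congrArg (Subtype.val) hy
    simpa using this
  have hℓ0 : (ℓ : ℂ) ≠ 0 := Nat.cast_ne_zero.mpr hℓ.out.ne_zero
  have hyv : (y : ℂ) = (ℓ : ℂ)⁻¹ := by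
    field_simp
    rw [mul_comm]; exact hy'
  rw [hyv] at hint
  -- `s / ℓ` is a rational algebraic integer, hence an integer
  have hq : IsIntegral ℤ (((s : ℚ) / (ℓ : ℚ) : ℚ)) := by
    have h1 : ((s : ℂ) * (ℓ : ℂ)⁻¹) = algebraMap ℚ ℂ ((s : ℚ) / (ℓ : ℚ)) := by
      simp [div_eq_mul_inv]
    rw [h1] at hint
    exact (isIntegral_algebraMap_iff (algebraMap ℚ ℂ).injective).mp hint
  obtain ⟨m, hm⟩ := IsIntegrallyClosed.isIntegral_iff.mp hq
  have hℓq : (ℓ : ℚ) ≠ 0 := Nat.cast_ne_zero.mpr hℓ.out.ne_zero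
  have : (s : ℚ) = (m : ℚ) * (ℓ : ℚ) := by
    have hm' : (m : ℚ) = (s : ℚ) / (ℓ : ℚ) := by simpa using hm
    rw [hm']; field_simp
  have hdiv : (ℓ : ℤ) ∣ (s : ℤ) := ⟨m, by exact_mod_cast (by rw [this]; ring : (s : ℚ) = (ℓ : ℚ) * (m : ℚ))⟩
  have hdiv' : ℓ ∣ s := by exact_mod_cast hdiv
  have := Nat.Coprime.eq_one_of_dvd hs.symm hdiv'
  exact hℓ.out.one_lt.ne' this

/-- A chosen maximal ideal of `lintRing ℓ` above `ℓ`. -/
def lintMax (ℓ : ℕ) [Fact ℓ.Prime] : Ideal (lintRing ℓ) :=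
  Classical.choose (Ideal.exists_le_maximal _ (span_natCast_ne_top ℓ))

instance lintMax_isMaximal (ℓ : ℕ) [Fact ℓ.Prime] : (lintMax ℓ).IsMaximal :=
  (Classical.choose_spec (Ideal.exists_le_maximal _ (span_natCast_ne_top ℓ))).1

theorem natCast_mem_lintMax (ℓ : ℕ) [Fact ℓ.Prime] : ((ℓ : ℕ) : lintRing ℓ) ∈ lintMax ℓ :=
  (Classical.choose_spec (Ideal.exists_le_maximal _ (span_natCast_ne_top ℓ))).2
    (Ideal.subset_span rfl)

/-- The residue field `κ = lintRing ℓ ⧸ lintMax ℓ` (a field of characteristic `ℓ`). -/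
abbrev kappa (ℓ : ℕ) [Fact ℓ.Prime] : Type := lintRing ℓ ⧸ lintMax ℓ

instance kappa_field (ℓ : ℕ) [Fact ℓ.Prime] : Field (kappa ℓ) := Ideal.Quotient.field _

/-- the residue map -/
def resid (ℓ : ℕ) [Fact ℓ.Prime] : lintRing ℓ →+* kappa ℓ := Ideal.Quotient.mk _

/-! ### Power series: coefficients in `lintRing ℓ`, comparison with `ℂ`, reduction -/

/-- power series with `ℓ`-integral coefficients, viewed over `ℂ` -/
def toC (ℓ : ℕ) : PowerSeries (lintRing ℓ) →+* PowerSeries ℂ :=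
  PowerSeries.map (lintRing ℓ).subtype

/-- reduction modulo the chosen maximal ideal -/
def redHom (ℓ : ℕ) [Fact ℓ.Prime] : PowerSeries (lintRing ℓ) →+* PowerSeries (kappa ℓ) :=
  PowerSeries.map (resid ℓ)

theorem toC_injective (ℓ : ℕ) : Function.Injective (toC ℓ) := by
  intro P Q h
  ext n
  have := congrArg (PowerSeries.coeff n) h
  simpa [toC] using this

/-- the formal `U_p` operator: `coeff n (UPS p P) = coeff (n * p) P` -/
def UPS {R : Type*} [Semiring R] (p : ℕ) (P : PowerSeries R) : PowerSeries R :=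
  PowerSeries.mk fun n => PowerSeries.coeff (n * p) P

@[simp] theorem coeff_UPS {R : Type*} [Semiring R] (p n : ℕ) (P : PowerSeries R) :
    PowerSeries.coeff n (UPS p P) = PowerSeries.coeff (n * p) P := by
  simp [UPS]

/-- `ζ_N = exp(2πi/N)` -/
def zeta (N : ℕ) : ℂ := Complex.exp (2 * Real.pi * Complex.I / N)

/-- The `q^{1/(rp)}`-expansions of the `SL₂(ℤ)`-conjugates of a weight-2 form `A` on `Γ₀(p)` with
`q`-expansion `a` (variable `w = q^{1/(rp)}`): `none ↦ a(w^{rp})`,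
`some j ↦ -(1/p) (U_p a)(ζ_p^j w^r)`. -/
def conjA (p r : ℕ) [NeZero p] [NeZero r] (a : PowerSeries ℂ) : Option (Fin p) → PowerSeries ℂ
  | none => PowerSeries.expand (r * p) (mul_ne_zero (NeZero.ne r) (NeZero.ne p)) a
  | some j => PowerSeries.expand r (NeZero.ne r)
      (PowerSeries.rescale (zeta p ^ (j : ℕ)) (-(p : ℂ)⁻¹ • UPS p a))

/-- Same for a weight-2 form `B` on `Γ₀(r)` with `q`-expansion `b`:
`none ↦ b(w^{rp})`, `some i ↦ -(1/r) (U_r b)(ζ_r^i w^p)`. -/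
def conjB (p r : ℕ) [NeZero p] [NeZero r] (b : PowerSeries ℂ) : Option (Fin r) → PowerSeries ℂ
  | none => PowerSeries.expand (r * p) (mul_ne_zero (NeZero.ne r) (NeZero.ne p)) b
  | some i => PowerSeries.expand p (NeZero.ne p)
      (PowerSeries.rescale (zeta r ^ (i : ℕ)) (-(r : ℂ)⁻¹ • UPS r b))

/-- the `(p+1)(r+1)` conjugates of `A + B` -/
def conjSeries (p r : ℕ) [NeZero p] [NeZero r] (a b : PowerSeries ℂ)
    (x : Option (Fin p)) (y : Option (Fin r)) : PowerSeries ℂ :=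
  conjA p r a x + conjB p r b y

/-! ### The Eisenstein character -/

/-- The ring hom `HeckeAlg → ZMod M` sending `T_q ↦ 1 + q` (`q ≠ p`) and `U_p ↦ 1`
(the Eisenstein system of the Prelude, reduced mod `M`). -/
def eisEval (p M : ℕ) : ModularCurve.HeckeAlg →+* ZMod M :=
  (Int.castRingHom (ZMod M)).comp
    (MvPolynomial.aeval (R := ℤ) (ModularCurve.eisensteinSystem p)).toRingHom

theorem eisEval_heckeGen (p M : ℕ) (q : Nat.Primes) :
    eisEval p M (ModularCurve.heckeGen q) = ((ModularCurve.eisensteinSystem p q : ℤ) : ZMod M) := by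
  simp [eisEval, ModularCurve.heckeGen]

/-- `g` is a cusp form with integral `q`-expansion congruent to `δ = ∑ σ'(n) qⁿ` modulo `M`. -/
def IsEisCongr (p M : ℕ) (g : CuspForm (Gamma0 p) 2) : Prop :=
  ∀ n : ℕ, ∃ m : ℤ, ModularFormClass.qCoeff g n = (m : ℂ) ∧
    (1 ≤ n → ((m : ℤ) : ZMod M) = ((sigP p n : ℕ) : ZMod M))

end

end Fermat.Agent.S16x
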