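/-
S16 project, module DUAL (owner helper54): from a character of the Hecke algebra to a cusp form
congruent to the Eisenstein series.  Perfect pairing `(t, f) ↦ a₁(t f)` between the Hecke algebra
(finite over `ℤ` by S22) and the lattice of integral cusp forms (S23), Hecke polynomials `P_j`
with `a₁(P_j f) = a_j(f)` and Eisenstein value `σ'(j)`.
-/
import Fermat.Agent.S16x.Defs
import Fermat.Agent.S23
import Fermat.Agent.S23x.GalStable

set_option autoImplicit false
open CuspForm ModularFormClass ModularCurve CongruenceSubgroup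

namespace Fermat.Agent.S16x

/-! ### An abstract duality lemma -/



/-- abstract: a pairing of finite free `ℤ`-modules which is nondegenerate on both sides has
finite-index image. -/
theorem dua_exists_multiple {T L : Type*} [AddCommGroup T] [AddCommGroup L]
    [Module.Free ℤ T] [Module.Finite ℤ T] [Module.Free ℤ L] [Module.Finite ℤ L]
    (Ψ : L →ₗ[ℤ] (T →ₗ[ℤ] ℤ)) (hΨ : Function.Injective Ψ)
    (hΨ' : Function.Injective Ψ.flip) (lam : T →ₗ[ℤ] ℤ) :
    ∃ n : ℕ, 0 < n ∧ ∃ g : L, Ψ g = n • lam := by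
  have h1 : Module.finrank ℤ L ≤ Module.finrank ℤ T := by
    have := LinearMap.finrank_le_finrank_of_injective hΨ
    rwa [Module.finrank_linearMap_self] at this
  have h2 : Module.finrank ℤ T ≤ Module.finrank ℤ L := by
    have := LinearMap.finrank_le_finrank_of_injective hΨ'
    rwa [Module.finrank_linearMap_self] at this
  have h3 : Module.finrank ℤ (LinearMap.range Ψ) = Module.finrank ℤ (T →ₗ[ℤ] ℤ) := by
    rw [LinearMap.finrank_range_of_inj hΨ, Module.finrank_linearMap_self]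
    exact le_antisymm h1 h2
  have : Finite ((T →ₗ[ℤ] ℤ) ⧸ LinearMap.range Ψ) :=
    Submodule.finiteQuotientOfFreeOfRankEq _ h3
  refine ⟨Nat.card ((T →ₗ[ℤ] ℤ) ⧸ LinearMap.range Ψ), Nat.card_pos, ?_⟩
  have h4 : Nat.card ((T →ₗ[ℤ] ℤ) ⧸ LinearMap.range Ψ) •
      (Submodule.Quotient.mk lam : (T →ₗ[ℤ] ℤ) ⧸ LinearMap.range Ψ) = 0 :=
    card_nsmul_eq_zero'
  rw [← Submodule.Quotient.mk_smul, Submodule.Quotient.mk_eq_zero] at h4
  obtain ⟨g, hg⟩ := h4
  exact ⟨g, hg⟩


/-! ### Integral coefficient functionals -/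



/-- elements of the integral lattice have integral `q`-coefficients -/
theorem dua_exists_int {N : ℕ} {x : CuspForm (Gamma0 N) 2}
    (hx : x ∈ CuspForm.intLattice N 2) (n : ℕ) : ∃ m : ℤ, qCoeff (⇑x) n = (m : ℂ) := by
  induction hx using Submodule.span_induction with
  | mem y hy => exact hy n
  | zero => exact ⟨0, by rw [Fermat.Agent.S23x.bd_qCoeff_zero_form]; simp⟩
  | add y z _ _ hy hz =>
    obtain ⟨m₁, h₁⟩ := hy
    obtain ⟨m₂, h₂⟩ := hz
    exact ⟨m₁ + m₂, by rw [Fermat.Agent.S23x.bd_qCoeff_add, h₁, h₂]; push_cast; rfl⟩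
  | smul c y _ hy =>
    obtain ⟨m, hm⟩ := hy
    exact ⟨c * m, by rw [Fermat.Agent.S23x.bd_qCoeff_zsmul, hm]; push_cast; rfl⟩

/-- the `n`-th `q`-coefficient of a lattice element, as an integer -/
noncomputable def dua_c (N : ℕ) (n : ℕ) (g : ↥(CuspForm.intLattice N 2)) : ℤ :=
  Classical.choose (dua_exists_int g.2 n)

theorem dua_c_spec (N : ℕ) (n : ℕ) (g : ↥(CuspForm.intLattice N 2)) :
    qCoeff (⇑(g : CuspForm (Gamma0 N) 2)) n = (dua_c N n g : ℂ) :=
  Classical.choose_spec (dua_exists_int g.2 n)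

/-- the `n`-th `q`-coefficient as a `ℤ`-linear form on the integral lattice -/
noncomputable def dua_coeff (N : ℕ) (n : ℕ) : ↥(CuspForm.intLattice N 2) →ₗ[ℤ] ℤ where
  toFun g := dua_c N n g
  map_add' g h := by
    apply Int.cast_injective (α := ℂ)
    rw [Int.cast_add, ← dua_c_spec, ← dua_c_spec, ← dua_c_spec, Submodule.coe_add,
      Fermat.Agent.S23x.bd_qCoeff_add]
  map_smul' c g := by
    apply Int.cast_injective (α := ℂ)
    rw [RingHom.id_apply, smul_eq_mul, Int.cast_mul, ← dua_c_spec, ← dua_c_spec,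
      Submodule.coe_smul, Fermat.Agent.S23x.bd_qCoeff_zsmul]

theorem dua_coeff_spec (N : ℕ) (n : ℕ) (g : ↥(CuspForm.intLattice N 2)) :
    qCoeff (⇑(g : CuspForm (Gamma0 N) 2)) n = (dua_coeff N n g : ℂ) :=
  dua_c_spec N n g


/-! ### The arithmetic of `σ'` -/
section Sigma
open ArithmeticFunction


/-- the arithmetic function `d ↦ d` if `p ∤ d`, `0` otherwise -/
def dua_g (p : ℕ) : ArithmeticFunction ℕ := ⟨fun d => if p ∣ d then 0 else d, by simp⟩

theorem dua_g_apply (p d : ℕ) : dua_g p d = if p ∣ d then 0 else d := rfl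

theorem dua_g_isMultiplicative {p : ℕ} (hp : p.Prime) : (dua_g p).IsMultiplicative := by
  refine ⟨?_, ?_⟩
  · rw [dua_g_apply, if_neg]
    exact fun h => hp.one_lt.ne' (Nat.dvd_one.mp h)
  · intro m n _
    simp only [dua_g_apply, hp.dvd_mul]
    by_cases hm : p ∣ m
    · simp [hm]
    · by_cases hn : p ∣ n
      · simp [hn]
      · simp [hm, hn]

theorem dua_sigP_eq_mul_zeta (p n : ℕ) : sigP p n = (dua_g p * ArithmeticFunction.zeta) n := by
  rw [mul_zeta_apply]
  unfold sigP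
  rw [Finset.sum_filter]
  refine Finset.sum_congr rfl fun d _ => ?_
  rw [dua_g_apply]
  by_cases h : p ∣ d <;> simp [h]

theorem dua_sigP_map_mul {p : ℕ} (hp : p.Prime) {m n : ℕ} (h : m.Coprime n) :
    sigP p (m * n) = sigP p m * sigP p n := by
  have := ((dua_g_isMultiplicative hp).mul isMultiplicative_zeta).map_mul_of_coprime h
  rwa [← dua_sigP_eq_mul_zeta, ← dua_sigP_eq_mul_zeta, ← dua_sigP_eq_mul_zeta] at this

theorem dua_sigP_one {p : ℕ} (hp : p.Prime) : sigP p 1 = 1 := by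
  have := ((dua_g_isMultiplicative hp).mul isMultiplicative_zeta).map_one
  rwa [← dua_sigP_eq_mul_zeta] at this

theorem dua_sigP_prime_pow {p ℓ : ℕ} (hp : p.Prime) (hℓ : ℓ.Prime) (hne : ℓ ≠ p) (k : ℕ) :
    sigP p (ℓ ^ k) = ∑ i ∈ Finset.range (k + 1), ℓ ^ i := by
  unfold sigP
  rw [Nat.divisors_prime_pow hℓ, Finset.filter_true_of_mem, Finset.sum_map]
  · rfl
  · intro d hd
    rw [Finset.mem_map] at hd
    obtain ⟨i, _, rfl⟩ := hd
    intro h
    exact hne ((Nat.prime_dvd_prime_iff_eq hp hℓ).mp (hp.dvd_of_dvd_pow h)).symm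

theorem dua_sigP_self_pow {p : ℕ} (hp : p.Prime) (k : ℕ) : sigP p (p ^ k) = 1 := by
  unfold sigP
  rw [Nat.divisors_prime_pow hp]
  have : (Finset.map ⟨(p ^ ·), Nat.pow_right_injective hp.two_le⟩ (Finset.range (k + 1))).filter
      (fun d => ¬ p ∣ d) = {1} := by
    ext d
    simp only [Finset.mem_filter, Finset.mem_map, Finset.mem_range, Function.Embedding.coeFn_mk,
      Finset.mem_singleton]
    constructor
    · rintro ⟨⟨i, _, rfl⟩, h⟩
      rcases Nat.eq_zero_or_pos i with h0 | h0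
      · simp [h0]
      · exact absurd (dvd_pow_self p h0.ne') h
    · rintro rfl
      exact ⟨⟨0, by omega, by simp⟩, fun h => hp.one_lt.ne' (Nat.dvd_one.mp h)⟩
  rw [this, Finset.sum_singleton]

/-- `σ'(mp) = σ'(m)` -/
theorem dua_sigP_mul_self {p : ℕ} (hp : p.Prime) (m : ℕ) (hm : 1 ≤ m) : sigP p (m * p) = sigP p m := by
  obtain ⟨r, u, hu, rfl⟩ := Nat.exists_eq_pow_mul_and_not_dvd (by omega : m ≠ 0) p hp.ne_one
  have hc : ∀ k, (p ^ k).Coprime u := fun k => Nat.Coprime.pow_left k ((Nat.Prime.coprime_iff_not_dvd hp).mpr hu)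
  have : p ^ r * u * p = p ^ (r + 1) * u := by ring
  rw [this, dua_sigP_map_mul hp (hc _), dua_sigP_map_mul hp (hc _), dua_sigP_self_pow hp,
    dua_sigP_self_pow hp]

/-- the Hecke recursion for `σ'` at a prime `ℓ ≠ p` -/
theorem dua_sigP_mul_prime {p ℓ : ℕ} (hp : p.Prime) (hℓ : ℓ.Prime) (hne : ℓ ≠ p) (m : ℕ) (hm : 1 ≤ m) :
    (sigP p (m * ℓ) : ℤ) =
      (1 + (ℓ : ℤ)) * sigP p m - if ℓ ∣ m then (ℓ : ℤ) * sigP p (m / ℓ) else 0 := by
  obtain ⟨r, u, hu, rfl⟩ := Nat.exists_eq_pow_mul_and_not_dvd (by omega : m ≠ 0) ℓ hℓ.ne_one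
  have hc : ∀ k, (ℓ ^ k).Coprime u := fun k => Nat.Coprime.pow_left k ((Nat.Prime.coprime_iff_not_dvd hℓ).mpr hu)
  have h1 : ℓ ^ r * u * ℓ = ℓ ^ (r + 1) * u := by ring
  rw [h1, dua_sigP_map_mul hp (hc _), dua_sigP_map_mul hp (hc _),
    dua_sigP_prime_pow hp hℓ hne, dua_sigP_prime_pow hp hℓ hne]
  rcases Nat.eq_zero_or_pos r with h0 | h0
  · subst h0
    have : ¬ ℓ ∣ ℓ ^ 0 * u := by simpa using hu
    rw [if_neg this]
    simp [Finset.sum_range_succ]
  · obtain ⟨r', rfl⟩ : ∃ r', r = r' + 1 := ⟨r - 1, by omega⟩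
    have hd : ℓ ∣ ℓ ^ (r' + 1) * u := Dvd.dvd.mul_right (dvd_pow_self ℓ (by omega)) u
    have hdiv : ℓ ^ (r' + 1) * u / ℓ = ℓ ^ r' * u := by
      rw [pow_succ, mul_assoc, mul_comm ℓ u, ← mul_assoc, Nat.mul_div_cancel _ hℓ.pos]
    rw [if_pos hd, hdiv, dua_sigP_map_mul hp (hc _), dua_sigP_prime_pow hp hℓ hne]
    have e1 : ∑ i ∈ Finset.range (r' + 1 + 1 + 1), (ℓ : ℤ) ^ i =
        1 + ℓ * ∑ i ∈ Finset.range (r' + 1 + 1), (ℓ : ℤ) ^ i := by
      rw [Finset.sum_range_succ', Finset.mul_sum]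
      simp only [pow_succ, pow_zero]
      rw [add_comm]
      congr 1
      exact Finset.sum_congr rfl fun i _ => by ring
    have e2 : ∑ i ∈ Finset.range (r' + 1 + 1), (ℓ : ℤ) ^ i =
        1 + ℓ * ∑ i ∈ Finset.range (r' + 1), (ℓ : ℤ) ^ i := by
      rw [Finset.sum_range_succ', Finset.mul_sum]
      simp only [pow_succ, pow_zero]
      rw [add_comm]
      congr 1
      exact Finset.sum_congr rfl fun i _ => by ring
    push_cast
    rw [e1]
    set A := ∑ i ∈ Finset.range (r' + 1 + 1), (ℓ : ℤ) ^ i with hA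
    set B := ∑ i ∈ Finset.range (r' + 1), (ℓ : ℤ) ^ i with hB
    rw [e2]
    ring


end Sigma

variable (p : ℕ) [Fact p.Prime]

/-! ### Hecke polynomials -/



/-- the action of a Hecke polynomial on weight two cusp forms of level `Γ₀(p)` -/
noncomputable def dua_act (P : HeckeAlg) : Module.End ℂ (CuspForm (Gamma0 p) 2) :=
  ((heckeEvalForms p 2 P : heckeAlgebra p 2 ∅) : Module.End ℂ (CuspForm (Gamma0 p) 2))

theorem dua_act_one : dua_act p 1 = 1 := by
  unfold dua_act; rw [map_one]; rfl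

theorem dua_act_mul (P Q : HeckeAlg) : dua_act p (P * Q) = dua_act p P * dua_act p Q := by
  unfold dua_act; rw [map_mul]; rfl

theorem dua_act_sub (P Q : HeckeAlg) : dua_act p (P - Q) = dua_act p P - dua_act p Q := by
  unfold dua_act; rw [map_sub]; rfl

theorem dua_act_add (P Q : HeckeAlg) : dua_act p (P + Q) = dua_act p P + dua_act p Q := by
  unfold dua_act; rw [map_add]; rfl

theorem dua_act_zsmul (c : ℤ) (P : HeckeAlg) : dua_act p (c • P) = c • dua_act p P := by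
  unfold dua_act; rw [map_zsmul]; rfl

theorem dua_act_gen_of_dvd {ℓ : ℕ} (hℓ : ℓ.Prime) (h : ℓ ∣ p) :
    dua_act p (heckeGen ⟨ℓ, hℓ⟩) = heckeULin 2 h := by
  unfold dua_act
  rw [heckeEvalForms_heckeGen_of_dvd (q := ⟨ℓ, hℓ⟩) h]; rfl

theorem dua_act_gen_of_not_dvd {ℓ : ℕ} (hℓ : ℓ.Prime) (h : ¬ ℓ ∣ p) :
    dua_act p (heckeGen ⟨ℓ, hℓ⟩) = heckeTLin 2 hℓ h := by
  unfold dua_act
  rw [heckeEvalForms_heckeGen_of_not_dvd (ℓ := ⟨ℓ, hℓ⟩) h]; rfl

/-- the Eisenstein evaluation of Hecke polynomials -/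
noncomputable def dua_ev : HeckeAlg →ₐ[ℤ] ℤ := MvPolynomial.aeval (eisensteinSystem p)

omit [Fact p.Prime] in
theorem dua_ev_gen (ℓ : Nat.Primes) : dua_ev p (heckeGen ℓ) = eisensteinSystem p ℓ :=
  MvPolynomial.aeval_X _ ℓ

omit [Fact p.Prime] in
theorem dua_ev_gen_of_dvd {ℓ : ℕ} (hℓ : ℓ.Prime) (h : ℓ ∣ p) :
    dua_ev p (heckeGen ⟨ℓ, hℓ⟩) = 1 := by
  exact (dua_ev_gen p _).trans (eisensteinSystem_of_dvd (ℓ := ⟨ℓ, hℓ⟩) h)

omit [Fact p.Prime] in
theorem dua_ev_gen_of_not_dvd {ℓ : ℕ} (hℓ : ℓ.Prime) (h : ¬ ℓ ∣ p) :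
    dua_ev p (heckeGen ⟨ℓ, hℓ⟩) = 1 + (ℓ : ℤ) := by
  exact (dua_ev_gen p _).trans (eisensteinSystem_of_not_dvd (ℓ := ⟨ℓ, hℓ⟩) h)

/-- For every `j ≥ 1` there is a Hecke polynomial `P_j` with `a_1(P_j f) = a_j(f)` whose
Eisenstein value is prescribed by the Hecke recursion. -/
theorem dua_exists_poly (s : ℕ → ℤ) (hs1 : s 1 = 1)
    (hsp : ∀ m, 1 ≤ m → s (m * p) = s m)
    (hsl : ∀ ℓ : ℕ, ℓ.Prime → ℓ ≠ p → ∀ m, 1 ≤ m →
      s (m * ℓ) = (1 + (ℓ : ℤ)) * s m - if ℓ ∣ m then (ℓ : ℤ) * s (m / ℓ) else 0)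
    (j : ℕ) (hj : 1 ≤ j) :
    ∃ P : HeckeAlg, (∀ f : CuspForm (Gamma0 p) 2, qCoeff (⇑(dua_act p P f)) 1 = qCoeff (⇑f) j) ∧
      dua_ev p P = s j := by
  have hpp : p.Prime := Fact.out
  induction j using Nat.strong_induction_on with
  | _ n ih =>
    rcases eq_or_lt_of_le hj with h1 | h1
    · subst h1
      exact ⟨1, fun f => by rw [dua_act_one]; rfl, by rw [map_one, hs1]⟩
    · have hq : (n.minFac).Prime := Nat.minFac_prime (by omega)
      set q := n.minFac with hqdef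
      have hqn : q ∣ n := Nat.minFac_dvd n
      obtain ⟨m, hm⟩ : ∃ m, n = m * q := ⟨n / q, (Nat.div_mul_cancel hqn).symm⟩
      have hq2 : 2 ≤ q := hq.two_le
      have hm1 : 1 ≤ m := by
        rcases Nat.eq_zero_or_pos m with h0 | h0
        · subst h0; omega
        · exact h0
      have hmn : m < n := by
        rw [hm]; nlinarith
      obtain ⟨Pm, hPm, hPm'⟩ := ih m hmn hm1
      by_cases hqp : q ∣ p
      · have hqe : q = p := (Nat.prime_dvd_prime_iff_eq hq hpp).mp hqp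
        refine ⟨Pm * heckeGen ⟨q, hq⟩, fun f => ?_, ?_⟩
        · rw [dua_act_mul, Module.End.mul_apply, hPm, dua_act_gen_of_dvd p hq hqp,
            Fermat.Agent.S23x.bd_qCoeff_heckeULin hq hqp, hm]
        · rw [map_mul, hPm', dua_ev_gen_of_dvd p hq hqp, mul_one, hm, hqe, hsp m hm1]
      · have hqne : q ≠ p := fun h => hqp (h ▸ dvd_rfl)
        by_cases hqm : q ∣ m
        · have hmq1 : 1 ≤ m / q := Nat.div_pos (Nat.le_of_dvd hm1 hqm) hq.pos
          have hmqn : m / q < n := lt_of_le_of_lt (Nat.div_le_self m q) hmn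
          obtain ⟨P', hP', hP''⟩ := ih (m / q) hmqn hmq1
          refine ⟨Pm * heckeGen ⟨q, hq⟩ - (q : ℤ) • P', fun f => ?_, ?_⟩
          · rw [dua_act_sub, LinearMap.sub_apply, Fermat.Agent.S23x.bd_qCoeff_sub, dua_act_mul,
              Module.End.mul_apply, hPm, dua_act_gen_of_not_dvd p hq hqp,
              Fermat.Agent.S23x.bd_qCoeff_heckeTLin hq hqp, if_pos hqm, dua_act_zsmul,
              LinearMap.smul_apply, Fermat.Agent.S23x.bd_qCoeff_zsmul, hP', hm]
            push_cast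
            ring
          · rw [map_sub, map_mul, map_zsmul, hPm', hP'', dua_ev_gen_of_not_dvd p hq hqp, hm,
              hsl q hq hqne m hm1, if_pos hqm, smul_eq_mul]
            ring
        · refine ⟨Pm * heckeGen ⟨q, hq⟩, fun f => ?_, ?_⟩
          · rw [dua_act_mul, Module.End.mul_apply, hPm, dua_act_gen_of_not_dvd p hq hqp,
              Fermat.Agent.S23x.bd_qCoeff_heckeTLin hq hqp, if_neg hqm, add_zero, hm]
          · rw [map_mul, hPm', dua_ev_gen_of_not_dvd p hq hqp, hm,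
              hsl q hq hqne m hm1, if_neg hqm]
            ring





theorem dua_heckeEvalForms_surjective : Function.Surjective (heckeEvalForms p 2) := by
  have key : ∀ t : Module.End ℂ (CuspForm (Gamma0 p) 2), t ∈ heckeAlgebra p 2 ∅ →
      ∃ P : HeckeAlg, ((heckeEvalForms p 2 P : heckeAlgebra p 2 ∅) :
        Module.End ℂ (CuspForm (Gamma0 p) 2)) = t := by
    intro t ht
    induction ht using Algebra.adjoin_induction with
    | mem x hx =>
      rcases hx with ⟨ℓ, hℓ, hℓN, -, rfl⟩ | ⟨q, hqN, hq, -, rfl⟩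
      · exact ⟨heckeGen ⟨ℓ, hℓ⟩, by rw [heckeEvalForms_heckeGen_of_not_dvd (ℓ := ⟨ℓ, hℓ⟩) hℓN]; rfl⟩
      · exact ⟨heckeGen ⟨q, hq⟩, by rw [heckeEvalForms_heckeGen_of_dvd (q := ⟨q, hq⟩) hqN]; rfl⟩
    | algebraMap r =>
      exact ⟨MvPolynomial.C r, by rw [heckeEvalForms_C]; rfl⟩
    | add x y _ _ hx hy =>
      obtain ⟨P, rfl⟩ := hx
      obtain ⟨Q, rfl⟩ := hy
      exact ⟨P + Q, by rw [map_add]; rfl⟩
    | mul x y _ _ hx hy =>
      obtain ⟨P, rfl⟩ := hx
      obtain ⟨Q, rfl⟩ := hy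
      exact ⟨P * Q, by rw [map_mul]; rfl⟩
  rintro ⟨t, ht⟩
  obtain ⟨P, hP⟩ := key t ht
  exact ⟨P, Subtype.ext hP⟩


/-! ### The pairing -/

/-- the pairing `(g, t) ↦ a₁(t g)` between the integral lattice and the Hecke algebra -/
noncomputable def dua_pair : ↥(intLattice p 2) →ₗ[ℤ] (↥(heckeAlgebra p 2 ∅) →ₗ[ℤ] ℤ) :=
  LinearMap.mk₂ ℤ (fun g t => dua_coeff p 1 (latticeActionHom p ∅ t g))
    (fun g h t => by simp only [map_add])
    (fun c g t => by simp only [map_smul])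
    (fun g s t => by rw [map_add, LinearMap.add_apply, map_add])
    (fun c g t => by rw [map_zsmul, LinearMap.smul_apply, map_smul])

theorem dua_pair_apply (g : ↥(intLattice p 2)) (t : ↥(heckeAlgebra p 2 ∅)) :
    dua_pair p g t = dua_coeff p 1 (latticeActionHom p ∅ t g) := rfl

theorem dua_coe_latticeActionHom (g : ↥(intLattice p 2)) (t : ↥(heckeAlgebra p 2 ∅)) :
    ((latticeActionHom p ∅ t g : ↥(intLattice p 2)) : CuspForm (Gamma0 p) 2) =
      (t : Module.End ℂ (CuspForm (Gamma0 p) 2)) (g : CuspForm (Gamma0 p) 2) := rfl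

/-- the Hecke polynomials `P_j` for the concrete function `σ'` -/
theorem dua_exists_poly_sigP (j : ℕ) (hj : 1 ≤ j) :
    ∃ P : HeckeAlg, (∀ f : CuspForm (Gamma0 p) 2, qCoeff (⇑(dua_act p P f)) 1 = qCoeff (⇑f) j) ∧
      dua_ev p P = (sigP p j : ℤ) := by
  have hpp : p.Prime := Fact.out
  refine dua_exists_poly p (fun j => (sigP p j : ℤ)) ?_ ?_ ?_ j hj
  · simp only [dua_sigP_one hpp, Nat.cast_one]
  · intro m hm
    simp only [dua_sigP_mul_self hpp m hm]
  · intro ℓ hℓ hne m hm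
    exact dua_sigP_mul_prime hpp hℓ hne m hm

theorem dua_pair_poly {j : ℕ} {P : HeckeAlg}
    (hP : ∀ f : CuspForm (Gamma0 p) 2, qCoeff (⇑(dua_act p P f)) 1 = qCoeff (⇑f) j)
    (g : ↥(intLattice p 2)) : dua_pair p g (heckeEvalForms p 2 P) = dua_coeff p j g := by
  apply Int.cast_injective (α := ℂ)
  rw [dua_pair_apply, ← dua_coeff_spec, ← dua_coeff_spec, dua_coe_latticeActionHom]
  exact hP g

theorem dua_pair_injective : Function.Injective (dua_pair p) := by
  rw [injective_iff_map_eq_zero]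
  intro g hg
  apply Subtype.ext
  rw [Submodule.coe_zero]
  apply Fermat.Agent.S23x.gs_eq_zero_of_qCoeff_eq_zero
  intro n
  rcases Nat.eq_zero_or_pos n with h0 | h0
  · subst h0
    exact Fermat.Agent.S23x.bd_qCoeff_zero_index _
  · obtain ⟨P, hP, -⟩ := dua_exists_poly_sigP p n h0
    rw [dua_coeff_spec, ← dua_pair_poly p hP g, hg, LinearMap.zero_apply, Int.cast_zero]

theorem dua_pair_flip_injective : Function.Injective (dua_pair p).flip := by
  rw [injective_iff_map_eq_zero]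
  intro t ht
  refine latticeRestrict_injective p ∅ (Fermat.Agent.S23.result p) t ?_
  refine LinearMap.ext fun g => ?_
  apply Subtype.ext
  rw [LinearMap.zero_apply, Submodule.coe_zero]
  apply Fermat.Agent.S23x.gs_eq_zero_of_qCoeff_eq_zero
  intro n
  rcases Nat.eq_zero_or_pos n with h0 | h0
  · subst h0
    exact Fermat.Agent.S23x.bd_qCoeff_zero_index _
  · obtain ⟨P, hP, -⟩ := dua_exists_poly_sigP p n h0
    have h1 : (latticeActionHom p ∅ t g : ↥(intLattice p 2)) = latticeRestrict p ∅ t.2 g := rfl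
    rw [← h1, dua_coeff_spec, ← dua_pair_poly p hP, dua_pair_apply, ← Module.End.mul_apply,
      ← map_mul, mul_comm, map_mul, Module.End.mul_apply, ← dua_pair_apply]
    have h2 := LinearMap.congr_fun ht (latticeActionHom p ∅ (heckeEvalForms p 2 P) g)
    rw [LinearMap.flip_apply, LinearMap.zero_apply] at h2
    rw [h2, Int.cast_zero]

/-! ### The main theorem of the module -/

theorem exists_eisCongr (p M : ℕ) [Fact p.Prime] [NeZero M]
    (h : ∀ x : ModularCurve.HeckeAlg, CuspForm.heckeEvalForms p 2 x = 0 → eisEval p M x = 0) :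
    ∃ g : CuspForm (Gamma0 p) 2, IsEisCongr p M g := by
  have : Module.Finite ℤ ↥(heckeAlgebra p 2 ∅) := Fermat.Agent.S22.result p 2 ∅
  have : Module.Free ℤ ↥(heckeAlgebra p 2 ∅) := Module.free_of_finite_type_torsion_free'
  have := intLattice.moduleFinite p
  have := intLattice.moduleFree p
  -- a linear section of the evaluation map
  let φ : HeckeAlg →ₗ[ℤ] ↥(heckeAlgebra p 2 ∅) := (heckeEvalForms p 2).toIntAlgHom.toLinearMap
  have hφ : ∀ P, φ P = heckeEvalForms p 2 P := fun _ => rfl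
  have hφs : Function.Surjective φ := dua_heckeEvalForms_surjective p
  obtain ⟨s, hs⟩ := Module.projective_lifting_property φ LinearMap.id hφs
  let lam : ↥(heckeAlgebra p 2 ∅) →ₗ[ℤ] ℤ := (dua_ev p).toLinearMap ∘ₗ s
  have hlam : ∀ P : HeckeAlg, ((lam (heckeEvalForms p 2 P) : ℤ) : ZMod M) =
      ((dua_ev p P : ℤ) : ZMod M) := by
    intro P
    have h0 : heckeEvalForms p 2 (s (heckeEvalForms p 2 P) - P) = 0 := by
      have := LinearMap.congr_fun hs (heckeEvalForms p 2 P)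
      rw [LinearMap.comp_apply, LinearMap.id_apply, hφ] at this
      rw [map_sub, this, sub_self]
    have h1 := h _ h0
    have h2 : eisEval p M (s (heckeEvalForms p 2 P) - P) =
        ((dua_ev p (s (heckeEvalForms p 2 P)) : ℤ) : ZMod M) - ((dua_ev p P : ℤ) : ZMod M) := by
      rw [map_sub]; rfl
    rw [h2, sub_eq_zero] at h1
    exact h1
  obtain ⟨n, hn, g', hg'⟩ := dua_exists_multiple (dua_pair p) (dua_pair_injective p)
    (dua_pair_flip_injective p) lam
  have hnC : (n : ℂ) ≠ 0 := Nat.cast_ne_zero.mpr hn.ne'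
  refine ⟨(n : ℂ)⁻¹ • (g' : CuspForm (Gamma0 p) 2), fun j => ?_⟩
  rcases Nat.eq_zero_or_pos j with h0 | h0
  · subst h0
    exact ⟨0, by rw [Fermat.Agent.S23x.bd_qCoeff_zero_index]; simp, fun h => absurd h (by omega)⟩
  · obtain ⟨P, hP, hPev⟩ := dua_exists_poly_sigP p j h0
    refine ⟨lam (heckeEvalForms p 2 P), ?_, fun _ => ?_⟩
    · have h1 : dua_coeff p j g' = n * lam (heckeEvalForms p 2 P) := by
        rw [← dua_pair_poly p hP g', hg', LinearMap.smul_apply, nsmul_eq_mul]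
      rw [Fermat.Agent.S23x.bd_qCoeff_smul, dua_coeff_spec, h1]
      push_cast
      field_simp
    · rw [hlam P, hPev, Int.cast_natCast]

end Fermat.Agent.S16x

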