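/-
S16 project, module FINAL (helper27): the Hecke algebra is a quotient of the abstract Hecke ring,
and the abstract count `#(T / φ(I)) = n` from the lower and upper divisibility statements.
Exact statements of `Spec.heckeEvalForms_surjective` and `Spec.card_quotient_eq`.
-/
import Fermat.Agent.S16x.Defs

set_option autoImplicit false

namespace Fermat.Agent.S16x

open ModularCurve CuspForm CongruenceSubgroup

/-- The abstract Hecke ring `ℤ[X_ℓ]` maps onto the Hecke algebra of level `p`. -/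
theorem heckeEvalForms_surjective (p : ℕ) [Fact p.Prime] :
    Function.Surjective (CuspForm.heckeEvalForms p 2) := by
  have hpp : p.Prime := Fact.out
  rintro ⟨t, ht⟩
  have key : ∃ x : HeckeAlg,
      ((heckeEvalForms p 2 x : heckeAlgebra p 2 ∅) : Module.End ℂ (CuspForm (Gamma0 p) 2)) = t := by
    unfold heckeAlgebra at ht
    induction ht using Algebra.adjoin_induction with
    | mem u hu =>
      rcases hu with ⟨ℓ, hℓ, hℓN, -, rfl⟩ | ⟨q, hqN, hq, -, rfl⟩
      · refine ⟨heckeGen (⟨ℓ, hℓ⟩ : Nat.Primes), ?_⟩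
        rw [heckeEvalForms_heckeGen_of_not_dvd (N := p) (k := 2) (ℓ := (⟨ℓ, hℓ⟩ : Nat.Primes)) hℓN]
        rfl
      · refine ⟨heckeGen (⟨q, hq⟩ : Nat.Primes), ?_⟩
        rw [heckeEvalForms_heckeGen_of_dvd (N := p) (k := 2) (q := (⟨q, hq⟩ : Nat.Primes)) hqN]
        rfl
    | algebraMap r =>
      refine ⟨MvPolynomial.C r, ?_⟩
      rw [heckeEvalForms_C]
      rfl
    | add u v _ _ hu hv =>
      obtain ⟨x, hx⟩ := hu
      obtain ⟨y, hy⟩ := hv
      exact ⟨x + y, by rw [map_add, ← hx, ← hy]; rfl⟩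
    | mul u v _ _ hu hv =>
      obtain ⟨x, hx⟩ := hu
      obtain ⟨y, hy⟩ := hv
      exact ⟨x * y, by rw [map_mul, ← hx, ← hy]; rfl⟩
  obtain ⟨x, hx⟩ := key
  exact ⟨x, Subtype.ext hx⟩

/-- Abstract count.  Let `φ : H → T` be a surjective ring hom, `ev : H → ℤ` a surjective ring hom
with kernel `I`.  If `ev (ker φ) ⊆ n ℤ` and every prime power `ℓ^s` with `ev (ker φ) ⊆ ℓ^s ℤ`
divides `n ≠ 0`, then `T / φ(I)` has exactly `n` elements. -/
theorem fin_card_quotient_eq_of {H T : Type*} [CommRing H] [CommRing T] (φ : H →+* T)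
    (hφ : Function.Surjective φ) (ev : H →+* ℤ) (hev : Function.Surjective ev) (n : ℕ)
    (hn : n ≠ 0)
    (hlow : ∀ x : H, φ x = 0 → (n : ℤ) ∣ ev x)
    (hup : ∀ ℓ s : ℕ, ℓ.Prime → (∀ x : H, φ x = 0 → ((ℓ ^ s : ℕ) : ℤ) ∣ ev x) → ℓ ^ s ∣ n) :
    Nat.card (T ⧸ Ideal.map φ (RingHom.ker ev)) = n := by
  set J : Ideal T := Ideal.map φ (RingHom.ker ev) with hJ
  set θ : ℤ →+* T ⧸ J := Int.castRingHom (T ⧸ J) with hθ
  -- a section of `ev`
  choose c hc using hev
  -- `θ a = mk (φ x)` whenever `ev x = a`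
  have hθ_eq : ∀ x : H, θ (ev x) = Ideal.Quotient.mk J (φ x) := by
    intro x
    have h1 : θ (ev x) = ((Ideal.Quotient.mk J).comp φ) (c (ev x)) := by
      have h2 : ∀ y : H, ((Ideal.Quotient.mk J).comp φ) y = θ (ev y) := by
        intro y
        -- both sides are ring homs `H → T ⧸ J` ... prove via kernel
        have hy : y - c (ev y) ∈ RingHom.ker ev := by
          rw [RingHom.mem_ker, map_sub, hc, sub_self]
        have hy' : φ (y - c (ev y)) ∈ J := Ideal.mem_map_of_mem φ hy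
        have h3 : Ideal.Quotient.mk J (φ y) = Ideal.Quotient.mk J (φ (c (ev y))) := by
          rw [Ideal.Quotient.eq, ← map_sub]; exact hy'
        -- now `mk (φ (c a)) = θ a` for all `a : ℤ`
        have h4 : ∀ a : ℤ, Ideal.Quotient.mk J (φ (c a)) = θ a := by
          intro a
          have hca : c a - (a : H) ∈ RingHom.ker ev := by
            rw [RingHom.mem_ker, map_sub, hc, map_intCast, Int.cast_id, sub_self]
          have hca' : φ (c a - (a : H)) ∈ J := Ideal.mem_map_of_mem φ hca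
          have : Ideal.Quotient.mk J (φ (c a)) = Ideal.Quotient.mk J (φ (a : H)) := by
            rw [Ideal.Quotient.eq, ← map_sub]; exact hca'
          rw [this, map_intCast, map_intCast, hθ, eq_intCast]
        rw [RingHom.comp_apply, h3, h4]
      rw [h2, hc]
    rw [h1, RingHom.comp_apply]
    have hy : x - c (ev x) ∈ RingHom.ker ev := by
      rw [RingHom.mem_ker, map_sub, hc, sub_self]
    have hy' : φ (x - c (ev x)) ∈ J := Ideal.mem_map_of_mem φ hy
    symm
    rw [Ideal.Quotient.eq, ← map_sub]; exact hy'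
  have hθsurj : Function.Surjective θ := by
    intro z
    obtain ⟨t, rfl⟩ := Ideal.Quotient.mk_surjective z
    obtain ⟨x, rfl⟩ := hφ t
    exact ⟨ev x, hθ_eq x⟩
  -- the kernel of `θ`
  have hker_iff : ∀ a : ℤ, a ∈ RingHom.ker θ ↔ ∃ x : H, φ x = 0 ∧ ev x = a := by
    intro a
    constructor
    · intro ha
      rw [RingHom.mem_ker, ← hc a, hθ_eq, Ideal.Quotient.eq_zero_iff_mem] at ha
      have h1 : c a ∈ Ideal.comap φ J := ha
      rw [hJ, Ideal.comap_map_of_surjective φ hφ, Submodule.mem_sup] at h1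
      obtain ⟨i, hi, k, hk, hik⟩ := h1
      refine ⟨k, ?_, ?_⟩
      · simpa [Ideal.mem_comap] using hk
      · have : ev (c a) = ev i + ev k := by rw [← hik, map_add]
        rw [hc, (RingHom.mem_ker).mp hi, zero_add] at this
        exact this.symm
    · rintro ⟨x, hx, rfl⟩
      rw [RingHom.mem_ker, hθ_eq, hx, map_zero]
  -- generator of the kernel
  obtain ⟨m, hm⟩ : ∃ m : ℕ, RingHom.ker θ = Ideal.span {(m : ℤ)} := by
    refine ⟨(Submodule.IsPrincipal.generator (RingHom.ker θ)).natAbs, ?_⟩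
    rw [Int.span_natAbs, Ideal.span_singleton_generator]
  have hmem : ∀ a : ℤ, a ∈ RingHom.ker θ ↔ (m : ℤ) ∣ a := by
    intro a; rw [hm, Ideal.mem_span_singleton]
  have hnm : n ∣ m := by
    obtain ⟨x, hx, hxm⟩ := (hker_iff m).mp ((hmem m).mpr dvd_rfl)
    have := hlow x hx
    rw [hxm] at this
    exact Int.natCast_dvd_natCast.mp this
  have hmn : m ∣ n := by
    rw [Nat.dvd_iff_prime_pow_dvd_dvd]
    intro ℓ s hℓ hℓs
    apply hup ℓ s hℓ
    intro x hx
    have h1 : (m : ℤ) ∣ ev x := (hmem _).mp ((hker_iff _).mpr ⟨x, hx, rfl⟩)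
    exact dvd_trans (Int.natCast_dvd_natCast.mpr hℓs) h1
  have hmeq : m = n := Nat.dvd_antisymm hmn hnm
  subst hmeq
  have e1 : (ℤ ⧸ RingHom.ker θ) ≃+* (T ⧸ J) := RingHom.quotientKerEquivOfSurjective hθsurj
  have e2 : (ℤ ⧸ RingHom.ker θ) ≃+* ZMod m := by
    rw [hm]; exact Int.quotientSpanNatEquivZMod m
  rw [← Nat.card_congr e1.toEquiv, Nat.card_congr e2.toEquiv, Nat.card_zmod]

theorem fin_eisensteinNumerator_ne_zero (p : ℕ) [Fact p.Prime] : eisensteinNumerator p ≠ 0 := by
  have hpp : p.Prime := Fact.out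
  unfold eisensteinNumerator
  have h1 : 0 < p - 1 := by have := hpp.two_le; omega
  have h2 : Nat.gcd (p - 1) 12 ∣ p - 1 := Nat.gcd_dvd_left _ _
  exact (Nat.div_pos (Nat.le_of_dvd h1 h2) (Nat.gcd_pos_of_pos_left _ h1)).ne'

/-- abstract count for the Hecke algebra of level `p` (exact `Spec.card_quotient_eq`) -/
theorem card_quotient_eq (p : ℕ) [Fact p.Prime]
    (hlow : ∀ x : ModularCurve.HeckeAlg, CuspForm.heckeEvalForms p 2 x = 0 →
      eisEval p (ModularCurve.eisensteinNumerator p) x = 0)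
    (hup : ∀ (ℓ s : ℕ), ℓ.Prime →
      (∀ x : ModularCurve.HeckeAlg, CuspForm.heckeEvalForms p 2 x = 0 → eisEval p (ℓ ^ s) x = 0) →
      ℓ ^ s ∣ ModularCurve.eisensteinNumerator p) :
    Nat.card (↥(CuspForm.heckeAlgebra p 2 ∅) ⧸
        Ideal.map (CuspForm.heckeEvalForms p 2) (ModularCurve.eisensteinIdeal p)) =
      ModularCurve.eisensteinNumerator p := by
  have hev : Function.Surjective
      ((MvPolynomial.aeval (R := ℤ) (eisensteinSystem p)).toRingHom : HeckeAlg →+* ℤ) := by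
    intro a
    exact ⟨MvPolynomial.C a, by simp⟩
  have hdvd : ∀ (M : ℕ) (x : HeckeAlg), eisEval p M x = 0 ↔
      (M : ℤ) ∣ (MvPolynomial.aeval (R := ℤ) (eisensteinSystem p)).toRingHom x := by
    intro M x
    unfold eisEval
    rw [RingHom.comp_apply, eq_intCast, ZMod.intCast_zmod_eq_zero_iff_dvd]
  exact fin_card_quotient_eq_of (CuspForm.heckeEvalForms p 2) (heckeEvalForms_surjective p)
    ((MvPolynomial.aeval (R := ℤ) (eisensteinSystem p)).toRingHom) hev
    (eisensteinNumerator p) (fin_eisensteinNumerator_ne_zero p)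
    (fun x hx => (hdvd _ x).mp (hlow x hx))
    (fun ℓ s hℓ h => hup ℓ s hℓ (fun x hx => (hdvd _ x).mpr (h x hx)))

end Fermat.Agent.S16x
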