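/-
S16 project, module FINAL part 2 (helper27): transfer of the count from the Hecke algebra
`heckeAlgebra p 2 ∅ ⊆ End_ℂ S₂(Γ₀(p))` to the lattice Hecke algebra `heckeLatticeAlgebra p ∅`
(they are isomorphic by S23), and the assembly of the frozen statement S16 from the three inputs
`lower`, `exists_eisCongr`, `upper` (taken here as hypotheses).
-/
import Fermat.Agent.S16x.Final
import Fermat.Agent.S23

set_option autoImplicit false

namespace Fermat.Agent.S16x

open ModularCurve CuspForm CongruenceSubgroup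

/-- transport of `Nat.card (A ⧸ map φ I)` along a bijective ring hom `e : A →+* B` -/
theorem fin_card_quotient_map_comp {H A B : Type*} [CommRing H] [CommRing A] [CommRing B]
    (φ : H →+* A) (e : A →+* B) (he : Function.Bijective e) (I : Ideal H) :
    Nat.card (B ⧸ Ideal.map (e.comp φ) I) = Nat.card (A ⧸ Ideal.map φ I) := by
  let E : A ≃+* B := RingEquiv.ofBijective e he
  have h1 : Ideal.map (e.comp φ) I = Ideal.map (E : A →+* B) (Ideal.map φ I) := by
    rw [Ideal.map_map]; rfl
  have E2 : (A ⧸ Ideal.map φ I) ≃+* (B ⧸ Ideal.map (e.comp φ) I) :=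
    Ideal.quotientEquiv (Ideal.map φ I) (Ideal.map (e.comp φ) I) E h1
  exact (Nat.card_congr E2.toEquiv).symm

/-- The frozen statement S16, from the lower bound, the duality statement and the upper bound. -/
theorem fin_card_lattice_quotient_eq (p : ℕ) [Fact p.Prime]
    (hlow : ∀ x : ModularCurve.HeckeAlg, CuspForm.heckeEvalForms p 2 x = 0 →
      eisEval p (ModularCurve.eisensteinNumerator p) x = 0)
    (hdual : ∀ M : ℕ, M ≠ 0 →
      (∀ x : ModularCurve.HeckeAlg, CuspForm.heckeEvalForms p 2 x = 0 → eisEval p M x = 0) →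
      ∃ g : CuspForm (Gamma0 p) 2, IsEisCongr p M g)
    (hupper : ∀ (ℓ s : ℕ), ℓ.Prime → ∀ g : CuspForm (Gamma0 p) 2, IsEisCongr p (ℓ ^ s) g →
      ℓ ^ s ∣ ModularCurve.eisensteinNumerator p) :
    Nat.card (↥(heckeLatticeAlgebra p ∅) ⧸
        Ideal.map ((latticeRestrictHom p ∅).toRingHom.comp (heckeEvalForms p 2))
          (eisensteinIdeal p)) =
      eisensteinNumerator p := by
  rw [fin_card_quotient_map_comp (heckeEvalForms p 2) (latticeRestrictHom p ∅).toRingHom
    (latticeRestrictHom_bijective p ∅ (Fermat.Agent.S23.result p)) (eisensteinIdeal p)]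
  refine card_quotient_eq p hlow ?_
  intro ℓ s hℓ h
  obtain ⟨g, hg⟩ := hdual (ℓ ^ s) (pow_ne_zero s hℓ.ne_zero) h
  exact hupper ℓ s hℓ g hg

end Fermat.Agent.S16x
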