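/-
S16 project (Eisenstein ideal index), lower bound, module L4 = LIFT (owner: helper36).
Shared definitions for the `Lift*` files:
* `lift_gop K g` : the operator of `g` on `X → K` (`(g v) x = v (g⁻¹ • x)`), any field `K`;
* `lift_Om g`, `lift_sumOrb K g` : orbit space of `⟨g⟩` on `X` and the orbit-sum map;
* `lift_killHoms R Γ P B` : homomorphisms `Γ → B` killing a set `P ⊆ Γ`;
* `lift_PT N` : the set of elements of `Γ₀(N)` with `trace² = 4` or of finite order.
-/
import Mathlib
import Fermat.Prelude.Def_ModularCurve_PeriodHomPair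

set_option autoImplicit false

open CongruenceSubgroup
open scoped MatrixGroups

namespace Fermat.Agent.S16x

section GroupAction

variable (K : Type) [Field K] {G : Type} [Group G] {X : Type} [MulAction G X]

/-- The operator of `g` on functions: `(lift_gop K g v) x = v (g⁻¹ • x)`. -/
def lift_gop (g : G) : (X → K) →ₗ[K] (X → K) :=
  LinearMap.funLeft K K (fun x : X => g⁻¹ • x)

@[simp] theorem lift_gop_apply (g : G) (v : X → K) (x : X) : lift_gop K g v x = v (g⁻¹ • x) := rfl

/-- orbit space of the cyclic group `⟨g⟩` on `X` -/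
abbrev lift_Om (X : Type) [MulAction G X] (g : G) : Type :=
  MulAction.orbitRel.Quotient (Subgroup.zpowers g) X

/-- the class of `x` in the orbit space of `⟨g⟩` -/
def lift_cls (g : G) (x : X) : lift_Om X g := Quotient.mk'' x

variable [Fintype X]

open Classical in
/-- the orbit-sum map `(X → K) → (Ω_g → K)` -/
noncomputable def lift_sumOrb (g : G) : (X → K) →ₗ[K] (lift_Om X g → K) where
  toFun w := fun ω => ∑ x : X, if lift_cls g x = ω then w x else 0
  map_add' v w := by
    funext ω
    simp only [Pi.add_apply, ← Finset.sum_add_distrib]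
    refine Finset.sum_congr rfl fun x _ => ?_
    split_ifs <;> simp
  map_smul' c w := by
    funext ω
    simp only [Pi.smul_apply, smul_eq_mul, RingHom.id_apply, Finset.mul_sum]
    refine Finset.sum_congr rfl fun x _ => ?_
    split_ifs <;> simp

end GroupAction

section Kill

variable (R : Type*) [Semiring R] (Γ : Type) [Group Γ] (P : Set Γ)
  (B : Type*) [AddCommGroup B] [Module R B]

/-- homomorphisms `Γ → B` vanishing on the set `P` -/
def lift_killHoms : Submodule R (Additive Γ →+ B) where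
  carrier := {φ | ∀ g ∈ P, φ (Additive.ofMul g) = 0}
  zero_mem' := fun _ _ => rfl
  add_mem' := by
    intro φ ψ hφ hψ g hg
    show φ (Additive.ofMul g) + ψ (Additive.ofMul g) = 0
    rw [hφ g hg, hψ g hg, add_zero]
  smul_mem' := by
    intro c φ hφ g hg
    show c • φ (Additive.ofMul g) = 0
    rw [hφ g hg, smul_zero]

variable {R Γ P B}

theorem mem_lift_killHoms_iff {φ : Additive Γ →+ B} :
    φ ∈ lift_killHoms R Γ P B ↔ ∀ g ∈ P, φ (Additive.ofMul g) = 0 := Iff.rfl

end Kill

/-- elements of `Γ₀(N)` that are "parabolic" in the Prelude sense (`trace² = 4`, this includes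
`± 1`) or of finite order -/
def lift_PT (N : ℕ) : Set (Gamma0 N) :=
  {γ | ((γ : SL(2, ℤ)) : Matrix (Fin 2) (Fin 2) ℤ).trace ^ 2 = 4 ∨ IsOfFinOrder γ}

/-- `φ` kills the parabolic and the finite-order elements of `Γ₀(N)` -/
def lift_IsPT {B : Type*} [AddCommGroup B] (N : ℕ) (φ : Additive (Gamma0 N) →+ B) : Prop :=
  (∀ γ : Gamma0 N, ((γ : SL(2, ℤ)) : Matrix (Fin 2) (Fin 2) ℤ).trace ^ 2 = 4 →
      φ (Additive.ofMul γ) = 0) ∧
    (∀ γ : Gamma0 N, IsOfFinOrder γ → φ (Additive.ofMul γ) = 0)

theorem lift_isPT_iff {B : Type*} [AddCommGroup B] (N : ℕ) (φ : Additive (Gamma0 N) →+ B) :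
    lift_IsPT N φ ↔ ∀ γ ∈ lift_PT N, φ (Additive.ofMul γ) = 0 := by
  constructor
  · rintro ⟨h1, h2⟩ γ (hγ | hγ)
    · exact h1 γ hγ
    · exact h2 γ hγ
  · intro h
    exact ⟨fun γ hγ => h γ (Or.inl hγ), fun γ hγ => h γ (Or.inr hγ)⟩

end Fermat.Agent.S16x
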