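/-
S16 project (Eisenstein ideal index), lower bound, module L4 = LIFT, part (c) (owner: helper85).

`lift_ab_exists` (pure algebra): let `Γ` be a finitely generated group, `P ⊆ Γ` a set and `r` a
natural number such that the space of homomorphisms `Γ → ℂ` killing `P` has dimension `≥ r`, while
for every prime `l` the space of homomorphisms `Γ → ZMod l` killing `P` has dimension `≤ r`.  Then
every homomorphism `Γ → ZMod n` killing `P` lifts to a homomorphism `Γ → ℤ` killing `P`.

Route: `A := (Γ / normalClosure P)^ab` (additively) is a finitely generated abelian group with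
`Hom(A, B) = {φ : Γ → B killing P}`; by the structure theorem `A ≃ ℤ^m × ⨁ ZMod (p i ^ e i)`;
`dim_ℂ Hom(A, ℂ) ≤ m` and `dim Hom(A, ZMod (p i)) ≥ m + 1` as soon as some `e i ≠ 0`;
hence `A` is free and everything lifts.
-/
import Fermat.Agent.S16x.LiftDefs

set_option autoImplicit false

namespace Fermat.Agent.S16x

section Alg

/-- `Hom(A, K)` is finite-dimensional for a finitely generated abelian group `A`. -/
theorem liftAb_finite_hom (A : Type) [AddCommGroup A] [AddGroup.FG A] (K : Type) [Field K] :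
    Module.Finite K (A →+ K) := by
  obtain ⟨S, hS⟩ := (AddGroup.fg_def (H := A)).1 inferInstance
  let Φ : (A →+ K) →ₗ[K] (S → K) :=
    { toFun := fun φ s => φ s
      map_add' := fun _ _ => rfl
      map_smul' := fun _ _ => rfl }
  have hΦ : Function.Injective Φ := by
    intro φ ψ h
    refine AddMonoidHom.eq_of_eqOn_dense hS ?_
    intro s hs
    exact congrFun h ⟨s, hs⟩
  exact Module.Finite.of_injective Φ hΦ

/-- the model group `ℤ^m × ⨁ ZMod (p i ^ e i)` -/
abbrev liftAb_Model (m : ℕ) {ι : Type} (p : ι → ℕ) (e : ι → ℕ) : Type :=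
  (Fin m →₀ ℤ) × DirectSum ι (fun i => ZMod (p i ^ e i))

variable {m : ℕ} {ι : Type} (p : ι → ℕ) (e : ι → ℕ)

/-- every element of the torsion part has finite order -/
theorem liftAb_torsion [DecidableEq ι] (hp : ∀ i, (p i).Prime)
    (t : DirectSum ι (fun i => ZMod (p i ^ e i))) : ∃ N : ℕ, 0 < N ∧ N • t = 0 := by
  induction t using DirectSum.induction_on with
  | zero => exact ⟨1, one_pos, by simp⟩
  | of i x =>
    refine ⟨p i ^ e i, pow_pos (hp i).pos _, ?_⟩
    rw [← map_nsmul]
    have : (p i ^ e i) • x = 0 := by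
      rw [nsmul_eq_mul, ZMod.natCast_self, zero_mul]
    rw [this, map_zero]
  | add x y hx hy =>
    obtain ⟨N1, h1, h1'⟩ := hx
    obtain ⟨N2, h2, h2'⟩ := hy
    refine ⟨N1 * N2, Nat.mul_pos h1 h2, ?_⟩
    rw [smul_add, mul_comm, mul_smul, h1', smul_zero, mul_comm, mul_smul, h2', smul_zero, add_zero]

/-- a hom on the model is determined on the free part by the values at the generators -/
theorem liftAb_free_ext {B : Type} [AddCommGroup B] (φ : liftAb_Model m p e →+ B)
    (h : ∀ j : Fin m, φ (Finsupp.single j 1, 0) = 0) (f : Fin m →₀ ℤ) : φ (f, 0) = 0 := by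
  induction f using Finsupp.induction_linear with
  | zero => exact map_zero φ
  | add f g hf hg =>
    have : ((f + g, 0) : liftAb_Model m p e) = (f, 0) + (g, 0) := by
      rw [Prod.mk_add_mk, add_zero]
    rw [this, map_add, hf, hg, add_zero]
  | single j b =>
    have : ((Finsupp.single j b, 0) : liftAb_Model m p e) = b • (Finsupp.single j 1, 0) := by
      rw [Prod.smul_mk, smul_zero, Finsupp.smul_single, smul_eq_mul, mul_one]
    rw [this, map_zsmul, h j, smul_zero]

theorem liftAb_finrank_complex_le [DecidableEq ι] (hp : ∀ i, (p i).Prime) :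
    Module.finrank ℂ (liftAb_Model m p e →+ ℂ) ≤ m := by
  let Φ : (liftAb_Model m p e →+ ℂ) →ₗ[ℂ] (Fin m → ℂ) :=
    { toFun := fun φ j => φ (Finsupp.single j 1, 0)
      map_add' := fun _ _ => rfl
      map_smul' := fun _ _ => rfl }
  have hΦ : Function.Injective Φ := by
    refine (injective_iff_map_eq_zero Φ).2 ?_
    intro φ h
    ext ⟨f, t⟩
    have h1 : φ (f, 0) = 0 := liftAb_free_ext p e φ (fun j => congrFun h j) f
    have h2 : φ (0, t) = 0 := by
      obtain ⟨N, hN, hNt⟩ := liftAb_torsion p e hp t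
      have h3 : N • φ (0, t) = 0 := by
        rw [← map_nsmul, Prod.smul_mk, smul_zero, hNt]
        exact map_zero φ
      rw [nsmul_eq_mul] at h3
      rcases mul_eq_zero.1 h3 with h4 | h4
      · exact absurd (Nat.cast_eq_zero.1 h4) hN.ne'
      · exact h4
    have : ((f, t) : liftAb_Model m p e) = (f, 0) + (0, t) := by
      rw [Prod.mk_add_mk, add_zero, zero_add]
    rw [this, map_add, h1, h2, add_zero]
    rfl
  calc _ ≤ Module.finrank ℂ (Fin m → ℂ) := LinearMap.finrank_le_finrank_of_injective hΦ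
    _ = m := Module.finrank_fin_fun ℂ

/-- coordinate homs mod `l` -/
noncomputable def liftAb_coord (l : ℕ) (j : Fin m) : liftAb_Model m p e →+ ZMod l :=
  (Int.castAddHom (ZMod l)).comp
    ((Finsupp.applyAddHom j).comp (AddMonoidHom.fst (Fin m →₀ ℤ) _))

/-- the torsion character -/
noncomputable def liftAb_chi (l : ℕ) (i₀ : ι) (h : l ∣ p i₀ ^ e i₀) :
    liftAb_Model m p e →+ ZMod l :=
  ((ZMod.castHom h (ZMod l)).toAddMonoidHom).comp
    ((DFinsupp.evalAddMonoidHom i₀).comp
      (AddMonoidHom.snd (Fin m →₀ ℤ) (DirectSum ι (fun i => ZMod (p i ^ e i)))))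

theorem liftAb_chi_gen [DecidableEq ι] (l : ℕ) (i₀ : ι) (h : l ∣ p i₀ ^ e i₀) :
    liftAb_chi (m := m) p e l i₀ h (0, DirectSum.of (fun i => ZMod (p i ^ e i)) i₀ 1) = 1 := by
  show (ZMod.castHom h (ZMod l)) ((DirectSum.of (fun i => ZMod (p i ^ e i)) i₀ 1) i₀) = 1
  rw [DirectSum.of_eq_same, map_one]

theorem liftAb_chi_free (l : ℕ) (i₀ : ι) (h : l ∣ p i₀ ^ e i₀) (f : Fin m →₀ ℤ) :
    liftAb_chi (m := m) p e l i₀ h (f, 0) = 0 := by
  show (ZMod.castHom h (ZMod l)) ((0 : DirectSum ι (fun i => ZMod (p i ^ e i))) i₀) = 0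
  rw [DirectSum.zero_apply, map_zero]

theorem liftAb_coord_tors (l : ℕ) (j : Fin m) (t : DirectSum ι (fun i => ZMod (p i ^ e i))) :
    liftAb_coord (m := m) p e l j (0, t) = 0 := by
  show (((0 : Fin m →₀ ℤ) j : ℤ) : ZMod l) = 0
  simp

theorem liftAb_coord_single (l : ℕ) (j j' : Fin m) :
    liftAb_coord (m := m) p e l j (Finsupp.single j' 1, 0) = if j' = j then 1 else 0 := by
  show (((Finsupp.single j' (1 : ℤ)) j : ℤ) : ZMod l) = _
  rw [Finsupp.single_apply]
  split_ifs <;> simp

theorem liftAb_finrank_zmod_ge [DecidableEq ι] [AddGroup.FG (liftAb_Model m p e)] (i₀ : ι) (he : e i₀ ≠ 0)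
    (l : ℕ) [Fact l.Prime] (hl : p i₀ = l) :
    m + 1 ≤ Module.finrank (ZMod l) (liftAb_Model m p e →+ ZMod l) := by
  have := liftAb_finite_hom (liftAb_Model m p e) (ZMod l)
  have hdvd : l ∣ p i₀ ^ e i₀ := by
    rw [hl]; exact dvd_pow_self l he
  let v : Option (Fin m) → (liftAb_Model m p e →+ ZMod l) :=
    fun o => o.elim (liftAb_chi (m := m) p e l i₀ hdvd) (liftAb_coord p e l)
  have hv : LinearIndependent (ZMod l) v := by
    rw [Fintype.linearIndependent_iff]
    intro g hg
    rw [Fintype.sum_option] at hg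
    intro o
    cases o with
    | none =>
      have := DFunLike.congr_fun hg
        ((0, DirectSum.of (fun i => ZMod (p i ^ e i)) i₀ 1) : liftAb_Model m p e)
      simpa [v, liftAb_chi_gen, liftAb_coord_tors, AddMonoidHom.finsetSum_apply] using this
    | some j =>
      have := DFunLike.congr_fun hg ((Finsupp.single j 1, 0) : liftAb_Model m p e)
      simpa [v, liftAb_chi_free, liftAb_coord_single, AddMonoidHom.finsetSum_apply] using this
  have := hv.fintype_card_le_finrank
  rwa [Fintype.card_option, Fintype.card_fin] at this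

/-- transport of hom spaces along an isomorphism -/
def liftAb_homCongr {A A' : Type} [AddCommGroup A] [AddCommGroup A'] (f : A ≃+ A')
    (K : Type) [Field K] : (A →+ K) ≃ₗ[K] (A' →+ K) where
  toFun φ := φ.comp f.symm.toAddMonoidHom
  invFun χ := χ.comp f.toAddMonoidHom
  map_add' _ _ := rfl
  map_smul' _ _ := rfl
  left_inv φ := by
    ext a
    simp
  right_inv χ := by
    ext a
    simp

/-- lifting on the model when the torsion part is trivial -/
theorem liftAb_model_lift (ht : ∀ t : DirectSum ι (fun i => ZMod (p i ^ e i)), t = 0)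
    (n : ℕ) [NeZero n] (ψ : liftAb_Model m p e →+ ZMod n) :
    ∃ ψ' : liftAb_Model m p e →+ ℤ, ∀ a, ((ψ' a : ℤ) : ZMod n) = ψ a := by
  let c : Fin m → ℤ := fun j => ((ψ (Finsupp.single j 1, 0)).val : ℤ)
  let ψ' : liftAb_Model m p e →+ ℤ :=
    ((Finsupp.linearCombination ℤ c).toAddMonoidHom).comp (AddMonoidHom.fst (Fin m →₀ ℤ) _)
  refine ⟨ψ', ?_⟩
  have key : (Int.castAddHom (ZMod n)).comp ψ' - ψ = 0 := by
    ext ⟨f, t⟩
    rw [ht t]
    refine liftAb_free_ext p e _ ?_ f
    intro j
    show (((Finsupp.linearCombination ℤ c) (Finsupp.single j 1) : ℤ) : ZMod n)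
      - ψ (Finsupp.single j 1, 0) = 0
    rw [Finsupp.linearCombination_single, one_smul]
    show (((ψ (Finsupp.single j 1, 0)).val : ℤ) : ZMod n) - _ = 0
    rw [Int.cast_natCast, ZMod.natCast_zmod_val, sub_self]
  intro a
  have := DFunLike.congr_fun key a
  exact sub_eq_zero.1 this

end Alg

theorem liftAb_of_dim_le (A : Type) [AddCommGroup A] [AddGroup.FG A] (r : ℕ)
    (hC : r ≤ Module.finrank ℂ (A →+ ℂ))
    (hl : ∀ l : ℕ, ∀ _ : Fact l.Prime, Module.finrank (ZMod l) (A →+ ZMod l) ≤ r)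
    (n : ℕ) [NeZero n] (ψ : A →+ ZMod n) :
    ∃ ψ' : A →+ ℤ, ∀ a, ((ψ' a : ℤ) : ZMod n) = ψ a := by
  classical
  obtain ⟨m, ι, _, p, hp, e, ⟨f0⟩⟩ := AddCommGroup.equiv_free_prod_directSum_zmod A
  have f : A ≃+ liftAb_Model m p e := f0
  have hfg : AddGroup.FG (liftAb_Model m p e) :=
    AddGroup.fg_of_surjective (f := f.toAddMonoidHom) f.surjective
  have he : ∀ i, e i = 0 := by
    intro i₀
    by_contra hne
    have : Fact (p i₀).Prime := ⟨hp i₀⟩
    have h1 := liftAb_finrank_zmod_ge (m := m) p e i₀ hne (p i₀) rfl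
    have h2 := liftAb_finrank_complex_le (m := m) p e hp
    have h3 := (liftAb_homCongr f (ZMod (p i₀))).finrank_eq
    have h4 := (liftAb_homCongr f ℂ).finrank_eq
    have h5 := hl (p i₀) ⟨hp i₀⟩
    omega
  have ht : ∀ t : DirectSum ι (fun i => ZMod (p i ^ e i)), t = 0 := by
    intro t
    refine DFinsupp.ext fun i => ?_
    have : Subsingleton (ZMod (p i ^ e i)) := ZMod.subsingleton_iff.2 (by rw [he i, pow_zero])
    exact Subsingleton.elim _ _
  obtain ⟨ψ₁, hψ₁⟩ := liftAb_model_lift (m := m) p e ht n (ψ.comp f.symm.toAddMonoidHom)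
  refine ⟨ψ₁.comp f.toAddMonoidHom, fun a => ?_⟩
  have := hψ₁ (f a)
  simpa using this

section Quot

variable {Γ : Type} [Group Γ] (P : Set Γ)

/-- the abelian group `Γ^ab / ⟨P⟩`, written additively -/
abbrev liftAb_A : Type := Additive (Abelianization (Γ ⧸ Subgroup.normalClosure P))

/-- the canonical projection, multiplicatively -/
def liftAb_projM : Γ →* Abelianization (Γ ⧸ Subgroup.normalClosure P) :=
  (Abelianization.of).comp (QuotientGroup.mk' (Subgroup.normalClosure P))

theorem liftAb_projM_surjective : Function.Surjective (liftAb_projM P) := by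
  intro x
  obtain ⟨y, rfl⟩ := QuotientGroup.mk_surjective x
  obtain ⟨g, rfl⟩ := QuotientGroup.mk'_surjective (Subgroup.normalClosure P) y
  exact ⟨g, rfl⟩

/-- the canonical projection `Γ → Γ^ab / ⟨P⟩` -/
def liftAb_proj : Additive Γ →+ liftAb_A P := MonoidHom.toAdditive (liftAb_projM P)

theorem liftAb_proj_surjective : Function.Surjective (liftAb_proj P) := by
  intro x
  obtain ⟨g, hg⟩ := liftAb_projM_surjective P (Additive.toMul x)
  exact ⟨Additive.ofMul g, congrArg Additive.ofMul hg⟩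

theorem liftAb_proj_mem (g : Γ) (hg : g ∈ P) : liftAb_proj P (Additive.ofMul g) = 0 := by
  have h1 : (QuotientGroup.mk' (Subgroup.normalClosure P)) g = 1 :=
    (QuotientGroup.eq_one_iff g).2 (Subgroup.subset_normalClosure hg)
  show Additive.ofMul (Abelianization.of ((QuotientGroup.mk' (Subgroup.normalClosure P)) g)) = 0
  rw [h1, map_one]
  rfl

instance liftAb_A_fg [Group.FG Γ] : AddGroup.FG (liftAb_A P) := by
  have : Group.FG (Abelianization (Γ ⧸ Subgroup.normalClosure P)) :=
    Group.fg_of_surjective (liftAb_projM_surjective P)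
  infer_instance

variable {P}

/-- universal property of `Γ^ab / ⟨P⟩` -/
def liftAb_desc {B : Type} [AddCommGroup B] (φ : Additive Γ →+ B)
    (h : ∀ g ∈ P, φ (Additive.ofMul g) = 0) : liftAb_A P →+ B :=
  MonoidHom.toAdditiveLeft
    (Abelianization.lift
      (QuotientGroup.lift (Subgroup.normalClosure P) (AddMonoidHom.toMultiplicativeRight φ)
        (by
          have : Subgroup.normalClosure P ≤ (AddMonoidHom.toMultiplicativeRight φ).ker := by
            refine Subgroup.normalClosure_le_normal ?_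
            intro g hg
            rw [SetLike.mem_coe, MonoidHom.mem_ker]
            show Multiplicative.ofAdd (φ (Additive.ofMul g)) = 1
            rw [h g hg]
            rfl
          exact fun g hg => this hg)))

theorem liftAb_desc_proj {B : Type} [AddCommGroup B] (φ : Additive Γ →+ B)
    (h : ∀ g ∈ P, φ (Additive.ofMul g) = 0) (x : Additive Γ) :
    liftAb_desc φ h (liftAb_proj P x) = φ x := rfl

variable (P)

/-- restriction along the projection, as a linear map into `lift_killHoms` -/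
def liftAb_killMap (K : Type) [Field K] :
    (liftAb_A P →+ K) →ₗ[K] lift_killHoms K Γ P K where
  toFun χ := ⟨χ.comp (liftAb_proj P), fun g hg => by
    show χ (liftAb_proj P (Additive.ofMul g)) = 0
    rw [liftAb_proj_mem P g hg, map_zero]⟩
  map_add' _ _ := rfl
  map_smul' _ _ := rfl

theorem liftAb_killMap_apply (K : Type) [Field K] (χ : liftAb_A P →+ K) (x : Additive Γ) :
    (liftAb_killMap P K χ : Additive Γ →+ K) x = χ (liftAb_proj P x) := rfl

theorem liftAb_killMap_bijective (K : Type) [Field K] :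
    Function.Bijective (liftAb_killMap P K) := by
  constructor
  · intro χ₁ χ₂ h
    refine AddMonoidHom.ext fun a => ?_
    obtain ⟨x, rfl⟩ := liftAb_proj_surjective P a
    have := DFunLike.congr_fun (congrArg Subtype.val h) x
    rwa [liftAb_killMap_apply, liftAb_killMap_apply] at this
  · rintro ⟨φ, hφ⟩
    refine ⟨liftAb_desc φ hφ, ?_⟩
    apply Subtype.ext
    refine AddMonoidHom.ext fun x => ?_
    rw [liftAb_killMap_apply]
    exact liftAb_desc_proj φ hφ x

/-- `Hom(Γ^ab/⟨P⟩, K)` is the space of homs killing `P` -/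
noncomputable def liftAb_killEquiv (K : Type) [Field K] :
    (liftAb_A P →+ K) ≃ₗ[K] lift_killHoms K Γ P K :=
  LinearEquiv.ofBijective (liftAb_killMap P K) (liftAb_killMap_bijective P K)

end Quot

theorem lift_ab_exists {Γ : Type} [Group Γ] [Group.FG Γ] (P : Set Γ) (r : ℕ)
    (hC : r ≤ Module.finrank ℂ (lift_killHoms ℂ Γ P ℂ))
    (hl : ∀ l : ℕ, ∀ _ : Fact l.Prime,
      Module.finrank (ZMod l) (lift_killHoms (ZMod l) Γ P (ZMod l)) ≤ r)
    (n : ℕ) [NeZero n] (ψ : Additive Γ →+ ZMod n) (hψ : ∀ g ∈ P, ψ (Additive.ofMul g) = 0) :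
    ∃ ψ' : Additive Γ →+ ℤ, (∀ g ∈ P, ψ' (Additive.ofMul g) = 0) ∧
      ∀ g, ((ψ' g : ℤ) : ZMod n) = ψ g := by
  have hC' : r ≤ Module.finrank ℂ (liftAb_A P →+ ℂ) := by
    rw [(liftAb_killEquiv P ℂ).finrank_eq]; exact hC
  have hl' : ∀ l : ℕ, ∀ _ : Fact l.Prime,
      Module.finrank (ZMod l) (liftAb_A P →+ ZMod l) ≤ r := by
    intro l hl0
    rw [(liftAb_killEquiv P (ZMod l)).finrank_eq]; exact hl l hl0
  obtain ⟨χ, hχ⟩ := liftAb_of_dim_le (liftAb_A P) r hC' hl' n (liftAb_desc ψ hψ)
  refine ⟨χ.comp (liftAb_proj P), fun g hg => ?_, fun g => ?_⟩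
  · show χ (liftAb_proj P (Additive.ofMul g)) = 0
    rw [liftAb_proj_mem P g hg, map_zero]
  · show ((χ (liftAb_proj P g) : ℤ) : ZMod n) = ψ g
    rw [hχ, liftAb_desc_proj]

end Fermat.Agent.S16x
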