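/-
S16 project, lower bound, module L4 (LIFT), part (b2) of `LiftSpec.lean`: the complex dimension
`lift_finrank_killHoms_complex` (from S21), and the arithmetic conversion of the Euler
characteristic inequality into `≤ 2 dim S₂` (from S20 + the coset counts).  (helper63)
-/
import Fermat.Agent.S16x.LiftDefs
import Fermat.Agent.S21

set_option autoImplicit false

open CongruenceSubgroup ModularCurve ModularCurve.Period
open scoped MatrixGroups

namespace Fermat.Agent.S16x

/-- over `ℂ` (a torsion-free group) the finite order elements are killed automatically -/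
theorem liftc_killHoms_eq (N : ℕ) :
    lift_killHoms ℂ (Gamma0 N) (lift_PT N) ℂ = parabolicHoms ℂ (Gamma0 N) ℂ := by
  ext φ
  rw [mem_lift_killHoms_iff, mem_parabolicHoms_iff]
  constructor
  · intro h γ hγ
    exact h γ (Or.inl hγ)
  · intro h γ hγ
    rcases hγ with hγ | hγ
    · exact h γ hγ
    · obtain ⟨n, hn, hgn⟩ := isOfFinOrder_iff_pow_eq_one.mp hγ
      have h1 : n • φ (Additive.ofMul γ) = 0 := by
        rw [← map_nsmul, ← ofMul_pow, hgn, ofMul_one, map_zero]
      rw [nsmul_eq_mul] at h1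
      rcases mul_eq_zero.mp h1 with h2 | h2
      · exact absurd h2 (by exact_mod_cast hn.ne')
      · exact h2

/-- LiftSpec (b), second statement -/
theorem lift_finrank_killHoms_complex (N : ℕ) [NeZero N] :
    Module.finrank ℂ (lift_killHoms ℂ (Gamma0 N) (lift_PT N) ℂ)
      = 2 * Module.finrank ℂ (CuspForm (Gamma0 N) 2) := by
  have := Fermat.Agent.S21x.finiteDimensional_cuspForm N
  rw [liftc_killHoms_eq, ← (Fermat.Agent.S21.result N).2,
    LinearMap.finrank_range_of_inj (Fermat.Agent.S21.result N).1, Module.finrank_prod, two_mul]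

/-- arithmetic: the Euler characteristic inequality on `SL(2,ℤ) ⧸ Γ₀(N)` gives `d ≤ 2 dim S₂`
(S20 dimension formula + the four coset counts of `S24x/Comb*`) -/
theorem liftc_le_of_euler (N : ℕ) [NeZero N] (d : ℕ)
    (h : 6 * d + 3 * Nat.card (MulAction.fixedBy (SL(2, ℤ) ⧸ Gamma0 N) ModularGroup.S)
        + 4 * Nat.card (MulAction.fixedBy (SL(2, ℤ) ⧸ Gamma0 N)
            (ModularGroup.S * ModularGroup.T))
        + 6 * Nat.card (MulAction.orbitRel.Quotient (Subgroup.zpowers ModularGroup.T)
            (SL(2, ℤ) ⧸ Gamma0 N))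
      ≤ Nat.card (SL(2, ℤ) ⧸ Gamma0 N) + 12) :
    d ≤ 2 * Module.finrank ℂ (CuspForm (Gamma0 N) 2) := by
  have hS20 := Fermat.Agent.S20.result N
  rw [genusFormula] at hS20
  rw [Fermat.Agent.S24x.card_Q N, Fermat.Agent.S24x.card_fixedBy_S N,
    Fermat.Agent.S24x.card_fixedBy_ST N, Fermat.Agent.S24x.card_orbits_T N] at h
  have hq : (6 * d + 3 * nuTwo N + 4 * nuThree N + 6 * cuspCount N : ℚ) ≤ dedekindPsi N + 12 := by
    exact_mod_cast h
  have : (d : ℚ) ≤ ((2 * Module.finrank ℂ (CuspForm (Gamma0 N) 2) : ℕ) : ℚ) := by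
    push_cast
    linarith
  exact_mod_cast this

end Fermat.Agent.S16x
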