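/-
S16 project, module L4 (LIFT), file (a2-1): cocycles of `G` in the permutation module `X → K`
(any field `K`), extension by zero, induced cocycle of a homomorphism `Γ → K` (Shapiro).
Adapted from `S21x/Shapiro.lean` (which is hard-wired to `ℂ`).  (helper36)
-/
import Fermat.Agent.S16x.LiftDefs

set_option autoImplicit false

namespace Fermat.Agent.S16x

section Ops

variable {K : Type} [Field K] {G : Type} [Group G] {X : Type} [MulAction G X]

theorem lift_gop_one : lift_gop K (1 : G) = (1 : (X → K) →ₗ[K] (X → K)) := by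
  apply LinearMap.ext; intro v; funext x; simp

theorem lift_gop_mul (g h : G) :
    lift_gop K (g * h) = (lift_gop K g * lift_gop K h : (X → K) →ₗ[K] (X → K)) := by
  apply LinearMap.ext; intro v; funext x; simp [mul_smul]

theorem lift_gop_pow (g : G) (n : ℕ) :
    lift_gop K (g ^ n) = (lift_gop K g ^ n : (X → K) →ₗ[K] (X → K)) := by
  induction n with
  | zero => simp [lift_gop_one]
  | succ n ih => rw [pow_succ, lift_gop_mul, ih, pow_succ]

theorem lift_gop_inv_mul (g : G) :
    (lift_gop K g⁻¹ * lift_gop K g : (X → K) →ₗ[K] (X → K)) = 1 := by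
  rw [← lift_gop_mul, inv_mul_cancel, lift_gop_one]

theorem lift_gop_mul_inv (g : G) :
    (lift_gop K g * lift_gop K g⁻¹ : (X → K) →ₗ[K] (X → K)) = 1 := by
  rw [← lift_gop_mul, mul_inv_cancel, lift_gop_one]

theorem lift_gop_inv_apply_apply (g : G) (v : X → K) :
    lift_gop K g⁻¹ (lift_gop K g v) = v := by
  have := congrArg (fun f : (X → K) →ₗ[K] (X → K) => f v) (lift_gop_inv_mul (K := K) (X := X) g)
  simpa using this

theorem lift_gop_apply_inv_apply (g : G) (v : X → K) :
    lift_gop K g (lift_gop K g⁻¹ v) = v := by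
  have := congrArg (fun f : (X → K) →ₗ[K] (X → K) => f v) (lift_gop_mul_inv (K := K) (X := X) g)
  simpa using this

end Ops

section Cocycle

variable {K : Type} [Field K] {G : Type} [Group G] {X : Type} [MulAction G X]

/-- `1`-cocycles of `G` with values in `X → K`. -/
def lift_IsCoc (c : G → (X → K)) : Prop := ∀ g h : G, c (g * h) = c g + lift_gop K g (c h)

theorem lift_IsCoc.map_one {c : G → (X → K)} (hc : lift_IsCoc c) : c 1 = 0 := by
  have h := hc 1 1
  rw [one_mul, lift_gop_one, Module.End.one_apply] at h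
  exact left_eq_add.mp h

theorem lift_IsCoc.map_inv {c : G → (X → K)} (hc : lift_IsCoc c) (g : G) :
    c g⁻¹ = - lift_gop K g⁻¹ (c g) := by
  have h := hc g⁻¹ g
  rw [inv_mul_cancel, hc.map_one] at h
  exact eq_neg_of_add_eq_zero_left h.symm

theorem lift_IsCoc.add {c d : G → (X → K)} (hc : lift_IsCoc c) (hd : lift_IsCoc d) :
    lift_IsCoc (fun g => c g + d g) := by
  intro g h
  simp only [hc g h, hd g h, map_add]
  abel

/-- the coboundary of `v` -/
def lift_dcob (v : X → K) (g : G) : X → K := lift_gop K g v - v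

theorem lift_isCoc_dcob (v : X → K) : lift_IsCoc (lift_dcob (G := G) v) := by
  intro g h
  simp only [lift_dcob, lift_gop_mul, Module.End.mul_apply, map_sub]
  abel

theorem lift_IsCoc.eq_zero_of_closure {c : G → (X → K)} (hc : lift_IsCoc c) (S : Set G)
    (hS : ∀ g ∈ S, c g = 0) (hgen : Subgroup.closure S = ⊤) (g : G) : c g = 0 := by
  have hg : g ∈ Subgroup.closure S := by rw [hgen]; exact Subgroup.mem_top g
  induction hg using Subgroup.closure_induction with
  | mem x hx => exact hS x hx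
  | one => exact hc.map_one
  | mul x y _ _ hx hy => rw [hc x y, hx, hy, map_zero, add_zero]
  | inv x _ hx => rw [hc.map_inv, hx, map_zero, neg_zero]

theorem lift_IsCoc.map_pow {c : G → (X → K)} (hc : lift_IsCoc c) (g : G) (n : ℕ) :
    c (g ^ n) = ∑ i ∈ Finset.range n, (lift_gop K g ^ i : (X → K) →ₗ[K] (X → K)) (c g) := by
  induction n with
  | zero => simp [hc.map_one]
  | succ n ih =>
    rw [pow_succ, hc, ih, Finset.sum_range_succ, lift_gop_pow]

/-- pointwise form of `map_pow`: the closed-loop sums of `c g` -/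
theorem lift_IsCoc.map_pow_apply {c : G → (X → K)} (hc : lift_IsCoc c) (g : G) (n : ℕ) (x : X) :
    c (g ^ n) x = ∑ i ∈ Finset.range n, c g ((g ^ i)⁻¹ • x) := by
  rw [hc.map_pow, Finset.sum_apply]
  refine Finset.sum_congr rfl fun i _ => ?_
  rw [← lift_gop_pow, lift_gop_apply]

end Cocycle

section Induced

variable {K : Type} [Field K] {G : Type} [Group G] {X : Type} [MulAction G X]
variable (x₀ : X) (Γ : Subgroup G)

open Classical in
/-- extension by zero of a homomorphism on `Γ` to a function on `G` -/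
noncomputable def lift_extF (φ : Additive Γ →+ K) (g : G) : K :=
  if h : g ∈ Γ then φ (Additive.ofMul ⟨g, h⟩) else 0

variable {Γ}

theorem lift_extF_of_mem (φ : Additive Γ →+ K) {g : G} (h : g ∈ Γ) :
    lift_extF Γ φ g = φ (Additive.ofMul ⟨g, h⟩) := by
  rw [lift_extF, dif_pos h]

theorem lift_extF_mul (φ : Additive Γ →+ K) {a b : G} (ha : a ∈ Γ) (hb : b ∈ Γ) :
    lift_extF Γ φ (a * b) = lift_extF Γ φ a + lift_extF Γ φ b := by
  rw [lift_extF_of_mem φ ha, lift_extF_of_mem φ hb, lift_extF_of_mem φ (Γ.mul_mem ha hb),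
    ← map_add]
  rfl

theorem lift_extF_one (φ : Additive Γ →+ K) : lift_extF Γ φ 1 = 0 := by
  rw [lift_extF_of_mem φ Γ.one_mem]
  exact map_zero φ

theorem lift_extF_inv (φ : Additive Γ →+ K) {a : G} (ha : a ∈ Γ) :
    lift_extF Γ φ a⁻¹ = - lift_extF Γ φ a := by
  have h := lift_extF_mul φ (Γ.inv_mem ha) ha
  rw [inv_mul_cancel, lift_extF_one] at h
  exact eq_neg_of_add_eq_zero_left h.symm

theorem lift_extF_add (φ ψ : Additive Γ →+ K) (g : G) :
    lift_extF Γ (φ + ψ) g = lift_extF Γ φ g + lift_extF Γ ψ g := by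
  by_cases h : g ∈ Γ
  · rw [lift_extF_of_mem _ h, lift_extF_of_mem _ h, lift_extF_of_mem _ h]; rfl
  · simp [lift_extF, h]

theorem lift_extF_smul (a : K) (φ : Additive Γ →+ K) (g : G) :
    lift_extF Γ (a • φ) g = a * lift_extF Γ φ g := by
  by_cases h : g ∈ Γ
  · rw [lift_extF_of_mem _ h, lift_extF_of_mem _ h]; rfl
  · simp [lift_extF, h]

variable [MulAction.IsPretransitive G X]

variable (G) in
/-- a section of the orbit map `g ↦ g • x₀` -/
noncomputable def lift_sec (x : X) : G := Classical.choose (MulAction.exists_smul_eq G x₀ x)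

theorem lift_sec_smul (x : X) : lift_sec G x₀ x • x₀ = x :=
  Classical.choose_spec (MulAction.exists_smul_eq G x₀ x)

variable (Γ) in
/-- the induced cocycle -/
noncomputable def lift_indCoc (φ : Additive Γ →+ K) (g : G) : X → K :=
  fun x => lift_extF Γ φ ((lift_sec G x₀ x)⁻¹ * g * lift_sec G x₀ (g⁻¹ • x))

variable (hΓ : ∀ g : G, g ∈ Γ ↔ g • x₀ = x₀)
include hΓ

theorem lift_indCoc_mem (g : G) (x : X) :
    (lift_sec G x₀ x)⁻¹ * g * lift_sec G x₀ (g⁻¹ • x) ∈ Γ := by
  rw [hΓ, mul_smul, mul_smul, lift_sec_smul, smul_inv_smul, inv_smul_eq_iff, lift_sec_smul]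

theorem lift_isCoc_indCoc (φ : Additive Γ →+ K) : lift_IsCoc (lift_indCoc x₀ Γ φ) := by
  intro g h
  funext x
  simp only [lift_indCoc, Pi.add_apply, lift_gop_apply]
  have e : (lift_sec G x₀ x)⁻¹ * (g * h) * lift_sec G x₀ ((g * h)⁻¹ • x) =
      ((lift_sec G x₀ x)⁻¹ * g * lift_sec G x₀ (g⁻¹ • x)) *
        ((lift_sec G x₀ (g⁻¹ • x))⁻¹ * h * lift_sec G x₀ (h⁻¹ • (g⁻¹ • x))) := by
    rw [mul_inv_rev, mul_smul]
    group
  rw [e, lift_extF_mul φ (lift_indCoc_mem x₀ hΓ g x) (lift_indCoc_mem x₀ hΓ h (g⁻¹ • x))]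

theorem lift_indCoc_apply_base (φ : Additive Γ →+ K) {γ : G} (hγ : γ ∈ Γ) :
    lift_indCoc x₀ Γ φ γ x₀ = lift_extF Γ φ γ := by
  have h0 : γ⁻¹ • x₀ = x₀ := by rw [inv_smul_eq_iff, ((hΓ γ).mp hγ)]
  have hr : lift_sec G x₀ x₀ ∈ Γ := by rw [hΓ, lift_sec_smul]
  simp only [lift_indCoc, h0]
  rw [lift_extF_mul φ (Γ.mul_mem (Γ.inv_mem hr) hγ) hr, lift_extF_mul φ (Γ.inv_mem hr) hγ,
    lift_extF_inv φ hr]
  ring

omit hΓ in
theorem lift_indCoc_add (φ ψ : Additive Γ →+ K) (g : G) :
    lift_indCoc x₀ Γ (φ + ψ) g = lift_indCoc x₀ Γ φ g + lift_indCoc x₀ Γ ψ g := by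
  funext x; simp [lift_indCoc, lift_extF_add]

omit hΓ in
theorem lift_indCoc_smul (a : K) (φ : Additive Γ →+ K) (g : G) :
    lift_indCoc x₀ Γ (a • φ) g = a • lift_indCoc x₀ Γ φ g := by
  funext x; simp [lift_indCoc, lift_extF_smul]

end Induced

end Fermat.Agent.S16x
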