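/-
S16 project (Eisenstein ideal index), lower bound, module L4 (a1) = `LiftOrb` (helper52):
orbit sums for a cyclic group `⟨g⟩` acting on a finite set `X`, over an arbitrary field `K`.
Exact statements of `LiftSpec` section a1.  Private lemmas are prefixed `lorb_`.
-/
import Fermat.Agent.S16x.LiftDefs

set_option autoImplicit false

namespace Fermat.Agent.S16x

section a1

variable {K : Type} [Field K] {G : Type} [Group G] {X : Type} [Fintype X] [MulAction G X]

set_option linter.unusedSectionVars false

/-! ### classes of the orbit relation of `⟨g⟩` -/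

theorem lorb_cls_eq_iff (g : G) (x y : X) :
    lift_cls g x = lift_cls g y ↔ ∃ k : ℤ, g ^ k • y = x := by
  unfold lift_cls
  rw [Quotient.eq'']
  change x ∈ MulAction.orbit (Subgroup.zpowers g) y ↔ _
  rw [MulAction.mem_orbit_iff]
  constructor
  · rintro ⟨⟨h, hh⟩, hx⟩
    obtain ⟨k, rfl⟩ := Subgroup.mem_zpowers_iff.mp hh
    exact ⟨k, hx⟩
  · rintro ⟨k, hk⟩
    exact ⟨⟨g ^ k, Subgroup.zpow_mem_zpowers g k⟩, hk⟩

theorem lorb_cls_smul (g : G) (x : X) : lift_cls g (g • x) = lift_cls g x := by
  rw [lorb_cls_eq_iff]
  exact ⟨1, by simp⟩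

theorem lorb_cls_inv_smul (g : G) (x : X) : lift_cls g (g⁻¹ • x) = lift_cls g x := by
  rw [lorb_cls_eq_iff]
  exact ⟨-1, by simp⟩

theorem lorb_cls_surjective (g : G) : Function.Surjective (lift_cls (X := X) g) := by
  intro ω
  induction ω using Quotient.inductionOn' with
  | h x => exact ⟨x, rfl⟩

open Classical in
theorem lorb_sumOrb_apply (g : G) (w : X → K) (ω : lift_Om X g) :
    lift_sumOrb K g w ω = ∑ x : X, if lift_cls g x = ω then w x else 0 := rfl

/-! ### the period of a point and the parametrisation of its orbit -/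

/-- the minimal period of `x` under `g` -/
noncomputable def lorb_per (g : G) (x : X) : ℕ := Function.minimalPeriod (g • ·) x

theorem lorb_per_pos (g : G) (x : X) : 0 < lorb_per g x := by
  unfold lorb_per
  exact Function.minimalPeriod_pos_of_mem_periodicPts
    ((MulAction.injective g).mem_periodicPts x)

theorem lorb_pow_per_smul (g : G) (x : X) : g ^ lorb_per g x • x = x := by
  unfold lorb_per
  exact MulAction.pow_smul_eq_iff_minimalPeriod_dvd.mpr dvd_rfl

theorem lorb_pt_injOn (g : G) (x : X) :
    Set.InjOn (fun i : ℕ => (g ^ i)⁻¹ • x) (Finset.range (lorb_per g x) : Set ℕ) := by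
  intro i hi j hj hij
  simp only [Finset.coe_range, Set.mem_Iio] at hi hj
  simp only at hij
  -- `g ^ (i - j) • x = x` as integers
  have h1 : g ^ ((i : ℤ) - (j : ℤ)) • x = x := by
    have h2 : x = g ^ i • ((g ^ j)⁻¹ • x) := by
      rw [← hij, smul_inv_smul]
    rw [zpow_sub, zpow_natCast, zpow_natCast, mul_smul]
    exact h2.symm
  have h3 : ((lorb_per g x : ℕ) : ℤ) ∣ (i : ℤ) - (j : ℤ) :=
    MulAction.zpow_smul_eq_iff_minimalPeriod_dvd.mp h1
  have h4 : (i : ℤ) - j = 0 := by
    apply Int.eq_zero_of_abs_lt_dvd h3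
    rw [abs_lt]
    constructor <;> omega
  omega

open Classical in
theorem lorb_filter_eq_image (g : G) (x : X) :
    (Finset.univ.filter (fun y : X => lift_cls g y = lift_cls g x)) =
      (Finset.range (lorb_per g x)).image (fun i : ℕ => (g ^ i)⁻¹ • x) := by
  classical
  ext y
  simp only [Finset.mem_filter, Finset.mem_univ, true_and, Finset.mem_image, Finset.mem_range]
  rw [lorb_cls_eq_iff]
  constructor
  · rintro ⟨k, rfl⟩
    -- `g ^ k • x = (g ^ i)⁻¹ • x` with `i = (-k) mod n`
    have hn : (0 : ℤ) < (lorb_per g x : ℤ) := by exact_mod_cast lorb_per_pos g x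
    refine ⟨((-k) % (lorb_per g x : ℤ)).toNat, ?_, ?_⟩
    · have := Int.emod_lt_of_pos (-k) hn
      have h0 := Int.emod_nonneg (-k) hn.ne'
      omega
    · have h0 := Int.emod_nonneg (-k) hn.ne'
      have h1 : (g ^ ((-k) % (lorb_per g x : ℤ)).toNat) = g ^ ((-k) % (lorb_per g x : ℤ)) := by
        rw [← zpow_natCast, Int.toNat_of_nonneg h0]
      rw [h1, inv_smul_eq_iff]
      have h2 : g ^ ((-k) % (lorb_per g x : ℤ)) • x = g ^ (-k) • x := by
        unfold lorb_per
        exact MulAction.zpow_smul_mod_minimalPeriod g x (-k)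
      rw [smul_smul, ← zpow_add]
      have h3 : g ^ ((-k) % (lorb_per g x : ℤ) + k) • x = x := by
        rw [zpow_add, mul_smul]
        have : g ^ ((-k) % (lorb_per g x : ℤ)) • g ^ k • x
            = g ^ k • (g ^ ((-k) % (lorb_per g x : ℤ)) • x) := by
          rw [smul_smul, smul_smul, ← zpow_add, ← zpow_add, add_comm]
        rw [this, h2, smul_smul, ← zpow_add]
        simp
      exact h3.symm
  · rintro ⟨i, -, rfl⟩
    exact ⟨-(i : ℤ), by rw [zpow_neg, zpow_natCast]⟩

theorem lorb_sumOrb_cls (g : G) (w : X → K) (x : X) :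
    lift_sumOrb K g w (lift_cls g x) =
      ∑ i ∈ Finset.range (lorb_per g x), w ((g ^ i)⁻¹ • x) := by
  classical
  rw [lorb_sumOrb_apply]
  rw [← Finset.sum_image (lorb_pt_injOn g x), ← lorb_filter_eq_image, Finset.sum_filter]

open Classical in
theorem lorb_card_fiber (g : G) (x : X) :
    (Finset.univ.filter (fun y : X => lift_cls g y = lift_cls g x)).card = lorb_per g x := by
  classical
  rw [lorb_filter_eq_image, Finset.card_image_of_injOn (lorb_pt_injOn g x), Finset.card_range]

/-! ### the statements of `LiftSpec` (a1) -/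

theorem lift_sumOrb_surjective (g : G) : Function.Surjective (lift_sumOrb K (X := X) g) := by
  classical
  intro u
  refine ⟨fun x => if x = Quotient.out (lift_cls g x) then u (lift_cls g x) else 0, ?_⟩
  funext ω
  rw [lorb_sumOrb_apply]
  have hout : lift_cls g (Quotient.out ω) = ω := Quotient.out_eq' ω
  rw [Finset.sum_eq_single (Quotient.out ω)]
  · simp only [hout]
    simp
  · intro y _ hy
    by_cases h : lift_cls g y = ω
    · simp [h, hy]
    · simp [h]
  · intro h; exact absurd (Finset.mem_univ _) h

theorem lift_finrank_ker_sumOrb (g : G) :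
    Module.finrank K (LinearMap.ker (lift_sumOrb K (X := X) g)) + Nat.card (lift_Om X g)
      = Fintype.card X := by
  classical
  have : Fintype (lift_Om X g) := Fintype.ofFinite _
  have h1 := LinearMap.finrank_range_add_finrank_ker (lift_sumOrb K (X := X) g)
  have h2 : LinearMap.range (lift_sumOrb K (X := X) g) = ⊤ :=
    LinearMap.range_eq_top.mpr (lift_sumOrb_surjective g)
  rw [h2, finrank_top, Module.finrank_fintype_fun_eq_card, Module.finrank_fintype_fun_eq_card] at h1
  rw [Nat.card_eq_fintype_card]
  omega

theorem lift_sumOrb_gop (g : G) (w : X → K) :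
    lift_sumOrb K g (lift_gop K g w) = lift_sumOrb K g w := by
  classical
  funext ω
  rw [lorb_sumOrb_apply, lorb_sumOrb_apply]
  refine Fintype.sum_equiv (MulAction.toPerm g⁻¹) _ _ fun x => ?_
  simp only [lift_gop_apply, MulAction.toPerm_apply]
  rw [lorb_cls_inv_smul]

theorem lift_sum_sumOrb (g : G) (w : X → K) [Fintype (lift_Om X g)] :
    ∑ ω, lift_sumOrb K g w ω = ∑ x, w x := by
  classical
  simp only [lorb_sumOrb_apply]
  rw [Finset.sum_comm]
  refine Finset.sum_congr rfl fun x _ => ?_
  rw [Finset.sum_eq_single (lift_cls g x)]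
  · simp
  · intro ω _ hω
    have : ¬ (lift_cls g x = ω) := fun h => hω h.symm
    simp [this]
  · intro h; exact absurd (Finset.mem_univ _) h

/-- KEY: if all "closed-loop sums" of `w` along `g` vanish, all orbit sums vanish -/
theorem lift_sumOrb_eq_zero (g : G) (w : X → K)
    (h : ∀ (x : X) (n : ℕ), 0 < n → g ^ n • x = x →
      ∑ i ∈ Finset.range n, w ((g ^ i)⁻¹ • x) = 0) :
    lift_sumOrb K g w = 0 := by
  funext ω
  obtain ⟨x, rfl⟩ := lorb_cls_surjective g ω
  rw [lorb_sumOrb_cls]
  exact h x _ (lorb_per_pos g x) (lorb_pow_per_smul g x)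

/-- Burnside for a cyclic group acting through a quotient of prime order `m` -/
theorem lift_card_orbits_prime (g : G) (m : ℕ) (hm : m.Prime) (hg : ∀ x : X, g ^ m • x = x) :
    m * Nat.card (lift_Om X g) = Fintype.card X + (m - 1) * Nat.card (MulAction.fixedBy X g) := by
  classical
  have : Fintype (lift_Om X g) := Fintype.ofFinite _
  -- the period of every point is `1` or `m`
  have hper : ∀ x : X, lorb_per g x = 1 ∨ lorb_per g x = m := by
    intro x
    have : lorb_per g x ∣ m := by
      unfold lorb_per
      exact MulAction.pow_smul_eq_iff_minimalPeriod_dvd.mp (hg x)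
    exact (Nat.dvd_prime hm).mp this
  have hper1 : ∀ x : X, lorb_per g x = 1 ↔ x ∈ MulAction.fixedBy X g := by
    intro x
    unfold lorb_per
    exact MulAction.minimalPeriod_eq_one_iff_fixedBy (G := G) (α := X) (a := x) (g := g)
  -- the period is a class function
  have hperc : ∀ x y : X, lift_cls g x = lift_cls g y → lorb_per g x = lorb_per g y := by
    intro x y hxy
    rw [← lorb_card_fiber g x, ← lorb_card_fiber g y, hxy]
  -- count `X` fibrewise
  have hX : Fintype.card X = ∑ ω : lift_Om X g,
      (Finset.univ.filter (fun y : X => lift_cls g y = ω)).card := by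
    rw [← Finset.card_univ]
    exact Finset.card_eq_sum_card_fiberwise (fun x _ => Finset.mem_univ _)
  -- period of a class
  let P : lift_Om X g → ℕ := fun ω => lorb_per g (Quotient.out ω)
  have hP : ∀ x : X, P (lift_cls g x) = lorb_per g x := by
    intro x
    exact hperc _ _ (Quotient.out_eq' (lift_cls g x))
  have hfib : ∀ ω : lift_Om X g,
      (Finset.univ.filter (fun y : X => lift_cls g y = ω)).card = P ω := by
    intro ω
    obtain ⟨x, rfl⟩ := lorb_cls_surjective g ω
    rw [lorb_card_fiber, hP]
  -- fixed points ↔ classes of period one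
  have hfix : Nat.card (MulAction.fixedBy X g) =
      (Finset.univ.filter (fun ω : lift_Om X g => P ω = 1)).card := by
    rw [Nat.card_eq_fintype_card, Fintype.card_subtype]
    refine Finset.card_bij (fun x _ => lift_cls g x) ?_ ?_ ?_
    · intro x hx
      simp only [Finset.mem_filter, Finset.mem_univ, true_and] at hx ⊢
      rw [hP]; exact (hper1 x).mpr hx
    · intro x hx y hy hxy
      simp only [Finset.mem_filter, Finset.mem_univ, true_and] at hx hy
      -- both are fixed points in the same class
      have h1 : (Finset.univ.filter (fun z : X => lift_cls g z = lift_cls g y)).card = 1 := by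
        rw [lorb_card_fiber]; exact (hper1 y).mpr hy
      rw [Finset.card_eq_one] at h1
      obtain ⟨a, ha⟩ := h1
      have hxa : x ∈ Finset.univ.filter (fun z : X => lift_cls g z = lift_cls g y) := by
        simp [hxy]
      have hya : y ∈ Finset.univ.filter (fun z : X => lift_cls g z = lift_cls g y) := by
        simp
      rw [ha, Finset.mem_singleton] at hxa hya
      rw [hxa, hya]
    · intro ω hω
      simp only [Finset.mem_filter, Finset.mem_univ, true_and] at hω
      obtain ⟨x, rfl⟩ := lorb_cls_surjective g ω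
      refine ⟨x, ?_, rfl⟩
      simp only [Finset.mem_filter, Finset.mem_univ, true_and]
      rw [hP] at hω
      exact (hper1 x).mp hω
  -- the count
  have hPω : ∀ ω : lift_Om X g, P ω = 1 ∨ P ω = m := by
    intro ω
    obtain ⟨x, rfl⟩ := lorb_cls_surjective g ω
    rw [hP]; exact hper x
  have hsum : ∑ ω : lift_Om X g, P ω + (m - 1) *
      (Finset.univ.filter (fun ω : lift_Om X g => P ω = 1)).card
      = m * Fintype.card (lift_Om X g) := by
    rw [Finset.card_filter, Finset.mul_sum, ← Finset.sum_add_distrib, ← Finset.card_univ,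
      Finset.card_eq_sum_ones, Finset.mul_sum]
    refine Finset.sum_congr rfl fun ω _ => ?_
    have hm1 : 1 ≤ m := hm.one_lt.le
    rcases hPω ω with h | h
    · rw [h]; simp; omega
    · by_cases h1 : m = 1
      · exact absurd h1 hm.one_lt.ne'
      · have : ¬ (P ω = 1) := by rw [h]; exact h1
        rw [if_neg this, h]; simp
  rw [Nat.card_eq_fintype_card (α := lift_Om X g), hfix, hX, ← hsum]
  simp only [hfib]

end a1

end Fermat.Agent.S16x
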