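/-
S16 project, module L4 (LIFT), file (a2-2): the abstract Shapiro bound over an arbitrary field `K`
(orbit-sum version, valid in every characteristic):
  `dim_K Q + #(X/⟨s⟩) + #(X/⟨st⟩) + #(X/⟨t⟩) ≤ #X + 2`
for a space `Q` of homomorphisms `Γ → K` (`Γ` = stabiliser of `x₀` in a transitive `G = ⟨s,t⟩`-set `X`)
killing all `Γ`-conjugates of powers of `s`, `st`, `t`.   (helper36)
-/
import Fermat.Agent.S16x.LiftCoc
import Fermat.Agent.S16x.LiftOrb

set_option autoImplicit false

namespace Fermat.Agent.S16x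

open Module

section Aug

variable {K : Type} [Field K] {G : Type} [Group G] {X : Type} [Fintype X] [DecidableEq X]
  [MulAction G X]

/-- indicator function of a point -/
def lift_eX (x : X) : X → K := Pi.single x 1

theorem lift_gop_eX (g : G) (x : X) : lift_gop K g (lift_eX x) = lift_eX (g • x) := by
  funext y
  simp only [lift_gop_apply, lift_eX, Pi.single_apply]
  by_cases h : y = g • x
  · simp [h]
  · have : g⁻¹ • y ≠ x := fun h' => h (by rw [← h', smul_inv_smul])
    simp [h, this]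

omit [DecidableEq X] in
/-- the functional `v ↦ ∑ x, v x` -/
def lift_sumFun : (X → K) →ₗ[K] K where
  toFun v := ∑ x, v x
  map_add' v w := by simp [Finset.sum_add_distrib]
  map_smul' c v := by simp [Finset.mul_sum]

omit [DecidableEq X] in
@[simp] theorem lift_sumFun_apply (v : X → K) : lift_sumFun v = ∑ x, v x := rfl

theorem lift_aug_eq_sum_smul_eX (v : X → K) : v = ∑ x, v x • lift_eX (K := K) x := by
  funext y
  rw [Finset.sum_apply]
  simp only [lift_eX, Pi.smul_apply, Pi.single_apply, smul_eq_mul, mul_ite, mul_one, mul_zero]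
  rw [Finset.sum_ite_eq]
  simp

theorem lift_aug_eX_smul_sub_mem_range (g : G) (z : X) :
    lift_eX (K := K) (g • z) - lift_eX z ∈
      LinearMap.range ((1 : (X → K) →ₗ[K] (X → K)) - lift_gop K g) := by
  refine ⟨-lift_eX z, ?_⟩
  rw [map_neg, LinearMap.sub_apply, Module.End.one_apply, lift_gop_eX, neg_sub]

theorem lift_ker_sumFun_le (s t : G) (hgen : Subgroup.closure {s, t} = ⊤)
    [MulAction.IsPretransitive G X] :
    LinearMap.ker (lift_sumFun (K := K) (X := X)) ≤
      LinearMap.range ((1 : (X → K) →ₗ[K] (X → K)) - lift_gop K s) ⊔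
        LinearMap.range ((1 : (X → K) →ₗ[K] (X → K)) - lift_gop K t) := by
  classical
  set M : Submodule K (X → K) :=
    LinearMap.range ((1 : (X → K) →ₗ[K] (X → K)) - lift_gop K s) ⊔
      LinearMap.range ((1 : (X → K) →ₗ[K] (X → K)) - lift_gop K t) with hM
  have hP : ∀ g : G, ∀ z : X, lift_eX (K := K) (g • z) - lift_eX z ∈ M := by
    intro g
    have hg : g ∈ Subgroup.closure ({s, t} : Set G) := by rw [hgen]; exact Subgroup.mem_top g
    induction hg using Subgroup.closure_induction with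
    | mem x hx =>
      intro z
      rcases hx with rfl | rfl
      · exact Submodule.mem_sup_left (lift_aug_eX_smul_sub_mem_range _ z)
      · exact Submodule.mem_sup_right (lift_aug_eX_smul_sub_mem_range _ z)
    | one => intro z; rw [one_smul, sub_self]; exact Submodule.zero_mem _
    | mul x y _ _ hx hy =>
      intro z
      have : lift_eX (K := K) ((x * y) • z) - lift_eX z =
          (lift_eX (x • (y • z)) - lift_eX (y • z)) + (lift_eX (y • z) - lift_eX z) := by
        rw [mul_smul]; abel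
      rw [this]
      exact Submodule.add_mem _ (hx (y • z)) (hy z)
    | inv x _ hx =>
      intro z
      have : lift_eX (K := K) (x⁻¹ • z) - lift_eX z =
          -(lift_eX (x • (x⁻¹ • z)) - lift_eX (x⁻¹ • z)) := by
        rw [smul_inv_smul]; abel
      rw [this]
      exact Submodule.neg_mem _ (hx (x⁻¹ • z))
  intro v hv
  rw [LinearMap.mem_ker, lift_sumFun_apply] at hv
  rcases isEmpty_or_nonempty X with hX | ⟨⟨x₀⟩⟩
  · have : v = 0 := Subsingleton.elim _ _
    rw [this]; exact Submodule.zero_mem _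
  · have hall : ∀ x : X, lift_eX (K := K) x - lift_eX x₀ ∈ M := by
      intro x
      obtain ⟨g, rfl⟩ := MulAction.exists_smul_eq G x₀ x
      exact hP g x₀
    have hv' : v = ∑ x, v x • (lift_eX (K := K) x - lift_eX x₀) := by
      conv_lhs => rw [lift_aug_eq_sum_smul_eX v]
      simp only [smul_sub, Finset.sum_sub_distrib]
      rw [← Finset.sum_smul, hv, zero_smul, sub_zero]
    rw [hv']
    exact Submodule.sum_mem _ fun x _ => Submodule.smul_mem _ _ (hall x)

end Aug

section Bound

variable {K : Type} [Field K] {G : Type} [Group G] {X : Type} [Fintype X] [DecidableEq X]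
  [MulAction G X] [MulAction.IsPretransitive G X]
variable (x₀ : X) (Γ : Subgroup G)

/-- `φ ↦ c_φ(g)` as a linear map -/
noncomputable def lift_indCocL (g : G) : (Additive Γ →+ K) →ₗ[K] (X → K) where
  toFun φ := lift_indCoc x₀ Γ φ g
  map_add' φ ψ := lift_indCoc_add x₀ φ ψ g
  map_smul' a φ := lift_indCoc_smul x₀ a φ g

/-- the total cocycle `c_φ + dv` -/
noncomputable def lift_totCoc (φ : Additive Γ →+ K) (v : X → K) (g : G) : X → K :=
  lift_indCoc x₀ Γ φ g + lift_dcob v g

variable (Q : Submodule K (Additive Γ →+ K))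

/-- `(φ, v) ↦ (c_φ + dv)(g)` as a linear map on `Q × V` -/
noncomputable def lift_totL (g : G) : (Q × (X → K)) →ₗ[K] (X → K) :=
  ((lift_indCocL x₀ Γ g).comp (Q.subtype.comp (LinearMap.fst K Q (X → K)))) +
    ((lift_gop K g - 1).comp (LinearMap.snd K Q (X → K)))

theorem lift_totL_apply (g : G) (p : Q × (X → K)) :
    lift_totL x₀ Γ Q g p = lift_totCoc x₀ Γ (p.1 : Additive Γ →+ K) p.2 g := by
  simp [lift_totL, lift_totCoc, lift_indCocL, lift_dcob]

variable {Γ} (hΓ : ∀ g : G, g ∈ Γ ↔ g • x₀ = x₀)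
include hΓ

theorem lift_isCoc_totCoc (φ : Additive Γ →+ K) (v : X → K) :
    lift_IsCoc (lift_totCoc x₀ Γ φ v) :=
  (lift_isCoc_indCoc x₀ hΓ φ).add (lift_isCoc_dcob v)

/-- KEY: if `φ` kills all conjugates of powers of `g`, then the value at `g` of the total cocycle has
vanishing `⟨g⟩`-orbit sums. -/
theorem lift_totCoc_mem_ker (g : G) (φ : Additive Γ →+ K)
    (hφ : ∀ (r : G) (n : ℕ), lift_extF Γ φ (r⁻¹ * g ^ n * r) = 0) (v : X → K) :
    lift_totCoc x₀ Γ φ v g ∈ LinearMap.ker (lift_sumOrb K (X := X) g) := by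
  rw [LinearMap.mem_ker]
  apply lift_sumOrb_eq_zero
  intro x n _ hx
  rw [← (lift_isCoc_totCoc x₀ hΓ φ v).map_pow_apply]
  have hx' : (g ^ n)⁻¹ • x = x := by rw [inv_smul_eq_iff, hx]
  simp only [lift_totCoc, lift_indCoc, lift_dcob, Pi.add_apply, Pi.sub_apply, lift_gop_apply, hx',
    sub_self, add_zero]
  exact hφ _ n

variable (s t : G)
  (hQs : ∀ φ ∈ Q, ∀ (r : G) (n : ℕ), lift_extF Γ φ (r⁻¹ * s ^ n * r) = 0)
  (hQu : ∀ φ ∈ Q, ∀ (r : G) (n : ℕ), lift_extF Γ φ (r⁻¹ * (s * t) ^ n * r) = 0)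
  (hQt : ∀ φ ∈ Q, ∀ (r : G) (n : ℕ), lift_extF Γ φ (r⁻¹ * t ^ n * r) = 0)

theorem lift_totCoc_t (φ : Additive Γ →+ K) (v : X → K) :
    lift_totCoc x₀ Γ φ v t =
      lift_gop K s⁻¹ (lift_totCoc x₀ Γ φ v (s * t) - lift_totCoc x₀ Γ φ v s) := by
  have hc := lift_isCoc_totCoc x₀ hΓ φ v
  have h := hc s⁻¹ (s * t)
  rw [inv_mul_cancel_left, hc.map_inv] at h
  rw [h, map_sub]; abel

omit hΓ in
/-- `Λ (a, b) = sumOrb_t (S⁻¹ (b - a))` on `ker sumOrb_s × ker sumOrb_u` -/
noncomputable def lift_lamL :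
    (LinearMap.ker (lift_sumOrb K (X := X) s) × LinearMap.ker (lift_sumOrb K (X := X) (s * t)))
      →ₗ[K] (lift_Om X t → K) :=
  (lift_sumOrb K (X := X) t).comp ((lift_gop K s⁻¹).comp
    ((LinearMap.ker (lift_sumOrb K (X := X) (s * t))).subtype.comp (LinearMap.snd K _ _) -
      (LinearMap.ker (lift_sumOrb K (X := X) s)).subtype.comp (LinearMap.fst K _ _)))

include hQs hQu in
/-- `Ψ (φ, v) = ((c_φ + dv)(s), (c_φ + dv)(st))` -/
noncomputable def lift_psiL :
    (Q × (X → K)) →ₗ[K]
      (LinearMap.ker (lift_sumOrb K (X := X) s) × LinearMap.ker (lift_sumOrb K (X := X) (s * t))) :=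
  LinearMap.prod
    (LinearMap.codRestrict _ (lift_totL x₀ Γ Q s) (fun p => by
      rw [lift_totL_apply]
      exact lift_totCoc_mem_ker x₀ hΓ s _ (hQs _ p.1.2) p.2))
    (LinearMap.codRestrict _ (lift_totL x₀ Γ Q (s * t)) (fun p => by
      rw [lift_totL_apply]
      exact lift_totCoc_mem_ker x₀ hΓ (s * t) _ (hQu _ p.1.2) p.2))

include hQt in
theorem lift_lamL_psiL (p : Q × (X → K)) :
    lift_lamL s t (lift_psiL x₀ Q hΓ s t hQs hQu p) = 0 := by
  have h1 : lift_lamL s t (lift_psiL x₀ Q hΓ s t hQs hQu p) =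
      lift_sumOrb K t (lift_gop K s⁻¹ (lift_totCoc x₀ Γ (p.1 : Additive Γ →+ K) p.2 (s * t)
        - lift_totCoc x₀ Γ (p.1 : Additive Γ →+ K) p.2 s)) := by
    simp [lift_lamL, lift_psiL, lift_totL_apply]
  rw [h1, ← lift_totCoc_t x₀ hΓ s t]
  exact LinearMap.mem_ker.mp (lift_totCoc_mem_ker x₀ hΓ t _ (hQt _ p.1.2) p.2)

variable (hgen : Subgroup.closure {s, t} = ⊤)

include hgen in
theorem lift_ker_psiL_le :
    LinearMap.ker (lift_psiL x₀ Q hΓ s t hQs hQu) ≤
      Submodule.span K {((0 : Q), (fun _ : X => (1 : K)))} := by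
  intro p hp
  rw [LinearMap.mem_ker] at hp
  have hp1 : lift_totCoc x₀ Γ (p.1 : Additive Γ →+ K) p.2 s = 0 := by
    have := congrArg (fun q => (q.1 : X → K)) hp
    simpa [lift_psiL, lift_totL_apply] using this
  have hp2 : lift_totCoc x₀ Γ (p.1 : Additive Γ →+ K) p.2 (s * t) = 0 := by
    have := congrArg (fun q => (q.2 : X → K)) hp
    simpa [lift_psiL, lift_totL_apply] using this
  have hc := lift_isCoc_totCoc x₀ hΓ (p.1 : Additive Γ →+ K) p.2
  have hgen' : Subgroup.closure ({s, s * t} : Set G) = ⊤ := by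
    rw [eq_top_iff, ← hgen, Subgroup.closure_le]
    intro g hg
    rcases hg with rfl | hg
    · exact Subgroup.subset_closure (by simp)
    · rw [Set.mem_singleton_iff] at hg
      subst hg
      have h1 : s ∈ Subgroup.closure ({s, s * g} : Set G) := Subgroup.subset_closure (by simp)
      have h2 : s * g ∈ Subgroup.closure ({s, s * g} : Set G) := Subgroup.subset_closure (by simp)
      have h3 : s⁻¹ * (s * g) ∈ Subgroup.closure ({s, s * g} : Set G) :=
        Subgroup.mul_mem _ (Subgroup.inv_mem _ h1) h2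
      rwa [inv_mul_cancel_left] at h3
  have hall : ∀ g, lift_totCoc x₀ Γ (p.1 : Additive Γ →+ K) p.2 g = 0 := by
    apply hc.eq_zero_of_closure {s, s * t} _ hgen'
    intro g hg
    rcases hg with rfl | hg
    · exact hp1
    · rw [Set.mem_singleton_iff] at hg; subst hg; exact hp2
  -- φ = 0
  have hφ : (p.1 : Additive Γ →+ K) = 0 := by
    apply AddMonoidHom.ext
    intro γ
    have hγ : (Additive.toMul γ : Γ).1 ∈ Γ := (Additive.toMul γ).2
    have h0 := congrFun (hall (Additive.toMul γ : Γ).1) x₀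
    have hx : ((Additive.toMul γ : Γ).1)⁻¹ • x₀ = x₀ := by
      rw [inv_smul_eq_iff, (hΓ _).mp hγ]
    simp only [lift_totCoc, Pi.add_apply, lift_dcob, Pi.sub_apply, lift_gop_apply, hx, sub_self,
      add_zero, Pi.zero_apply] at h0
    rw [lift_indCoc_apply_base x₀ hΓ _ hγ, lift_extF_of_mem _ hγ] at h0
    exact h0
  -- v constant
  have hv : p.2 = (p.2 x₀) • (fun _ : X => (1 : K)) := by
    funext x
    have h0 := congrFun (hall (lift_sec G x₀ x)) x
    have hx : (lift_sec G x₀ x)⁻¹ • x = x₀ := by rw [inv_smul_eq_iff, lift_sec_smul]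
    simp only [lift_totCoc, hφ, Pi.add_apply, lift_dcob, Pi.sub_apply, lift_gop_apply, hx,
      Pi.zero_apply] at h0
    have h1 : lift_indCoc x₀ Γ (0 : Additive Γ →+ K) (lift_sec G x₀ x) x = 0 := by
      simp [lift_indCoc, lift_extF]
    rw [h1, zero_add] at h0
    simp only [Pi.smul_apply, smul_eq_mul, mul_one]
    exact (sub_eq_zero.mp h0).symm
  have hp' : p = (p.2 x₀) • ((0 : Q), (fun _ : X => (1 : K))) := by
    apply Prod.ext
    · apply Subtype.ext
      simpa using hφ
    · simpa using hv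
  rw [hp']
  exact Submodule.smul_mem _ _ (Submodule.subset_span rfl)

end Bound

section Count

variable {K : Type} [Field K] {G : Type} [Group G] {X : Type} [Fintype X] [DecidableEq X]
  [MulAction G X] [MulAction.IsPretransitive G X]
variable (x₀ : X) {Γ : Subgroup G} (Q : Submodule K (Additive Γ →+ K))
  (hΓ : ∀ g : G, g ∈ Γ ↔ g • x₀ = x₀) (s t : G)
  (hQs : ∀ φ ∈ Q, ∀ (r : G) (n : ℕ), lift_extF Γ φ (r⁻¹ * s ^ n * r) = 0)
  (hQu : ∀ φ ∈ Q, ∀ (r : G) (n : ℕ), lift_extF Γ φ (r⁻¹ * (s * t) ^ n * r) = 0)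
  (hQt : ∀ φ ∈ Q, ∀ (r : G) (n : ℕ), lift_extF Γ φ (r⁻¹ * t ^ n * r) = 0)
  (hgen : Subgroup.closure {s, t} = ⊤)

omit [DecidableEq X] [MulAction.IsPretransitive G X] in
theorem lift_sumOrb_one_sub_gop (g : G) (v : X → K) :
    lift_sumOrb K g ((1 - lift_gop K g : (X → K) →ₗ[K] (X → K)) v) = 0 := by
  rw [LinearMap.sub_apply, Module.End.one_apply, map_sub, lift_sumOrb_gop, sub_self]

include hgen in
/-- the augmentation-zero functions on `X/⟨t⟩` lie in the range of `Λ` -/
theorem lift_aug_le_range_lamL [Fintype (lift_Om X t)] :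
    LinearMap.ker (lift_sumFun (K := K) (X := lift_Om X t)) ≤
      LinearMap.range (lift_lamL (K := K) (X := X) s t) := by
  intro f hf
  rw [LinearMap.mem_ker, lift_sumFun_apply] at hf
  obtain ⟨w, hw⟩ := lift_sumOrb_surjective (K := K) (X := X) t f
  have hw0 : w ∈ LinearMap.ker (lift_sumFun (K := K) (X := X)) := by
    rw [LinearMap.mem_ker, lift_sumFun_apply, ← lift_sum_sumOrb t w, hw]
    exact hf
  have hmem := lift_ker_sumFun_le (K := K) s t hgen hw0
  obtain ⟨y, ⟨v₁, rfl⟩, y', ⟨v₂, rfl⟩, hyw⟩ := Submodule.mem_sup.mp hmem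
  have ha : (1 - lift_gop K s : (X → K) →ₗ[K] (X → K)) (-(lift_gop K s v₁)) ∈
      LinearMap.ker (lift_sumOrb K (X := X) s) := by
    rw [LinearMap.mem_ker]
    exact lift_sumOrb_one_sub_gop s _
  refine ⟨(⟨_, ha⟩, 0), ?_⟩
  have h1 : lift_lamL (K := K) (X := X) s t (⟨_, ha⟩, 0) =
      lift_sumOrb K t (lift_gop K s⁻¹
        (0 - (1 - lift_gop K s : (X → K) →ₗ[K] (X → K)) (-(lift_gop K s v₁)))) := by
    simp [lift_lamL]
  have h2 : lift_gop K s⁻¹
        (0 - (1 - lift_gop K s : (X → K) →ₗ[K] (X → K)) (-(lift_gop K s v₁))) =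
      (1 - lift_gop K s : (X → K) →ₗ[K] (X → K)) v₁ := by
    simp only [LinearMap.sub_apply, Module.End.one_apply, map_neg, map_sub, zero_sub, neg_sub,
      lift_gop_inv_apply_apply]
  rw [h1, h2]
  have h3 : (1 - lift_gop K s : (X → K) →ₗ[K] (X → K)) v₁ =
      w - (1 - lift_gop K t : (X → K) →ₗ[K] (X → K)) v₂ := by
    rw [← hyw]; abel
  rw [h3, map_sub, lift_sumOrb_one_sub_gop, sub_zero, hw]

include hgen in
theorem lift_card_Om_le :
    Nat.card (lift_Om X t) ≤
      Module.finrank K (LinearMap.range (lift_lamL (K := K) (X := X) s t)) + 1 := by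
  classical
  have : Finite (lift_Om X t) := Quotient.finite _
  letI : Fintype (lift_Om X t) := Fintype.ofFinite _
  have h1 := LinearMap.finrank_range_add_finrank_ker (lift_sumFun (K := K) (X := lift_Om X t))
  rw [Module.finrank_fintype_fun_eq_card] at h1
  have h2 : Module.finrank K (LinearMap.range (lift_sumFun (K := K) (X := lift_Om X t))) ≤ 1 := by
    have := Submodule.finrank_le (LinearMap.range (lift_sumFun (K := K) (X := lift_Om X t)))
    rwa [Module.finrank_self] at this
  have h3 := Submodule.finrank_mono (lift_aug_le_range_lamL (K := K) (X := X) s t hgen)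
  rw [Nat.card_eq_fintype_card]
  omega

include hΓ hQs hQu hQt hgen in
/-- **Abstract Shapiro bound over an arbitrary field** (Euler-characteristic form). -/
theorem lift_shapiro_bound :
    FiniteDimensional K Q ∧
      Module.finrank K Q + Nat.card (lift_Om X s) + Nat.card (lift_Om X (s * t))
        + Nat.card (lift_Om X t) ≤ Fintype.card X + 2 := by
  have hker := lift_ker_psiL_le x₀ Q hΓ s t hQs hQu hgen
  have hfd : FiniteDimensional K Q := by
    let L : Q →ₗ[K] (LinearMap.ker (lift_sumOrb K (X := X) s) ×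
        LinearMap.ker (lift_sumOrb K (X := X) (s * t))) :=
      (lift_psiL x₀ Q hΓ s t hQs hQu).comp (LinearMap.inl K Q (X → K))
    have hL : Function.Injective L := by
      rw [injective_iff_map_eq_zero]
      intro φ hφ
      have h1 : ((φ, (0 : X → K)) : Q × (X → K)) ∈
          LinearMap.ker (lift_psiL x₀ Q hΓ s t hQs hQu) := LinearMap.mem_ker.mpr hφ
      obtain ⟨c, hc⟩ := Submodule.mem_span_singleton.mp (hker h1)
      have h2 := congrArg Prod.fst hc
      simp only [Prod.smul_mk, smul_zero] at h2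
      exact h2.symm
    exact FiniteDimensional.of_injective L hL
  refine ⟨hfd, ?_⟩
  have hrk1 := LinearMap.finrank_range_add_finrank_ker (K := K) (V := ↥Q × (X → K))
    (lift_psiL x₀ Q hΓ s t hQs hQu)
  have hrk2 := LinearMap.finrank_range_add_finrank_ker (lift_lamL (K := K) (X := X) s t)
  have hk : Module.finrank K (LinearMap.ker (lift_psiL x₀ Q hΓ s t hQs hQu)) ≤ 1 := by
    refine (Submodule.finrank_mono hker).trans ?_
    refine (finrank_span_le_card
      ({((0 : Q), (fun _ : X => (1 : K)))} : Set (Q × (X → K)))).trans ?_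
    simp
  have hr : Module.finrank K (LinearMap.range (lift_psiL x₀ Q hΓ s t hQs hQu)) ≤
      Module.finrank K (LinearMap.ker (lift_lamL (K := K) (X := X) s t)) := by
    apply Submodule.finrank_mono
    rintro _ ⟨p, rfl⟩
    rw [LinearMap.mem_ker]
    exact lift_lamL_psiL x₀ Q hΓ s t hQs hQu hQt p
  haveI : Module.Free K ↥Q := Module.Free.of_divisionRing K ↥Q
  have hQV : Module.finrank K (Q × (X → K)) = Module.finrank K Q + Fintype.card X := by
    rw [Module.finrank_prod, Module.finrank_fintype_fun_eq_card]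
  have hdom : Module.finrank K (LinearMap.ker (lift_sumOrb K (X := X) s) ×
      LinearMap.ker (lift_sumOrb K (X := X) (s * t))) =
      Module.finrank K (LinearMap.ker (lift_sumOrb K (X := X) s)) +
        Module.finrank K (LinearMap.ker (lift_sumOrb K (X := X) (s * t))) :=
    Module.finrank_prod
  have hS := lift_finrank_ker_sumOrb (K := K) (X := X) s
  have hU := lift_finrank_ker_sumOrb (K := K) (X := X) (s * t)
  have hΛ := lift_card_Om_le (K := K) (X := X) s t hgen
  omega

end Count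

end Fermat.Agent.S16x
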