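/-
S16 project, module L4 (LIFT), file (b): the `SL(2,ℤ)` instance of the abstract Shapiro bound over an
arbitrary field `K`:  `dim_K Hom_pt(Γ₀(N), K) ≤ 2 dim S₂(Γ₀(N))` (equality for `K = ℂ`: `LiftComplex.lean`).
(helper36)
-/
import Fermat.Agent.S16x.LiftBound
import Fermat.Agent.S21

set_option autoImplicit false

open CongruenceSubgroup ModularCurve ModularCurve.Period ModularGroup
open scoped MatrixGroups

namespace Fermat.Agent.S16x

open Fermat.Agent.S21x

theorem lift_S_pow_four : (S ^ 4 : SL(2, ℤ)) = 1 := by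
  have h : (S ^ 4 : SL(2, ℤ)) = (S * S) * (S * S) := by
    simp only [pow_succ, pow_zero, one_mul, mul_assoc]
  rw [h, ssl_S_mul_S]
  simp

theorem lift_ST_pow_six : ((S * T) ^ 6 : SL(2, ℤ)) = 1 := by
  have h : ((S * T) ^ 6 : SL(2, ℤ)) =
      ((S * T) * (S * T) * (S * T)) * ((S * T) * (S * T) * (S * T)) := by
    simp only [pow_succ, pow_zero, one_mul, mul_assoc]
  rw [h, ssl_ST_cube]
  simp

/-- a conjugate of a power of an element of finite order, if it lies in `Γ₀(N)`, is of finite order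
there -/
theorem lift_isOfFinOrder_conj (N : ℕ) (g r : SL(2, ℤ)) (m : ℕ) (hm : 0 < m) (hg : g ^ m = 1)
    (n : ℕ) (h : r⁻¹ * g ^ n * r ∈ Gamma0 N) :
    IsOfFinOrder (⟨r⁻¹ * g ^ n * r, h⟩ : Gamma0 N) := by
  rw [isOfFinOrder_iff_pow_eq_one]
  refine ⟨m, hm, ?_⟩
  apply Subtype.ext
  rw [SubmonoidClass.coe_pow, OneMemClass.coe_one]
  show (r⁻¹ * g ^ n * r) ^ m = 1
  have : (r⁻¹ * g ^ n * r) ^ m = r⁻¹ * (g ^ n) ^ m * r := by
    have h1 := conj_pow (a := r⁻¹) (b := g ^ n) (i := m)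
    rwa [inv_inv] at h1
  rw [this, ← pow_mul, mul_comm n m, pow_mul, hg, one_pow]
  group

section Field

variable (N : ℕ) (K : Type) [Field K]

theorem lift_extF_eq_zero_of_finOrder {φ : Additive (Gamma0 N) →+ K}
    (hφ : φ ∈ lift_killHoms K (Gamma0 N) (lift_PT N) K) (g r : SL(2, ℤ)) (m : ℕ) (hm : 0 < m)
    (hg : g ^ m = 1) (n : ℕ) : lift_extF (Gamma0 N) φ (r⁻¹ * g ^ n * r) = 0 := by
  by_cases h : r⁻¹ * g ^ n * r ∈ Gamma0 N
  · rw [lift_extF_of_mem φ h]
    exact hφ _ (Or.inr (lift_isOfFinOrder_conj N g r m hm hg n h))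
  · rw [lift_extF, dif_neg h]

theorem lift_extF_eq_zero_of_trace {φ : Additive (Gamma0 N) →+ K}
    (hφ : φ ∈ lift_killHoms K (Gamma0 N) (lift_PT N) K) (g : SL(2, ℤ))
    (hg : (g : Matrix (Fin 2) (Fin 2) ℤ).trace ^ 2 = 4) : lift_extF (Gamma0 N) φ g = 0 := by
  by_cases h : g ∈ Gamma0 N
  · rw [lift_extF_of_mem φ h]
    exact hφ ⟨g, h⟩ (Or.inl hg)
  · rw [lift_extF, dif_neg h]

/-- **Dimension bound in every characteristic.** -/
theorem lift_finrank_killHoms_le' [NeZero N] :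
    FiniteDimensional K (lift_killHoms K (Gamma0 N) (lift_PT N) K) ∧
    6 * Module.finrank K (lift_killHoms K (Gamma0 N) (lift_PT N) K) + 3 * fixS N + 4 * fixU N
      + 6 * orbT N ≤ muN N + 12 := by
  classical
  have : Finite (XN N) := Subgroup.finite_quotient_of_finiteIndex
  letI : Fintype (XN N) := Fintype.ofFinite _
  obtain ⟨hfd, hle⟩ := lift_shapiro_bound (K := K) (G := SL(2, ℤ)) (X := XN N)
    ((1 : SL(2, ℤ)) : XN N) (lift_killHoms K (Gamma0 N) (lift_PT N) K)
    (ssl_mem_Gamma0_iff_smul N) S T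
    (fun φ hφ r n => lift_extF_eq_zero_of_finOrder N K hφ S r 4 (by norm_num) lift_S_pow_four n)
    (fun φ hφ r n =>
      lift_extF_eq_zero_of_finOrder N K hφ (S * T) r 6 (by norm_num) lift_ST_pow_six n)
    (fun φ hφ r n => lift_extF_eq_zero_of_trace N K hφ _ (by
      rw [ssl_trace_conj, ssl_trace_T_pow]; norm_num))
    SpecialLinearGroup.SL2Z_generators
  refine ⟨hfd, ?_⟩
  have hS2 : ∀ x : XN N, (S ^ 2 : SL(2, ℤ)) • x = x := by
    intro x
    rw [pow_two, ssl_S_mul_S]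
    exact ssl_neg_one_smul N x
  have hU3 : ∀ x : XN N, ((S * T) ^ 3 : SL(2, ℤ)) • x = x := by
    intro x
    have : ((S * T) ^ 3 : SL(2, ℤ)) = (S * T) * (S * T) * (S * T) := by
      simp only [pow_succ, pow_zero, one_mul]
    rw [this, ssl_ST_cube]
    exact ssl_neg_one_smul N x
  have hBS := lift_card_orbits_prime (X := XN N) S 2 Nat.prime_two hS2
  have hBU := lift_card_orbits_prime (X := XN N) (S * T) 3 Nat.prime_three hU3
  have h1 : Fintype.card (XN N) = muN N := Nat.card_eq_fintype_card.symm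
  have h2 : Nat.card (MulAction.fixedBy (XN N) S) = fixS N := rfl
  have h3 : Nat.card (MulAction.fixedBy (XN N) (S * T)) = fixU N := rfl
  have h4 : Nat.card (lift_Om (XN N) T) = orbT N := rfl
  rw [h1, h2] at hBS
  rw [h1, h3] at hBU
  rw [h1, h4] at hle
  omega

theorem lift_finrank_killHoms_le [NeZero N] :
    FiniteDimensional K (lift_killHoms K (Gamma0 N) (lift_PT N) K) ∧
    Module.finrank K (lift_killHoms K (Gamma0 N) (lift_PT N) K)
      ≤ 2 * Module.finrank ℂ (CuspForm (Gamma0 N) 2) := by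
  obtain ⟨hfd, hle⟩ := lift_finrank_killHoms_le' N K
  refine ⟨hfd, ?_⟩
  have hS20 := Fermat.Agent.S20.result N
  have hmu : muN N = dedekindPsi N := Fermat.Agent.S24x.card_Q N
  have h2 : fixS N = nuTwo N := Fermat.Agent.S24x.card_fixedBy_S N
  have h3 : fixU N = nuThree N := Fermat.Agent.S24x.card_fixedBy_ST N
  have hc : orbT N = cuspCount N := Fermat.Agent.S24x.card_orbits_T N
  rw [genusFormula, ← hmu, ← h2, ← h3, ← hc] at hS20
  have hq : (6 * Module.finrank K (lift_killHoms K (Gamma0 N) (lift_PT N) K) + 3 * fixS N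
      + 4 * fixU N + 6 * orbT N : ℚ) ≤ muN N + 12 := by exact_mod_cast hle
  have : (Module.finrank K (lift_killHoms K (Gamma0 N) (lift_PT N) K) : ℚ) ≤
      (2 * Module.finrank ℂ (CuspForm (Gamma0 N) 2) : ℕ) := by
    push_cast
    linarith
  exact_mod_cast this

end Field

end Fermat.Agent.S16x
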