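/-
S16 project, module L4 (LIFT), final file: a homomorphism `ψ : Γ₀(N) → ZMod n` killing the parabolic
and the finite-order elements lifts to a PARABOLIC homomorphism `Γ₀(N) → ℤ`
(`H₁(X₀(N), ℤ)` is torsion free).  Assembly of
* `LiftSL2.lift_finrank_killHoms_le`   (Shapiro bound in every characteristic, helper36),
* `LiftComplex.lift_finrank_killHoms_complex` (S21, helper63),
* `LiftAb.lift_ab_exists`              (f.g. abelian groups, helper85),
* `LiftOrb` (orbit sums, helper52).
Exact statement of `SpecLower.lift_exists`.  (helper36)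
-/
import Fermat.Agent.S16x.LiftSL2
import Fermat.Agent.S16x.LiftComplex
import Fermat.Agent.S16x.LiftAb

set_option autoImplicit false

open CongruenceSubgroup ModularCurve ModularCurve.Period ModularGroup
open scoped MatrixGroups

namespace Fermat.Agent.S16x

instance lift_fg_SL2Z : Group.FG SL(2, ℤ) := by
  rw [Group.fg_iff]
  exact ⟨{S, T}, SpecialLinearGroup.SL2Z_generators, by simp⟩

instance lift_fg_Gamma0 (N : ℕ) [NeZero N] : Group.FG (Gamma0 N) :=
  Subgroup.fg_of_index_ne_zero (Gamma0 N)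

theorem lift_exists (N : ℕ) [NeZero N] (n : ℕ) [NeZero n] (ψ : Additive (Gamma0 N) →+ ZMod n)
    (h : lift_IsPT N ψ) :
    ∃ ψ' : Additive (Gamma0 N) →+ ℤ,
      ψ' ∈ ModularCurve.Period.parabolicHoms ℤ (Gamma0 N) ℤ ∧
        ∀ γ, ((ψ' γ : ℤ) : ZMod n) = ψ γ := by
  obtain ⟨ψ', hψ', hred⟩ := lift_ab_exists (Γ := Gamma0 N) (lift_PT N)
    (2 * Module.finrank ℂ (CuspForm (Gamma0 N) 2)) (lift_finrank_killHoms_complex N).ge
    (fun l _ => (lift_finrank_killHoms_le N (ZMod l)).2) n ψ ((lift_isPT_iff N ψ).mp h)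
  refine ⟨ψ', ?_, hred⟩
  rw [mem_parabolicHoms_iff]
  intro γ hγ
  exact hψ' γ (Or.inl hγ)

end Fermat.Agent.S16x
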