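/-
S16 project (Eisenstein ideal index), lower bound, module L1 (abstract part):
Hecke operators on `Hom(Γ, B)` (first cohomology with trivial coefficients) attached to a finite
family of integer matrices `A i` whose right cosets `Γ A i` are permuted by right multiplication
by `Γ`.  (helper95)

Main definitions / results (namespace `Fermat.Agent.S16x`):
* `CohDatum Γ I` : the data `(A i)` + the two axioms (`rel`, `distinct`);
* `CohDatum.op D : (Additive Γ →+ B) →+ (Additive Γ →+ B)` : the operator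
  `(op ψ)(γ) = ∑ i, ψ (γ'_i)` where `γ'_i * A (σ i) = A i * γ`;
* `CohDatum.op_apply_of` : COMPUTATION LEMMA, `op ψ γ = ∑ i, ψ (h i)` for ANY family `h i ∈ Γ`,
  `τ i` with `h i * A (τ i) = A i * γ`;
* `CohDatum.bijective_of_rel` : such a `τ` is automatically a permutation;
* `CohDatum.op_comp` : functoriality in the coefficient group `B`.
-/
import Mathlib

set_option autoImplicit false

namespace Fermat.Agent.S16x

open scoped MatrixGroups

/-- the integer matrix of an element of a subgroup of `SL(2,ℤ)` -/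
def cohMat {Γ : Subgroup SL(2, ℤ)} (γ : Γ) : Matrix (Fin 2) (Fin 2) ℤ :=
  ((γ : SL(2, ℤ)) : Matrix (Fin 2) (Fin 2) ℤ)

section mat

variable {Γ : Subgroup SL(2, ℤ)}

@[simp] theorem cohMat_one : cohMat (1 : Γ) = 1 := by
  simp [cohMat]

@[simp] theorem cohMat_mul (γ δ : Γ) : cohMat (γ * δ) = cohMat γ * cohMat δ := by
  simp [cohMat]

theorem cohMat_inv_mul (γ : Γ) : cohMat γ⁻¹ * cohMat γ = 1 := by
  rw [← cohMat_mul, inv_mul_cancel, cohMat_one]

theorem cohMat_mul_inv (γ : Γ) : cohMat γ * cohMat γ⁻¹ = 1 := by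
  rw [← cohMat_mul, mul_inv_cancel, cohMat_one]

theorem cohMat_injective : Function.Injective (cohMat : Γ → Matrix (Fin 2) (Fin 2) ℤ) := by
  intro γ δ h
  apply Subtype.ext
  apply Subtype.ext
  exact h

/-- right cancellation of an integer matrix with nonzero determinant -/
theorem coh_mul_right_cancel {M M' A : Matrix (Fin 2) (Fin 2) ℤ} (hA : A.det ≠ 0)
    (h : M * A = M' * A) : M = M' := by
  have h2 : M * A * A.adjugate = M' * A * A.adjugate := by rw [h]
  rw [Matrix.mul_assoc, Matrix.mul_assoc, Matrix.mul_adjugate] at h2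
  ext i j
  have h3 := congrFun (congrFun h2 i) j
  simp only [Matrix.mul_smul, Matrix.mul_one, Matrix.smul_apply, smul_eq_mul] at h3
  exact mul_left_cancel₀ hA h3

end mat

/-- Data for a Hecke operator on `Hom(Γ, B)`. -/
structure CohDatum (Γ : Subgroup SL(2, ℤ)) (I : Type) where
  /-- the coset representatives -/
  A : I → Matrix (Fin 2) (Fin 2) ℤ
  det_ne : ∀ i, (A i).det ≠ 0
  rel : ∀ (γ : Γ) (i : I), ∃ (i' : I) (γ' : Γ), cohMat γ' * A i' = A i * cohMat γ
  distinct : ∀ (i i' : I) (γ' : Γ), cohMat γ' * A i' = A i → i = i'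

namespace CohDatum

variable {Γ : Subgroup SL(2, ℤ)} {I : Type} (D : CohDatum Γ I)

/-- uniqueness of the pair `(i', γ')` in `rel` -/
theorem unique_rel {γ : Γ} {i i₁ i₂ : I} {γ₁ γ₂ : Γ}
    (h₁ : cohMat γ₁ * D.A i₁ = D.A i * cohMat γ) (h₂ : cohMat γ₂ * D.A i₂ = D.A i * cohMat γ) :
    i₁ = i₂ ∧ γ₁ = γ₂ := by
  have h : cohMat (γ₂⁻¹ * γ₁) * D.A i₁ = D.A i₂ := by
    rw [cohMat_mul, Matrix.mul_assoc, h₁, ← h₂, ← Matrix.mul_assoc, cohMat_inv_mul, Matrix.one_mul]
  have hi : i₂ = i₁ := D.distinct i₂ i₁ _ h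
  subst hi
  refine ⟨rfl, ?_⟩
  apply cohMat_injective
  exact coh_mul_right_cancel (D.det_ne i₂) (h₁.trans h₂.symm)

/-- the index `σ_γ(i)` -/
noncomputable def idx (γ : Γ) (i : I) : I := (D.rel γ i).choose

/-- the element `γ'_i ∈ Γ` -/
noncomputable def elt (γ : Γ) (i : I) : Γ := (D.rel γ i).choose_spec.choose

theorem elt_spec (γ : Γ) (i : I) :
    cohMat (D.elt γ i) * D.A (D.idx γ i) = D.A i * cohMat γ :=
  (D.rel γ i).choose_spec.choose_spec

theorem idx_eq_of {γ : Γ} {i i' : I} {γ' : Γ} (h : cohMat γ' * D.A i' = D.A i * cohMat γ) :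
    D.idx γ i = i' :=
  (D.unique_rel (D.elt_spec γ i) h).1

theorem elt_eq_of {γ : Γ} {i i' : I} {γ' : Γ} (h : cohMat γ' * D.A i' = D.A i * cohMat γ) :
    D.elt γ i = γ' :=
  (D.unique_rel (D.elt_spec γ i) h).2

theorem idx_mul (γ δ : Γ) (i : I) : D.idx (γ * δ) i = D.idx δ (D.idx γ i) := by
  apply D.idx_eq_of (γ' := D.elt γ i * D.elt δ (D.idx γ i))
  rw [cohMat_mul, Matrix.mul_assoc, D.elt_spec, ← Matrix.mul_assoc, D.elt_spec, Matrix.mul_assoc,
    ← cohMat_mul]

theorem elt_mul (γ δ : Γ) (i : I) :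
    D.elt (γ * δ) i = D.elt γ i * D.elt δ (D.idx γ i) := by
  apply D.elt_eq_of (i' := D.idx δ (D.idx γ i))
  rw [cohMat_mul, Matrix.mul_assoc, D.elt_spec, ← Matrix.mul_assoc, D.elt_spec, Matrix.mul_assoc,
    ← cohMat_mul]

@[simp] theorem idx_one (i : I) : D.idx 1 i = i := by
  apply D.idx_eq_of (γ' := 1)
  simp

@[simp] theorem elt_one (i : I) : D.elt 1 i = 1 := by
  apply D.elt_eq_of (i' := i)
  simp

/-- `σ_γ` as a permutation of `I` -/
noncomputable def perm (γ : Γ) : Equiv.Perm I where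
  toFun := D.idx γ
  invFun := D.idx γ⁻¹
  left_inv i := by rw [← D.idx_mul, mul_inv_cancel, D.idx_one]
  right_inv i := by rw [← D.idx_mul, inv_mul_cancel, D.idx_one]

@[simp] theorem perm_apply (γ : Γ) (i : I) : D.perm γ i = D.idx γ i := rfl

/-- any `τ` admitting a relation family is the permutation `σ_γ` -/
theorem eq_idx_of_rel {γ : Γ} {τ : I → I} {h : I → Γ}
    (hrel : ∀ i, cohMat (h i) * D.A (τ i) = D.A i * cohMat γ) : τ = D.idx γ :=
  funext fun i => (D.idx_eq_of (hrel i)).symm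

theorem bijective_of_rel {γ : Γ} {τ : I → I} {h : I → Γ}
    (hrel : ∀ i, cohMat (h i) * D.A (τ i) = D.A i * cohMat γ) : Function.Bijective τ := by
  rw [D.eq_idx_of_rel hrel]
  exact (D.perm γ).bijective

variable [Fintype I] {B : Type*} [AddCommGroup B]

/-- the Hecke operator on `Hom(Γ, B)` -/
noncomputable def op : (Additive Γ →+ B) →+ (Additive Γ →+ B) where
  toFun ψ := AddMonoidHom.mk' (fun γ => ∑ i, ψ (Additive.ofMul (D.elt (Additive.toMul γ) i)))
    (by
      intro γ δ
      simp only [toMul_add, D.elt_mul, ofMul_mul, map_add, Finset.sum_add_distrib]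
      congr 1
      exact Equiv.sum_comp (D.perm (Additive.toMul γ))
        (fun i => ψ (Additive.ofMul (D.elt (Additive.toMul δ) i))))
  map_zero' := by
    refine AddMonoidHom.ext fun γ => ?_
    simp
  map_add' ψ φ := by
    refine AddMonoidHom.ext fun γ => ?_
    simp [Finset.sum_add_distrib]

theorem op_apply (ψ : Additive Γ →+ B) (γ : Γ) :
    D.op ψ (Additive.ofMul γ) = ∑ i, ψ (Additive.ofMul (D.elt γ i)) := rfl

/-- COMPUTATION LEMMA: the operator can be computed with any relation family. -/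
theorem op_apply_of (ψ : Additive Γ →+ B) {γ : Γ} {τ : I → I} {h : I → Γ}
    (hrel : ∀ i, cohMat (h i) * D.A (τ i) = D.A i * cohMat γ) :
    D.op ψ (Additive.ofMul γ) = ∑ i, ψ (Additive.ofMul (h i)) := by
  rw [op_apply]
  refine Finset.sum_congr rfl fun i _ => ?_
  rw [D.elt_eq_of (hrel i)]

/-- functoriality in the coefficient group -/
theorem op_comp {B' : Type*} [AddCommGroup B'] (φ : B →+ B') (ψ : Additive Γ →+ B) :
    D.op (φ.comp ψ) = φ.comp (D.op ψ) := by
  refine AddMonoidHom.ext fun γ => ?_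
  obtain ⟨γ, rfl⟩ := Additive.ofMul.surjective γ
  simp [op_apply]

theorem op_smul {R : Type*} [Semiring R] [Module R B] (c : R) (ψ : Additive Γ →+ B) :
    D.op (c • ψ) = c • D.op ψ := by
  refine AddMonoidHom.ext fun γ => ?_
  obtain ⟨γ, rfl⟩ := Additive.ofMul.surjective γ
  simp [op_apply, Finset.smul_sum]

/-- the operator as an `R`-linear map -/
noncomputable def opLin (R : Type*) [Semiring R] [Module R B] :
    (Additive Γ →+ B) →ₗ[R] (Additive Γ →+ B) where
  toFun := D.op
  map_add' := map_add _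
  map_smul' c ψ := D.op_smul c ψ

@[simp] theorem opLin_apply (R : Type*) [Semiring R] [Module R B] (ψ : Additive Γ →+ B) :
    D.opLin R ψ = D.op ψ := rfl

end CohDatum

end Fermat.Agent.S16x
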