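/-
S16 project, lower bound, module L1 (concrete part): the Hecke data `T_q` (`q ∤ N`) and `U_q`
(`q ∣ N`) on `Hom(Γ₀(N), B)`, with the SAME coset representatives as the Prelude's
`ModularForm.heckeT` / `heckeU` (`heckeMatrix q j = [[1,j],[0,q]]`, `heckeDiagMatrix q = [[q,0],[0,1]]`).
(helper95)
-/
import Fermat.Agent.S16x.CohDatum
import Fermat.Prelude.Thm_ModularForm_heckeT_slash_eq_self_of_mem_Gamma0
import Fermat.Prelude.Thm_ModularForm_heckeU_slash_eq_self_of_mem_Gamma0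

set_option autoImplicit false

namespace Fermat.Agent.S16x

open scoped MatrixGroups
open CongruenceSubgroup Matrix.SpecialLinearGroup
open P2MW.S_ModularForm_heckeT_slash_eq_self_of_mem_Gamma0.ModularForm.HeckeSlashInvariance

/-- the integer matrix `[[1,j],[0,q]]` -/
def cohMatFin (q : ℕ) (j : ZMod q) : Matrix (Fin 2) (Fin 2) ℤ := !![1, (j.val : ℤ); 0, (q : ℤ)]

/-- the integer matrix `[[q,0],[0,1]]` -/
def cohMatInf (q : ℕ) : Matrix (Fin 2) (Fin 2) ℤ := !![(q : ℤ), 0; 0, 1]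

/-- the integer coset representatives of `T_q` -/
def cohMatT (q : ℕ) (x : OnePoint (ZMod q)) : Matrix (Fin 2) (Fin 2) ℤ :=
  x.elim (cohMatInf q) (cohMatFin q)

@[simp] theorem cohMatT_infty (q : ℕ) : cohMatT q OnePoint.infty = cohMatInf q := rfl

@[simp] theorem cohMatT_coe (q : ℕ) (j : ZMod q) : cohMatT q (j : OnePoint (ZMod q)) = cohMatFin q j :=
  rfl

theorem cohMatFin_det (q : ℕ) (j : ZMod q) : (cohMatFin q j).det = q := by
  simp [cohMatFin, Matrix.det_fin_two_of]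

theorem cohMatInf_det (q : ℕ) : (cohMatInf q).det = q := by
  simp [cohMatInf, Matrix.det_fin_two_of]

theorem cohMatT_det (q : ℕ) (x : OnePoint (ZMod q)) : (cohMatT q x).det = q := by
  induction x using OnePoint.rec with
  | infty => exact cohMatInf_det q
  | coe j => exact cohMatFin_det q j

theorem cohMatFin_map {q : ℕ} (hq : q ≠ 0) (j : ZMod q) :
    (cohMatFin q j).map (Int.cast : ℤ → ℝ) =
      ((ModularForm.heckeMatrix q j.val : GL (Fin 2) ℝ) : Matrix (Fin 2) (Fin 2) ℝ) := by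
  rw [ModularForm.val_heckeMatrix hq]
  ext a b
  fin_cases a <;> fin_cases b <;> simp [cohMatFin]

theorem cohMatInf_map {q : ℕ} (hq : q ≠ 0) :
    (cohMatInf q).map (Int.cast : ℤ → ℝ) =
      ((ModularForm.heckeDiagMatrix q : GL (Fin 2) ℝ) : Matrix (Fin 2) (Fin 2) ℝ) := by
  rw [ModularForm.val_heckeDiagMatrix hq]
  ext a b
  fin_cases a <;> fin_cases b <;> simp [cohMatInf]

theorem cohMatT_map {q : ℕ} (hq : q ≠ 0) (x : OnePoint (ZMod q)) :
    (cohMatT q x).map (Int.cast : ℤ → ℝ) =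
      ((heckeRep q x : GL (Fin 2) ℝ) : Matrix (Fin 2) (Fin 2) ℝ) := by
  induction x using OnePoint.rec with
  | infty => exact cohMatInf_map hq
  | coe j => exact cohMatFin_map hq j

theorem cohMat_map_eq (g : SL(2, ℤ)) :
    ((g : Matrix (Fin 2) (Fin 2) ℤ)).map (Int.cast : ℤ → ℝ) =
      ((mapGL ℝ g : GL (Fin 2) ℝ) : Matrix (Fin 2) (Fin 2) ℝ) := by
  rw [mapGL_coe_matrix]
  rfl

/-- transfer a relation in `GL(2,ℝ)` to integer matrices -/
theorem coh_int_rel_of_real {A A' : Matrix (Fin 2) (Fin 2) ℤ} {a a' : GL (Fin 2) ℝ}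
    (hA : A.map (Int.cast : ℤ → ℝ) = (a : Matrix (Fin 2) (Fin 2) ℝ))
    (hA' : A'.map (Int.cast : ℤ → ℝ) = (a' : Matrix (Fin 2) (Fin 2) ℝ))
    {g g' : SL(2, ℤ)} (h : a * mapGL ℝ g = mapGL ℝ g' * a') :
    (g' : Matrix (Fin 2) (Fin 2) ℤ) * A' = A * (g : Matrix (Fin 2) (Fin 2) ℤ) := by
  have h1 := congrArg (fun u : GL (Fin 2) ℝ => (u : Matrix (Fin 2) (Fin 2) ℝ)) h
  simp only [Units.val_mul] at h1
  rw [← hA, ← hA', ← cohMat_map_eq, ← cohMat_map_eq] at h1
  have h2 : (A * (g : Matrix (Fin 2) (Fin 2) ℤ)).map (Int.cast : ℤ → ℝ) =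
      ((g' : Matrix (Fin 2) (Fin 2) ℤ) * A').map (Int.cast : ℤ → ℝ) := by
    rw [Matrix.map_mul_intCast, Matrix.map_mul_intCast]
    exact h1
  exact (Matrix.map_injective Int.cast_injective h2).symm

theorem coh_det_eq (g : SL(2, ℤ)) : g 0 0 * g 1 1 - g 0 1 * g 1 0 = 1 := by
  have h := g.det_coe
  rwa [Matrix.det_fin_two] at h

/-! ### distinctness of the cosets -/

theorem coh_distinct_fin_fin {q : ℕ} [NeZero q] (g : SL(2, ℤ)) (j j' : ZMod q)
    (h : (g : Matrix (Fin 2) (Fin 2) ℤ) * cohMatFin q j' = cohMatFin q j) : j = j' := by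
  have h00 := congrFun (congrFun h 0) 0
  have h01 := congrFun (congrFun h 0) 1
  simp [cohMatFin, Matrix.mul_apply, Fin.sum_univ_two] at h00 h01
  rw [h00] at h01
  have h2 := congrArg (Int.cast : ℤ → ZMod q) h01
  push_cast at h2
  simpa using h2.symm

theorem coh_distinct_inf_fin {q : ℕ} (hq : 2 ≤ q) (g : SL(2, ℤ)) (j' : ZMod q)
    (h : (g : Matrix (Fin 2) (Fin 2) ℤ) * cohMatFin q j' = cohMatInf q) : False := by
  have h00 := congrFun (congrFun h 0) 0
  have h10 := congrFun (congrFun h 1) 0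
  simp [cohMatFin, cohMatInf, Matrix.mul_apply, Fin.sum_univ_two] at h00 h10
  have hd := coh_det_eq g
  rw [h00, h10] at hd
  have : (q : ℤ) ∣ 1 := ⟨g 1 1, by linear_combination -hd⟩
  have h1 : (q : ℤ) ≤ 1 := Int.le_of_dvd one_pos this
  omega

theorem coh_distinct_fin_inf {q : ℕ} (hq : 2 ≤ q) (g : SL(2, ℤ)) (j : ZMod q)
    (h : (g : Matrix (Fin 2) (Fin 2) ℤ) * cohMatInf q = cohMatFin q j) : False := by
  have h00 := congrFun (congrFun h 0) 0
  simp [cohMatFin, cohMatInf, Matrix.mul_apply, Fin.sum_univ_two] at h00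
  have : (q : ℤ) ∣ 1 := ⟨g 0 0, by linear_combination -h00⟩
  have h1 : (q : ℤ) ≤ 1 := Int.le_of_dvd one_pos this
  omega

/-! ### the data -/

variable (N q : ℕ)

theorem coh_mem_Gamma0_of_dvd {g : SL(2, ℤ)} (h : (N : ℤ) ∣ g 1 0) : g ∈ Gamma0 N :=
  Gamma0_mem.mpr ((ZMod.intCast_zmod_eq_zero_iff_dvd _ _).mpr h)

theorem coh_dvd_of_mem_Gamma0 {g : SL(2, ℤ)} (h : g ∈ Gamma0 N) : (N : ℤ) ∣ g 1 0 :=
  (ZMod.intCast_zmod_eq_zero_iff_dvd _ _).mp (Gamma0_mem.mp h)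

/-- the datum of `T_q` on `Γ₀(N)`, `q ∤ N` prime -/
noncomputable def cohDatumT [Fact q.Prime] (hqN : ¬ q ∣ N) :
    CohDatum (Gamma0 N) (OnePoint (ZMod q)) where
  A := cohMatT q
  det_ne x := by
    rw [cohMatT_det]
    exact_mod_cast (Fact.out : q.Prime).ne_zero
  rel γ x := by
    have hq0 : q ≠ 0 := (Fact.out : q.Prime).ne_zero
    obtain ⟨g', hg', hmul⟩ := heckeRep_mul hqN (γ : SL(2, ℤ)) (coh_dvd_of_mem_Gamma0 N γ.2) x
    exact ⟨_, ⟨g', coh_mem_Gamma0_of_dvd N hg'⟩,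
      coh_int_rel_of_real (cohMatT_map hq0 x) (cohMatT_map hq0 _) hmul⟩
  distinct x x' γ' h := by
    have hq2 : 2 ≤ q := (Fact.out : q.Prime).two_le
    have : NeZero q := ⟨(Fact.out : q.Prime).ne_zero⟩
    induction x using OnePoint.rec with
    | infty =>
      induction x' using OnePoint.rec with
      | infty => rfl
      | coe j' => exact (coh_distinct_inf_fin hq2 _ j' h).elim
    | coe j =>
      induction x' using OnePoint.rec with
      | infty => exact (coh_distinct_fin_inf hq2 _ j h).elim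
      | coe j' => rw [coh_distinct_fin_fin _ j j' h]

/-- the datum of `U_q` on `Γ₀(N)`, `q ∣ N` -/
noncomputable def cohDatumU [NeZero q] (hqN : q ∣ N) : CohDatum (Gamma0 N) (ZMod q) where
  A := cohMatFin q
  det_ne j := by
    rw [cohMatFin_det]
    exact_mod_cast NeZero.ne q
  rel γ j := by
    have hq0 : q ≠ 0 := NeZero.ne q
    have hc : (q : ℤ) ∣ (γ : SL(2, ℤ)) 1 0 :=
      (Int.natCast_dvd_natCast.mpr hqN).trans (coh_dvd_of_mem_Gamma0 N γ.2)
    obtain ⟨g', hg', hmul⟩ := heckeMatrix_mul_of_dvd (γ : SL(2, ℤ)) hc j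
    refine ⟨_, ⟨g', coh_mem_Gamma0_of_dvd N ?_⟩,
      coh_int_rel_of_real (cohMatFin_map hq0 j) (cohMatFin_map hq0 _) hmul⟩
    rw [hg']
    exact Dvd.dvd.mul_left (coh_dvd_of_mem_Gamma0 N γ.2) _
  distinct j j' γ' h := coh_distinct_fin_fin _ j j' h

variable {B : Type*} [AddCommGroup B]

/-- `T_q` on `Hom(Γ₀(N), B)` -/
noncomputable def cohT [Fact q.Prime] (hqN : ¬ q ∣ N) :
    (Additive (Gamma0 N) →+ B) →+ (Additive (Gamma0 N) →+ B) :=
  (cohDatumT N q hqN).op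

/-- `U_q` on `Hom(Γ₀(N), B)` -/
noncomputable def cohU [NeZero q] (hqN : q ∣ N) :
    (Additive (Gamma0 N) →+ B) →+ (Additive (Gamma0 N) →+ B) :=
  (cohDatumU N q hqN).op

end Fermat.Agent.S16x
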