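/-
S16 project, lower bound, module L1 (interface of `SpecLower.lean`): the cohomological Hecke operators
`cohOpGen N ℓ` on `Hom(Γ₀(N), B)` with the explicit representatives `heckeReps N ℓ`.  (helper95)

Exports (exact names/statements of `Fermat/Agent/S16x/SpecLower.lean`):
`heckeReps`, `exists_heckeReps_rel`, `cohOpGen`, `cohOpGen_apply`, `cohOpGen_comp`.
-/
import Fermat.Agent.S16x.CohGamma0

set_option autoImplicit false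

open UpperHalfPlane CongruenceSubgroup
open scoped MatrixGroups

namespace Fermat.Agent.S16x

noncomputable section

/-- The standard representatives of the Hecke double coset at the prime `ℓ`, level `N`:
`[[1,j],[0,ℓ]]` (`0 ≤ j < ℓ`) and, if `ℓ ∤ N`, also `[[ℓ,0],[0,1]]`.
(They are the integer versions of the Prelude's `heckeMatrix ℓ j`, `heckeDiagMatrix ℓ`.) -/
def heckeReps (N ℓ : ℕ) : Finset (Matrix (Fin 2) (Fin 2) ℤ) :=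
  (Finset.range ℓ).image (fun j : ℕ => !![1, (j : ℤ); 0, (ℓ : ℤ)]) ∪
    (if ℓ ∣ N then ∅ else {!![(ℓ : ℤ), 0; 0, 1]})

theorem coh_mem_heckeReps {N ℓ : ℕ} [NeZero ℓ] {A : Matrix (Fin 2) (Fin 2) ℤ} :
    A ∈ heckeReps N ℓ ↔ (∃ j : ZMod ℓ, A = cohMatFin ℓ j) ∨ (¬ ℓ ∣ N ∧ A = cohMatInf ℓ) := by
  unfold heckeReps
  rw [Finset.mem_union, Finset.mem_image]
  refine or_congr ⟨?_, ?_⟩ ⟨?_, ?_⟩
  · rintro ⟨j, hj, rfl⟩
    refine ⟨(j : ZMod ℓ), ?_⟩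
    rw [cohMatFin, ZMod.val_cast_of_lt (Finset.mem_range.mp hj)]
  · rintro ⟨j, rfl⟩
    exact ⟨j.val, Finset.mem_range.mpr j.val_lt, rfl⟩
  · intro h
    by_cases hd : ℓ ∣ N
    · simp [hd] at h
    · simp only [hd, if_false, Finset.mem_singleton] at h
      exact ⟨hd, h⟩
  · rintro ⟨hd, rfl⟩
    simp [hd, cohMatInf]

theorem cohMatFin_mem_heckeReps (N : ℕ) {ℓ : ℕ} [NeZero ℓ] (j : ZMod ℓ) :
    cohMatFin ℓ j ∈ heckeReps N ℓ :=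
  coh_mem_heckeReps.mpr (Or.inl ⟨j, rfl⟩)

theorem cohMatInf_mem_heckeReps {N ℓ : ℕ} [NeZero ℓ] (h : ¬ ℓ ∣ N) :
    cohMatInf ℓ ∈ heckeReps N ℓ :=
  coh_mem_heckeReps.mpr (Or.inr ⟨h, rfl⟩)

theorem cohMatT_mem_heckeReps {N ℓ : ℕ} [NeZero ℓ] (h : ¬ ℓ ∣ N) (x : OnePoint (ZMod ℓ)) :
    cohMatT ℓ x ∈ heckeReps N ℓ := by
  induction x using OnePoint.rec with
  | infty => exact cohMatInf_mem_heckeReps h
  | coe j => exact cohMatFin_mem_heckeReps N j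

theorem coh_mem_heckeReps_T {N ℓ : ℕ} [NeZero ℓ] (_h : ¬ ℓ ∣ N) {A : Matrix (Fin 2) (Fin 2) ℤ}
    (hA : A ∈ heckeReps N ℓ) : ∃ x : OnePoint (ZMod ℓ), A = cohMatT ℓ x := by
  rcases coh_mem_heckeReps.mp hA with ⟨j, rfl⟩ | ⟨-, rfl⟩
  · exact ⟨(j : OnePoint (ZMod ℓ)), rfl⟩
  · exact ⟨OnePoint.infty, rfl⟩

theorem coh_mem_heckeReps_U {N ℓ : ℕ} [NeZero ℓ] (h : ℓ ∣ N) {A : Matrix (Fin 2) (Fin 2) ℤ}
    (hA : A ∈ heckeReps N ℓ) : ∃ j : ZMod ℓ, A = cohMatFin ℓ j := by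
  rcases coh_mem_heckeReps.mp hA with ⟨j, rfl⟩ | ⟨h', -⟩
  · exact ⟨j, rfl⟩
  · exact (h' h).elim

/-- the Hecke datum at the prime `ℓ` on `Γ₀(N)`, indexed by `heckeReps N ℓ` -/
def cohDatumGen (N : ℕ) (ℓ : Nat.Primes) : CohDatum (Gamma0 N) ↥(heckeReps N (ℓ : ℕ)) := by
  haveI : Fact (ℓ : ℕ).Prime := ⟨ℓ.2⟩
  haveI : NeZero (ℓ : ℕ) := ⟨ℓ.2.ne_zero⟩
  exact
  { A := Subtype.val
    det_ne := by
      rintro ⟨A, hA⟩
      have hℓ : ((ℓ : ℕ) : ℤ) ≠ 0 := by exact_mod_cast ℓ.2.ne_zero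
      rcases coh_mem_heckeReps.mp hA with ⟨j, rfl⟩ | ⟨-, rfl⟩
      · show (cohMatFin (ℓ : ℕ) j).det ≠ 0
        rw [cohMatFin_det]; exact hℓ
      · show (cohMatInf (ℓ : ℕ)).det ≠ 0
        rw [cohMatInf_det]; exact hℓ
    rel := by
      rintro γ ⟨A, hA⟩
      by_cases hd : (ℓ : ℕ) ∣ N
      · obtain ⟨j, rfl⟩ := coh_mem_heckeReps_U hd hA
        obtain ⟨j', γ', h⟩ := (cohDatumU N (ℓ : ℕ) hd).rel γ j
        exact ⟨⟨cohMatFin (ℓ : ℕ) j', cohMatFin_mem_heckeReps N j'⟩, γ', h⟩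
      · obtain ⟨x, rfl⟩ := coh_mem_heckeReps_T hd hA
        obtain ⟨x', γ', h⟩ := (cohDatumT N (ℓ : ℕ) hd).rel γ x
        exact ⟨⟨cohMatT (ℓ : ℕ) x', cohMatT_mem_heckeReps hd x'⟩, γ', h⟩
    distinct := by
      rintro ⟨A, hA⟩ ⟨A', hA'⟩ γ' h
      apply Subtype.ext
      show A = A'
      by_cases hd : (ℓ : ℕ) ∣ N
      · obtain ⟨j, rfl⟩ := coh_mem_heckeReps_U hd hA
        obtain ⟨j', rfl⟩ := coh_mem_heckeReps_U hd hA'
        rw [(cohDatumU N (ℓ : ℕ) hd).distinct j j' γ' h]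
      · obtain ⟨x, rfl⟩ := coh_mem_heckeReps_T hd hA
        obtain ⟨x', rfl⟩ := coh_mem_heckeReps_T hd hA'
        rw [(cohDatumT N (ℓ : ℕ) hd).distinct x x' γ' h] }

@[simp] theorem cohDatumGen_A (N : ℕ) (ℓ : Nat.Primes) (A : ↥(heckeReps N (ℓ : ℕ))) :
    (cohDatumGen N ℓ).A A = (A : Matrix (Fin 2) (Fin 2) ℤ) := rfl

/-- for every `g ∈ Γ₀(N)` the representatives are permuted: `A g = h_A · τ(A)` with `h_A ∈ Γ₀(N)`. -/
theorem exists_heckeReps_rel (N : ℕ) [NeZero N] (ℓ : Nat.Primes) (g : Gamma0 N) :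
    ∃ (τ : Matrix (Fin 2) (Fin 2) ℤ → Matrix (Fin 2) (Fin 2) ℤ)
      (h : Matrix (Fin 2) (Fin 2) ℤ → Gamma0 N),
      Set.BijOn τ (heckeReps N ℓ) (heckeReps N ℓ) ∧
      ∀ A ∈ heckeReps N ℓ,
        (((h A : Gamma0 N) : SL(2, ℤ)) : Matrix (Fin 2) (Fin 2) ℤ) * τ A =
          A * (((g : Gamma0 N) : SL(2, ℤ)) : Matrix (Fin 2) (Fin 2) ℤ) := by
  classical
  set D := cohDatumGen N ℓ
  refine ⟨fun A => if hA : A ∈ heckeReps N ℓ then (D.idx g ⟨A, hA⟩ : Matrix (Fin 2) (Fin 2) ℤ) else A,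
    fun A => if hA : A ∈ heckeReps N ℓ then D.elt g ⟨A, hA⟩ else 1, ⟨?_, ?_, ?_⟩, ?_⟩
  · intro A hA
    simp only [Finset.mem_coe] at hA
    simp only [hA, dif_pos, Finset.mem_coe]
    exact (D.idx g ⟨A, hA⟩).2
  · intro A hA A' hA' h
    simp only [Finset.mem_coe] at hA hA'
    simp only [hA, hA', dif_pos] at h
    have h2 : D.idx g ⟨A, hA⟩ = D.idx g ⟨A', hA'⟩ := Subtype.ext h
    have h3 := (D.perm g).injective h2
    exact congrArg Subtype.val h3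
  · intro A hA
    simp only [Finset.mem_coe] at hA
    obtain ⟨⟨A₀, hA₀⟩, h0⟩ := (D.perm g).surjective ⟨A, hA⟩
    refine ⟨A₀, hA₀, ?_⟩
    simp only [hA₀, dif_pos]
    exact congrArg Subtype.val h0
  · intro A hA
    simp only [hA, dif_pos]
    exact D.elt_spec g ⟨A, hA⟩

/-- The Hecke operator (`T_ℓ` if `ℓ ∤ N`, `U_ℓ` if `ℓ ∣ N`) on `Hom(Γ₀(N), B)`, `B` any abelian group:
`(cohOpGen ψ)(g) = ∑_A ψ(h_A)` where `A g = h_A τ(A)`. -/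
def cohOpGen (N : ℕ) [NeZero N] (ℓ : Nat.Primes) {B : Type*} [AddCommGroup B] :
    (Additive (Gamma0 N) →+ B) →+ (Additive (Gamma0 N) →+ B) :=
  (cohDatumGen N ℓ).op

/-- COMPUTATION LEMMA: any solution `(τ, h)` of the relations computes `cohOpGen`. -/
theorem cohOpGen_apply (N : ℕ) [NeZero N] (ℓ : Nat.Primes) {B : Type*} [AddCommGroup B]
    (ψ : Additive (Gamma0 N) →+ B) (g : Gamma0 N)
    (τ : Matrix (Fin 2) (Fin 2) ℤ → Matrix (Fin 2) (Fin 2) ℤ)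
    (h : Matrix (Fin 2) (Fin 2) ℤ → Gamma0 N)
    (hτ : ∀ A ∈ heckeReps N ℓ, τ A ∈ heckeReps N ℓ)
    (hh : ∀ A ∈ heckeReps N ℓ,
        (((h A : Gamma0 N) : SL(2, ℤ)) : Matrix (Fin 2) (Fin 2) ℤ) * τ A =
          A * (((g : Gamma0 N) : SL(2, ℤ)) : Matrix (Fin 2) (Fin 2) ℤ)) :
    cohOpGen N ℓ ψ (Additive.ofMul g) = ∑ A ∈ heckeReps N ℓ, ψ (Additive.ofMul (h A)) := by
  have h1 := (cohDatumGen N ℓ).op_apply_of ψ (γ := g)
    (τ := fun A => ⟨τ A, hτ A A.2⟩) (h := fun A => h A) (fun A => hh A A.2)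
  rw [cohOpGen, h1]
  exact Finset.sum_coe_sort (heckeReps N ℓ) (fun A => ψ (Additive.ofMul (h A)))

/-- functoriality in the coefficient group -/
theorem cohOpGen_comp (N : ℕ) [NeZero N] (ℓ : Nat.Primes) {B B' : Type*} [AddCommGroup B]
    [AddCommGroup B'] (u : B →+ B') (ψ : Additive (Gamma0 N) →+ B) :
    u.comp (cohOpGen N ℓ ψ) = cohOpGen N ℓ (u.comp ψ) :=
  ((cohDatumGen N ℓ).op_comp u ψ).symm

end

end Fermat.Agent.S16x
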