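/-
S16 project, lower bound, module L2a: Hecke-equivariance of the S21 period map,
`periodMap N (T f) = cohOpGen N ℓ (periodMap N f)`.  (helper95)

Proof: `G := ∑_{A ∈ heckeReps} prim f ∘ A` is a primitive of `T f` (Bol's identity in weight 2,
`S22x.iterate_D_act`) which tends to `0` at `i∞`, hence `G = prim (T f)` (uniqueness of such
primitives); then `G(γ z) - G(z)` telescopes by the relations `A γ = h_A τ(A)`.
-/
import Fermat.Agent.S16x.CohHecke
import Fermat.Agent.S16x.CohEquivInv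
import Fermat.Agent.S21x.PeriodMap
import Fermat.Agent.S22x.Bol
import Fermat.Agent.S22x.Cocycle
import Fermat.Prelude.Def_CuspForm_HeckeEvalForms

set_option autoImplicit false

open UpperHalfPlane CongruenceSubgroup ModularCurve ModularCurve.Period CuspForm Derivative
open Filter Topology
open scoped MatrixGroups ModularForm Manifold

namespace Fermat.Agent.S16x

noncomputable section

/-! ### primitives and the weight-2 slash action -/

/-- weight two: `F ∘ α` is a primitive of `f ∣[2] α`. -/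
theorem ce_isPrimitiveOf_comp {F f : ℍ → ℂ} (h : S22x.IsPrimitiveOf F f) {α : GL (Fin 2) ℝ}
    (hα : 0 < α.val.det) :
    S22x.IsPrimitiveOf (fun z => F (α • z)) (f ∣[(2 : ℤ)] α) := by
  have hF : MDiff F := h.mdiff
  have h1 := S22x.iterate_D_act 0 hF hα
  have hact : S22x.act 0 α F = fun z => F (α • z) := by
    funext z
    simp [S22x.act_apply]
  have hm : MDiff (fun z => F (α • z)) := by
    rw [← hact]
    exact S22x.mdiff_act 0 hF hα
  simp only [zero_add, Function.iterate_one, Nat.cast_zero] at h1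
  rw [hact, S22x.D_eq_of_isPrimitiveOf h, S22x.smul_slash_of_det_pos _ hα] at h1
  have h2 := S22x.isPrimitiveOf_of_D_eq hm h1
  have hpi : (2 * (Real.pi : ℂ) * Complex.I) ≠ 0 := Complex.two_pi_I_ne_zero
  have h3 : (2 * (Real.pi : ℂ) * Complex.I) • ((2 * (Real.pi : ℂ) * Complex.I)⁻¹ • (f ∣[(2 : ℤ)] α)) =
      f ∣[(2 : ℤ)] α := by
    rw [smul_smul, mul_inv_cancel₀ hpi, one_smul]
  rwa [h3] at h2

theorem ce_isPrimitiveOf_sum {ι : Type*} (s : Finset ι) {G F : ι → ℍ → ℂ}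
    (h : ∀ i ∈ s, S22x.IsPrimitiveOf (G i) (F i)) :
    S22x.IsPrimitiveOf (fun z => ∑ i ∈ s, G i z) (∑ i ∈ s, F i) := by
  intro z
  have h1 : HasDerivAt (fun w : ℂ => ∑ i ∈ s, (G i ∘ ofComplex) w) (∑ i ∈ s, F i z) (z : ℂ) :=
    HasDerivAt.fun_sum fun i hi => h i hi z
  have h2 : (fun z => ∑ i ∈ s, G i z) ∘ ofComplex = fun w : ℂ => ∑ i ∈ s, (G i ∘ ofComplex) w := by
    funext w
    simp
  rw [h2, Finset.sum_apply]
  exact h1

/-! ### the `GL(2,ℝ)` elements of the representatives -/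

/-- the `GL(2,ℝ)` element of an integer matrix (junk value `1` if the determinant vanishes) -/
def cohGL (A : Matrix (Fin 2) (Fin 2) ℤ) : GL (Fin 2) ℝ :=
  open Classical in
  if h : (A.map (Int.cast : ℤ → ℝ)).det ≠ 0 then
    Matrix.GeneralLinearGroup.mkOfDetNeZero (A.map (Int.cast : ℤ → ℝ)) h
  else 1

theorem ce_det_map (A : Matrix (Fin 2) (Fin 2) ℤ) :
    (A.map (Int.cast : ℤ → ℝ)).det = ((A.det : ℤ) : ℝ) := by
  rw [Matrix.det_fin_two, Matrix.det_fin_two]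
  simp

theorem cohGL_val {A : Matrix (Fin 2) (Fin 2) ℤ} (hA : A.det ≠ 0) :
    ((cohGL A : GL (Fin 2) ℝ) : Matrix (Fin 2) (Fin 2) ℝ) = A.map (Int.cast : ℤ → ℝ) := by
  have h : (A.map (Int.cast : ℤ → ℝ)).det ≠ 0 := by
    rw [ce_det_map]
    exact_mod_cast hA
  rw [cohGL, dif_pos h]
  rfl

theorem cohGL_det_pos {A : Matrix (Fin 2) (Fin 2) ℤ} (hA : 0 < A.det) :
    0 < (cohGL A).val.det := by
  rw [cohGL_val hA.ne', ce_det_map]
  exact_mod_cast hA

theorem cohGL_eq_of_val {A : Matrix (Fin 2) (Fin 2) ℤ} (hA : A.det ≠ 0) {a : GL (Fin 2) ℝ}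
    (h : A.map (Int.cast : ℤ → ℝ) = (a : Matrix (Fin 2) (Fin 2) ℝ)) : cohGL A = a := by
  apply Units.ext
  rw [cohGL_val hA, h]

theorem cohGL_heckeMatrix {ℓ : ℕ} (hℓ : ℓ ≠ 0) (j : ℕ) :
    cohGL !![1, (j : ℤ); 0, (ℓ : ℤ)] = ModularForm.heckeMatrix ℓ j := by
  apply cohGL_eq_of_val
  · rw [Matrix.det_fin_two_of]
    simpa using hℓ
  · rw [ModularForm.val_heckeMatrix hℓ]
    ext a b
    fin_cases a <;> fin_cases b <;> simp

theorem cohGL_heckeDiagMatrix {ℓ : ℕ} (hℓ : ℓ ≠ 0) :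
    cohGL !![(ℓ : ℤ), 0; 0, 1] = ModularForm.heckeDiagMatrix ℓ := by
  apply cohGL_eq_of_val
  · rw [Matrix.det_fin_two_of]
    simpa using hℓ
  · rw [ModularForm.val_heckeDiagMatrix hℓ]
    ext a b
    fin_cases a <;> fin_cases b <;> simp

theorem ce_det_of_mem_heckeReps {N ℓ : ℕ} [NeZero ℓ] {A : Matrix (Fin 2) (Fin 2) ℤ}
    (hA : A ∈ heckeReps N ℓ) : A.det = ℓ := by
  rcases coh_mem_heckeReps.mp hA with ⟨j, rfl⟩ | ⟨-, rfl⟩
  · exact cohMatFin_det ℓ j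
  · exact cohMatInf_det ℓ

/-- the relation between representatives, as an identity of Möbius transformations -/
theorem cohGL_smul_smul {A A' : Matrix (Fin 2) (Fin 2) ℤ} (hA : A.det ≠ 0) (hA' : A'.det ≠ 0)
    {g h : SL(2, ℤ)}
    (hrel : (h : Matrix (Fin 2) (Fin 2) ℤ) * A' = A * (g : Matrix (Fin 2) (Fin 2) ℤ)) (z : ℍ) :
    cohGL A • (g • z) = h • (cohGL A' • z) := by
  have h1 : cohGL A * Matrix.SpecialLinearGroup.mapGL ℝ g =
      Matrix.SpecialLinearGroup.mapGL ℝ h * cohGL A' := by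
    apply Units.ext
    rw [Units.val_mul, Units.val_mul, cohGL_val hA, cohGL_val hA', ← cohMat_map_eq, ← cohMat_map_eq,
      ← Matrix.map_mul_intCast, ← Matrix.map_mul_intCast, hrel]
  rw [ModularGroup.sl_moeb, ModularGroup.sl_moeb, ← mul_smul, ← mul_smul]
  exact congrArg (· • z) h1

/-! ### `z ↦ A z` tends to `i∞` -/

theorem ce_tendsto_heckeMatrix {ℓ : ℕ} (hℓ : ℓ ≠ 0) (j : ℕ) :
    Tendsto (fun z : ℍ => ModularForm.heckeMatrix ℓ j • z) atImInfty atImInfty := by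
  rw [atImInfty, tendsto_comap_iff]
  have h : (UpperHalfPlane.im ∘ fun z : ℍ => ModularForm.heckeMatrix ℓ j • z) =
      fun z : ℍ => z.im / ℓ := by
    funext z
    have := congrArg Complex.im (ModularForm.coe_heckeMatrix_smul hℓ j z)
    simp only [Function.comp_apply]
    rw [← UpperHalfPlane.coe_im, this]
    have h2 : (((z : ℂ) + (j : ℂ)) / (ℓ : ℂ)).im = z.im / ℓ := by
      rw [show ((ℓ : ℂ)) = ((ℓ : ℝ) : ℂ) by simp, Complex.div_ofReal_im]
      simp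
    exact h2
  rw [h]
  have hpos : (0 : ℝ) < ℓ := by exact_mod_cast Nat.pos_of_ne_zero hℓ
  exact Tendsto.atTop_div_const hpos tendsto_comap

theorem ce_tendsto_heckeDiagMatrix {ℓ : ℕ} (hℓ : ℓ ≠ 0) :
    Tendsto (fun z : ℍ => ModularForm.heckeDiagMatrix ℓ • z) atImInfty atImInfty := by
  rw [atImInfty, tendsto_comap_iff]
  have h : (UpperHalfPlane.im ∘ fun z : ℍ => ModularForm.heckeDiagMatrix ℓ • z) =
      fun z : ℍ => ℓ * z.im := by
    funext z
    have := congrArg Complex.im (ModularForm.coe_heckeDiagMatrix_smul hℓ z)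
    simp only [Function.comp_apply]
    rw [← UpperHalfPlane.coe_im, this]
    have h2 : ((ℓ : ℂ) * (z : ℂ)).im = ℓ * z.im := by
      rw [show ((ℓ : ℂ)) = ((ℓ : ℝ) : ℂ) by simp, Complex.im_ofReal_mul]
      simp
    exact h2
  rw [h]
  have hpos : (0 : ℝ) < ℓ := by exact_mod_cast Nat.pos_of_ne_zero hℓ
  exact Tendsto.const_mul_atTop hpos tendsto_comap

theorem ce_tendsto_cohGL {N ℓ : ℕ} [NeZero ℓ] {A : Matrix (Fin 2) (Fin 2) ℤ}
    (hA : A ∈ heckeReps N ℓ) :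
    Tendsto (fun z : ℍ => cohGL A • z) atImInfty atImInfty := by
  have hℓ : ℓ ≠ 0 := NeZero.ne ℓ
  rcases coh_mem_heckeReps.mp hA with ⟨j, rfl⟩ | ⟨-, rfl⟩
  · rw [cohMatFin, cohGL_heckeMatrix hℓ]
    exact ce_tendsto_heckeMatrix hℓ _
  · rw [cohMatInf, cohGL_heckeDiagMatrix hℓ]
    exact ce_tendsto_heckeDiagMatrix hℓ

/-! ### the sum of the slashes over `heckeReps` is the Hecke operator -/

theorem ce_sum_heckeReps {N ℓ : ℕ} (hℓ : ℓ.Prime) {M : Type*} [AddCommMonoid M]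
    (Φ : Matrix (Fin 2) (Fin 2) ℤ → M) :
    ∑ A ∈ heckeReps N ℓ, Φ A =
      (∑ j ∈ Finset.range ℓ, Φ !![1, (j : ℤ); 0, (ℓ : ℤ)]) +
        (if ℓ ∣ N then 0 else Φ !![(ℓ : ℤ), 0; 0, 1]) := by
  unfold heckeReps
  have hdisj : Disjoint ((Finset.range ℓ).image (fun j : ℕ => !![1, (j : ℤ); 0, (ℓ : ℤ)]))
      (if ℓ ∣ N then ∅ else {!![(ℓ : ℤ), 0; 0, 1]}) := by
    by_cases hd : ℓ ∣ N
    · simp [hd]
    · simp only [hd, if_false, Finset.disjoint_singleton_right, Finset.mem_image, not_exists,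
        not_and]
      intro j _ h
      have h11 := congrFun (congrFun h 1) 1
      simp at h11
      have : ℓ = 1 := by exact_mod_cast h11
      exact hℓ.one_lt.ne' this
  rw [Finset.sum_union hdisj, Finset.sum_image]
  · congr 1
    by_cases hd : ℓ ∣ N
    · simp [hd]
    · simp [hd]
  · intro j _ j' _ h
    have h01 := congrFun (congrFun h 0) 1
    simp at h01
    exact_mod_cast h01

theorem ce_sum_slash_T {N ℓ : ℕ} (hℓ : ℓ.Prime) (hd : ¬ ℓ ∣ N) (f : ℍ → ℂ) :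
    ∑ A ∈ heckeReps N ℓ, f ∣[(2 : ℤ)] cohGL A = ModularForm.heckeT 2 ℓ f := by
  rw [ce_sum_heckeReps hℓ, if_neg hd, ModularForm.heckeT_def, cohGL_heckeDiagMatrix hℓ.ne_zero]
  congr 1
  exact Finset.sum_congr rfl fun j _ => by rw [cohGL_heckeMatrix hℓ.ne_zero]

theorem ce_sum_slash_U {N ℓ : ℕ} (hℓ : ℓ.Prime) (hd : ℓ ∣ N) (f : ℍ → ℂ) :
    ∑ A ∈ heckeReps N ℓ, f ∣[(2 : ℤ)] cohGL A = ModularForm.heckeU 2 ℓ f := by
  rw [ce_sum_heckeReps hℓ, if_pos hd, add_zero, ModularForm.heckeU_def]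
  exact Finset.sum_congr rfl fun j _ => by rw [cohGL_heckeMatrix hℓ.ne_zero]

/-- the Prelude generator as a function on `ℍ` -/
theorem ce_coe_heckeFormsGen (N : ℕ) [NeZero N] (ℓ : Nat.Primes) (f : CuspForm (Gamma0 N) 2) :
    (⇑(((heckeFormsGen N 2 ℓ : heckeAlgebra N 2 ∅) :
        Module.End ℂ (CuspForm (Gamma0 N) 2)) f) : ℍ → ℂ) =
      ∑ A ∈ heckeReps N ℓ, (⇑f) ∣[(2 : ℤ)] cohGL A := by
  by_cases hd : (ℓ : ℕ) ∣ N
  · rw [heckeFormsGen_of_dvd hd, heckeAlgebra.coe_U, coe_heckeULin_apply, ce_sum_slash_U ℓ.2 hd]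
  · rw [heckeFormsGen_of_not_dvd hd, heckeAlgebra.coe_T, coe_heckeTLin_apply, ce_sum_slash_T ℓ.2 hd]

/-! ### the primitive of `T f` -/

/-- `G = ∑_A prim f ∘ A` -/
def ceG (N : ℕ) (ℓ : ℕ) (f : CuspForm (Gamma0 N) 2) : ℍ → ℂ :=
  fun z => ∑ A ∈ heckeReps N ℓ, S21x.prim f (cohGL A • z)

theorem ceG_eq_prim (N : ℕ) [NeZero N] (ℓ : Nat.Primes) (f : CuspForm (Gamma0 N) 2) :
    ceG N ℓ f = S21x.prim (((heckeFormsGen N 2 ℓ : heckeAlgebra N 2 ∅) :
        Module.End ℂ (CuspForm (Gamma0 N) 2)) f) := by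
  have : NeZero (ℓ : ℕ) := ⟨ℓ.2.ne_zero⟩
  have hprim : S22x.IsPrimitiveOf (ceG N ℓ f)
      (⇑(((heckeFormsGen N 2 ℓ : heckeAlgebra N 2 ∅) :
        Module.End ℂ (CuspForm (Gamma0 N) 2)) f)) := by
    rw [ce_coe_heckeFormsGen]
    refine ce_isPrimitiveOf_sum _ fun A hA => ?_
    refine ce_isPrimitiveOf_comp (S21x.prim_hasDerivAt f) (cohGL_det_pos ?_)
    rw [ce_det_of_mem_heckeReps hA]
    exact_mod_cast ℓ.2.pos
  have hzero : IsZeroAtImInfty (ceG N ℓ f) := by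
    have h : Tendsto (ceG N ℓ f) atImInfty (𝓝 (∑ A ∈ heckeReps N (ℓ : ℕ), (0 : ℂ))) := by
      refine tendsto_finsetSum _ fun A hA => ?_
      exact (S21x.prim_tendsto_zero f).comp (ce_tendsto_cohGL hA)
    rw [Finset.sum_const_zero] at h
    exact h
  exact S22x.IsPrimitiveOf.eq_of_isZeroAtImInfty hprim (S21x.prim_hasDerivAt _) hzero
    (S21x.prim_tendsto_zero _)

/-! ### the main theorem -/

/-- `P(T f) = T P(f)` for the Prelude generator `heckeFormsGen N 2 ℓ` (`= T_ℓ` or `U_ℓ`). -/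
theorem periodMap_heckeFormsGen (N : ℕ) [NeZero N] (ℓ : Nat.Primes)
    (f : CuspForm (Gamma0 N) 2) :
    periodMap N (((heckeFormsGen N 2 ℓ : heckeAlgebra N 2 ∅) :
        Module.End ℂ (CuspForm (Gamma0 N) 2)) f) = cohOpGen N ℓ (periodMap N f) := by
  have : NeZero (ℓ : ℕ) := ⟨ℓ.2.ne_zero⟩
  refine AddMonoidHom.ext fun γ => ?_
  obtain ⟨γ, rfl⟩ := Additive.ofMul.surjective γ
  obtain ⟨τ, h, hbij, hrel⟩ := exists_heckeReps_rel N ℓ γ
  have hdet : ∀ A ∈ heckeReps N (ℓ : ℕ), A.det ≠ 0 := fun A hA => by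
    rw [ce_det_of_mem_heckeReps hA]
    exact_mod_cast ℓ.2.ne_zero
  rw [cohOpGen_apply N ℓ (periodMap N f) γ τ h (fun A hA => hbij.mapsTo hA) hrel,
    S21x.periodMap_apply _ γ UpperHalfPlane.I, ← ceG_eq_prim]
  simp only [ceG]
  rw [← Finset.sum_sub_distrib]
  have h1 : ∀ A ∈ heckeReps N (ℓ : ℕ),
      S21x.prim f (cohGL A • ((γ : SL(2, ℤ)) • UpperHalfPlane.I)) =
        S21x.prim f (cohGL (τ A) • UpperHalfPlane.I) +
          periodMap N f (Additive.ofMul (h A)) := by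
    intro A hA
    rw [cohGL_smul_smul (hdet A hA) (hdet (τ A) (hbij.mapsTo hA)) (hrel A hA),
      S21x.periodMap_apply f (h A) (cohGL (τ A) • UpperHalfPlane.I)]
    ring
  have h2 : ∑ A ∈ heckeReps N (ℓ : ℕ), S21x.prim f (cohGL (τ A) • UpperHalfPlane.I) =
      ∑ A ∈ heckeReps N (ℓ : ℕ), S21x.prim f (cohGL A • UpperHalfPlane.I) :=
    Finset.sum_nbij τ (fun A hA => hbij.mapsTo hA) hbij.injOn hbij.surjOn (fun _ _ => rfl)
  rw [Finset.sum_sub_distrib, Finset.sum_congr rfl h1, Finset.sum_add_distrib, h2]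
  ring

/-! ### the involution and `periodHomPair` (glue with helper75's `CohEquivInv.lean`) -/

/-- `ι` commutes with the Hecke operators (conjugation by `diag(1,-1)` permutes `heckeReps`). -/
theorem charInvolution_cohOpGen (N : ℕ) [NeZero N] (ℓ : Nat.Primes) {B : Type*} [AddCommGroup B]
    (ψ : Additive (Gamma0 N) →+ B) :
    charInvolution N ℤ B (cohOpGen N ℓ ψ) = cohOpGen N ℓ (charInvolution N ℤ B ψ) :=
  cei_charInvolution_comm N ℓ (fun ψ => cohOpGen N ℓ ψ) (exists_heckeReps_rel N ℓ)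
    (cohOpGen_apply N ℓ) ψ

/-- consequence (with `S21x.periodHomPair_apply`) -/
theorem periodHomPair_heckeFormsGen (N : ℕ) [NeZero N] (ℓ : Nat.Primes)
    (f g : CuspForm (Gamma0 N) 2) :
    periodHomPair N
        ((((heckeFormsGen N 2 ℓ : heckeAlgebra N 2 ∅) :
            Module.End ℂ (CuspForm (Gamma0 N) 2)) f),
         (((heckeFormsGen N 2 ℓ : heckeAlgebra N 2 ∅) :
            Module.End ℂ (CuspForm (Gamma0 N) 2)) g)) =
      cohOpGen N ℓ (periodHomPair N (f, g)) :=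
  cei_periodHomPair_comm N (cohOpGen N ℓ) (charInvolution_cohOpGen N ℓ)
    (fun f => ((heckeFormsGen N 2 ℓ : heckeAlgebra N 2 ∅) :
      Module.End ℂ (CuspForm (Gamma0 N) 2)) f) (periodMap_heckeFormsGen N ℓ) f g

end

end Fermat.Agent.S16x
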