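/-
S16 project, LOWER BOUND, module L5 (owner helper1): the assembly, with the inputs L2 (Hecke
equivariance of `periodHomPair`), L3 (Shimura class) and L4 (lift) taken as HYPOTHESES, so that this
file only depends on `S16x/CohHecke.lean` (L1) and the landed `S21`.
`LowerAssembly.lean` instantiates the hypotheses.
-/
import Fermat.Agent.S16x.CohHecke
import Fermat.Agent.S21
import Fermat.Prelude.Def_CuspForm_HeckeEvalForms
import Fermat.Prelude.Def_HeckeGalois_EichlerShimura

set_option autoImplicit false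

open UpperHalfPlane CongruenceSubgroup ModularCurve ModularCurve.Period CuspForm
open scoped MatrixGroups

namespace Fermat.Agent.S16x

noncomputable section

/-- the operator on cusp forms attached to a polynomial `x` -/
def low_E (p : ℕ) [NeZero p] (x : HeckeAlg) : Module.End ℂ (CuspForm (Gamma0 p) 2) :=
  ((heckeEvalForms p 2 x : heckeAlgebra p 2 ∅) : Module.End ℂ (CuspForm (Gamma0 p) 2))

/-- the integer Eisenstein value of `x` -/
def low_eis (p : ℕ) (x : HeckeAlg) : ℤ := MvPolynomial.aeval (eisensteinSystem p) x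

/-- Induction on the polynomial `x`: a `ℤ`-valued class `ψ` which is the period class of `(f, g)` and
reduces to `c • sh` is transformed into one which is the period class of `(x f, x g)` and reduces to
`(eis(x) c) • sh`. -/
theorem low_step (p : ℕ) [NeZero p] {n : ℕ} (sh : Additive (Gamma0 p) →+ ZMod n)
    (heig : ∀ ℓ : Nat.Primes, cohOpGen p ℓ sh = (eisensteinSystem p ℓ) • sh)
    (hequiv : ∀ (ℓ : Nat.Primes) (f g : CuspForm (Gamma0 p) 2),
      periodHomPair p
        ((((heckeFormsGen p 2 ℓ : heckeAlgebra p 2 ∅) :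
            Module.End ℂ (CuspForm (Gamma0 p) 2)) f),
         (((heckeFormsGen p 2 ℓ : heckeAlgebra p 2 ∅) :
            Module.End ℂ (CuspForm (Gamma0 p) 2)) g)) =
      cohOpGen p ℓ (periodHomPair p (f, g)))
    (x : HeckeAlg) :
    ∀ (ψ : Additive (Gamma0 p) →+ ℤ) (f g : CuspForm (Gamma0 p) 2) (c : ℤ),
      (Int.castAddHom ℂ).comp ψ = periodHomPair p (f, g) →
      (Int.castAddHom (ZMod n)).comp ψ = c • sh →
      ∃ ψ' : Additive (Gamma0 p) →+ ℤ,
        (Int.castAddHom ℂ).comp ψ' = periodHomPair p (low_E p x f, low_E p x g) ∧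
        (Int.castAddHom (ZMod n)).comp ψ' = (low_eis p x * c) • sh := by
  induction x using MvPolynomial.induction_on with
  | C a =>
    intro ψ f g c h1 h2
    refine ⟨a • ψ, ?_, ?_⟩
    · have hE : ∀ f : CuspForm (Gamma0 p) 2, low_E p (MvPolynomial.C a) f = a • f := by
        intro f
        unfold low_E
        rw [heckeEvalForms_C, Subalgebra.coe_algebraMap, Module.algebraMap_end_apply]
      rw [hE, hE, ← Prod.smul_mk, map_zsmul, ← h1]
      ext γ
      simp
    · have : low_eis p (MvPolynomial.C a) = a := by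
        unfold low_eis; simp
      rw [this, mul_smul, ← h2]
      ext γ
      simp
  | add x y hx hy =>
    intro ψ f g c h1 h2
    obtain ⟨ψ₁, h11, h12⟩ := hx ψ f g c h1 h2
    obtain ⟨ψ₂, h21, h22⟩ := hy ψ f g c h1 h2
    refine ⟨ψ₁ + ψ₂, ?_, ?_⟩
    · have hE : ∀ f : CuspForm (Gamma0 p) 2, low_E p (x + y) f = low_E p x f + low_E p y f := by
        intro f
        unfold low_E
        rw [map_add, Subalgebra.coe_add, LinearMap.add_apply]
      rw [hE, hE, ← Prod.mk_add_mk, map_add, ← h11, ← h21]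
      ext γ
      simp
    · have : low_eis p (x + y) = low_eis p x + low_eis p y := by
        unfold low_eis; simp
      rw [this, add_mul, add_smul, ← h12, ← h22]
      ext γ
      simp
  | mul_X x ℓ hx =>
    intro ψ f g c h1 h2
    have hc1 : (Int.castAddHom ℂ).comp (cohOpGen p ℓ ψ) =
        periodHomPair p
          ((((heckeFormsGen p 2 ℓ : heckeAlgebra p 2 ∅) :
              Module.End ℂ (CuspForm (Gamma0 p) 2)) f),
           (((heckeFormsGen p 2 ℓ : heckeAlgebra p 2 ∅) :
              Module.End ℂ (CuspForm (Gamma0 p) 2)) g)) := by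
      rw [cohOpGen_comp, h1, hequiv]
    have hc2 : (Int.castAddHom (ZMod n)).comp (cohOpGen p ℓ ψ) =
        (c * eisensteinSystem p ℓ) • sh := by
      rw [cohOpGen_comp, h2, map_zsmul, heig, mul_smul]
    obtain ⟨ψ', h1', h2'⟩ := hx _ _ _ _ hc1 hc2
    refine ⟨ψ', ?_, ?_⟩
    · have hE : ∀ f : CuspForm (Gamma0 p) 2, low_E p (x * MvPolynomial.X ℓ) f =
          low_E p x (((heckeFormsGen p 2 ℓ : heckeAlgebra p 2 ∅) :
              Module.End ℂ (CuspForm (Gamma0 p) 2)) f) := by
        intro f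
        unfold low_E
        rw [map_mul, Subalgebra.coe_mul, Module.End.mul_apply,
          show (MvPolynomial.X ℓ : HeckeAlg) = heckeGen ℓ from rfl, heckeEvalForms_heckeGen]
      rw [hE, hE]; exact h1'
    · have : low_eis p (x * MvPolynomial.X ℓ) = low_eis p x * eisensteinSystem p ℓ := by
        unfold low_eis; simp
      rw [this, h2']
      congr 1; ring

/-- **Lower bound, abstract form.**  Given a class `sh : Γ₀(p) → ℤ/n` which takes the value `1`, is an
eigenvector of all `cohOpGen p ℓ` with the Eisenstein eigenvalues, and lifts to a `ℤ`-valued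
parabolic homomorphism, and given the Hecke-equivariance of `periodHomPair`: every polynomial `x`
in the Hecke operators which kills `S₂(Γ₀(p))` has Eisenstein value divisible by `n`. -/
theorem low_core (p : ℕ) [NeZero p] {n : ℕ} (sh : Additive (Gamma0 p) →+ ZMod n)
    (hsurj : ∃ g : Gamma0 p, sh (Additive.ofMul g) = 1)
    (heig : ∀ ℓ : Nat.Primes, cohOpGen p ℓ sh = (eisensteinSystem p ℓ) • sh)
    (hlift : ∃ Φ : Additive (Gamma0 p) →+ ℤ, Φ ∈ parabolicHoms ℤ (Gamma0 p) ℤ ∧
      ∀ γ, ((Φ γ : ℤ) : ZMod n) = sh γ)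
    (hequiv : ∀ (ℓ : Nat.Primes) (f g : CuspForm (Gamma0 p) 2),
      periodHomPair p
        ((((heckeFormsGen p 2 ℓ : heckeAlgebra p 2 ∅) :
            Module.End ℂ (CuspForm (Gamma0 p) 2)) f),
         (((heckeFormsGen p 2 ℓ : heckeAlgebra p 2 ∅) :
            Module.End ℂ (CuspForm (Gamma0 p) 2)) g)) =
      cohOpGen p ℓ (periodHomPair p (f, g)))
    (x : HeckeAlg) (hx : heckeEvalForms p 2 x = 0) :
    (n : ℤ) ∣ MvPolynomial.aeval (eisensteinSystem p) x := by
  obtain ⟨Φ, hΦpar, hΦ⟩ := hlift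
  have hmem : (Int.castAddHom ℂ).comp Φ ∈ parabolicHoms ℂ (Gamma0 p) ℂ := by
    intro γ hγ
    have := hΦpar γ hγ
    simp [this]
  rw [← (Fermat.Agent.S21.result p).2] at hmem
  obtain ⟨⟨f, g⟩, hfg⟩ := hmem
  have h2 : (Int.castAddHom (ZMod n)).comp Φ = (1 : ℤ) • sh := by
    ext γ
    simpa using hΦ (Additive.ofMul γ)
  obtain ⟨ψ', h1', h2'⟩ := low_step p sh heig hequiv x Φ f g 1 hfg.symm h2
  have hE : low_E p x = 0 := by
    unfold low_E; rw [hx]; rfl
  rw [hE] at h1'
  have hψ' : ψ' = 0 := by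
    ext γ
    have := DFunLike.congr_fun h1' (Additive.ofMul γ)
    simp only [LinearMap.zero_apply, ← Prod.zero_eq_mk, map_zero] at this
    simpa using this
  obtain ⟨g₀, hg₀⟩ := hsurj
  have := DFunLike.congr_fun h2' (Additive.ofMul g₀)
  rw [hψ'] at this
  simp only [AddMonoidHom.comp_zero, AddMonoidHom.zero_apply, mul_one, AddMonoidHom.smul_apply,
    hg₀, zsmul_eq_mul] at this
  exact (ZMod.intCast_zmod_eq_zero_iff_dvd _ _).mp this.symm

/-- the glue for L2: Hecke-equivariance of `periodHomPair` from that of `periodMap` and the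
commutation of the Hecke operators with `charInvolution`. -/
theorem low_periodHomPair_equiv (N : ℕ) [NeZero N] (ℓ : Nat.Primes)
    (hP : ∀ f : CuspForm (Gamma0 N) 2,
      periodMap N (((heckeFormsGen N 2 ℓ : heckeAlgebra N 2 ∅) :
        Module.End ℂ (CuspForm (Gamma0 N) 2)) f) = cohOpGen N ℓ (periodMap N f))
    (hι : ∀ ψ : Additive (Gamma0 N) →+ ℂ,
      charInvolution N ℤ ℂ (cohOpGen N ℓ ψ) = cohOpGen N ℓ (charInvolution N ℤ ℂ ψ))
    (f g : CuspForm (Gamma0 N) 2) :
    periodHomPair N
        ((((heckeFormsGen N 2 ℓ : heckeAlgebra N 2 ∅) :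
            Module.End ℂ (CuspForm (Gamma0 N) 2)) f),
         (((heckeFormsGen N 2 ℓ : heckeAlgebra N 2 ∅) :
            Module.End ℂ (CuspForm (Gamma0 N) 2)) g)) =
      cohOpGen N ℓ (periodHomPair N (f, g)) := by
  have hι' : ∀ ψ : Additive (Gamma0 N) →+ ℂ,
      charInvolution N ℂ ℂ (cohOpGen N ℓ ψ) = cohOpGen N ℓ (charInvolution N ℂ ℂ ψ) :=
    fun ψ => hι ψ
  rw [S21x.periodHomPair_apply, S21x.periodHomPair_apply, hP, hP, hι', hι', map_add, map_add,
    map_sub]

end

end Fermat.Agent.S16x
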