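/-
S16 project, lower bound, module L3 (interface of `SpecLower.lean`): the SHIMURA CLASS
`shim p : Γ₀(p) → (ℤ/p)ˣ → ℤ/n`, `n = eisensteinNumerator p`, `γ ↦ χ(a_γ mod p)`.  (helper63)

Exports (exact names/statements of `Fermat/Agent/S16x/SpecLower.lean`, section L3):
`eisensteinNumerator_pos`, `shim`, `shim_parabolic`, `shim_finOrder`, `shim_surj`, `shim_eigen`.

* `χ = shimChar p : (ℤ/p)ˣ → ℤ/n` is a surjective character whose kernel contains the `12`-torsion
  (`shimChar_eq_zero`);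
* finite order elements of `SL(2, ℤ)` have order dividing `12` (`shim_mat_pow_twelve`: trace
  recursion), parabolic elements have `a ≡ ±1 mod p`;
* eigenvalues by the `a`-entry rule: `h_A τ(A) = A g` gives `a(h_A) a(τ A) ≡ a(A) a(g) mod p`.
-/
import Fermat.Agent.S16x.CohHecke
import Fermat.Prelude.Def_ModularCurve_ModularUnit
import Fermat.Prelude.Def_HeckeGalois_EichlerShimura

set_option autoImplicit false

open CongruenceSubgroup ModularCurve
open scoped MatrixGroups

namespace Fermat.Agent.S16x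

/-! ## finite order elements of `SL(2, ℤ)` -/

section FiniteOrder

open Matrix

/-- Cayley–Hamilton for `2 × 2` integer matrices of determinant one -/
theorem shim_mat_sq (M : Matrix (Fin 2) (Fin 2) ℤ) (hdet : M.det = 1) :
    M * M = M.trace • M - 1 := by
  rw [Matrix.det_fin_two] at hdet
  ext i j
  fin_cases i <;> fin_cases j <;>
    simp [Matrix.mul_apply, Fin.sum_univ_two, Matrix.trace_fin_two, -zsmul_eq_mul] <;>
    linarith

theorem shim_trace_rec (M : Matrix (Fin 2) (Fin 2) ℤ) (hdet : M.det = 1) (k : ℕ) :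
    (M ^ (k + 2)).trace = M.trace * (M ^ (k + 1)).trace - (M ^ k).trace := by
  have h : M ^ (k + 2) = M.trace • M ^ (k + 1) - M ^ k := by
    rw [pow_add, pow_two, shim_mat_sq M hdet, mul_sub, mul_one, Matrix.mul_smul, ← pow_succ]
  rw [h, Matrix.trace_sub, Matrix.trace_smul, smul_eq_mul]

theorem shim_abs_trace_le (M : Matrix (Fin 2) (Fin 2) ℤ) (hdet : M.det = 1) (n : ℕ) (hn : 0 < n)
    (hM : M ^ n = 1) : |M.trace| ≤ 2 := by
  by_contra hcon
  push Not at hcon
  have h3 : 3 ≤ |M.trace| := by omega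
  have key : ∀ k : ℕ, |(M ^ k).trace| < |(M ^ (k + 1)).trace| ∧ 2 ≤ |(M ^ k).trace| := by
    intro k
    induction k with
    | zero =>
      simp only [pow_zero, zero_add, pow_one, Matrix.trace_one, Fintype.card_fin]
      norm_num
      omega
    | succ k ih =>
      obtain ⟨ih1, ih2⟩ := ih
      refine ⟨?_, by omega⟩
      rw [show k + 1 + 1 = k + 2 from rfl, shim_trace_rec M hdet k]
      have h1 : |M.trace * (M ^ (k + 1)).trace| - |(M ^ k).trace| ≤
          |M.trace * (M ^ (k + 1)).trace - (M ^ k).trace| := abs_sub_abs_le_abs_sub _ _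
      rw [abs_mul] at h1
      have h2 : 3 * |(M ^ (k + 1)).trace| ≤ |M.trace| * |(M ^ (k + 1)).trace| :=
        mul_le_mul_of_nonneg_right h3 (abs_nonneg _)
      omega
  obtain ⟨m, rfl⟩ : ∃ m, n = m + 1 := ⟨n - 1, by omega⟩
  have := key m
  rw [hM, Matrix.trace_one, Fintype.card_fin] at this
  norm_num at this
  omega

/-- unipotent case: `M² = 2M - 1` and `Mⁿ = 1` force `M = 1` -/
theorem shim_eq_one_of_sq (M : Matrix (Fin 2) (Fin 2) ℤ) (hsq : M * M = (2 : ℤ) • M - 1)
    (n : ℕ) (hn : 0 < n) (hM : M ^ n = 1) : M = 1 := by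
  have hpow : ∀ k : ℕ, M ^ k = 1 + (k : ℤ) • (M - 1) := by
    intro k
    induction k with
    | zero => simp
    | succ k ih =>
      rw [pow_succ, ih, add_mul, one_mul, Matrix.smul_mul, sub_mul, one_mul, hsq]
      push_cast
      module
  have h := hpow n
  rw [hM] at h
  have h0 : (n : ℤ) • (M - 1) = 0 := by
    have := h.symm
    rwa [add_eq_left] at this
  have hn0 : (n : ℤ) ≠ 0 := by exact_mod_cast hn.ne'
  have : M - 1 = 0 := by
    ext i j
    have := congrFun (congrFun h0 i) j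
    simp only [Matrix.smul_apply, Matrix.zero_apply, smul_eq_mul] at this
    rcases mul_eq_zero.mp this with h | h
    · exact absurd h hn0
    · simpa using h
  exact sub_eq_zero.mp this

/-- finite order elements of `SL(2, ℤ)` (as matrices) have order dividing `12` -/
theorem shim_mat_pow_twelve (M : Matrix (Fin 2) (Fin 2) ℤ) (hdet : M.det = 1) (n : ℕ)
    (hn : 0 < n) (hM : M ^ n = 1) : M ^ 12 = 1 := by
  have ht := shim_abs_trace_le M hdet n hn hM
  have hsq := shim_mat_sq M hdet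
  rw [abs_le] at ht
  obtain ⟨ht1, ht2⟩ := ht
  have hsq2 : M ^ 2 = M.trace • M - 1 := by rw [pow_two, hsq]
  interval_cases ht : M.trace
  · -- t = -2
    have h1 : (-M) * (-M) = (2 : ℤ) • (-M) - 1 := by
      rw [neg_mul_neg, hsq]; module
    have h2 : (-M) ^ (2 * n) = 1 := by
      rw [Even.neg_pow (even_two_mul n), pow_mul', hM, one_pow]
    have h3 := shim_eq_one_of_sq (-M) h1 (2 * n) (by omega) h2
    have h4 : M = -1 := by rw [← h3, neg_neg]
    rw [h4, Even.neg_pow (by decide), one_pow]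
  · -- t = -1
    have h3 : M ^ 3 = 1 := by
      rw [pow_succ, hsq2, sub_mul, one_mul, Matrix.smul_mul, hsq]; module
    rw [show 12 = 3 * 4 from rfl, pow_mul, h3, one_pow]
  · -- t = 0
    have h2 : M ^ 2 = -1 := by rw [hsq2]; module
    rw [show 12 = 2 * 6 from rfl, pow_mul, h2, Even.neg_pow (by decide), one_pow]
  · -- t = 1
    have h3 : M ^ 3 = -1 := by
      rw [pow_succ, hsq2, sub_mul, one_mul, Matrix.smul_mul, hsq]; module
    rw [show 12 = 3 * 4 from rfl, pow_mul, h3, Even.neg_pow (by decide), one_pow]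
  · -- t = 2
    have h1 := shim_eq_one_of_sq M hsq n hn hM
    rw [h1, one_pow]

end FiniteOrder

noncomputable section

/-! ## the character and the Shimura class -/

theorem eisensteinNumerator_pos (p : ℕ) [Fact p.Prime] : 0 < eisensteinNumerator p := by
  unfold eisensteinNumerator
  have hp := (Fact.out : p.Prime).one_lt
  have h1 : 0 < p - 1 := by omega
  exact Nat.div_pos (Nat.le_of_dvd h1 (Nat.gcd_dvd_left _ _)) (Nat.gcd_pos_of_pos_left _ h1)

instance shim_neZero (p : ℕ) [Fact p.Prime] : NeZero (eisensteinNumerator p) :=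
  ⟨(eisensteinNumerator_pos p).ne'⟩

theorem shim_num_mul_gcd (p : ℕ) : eisensteinNumerator p * Nat.gcd (p - 1) 12 = p - 1 :=
  Nat.div_mul_cancel (Nat.gcd_dvd_left _ _)

/-- the upper left entry modulo `p` -/
def shimEntry (p : ℕ) : Gamma0 p →* ZMod p where
  toFun g := ((g.1 0 0 : ℤ) : ZMod p)
  map_one' := by simp
  map_mul' := by
    rintro ⟨A, hA⟩ ⟨B, hB⟩
    simp only [MulMemClass.mk_mul_mk, Matrix.SpecialLinearGroup.coe_mul,
      (Matrix.two_mul_expl A.1 B).1, Int.cast_add, Int.cast_mul, Gamma0_mem.mp hB, mul_zero,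
      add_zero]

theorem shimEntry_apply (p : ℕ) (g : Gamma0 p) : shimEntry p g = ((g.1 0 0 : ℤ) : ZMod p) := rfl

/-- the upper left entry modulo `p`, as a unit -/
def shimUnit (p : ℕ) : Gamma0 p →* (ZMod p)ˣ := (shimEntry p).toHomUnits

theorem shimUnit_val (p : ℕ) (g : Gamma0 p) :
    ((shimUnit p g : (ZMod p)ˣ) : ZMod p) = ((g.1 0 0 : ℤ) : ZMod p) := rfl

theorem shim_card_units (p : ℕ) [Fact p.Prime] : Nat.card (Additive (ZMod p)ˣ) = p - 1 := by
  rw [show Nat.card (Additive (ZMod p)ˣ) = Nat.card (ZMod p)ˣ from rfl, Nat.card_eq_fintype_card,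
    ZMod.card_units]

theorem shim_dvd_card (p : ℕ) [Fact p.Prime] :
    eisensteinNumerator p ∣ Nat.card (Additive (ZMod p)ˣ) := by
  rw [shim_card_units]
  exact eisensteinNumerator_dvd p

/-- a surjective character `(ℤ/p)ˣ → ℤ/n` (additively written), whose kernel contains the
`12`-torsion -/
def shimChar (p : ℕ) [Fact p.Prime] : Additive (ZMod p)ˣ →+ ZMod (eisensteinNumerator p) :=
  (ZMod.castHom (shim_dvd_card p) (ZMod (eisensteinNumerator p))).toAddMonoidHom.comp
    (zmodAddCyclicAddEquiv (G := Additive (ZMod p)ˣ)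
      (isAddCyclic_additive_iff.2 inferInstance)).symm.toAddMonoidHom

theorem shimChar_surjective (p : ℕ) [Fact p.Prime] : Function.Surjective (shimChar p) := by
  unfold shimChar
  rw [AddMonoidHom.coe_comp]
  exact (ZMod.ringHom_surjective _).comp (AddEquiv.surjective _)

theorem shimChar_eq_zero (p : ℕ) [Fact p.Prime] (u : (ZMod p)ˣ) (hu : u ^ 12 = 1) :
    shimChar p (Additive.ofMul u) = 0 := by
  have hp1 : u ^ (p - 1) = 1 := ZMod.units_pow_card_sub_one_eq_one p u
  have hd : u ^ Nat.gcd (p - 1) 12 = 1 := pow_gcd_eq_one.2 ⟨hp1, hu⟩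
  set m := Nat.card (Additive (ZMod p)ˣ) with hm
  have hm' : m = p - 1 := shim_card_units p
  have : NeZero m := ⟨by
    have := (Fact.out : p.Prime).one_lt
    omega⟩
  set e := zmodAddCyclicAddEquiv (G := Additive (ZMod p)ˣ)
      (isAddCyclic_additive_iff.2 inferInstance) with he
  set z : ZMod m := e.symm (Additive.ofMul u) with hz
  have h1 : Nat.gcd (p - 1) 12 • z = 0 := by
    rw [hz, ← map_nsmul, ← ofMul_pow, hd, ofMul_one, map_zero]
  have h2 : ((Nat.gcd (p - 1) 12 * z.val : ℕ) : ZMod m) = 0 := by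
    rw [Nat.cast_mul, ZMod.natCast_zmod_val, ← nsmul_eq_mul]
    exact h1
  rw [ZMod.natCast_eq_zero_iff] at h2
  have h2' : Nat.gcd (p - 1) 12 * eisensteinNumerator p ∣ Nat.gcd (p - 1) 12 * z.val := by
    rw [mul_comm, shim_num_mul_gcd p]
    obtain ⟨c, hc⟩ := h2
    exact ⟨c, by rw [hc, hm']⟩
  have hgpos : 0 < Nat.gcd (p - 1) 12 := Nat.gcd_pos_of_pos_right _ (by norm_num)
  have h3 : eisensteinNumerator p ∣ z.val := Nat.dvd_of_mul_dvd_mul_left hgpos h2'
  show (ZMod.castHom (shim_dvd_card p) (ZMod (eisensteinNumerator p))) z = 0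
  rw [ZMod.castHom_apply, ← ZMod.natCast_val, ZMod.natCast_eq_zero_iff]
  exact h3

/-- **The Shimura class** `Γ₀(p) → (ℤ/p)ˣ → ℤ/n`. -/
def shim (p : ℕ) [Fact p.Prime] : Additive (Gamma0 p) →+ ZMod (eisensteinNumerator p) :=
  (shimChar p).comp (MonoidHom.toAdditive (shimUnit p))

theorem shim_apply (p : ℕ) [Fact p.Prime] (g : Gamma0 p) :
    shim p (Additive.ofMul g) = shimChar p (Additive.ofMul (shimUnit p g)) := rfl

/-! ## vanishing on parabolic and finite order elements, surjectivity -/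

theorem shim_entry_mul (p : ℕ) (g : Gamma0 p) :
    ((g.1 0 0 : ℤ) : ZMod p) * ((g.1 1 1 : ℤ) : ZMod p) = 1 := by
  have hc : ((g.1 1 0 : ℤ) : ZMod p) = 0 := Gamma0_mem.mp g.2
  have hdet : g.1 0 0 * g.1 1 1 - g.1 0 1 * g.1 1 0 = 1 := by
    have := Matrix.SpecialLinearGroup.det_coe g.1
    rwa [Matrix.det_fin_two] at this
  have := congrArg (Int.cast : ℤ → ZMod p) hdet
  push_cast at this
  rw [hc, mul_zero, sub_zero] at this
  exact this

theorem shim_parabolic (p : ℕ) [Fact p.Prime] (g : Gamma0 p)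
    (hg : ((g : SL(2, ℤ)) : Matrix (Fin 2) (Fin 2) ℤ).trace ^ 2 = 4) :
    shim p (Additive.ofMul g) = 0 := by
  rw [shim_apply]
  apply shimChar_eq_zero
  have had := shim_entry_mul p g
  rw [Matrix.trace_fin_two] at hg
  have ht : g.1 0 0 + g.1 1 1 = 2 ∨ g.1 0 0 + g.1 1 1 = -2 := by
    have h : (g.1 0 0 + g.1 1 1 - 2) * (g.1 0 0 + g.1 1 1 + 2) = 0 := by
      have : (g.1 0 0 + g.1 1 1) ^ 2 = 4 := hg
      linear_combination this
    rcases mul_eq_zero.mp h with h | h
    · left; linarith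
    · right; linarith
  apply Units.ext
  rw [Units.val_pow_eq_pow_val, shimUnit_val, Units.val_one]
  rcases ht with ht | ht
  · have h2 : ((g.1 0 0 : ℤ) : ZMod p) + ((g.1 1 1 : ℤ) : ZMod p) = 2 := by
      have := congrArg (Int.cast : ℤ → ZMod p) ht
      push_cast at this
      exact this
    have h3 : (((g.1 0 0 : ℤ) : ZMod p) - 1) ^ 2 = 0 := by
      linear_combination ((g.1 0 0 : ℤ) : ZMod p) * h2 - had
    have h4 : ((g.1 0 0 : ℤ) : ZMod p) = 1 := by
      have := pow_eq_zero_iff (two_ne_zero) |>.mp h3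
      exact sub_eq_zero.mp this
    rw [h4, one_pow]
  · have h2 : ((g.1 0 0 : ℤ) : ZMod p) + ((g.1 1 1 : ℤ) : ZMod p) = -2 := by
      have := congrArg (Int.cast : ℤ → ZMod p) ht
      push_cast at this
      exact this
    have h3 : (((g.1 0 0 : ℤ) : ZMod p) + 1) ^ 2 = 0 := by
      linear_combination ((g.1 0 0 : ℤ) : ZMod p) * h2 - had
    have h4 : ((g.1 0 0 : ℤ) : ZMod p) = -1 := by
      have := pow_eq_zero_iff (two_ne_zero) |>.mp h3
      exact eq_neg_of_add_eq_zero_left this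
    rw [h4, Even.neg_pow (by decide), one_pow]

theorem shim_finOrder (p : ℕ) [Fact p.Prime] (g : Gamma0 p) (hg : IsOfFinOrder g) :
    shim p (Additive.ofMul g) = 0 := by
  rw [shim_apply]
  apply shimChar_eq_zero
  obtain ⟨n, hn, hgn⟩ := isOfFinOrder_iff_pow_eq_one.mp hg
  have hM : ((g : SL(2, ℤ)) : Matrix (Fin 2) (Fin 2) ℤ) ^ n = 1 := by
    have h1 : ((g ^ n : Gamma0 p) : SL(2, ℤ)) = 1 := by rw [hgn]; rfl
    rw [Subgroup.coe_pow] at h1
    have h2 := congrArg (fun A : SL(2, ℤ) => (A : Matrix (Fin 2) (Fin 2) ℤ)) h1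
    simpa using h2
  have h12 := shim_mat_pow_twelve _ (Matrix.SpecialLinearGroup.det_coe g.1) n hn hM
  have hg12 : g ^ 12 = 1 := by
    apply Subtype.ext
    apply Matrix.SpecialLinearGroup.ext
    intro i j
    have := congrFun (congrFun h12 i) j
    simpa using this
  rw [← map_pow, hg12, map_one]

theorem shim_surj (p : ℕ) [Fact p.Prime] : ∃ g : Gamma0 p, shim p (Additive.ofMul g) = 1 := by
  obtain ⟨u', hu'⟩ := shimChar_surjective p 1
  set u : (ZMod p)ˣ := Additive.toMul u' with hu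
  have hu1 : shimChar p (Additive.ofMul u) = 1 := hu'
  -- integers lifting `u` and `u⁻¹`
  set a : ℤ := ((u : ZMod p).val : ℤ) with ha
  set a' : ℤ := (((u⁻¹ : (ZMod p)ˣ) : ZMod p).val : ℤ) with ha'
  have haz : ((a : ℤ) : ZMod p) = (u : ZMod p) := by
    rw [ha]; push_cast; exact ZMod.natCast_zmod_val _
  have haz' : ((a' : ℤ) : ZMod p) = ((u⁻¹ : (ZMod p)ˣ) : ZMod p) := by
    rw [ha']; push_cast; exact ZMod.natCast_zmod_val _
  have hprod : ((a * a' - 1 : ℤ) : ZMod p) = 0 := by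
    push_cast
    rw [haz, haz', ← Units.val_mul, mul_inv_cancel, Units.val_one, sub_self]
  obtain ⟨k, hk⟩ := (ZMod.intCast_zmod_eq_zero_iff_dvd _ _).mp hprod
  have hdet : (!![a, k; (p : ℤ), a'] : Matrix (Fin 2) (Fin 2) ℤ).det = 1 := by
    rw [Matrix.det_fin_two_of]
    linarith
  let A : SL(2, ℤ) := ⟨!![a, k; (p : ℤ), a'], hdet⟩
  have hA : A ∈ Gamma0 p := by
    rw [Gamma0_mem]
    show (((p : ℤ) : ℤ) : ZMod p) = 0
    simp
  refine ⟨⟨A, hA⟩, ?_⟩
  rw [shim_apply]
  have : shimUnit p ⟨A, hA⟩ = u := by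
    apply Units.ext
    rw [shimUnit_val]
    show ((a : ℤ) : ZMod p) = u
    exact haz
  rw [this, hu1]

/-! ## Eisenstein eigenvalues -/

/-- the upper left entry of an integer matrix as a unit modulo `p` (junk value `1`) -/
def shimMatUnit (p : ℕ) (A : Matrix (Fin 2) (Fin 2) ℤ) : (ZMod p)ˣ := by
  classical
  exact if h : IsUnit ((A 0 0 : ℤ) : ZMod p) then h.unit else 1

theorem shimMatUnit_val (p : ℕ) (A : Matrix (Fin 2) (Fin 2) ℤ)
    (h : IsUnit ((A 0 0 : ℤ) : ZMod p)) :
    ((shimMatUnit p A : (ZMod p)ˣ) : ZMod p) = ((A 0 0 : ℤ) : ZMod p) := by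
  unfold shimMatUnit
  rw [dif_pos h]
  exact h.unit_spec

/-- entries of the representatives -/
theorem shim_heckeReps_entries (p : ℕ) [Fact p.Prime] (ℓ : Nat.Primes)
    {A : Matrix (Fin 2) (Fin 2) ℤ} (hA : A ∈ heckeReps p ℓ) :
    A 1 0 = 0 ∧ IsUnit ((A 0 0 : ℤ) : ZMod p) := by
  unfold heckeReps at hA
  rw [Finset.mem_union] at hA
  rcases hA with hA | hA
  · rw [Finset.mem_image] at hA
    obtain ⟨j, _, rfl⟩ := hA
    refine ⟨by simp, ?_⟩
    simp
  · by_cases hd : (ℓ : ℕ) ∣ p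
    · simp [hd] at hA
    · simp only [hd, if_false, Finset.mem_singleton] at hA
      subst hA
      refine ⟨by simp, ?_⟩
      have : ((ℓ : ℕ) : ZMod p) ≠ 0 := by
        rw [Ne, ZMod.natCast_eq_zero_iff]
        intro h
        exact hd ((Nat.prime_dvd_prime_iff_eq (Fact.out : p.Prime) ℓ.2).mp h ▸ dvd_rfl)
      simpa using this.isUnit

theorem shim_card_heckeReps (p : ℕ) (ℓ : Nat.Primes) :
    (heckeReps p ℓ).card = if (ℓ : ℕ) ∣ p then (ℓ : ℕ) else (ℓ : ℕ) + 1 := by
  unfold heckeReps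
  have hinj : Set.InjOn (fun j : ℕ => (!![1, (j : ℤ); 0, ((ℓ : ℕ) : ℤ)] : Matrix (Fin 2) (Fin 2) ℤ))
      (Finset.range (ℓ : ℕ)) := by
    intro j _ j' _ h
    have := congrFun (congrFun h 0) 1
    simpa using this
  by_cases hd : (ℓ : ℕ) ∣ p
  · simp only [hd, if_true, Finset.union_empty]
    rw [Finset.card_image_of_injOn hinj, Finset.card_range]
  · simp only [hd, if_false]
    rw [Finset.card_union_of_disjoint, Finset.card_image_of_injOn hinj, Finset.card_range,
      Finset.card_singleton]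
    rw [Finset.disjoint_singleton_right, Finset.mem_image]
    rintro ⟨j, _, h⟩
    have := congrFun (congrFun h 1) 1
    have h2 : ((ℓ : ℕ) : ℤ) = 1 := by simpa using this
    have := ℓ.2.one_lt
    omega

theorem shim_eigen (p : ℕ) [Fact p.Prime] (ℓ : Nat.Primes) :
    cohOpGen p ℓ (shim p) = (eisensteinSystem p ℓ) • shim p := by
  classical
  refine AddMonoidHom.ext fun g' => ?_
  obtain ⟨g, rfl⟩ : ∃ g : Gamma0 p, Additive.ofMul g = g' := ⟨Additive.toMul g', rfl⟩
  obtain ⟨τ, h, hτ, hh⟩ := exists_heckeReps_rel p ℓ g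
  rw [cohOpGen_apply p ℓ (shim p) g τ h hτ.mapsTo hh]
  set ψ : Matrix (Fin 2) (Fin 2) ℤ → ZMod (eisensteinNumerator p) :=
    fun A => shimChar p (Additive.ofMul (shimMatUnit p A)) with hψ
  -- the `a`-entry rule
  have hrule : ∀ A ∈ heckeReps p ℓ,
      shim p (Additive.ofMul (h A)) = shim p (Additive.ofMul g) + ψ A - ψ (τ A) := by
    intro A hA
    obtain ⟨hA10, hAu⟩ := shim_heckeReps_entries p ℓ hA
    obtain ⟨hτ10, hτu⟩ := shim_heckeReps_entries p ℓ (hτ.mapsTo hA)
    have hc : ((g.1 1 0 : ℤ) : ZMod p) = 0 := Gamma0_mem.mp g.2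
    have hent := congrFun (congrFun (hh A hA) 0) 0
    rw [Matrix.mul_apply, Matrix.mul_apply, Fin.sum_univ_two, Fin.sum_univ_two, hτ10, mul_zero,
      add_zero] at hent
    have hent' := congrArg (Int.cast : ℤ → ZMod p) hent
    push_cast at hent'
    rw [hc, mul_zero, add_zero] at hent'
    have hunits : shimUnit p (h A) * shimMatUnit p (τ A) = shimMatUnit p A * shimUnit p g := by
      apply Units.ext
      rw [Units.val_mul, Units.val_mul, shimUnit_val, shimUnit_val, shimMatUnit_val p _ hτu,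
        shimMatUnit_val p _ hAu]
      exact hent'
    have := congrArg (fun u => shimChar p (Additive.ofMul u)) hunits
    simp only [ofMul_mul, map_add] at this
    rw [shim_apply, shim_apply, hψ]
    simp only
    rw [eq_sub_iff_add_eq, this, add_comm]
  rw [Finset.sum_congr rfl hrule, Finset.sum_sub_distrib, Finset.sum_add_distrib, Finset.sum_const]
  have hperm : ∑ A ∈ heckeReps p ℓ, ψ (τ A) = ∑ A ∈ heckeReps p ℓ, ψ A :=
    Finset.sum_nbij τ hτ.mapsTo hτ.injOn hτ.surjOn (fun _ _ => rfl)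
  rw [hperm, add_sub_cancel_right, shim_card_heckeReps, AddMonoidHom.smul_apply]
  unfold eisensteinSystem
  by_cases hd : (ℓ : ℕ) ∣ p
  · rw [if_pos hd, if_pos hd, one_smul]
    have hℓp : (ℓ : ℕ) = p := (Nat.prime_dvd_prime_iff_eq ℓ.2 (Fact.out : p.Prime)).mp hd
    rw [hℓp, nsmul_eq_mul]
    have h1 : ((p : ℕ) : ZMod (eisensteinNumerator p)) = 1 := by
      have hp1 : 1 ≤ p := (Fact.out : p.Prime).one_lt.le
      have : ((p - 1 : ℕ) : ZMod (eisensteinNumerator p)) = 0 :=
        (ZMod.natCast_eq_zero_iff _ _).mpr (eisensteinNumerator_dvd p)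
      rw [Nat.cast_sub hp1, Nat.cast_one, sub_eq_zero] at this
      exact this
    rw [h1, one_mul]
  · rw [if_neg hd, if_neg hd]
    rw [show ((1 : ℤ) + ((ℓ : ℕ) : ℤ)) = (((ℓ : ℕ) + 1 : ℕ) : ℤ) by push_cast; ring, natCast_zsmul]

end

end Fermat.Agent.S16x
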