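/-
S16 project, LOWER BOUND, module L5 (owner helper1): the lower bound from the existence of a
`ℤ`-valued parabolic lift of the Shimura class (L4).  Uses L1 `CohHecke`, L2 `CohEquiv`,
L3 `Shimura`, and `LowerCore`.
-/
import Fermat.Agent.S16x.LowerCore
import Fermat.Agent.S16x.CohEquiv
import Fermat.Agent.S16x.Shimura
import Fermat.Agent.S16x.Defs

set_option autoImplicit false

open UpperHalfPlane CongruenceSubgroup ModularCurve ModularCurve.Period CuspForm
open scoped MatrixGroups

namespace Fermat.Agent.S16x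

noncomputable section

theorem low_dvd_of_lift (p : ℕ) [Fact p.Prime]
    (hlift : ∃ Φ : Additive (Gamma0 p) →+ ℤ, Φ ∈ parabolicHoms ℤ (Gamma0 p) ℤ ∧
      ∀ γ, ((Φ γ : ℤ) : ZMod (eisensteinNumerator p)) = shim p γ)
    (x : HeckeAlg) (hx : heckeEvalForms p 2 x = 0) :
    (eisensteinNumerator p : ℤ) ∣ MvPolynomial.aeval (eisensteinSystem p) x :=
  low_core p (shim p) (shim_surj p) (shim_eigen p) hlift
    (fun ℓ f g => periodHomPair_heckeFormsGen p ℓ f g) x hx

/-- helper15's form (`S16x/Spec.lean`, `lower`), from the lift -/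
theorem low_lower_of_lift (p : ℕ) [Fact p.Prime]
    (hlift : ∃ Φ : Additive (Gamma0 p) →+ ℤ, Φ ∈ parabolicHoms ℤ (Gamma0 p) ℤ ∧
      ∀ γ, ((Φ γ : ℤ) : ZMod (eisensteinNumerator p)) = shim p γ) :
    ∀ x : HeckeAlg, heckeEvalForms p 2 x = 0 →
      eisEval p (eisensteinNumerator p) x = 0 := by
  intro x hx
  have h := low_dvd_of_lift p hlift x hx
  show ((MvPolynomial.aeval (eisensteinSystem p) x : ℤ) : ZMod (eisensteinNumerator p)) = 0
  exact (ZMod.intCast_zmod_eq_zero_iff_dvd _ _).mpr h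

end

end Fermat.Agent.S16x
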