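/-
S16 project, LOWER BOUND, final module L5 (owner helper1): `lower_dvd` and `lower`
(exact statement of `S16x/Spec.lean`), from L1-L4.
-/
import Fermat.Agent.S16x.LowerOfLift
import Fermat.Agent.S16x.Lift

set_option autoImplicit false

open UpperHalfPlane CongruenceSubgroup ModularCurve ModularCurve.Period CuspForm
open scoped MatrixGroups

namespace Fermat.Agent.S16x

noncomputable section

/-- L4 applied to the Shimura class -/
theorem low_exists_lift (p : ℕ) [Fact p.Prime] :
    ∃ Φ : Additive (Gamma0 p) →+ ℤ, Φ ∈ parabolicHoms ℤ (Gamma0 p) ℤ ∧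
      ∀ γ, ((Φ γ : ℤ) : ZMod (eisensteinNumerator p)) = shim p γ :=
  lift_exists p (eisensteinNumerator p) (shim p) ⟨shim_parabolic p, shim_finOrder p⟩

/-- **S16, lower bound**: a polynomial in the Hecke operators killing `S₂(Γ₀(p))` has Eisenstein
value divisible by `n = (p-1)/gcd(p-1,12)`. -/
theorem lower_dvd (p : ℕ) [Fact p.Prime] (x : HeckeAlg) (hx : heckeEvalForms p 2 x = 0) :
    (eisensteinNumerator p : ℤ) ∣ MvPolynomial.aeval (eisensteinSystem p) x :=
  low_dvd_of_lift p (low_exists_lift p) x hx

theorem lower (p : ℕ) [Fact p.Prime] :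
    ∀ x : ModularCurve.HeckeAlg, CuspForm.heckeEvalForms p 2 x = 0 →
      eisEval p (ModularCurve.eisensteinNumerator p) x = 0 :=
  low_lower_of_lift p (low_exists_lift p)

end

end Fermat.Agent.S16x
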