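/-
S16 project, module ARITH (for UB `Upper.lean`): arithmetic of `eisensteinNumerator`,
monotonicity of `IsEisCongr` in the modulus, the levels `p = 2, 3`, and the abstract case split
reducing `upper` to the seven `no_congr_*` statements.  Author: helper78.  Prefix `ar_`.
-/
import Fermat.Agent.S16x.Defs
import Fermat.Agent.S07
import Fermat.Agent.S24x.CombIndex
import Fermat.Prelude.Thm_ModularForm_sturm_bound_Gamma0
import Fermat.Prelude.Thm_CongruenceSubgroup_one_mem_strictPeriods_Gamma0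

set_option autoImplicit false

open UpperHalfPlane ModularForm ModularFormClass CongruenceSubgroup ModularCurve

namespace Fermat.Agent.S16x

/-! ### `n · gcd(p-1, 12) = p - 1` -/

theorem ar_num_mul_gcd (p : ℕ) : eisensteinNumerator p * Nat.gcd (p - 1) 12 = p - 1 :=
  Nat.div_mul_cancel (Nat.gcd_dvd_left _ _)

theorem ar_pred_pos (p : ℕ) [hp : Fact p.Prime] : 0 < p - 1 := by
  have := hp.out.two_le; omega

theorem ar_gcd_pos (p : ℕ) : 0 < Nat.gcd (p - 1) 12 :=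
  Nat.gcd_pos_of_pos_right _ (by norm_num)

/-- (6) `0 < n` -/
theorem ar_num_pos (p : ℕ) [Fact p.Prime] : 0 < eisensteinNumerator p := by
  have h := ar_num_mul_gcd p
  have h1 := ar_pred_pos p
  rcases Nat.eq_zero_or_pos (eisensteinNumerator p) with h0 | h0
  · rw [h0, zero_mul] at h; omega
  · exact h0

theorem ar_num_dvd (p : ℕ) : eisensteinNumerator p ∣ p - 1 :=
  ⟨_, (ar_num_mul_gcd p).symm⟩

/-- (4) `p ∤ n` -/
theorem ar_not_self_dvd (p : ℕ) [hp : Fact p.Prime] : ¬ p ∣ eisensteinNumerator p := by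
  intro h
  have h1 := Nat.le_of_dvd (ar_num_pos p) h
  have h2 := Nat.le_of_dvd (ar_pred_pos p) (ar_num_dvd p)
  have := hp.out.two_le
  omega

theorem ar_padic_mul (ℓ p : ℕ) [Fact ℓ.Prime] [Fact p.Prime] :
    padicValNat ℓ (eisensteinNumerator p) + padicValNat ℓ (Nat.gcd (p - 1) 12)
      = padicValNat ℓ (p - 1) := by
  rw [← padicValNat.mul (ar_num_pos p).ne' (ar_gcd_pos p).ne', ar_num_mul_gcd]

/-- (1) `ℓ ≥ 5`: `v_ℓ(n) = v_ℓ(p-1)` -/
theorem ar_padic_large (p ℓ : ℕ) [Fact p.Prime] [hℓ : Fact ℓ.Prime] (h5 : 5 ≤ ℓ) :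
    padicValNat ℓ (eisensteinNumerator p) = padicValNat ℓ (p - 1) := by
  have h := ar_padic_mul ℓ p
  have h0 : padicValNat ℓ (Nat.gcd (p - 1) 12) = 0 := by
    apply padicValNat.eq_zero_of_not_dvd
    intro hd
    have h12 : ℓ ∣ 12 := hd.trans (Nat.gcd_dvd_right _ _)
    have hle : ℓ ≤ 12 := Nat.le_of_dvd (by norm_num) h12
    have hp := hℓ.out
    interval_cases ℓ <;> first | omega | exact absurd hp (by norm_num)
  omega

/-- `v₃(gcd(p-1,12)) = 1` when `3 ∣ p - 1` -/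
theorem ar_padic_three_gcd (a : ℕ) (h3 : 3 ∣ a) (ha : 0 < a) :
    padicValNat 3 (Nat.gcd a 12) = 1 := by
  have hd3 : 3 ∣ Nat.gcd a 12 := Nat.dvd_gcd h3 (by norm_num)
  obtain ⟨d', hd'⟩ := hd3
  have hpos : 0 < Nat.gcd a 12 := Nat.gcd_pos_of_pos_left _ ha
  have hd'pos : d' ≠ 0 := by
    rintro rfl; rw [mul_zero] at hd'; omega
  have h12 : Nat.gcd a 12 ∣ 12 := Nat.gcd_dvd_right _ _
  have hd'4 : d' ∣ 4 := by
    rw [hd'] at h12
    exact (Nat.mul_dvd_mul_iff_left (by norm_num : 0 < 3)).mp (by simpa using h12)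
  have hnd : ¬ 3 ∣ d' := by
    intro h
    have : 3 ∣ 4 := h.trans hd'4
    omega
  haveI : Fact (Nat.Prime 3) := ⟨Nat.prime_three⟩
  rw [hd', padicValNat.mul (by norm_num) hd'pos, padicValNat_self,
    padicValNat.eq_zero_of_not_dvd hnd]

/-- `v₂(gcd(p-1,12)) = 2` when `4 ∣ p - 1` -/
theorem ar_padic_two_gcd (a : ℕ) (h4 : 4 ∣ a) (ha : 0 < a) :
    padicValNat 2 (Nat.gcd a 12) = 2 := by
  have hd4 : 4 ∣ Nat.gcd a 12 := Nat.dvd_gcd h4 (by norm_num)
  obtain ⟨d', hd'⟩ := hd4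
  have hpos : 0 < Nat.gcd a 12 := Nat.gcd_pos_of_pos_left _ ha
  have hd'pos : d' ≠ 0 := by
    rintro rfl; rw [mul_zero] at hd'; omega
  have h12 : Nat.gcd a 12 ∣ 12 := Nat.gcd_dvd_right _ _
  have hd'3 : d' ∣ 3 := by
    rw [hd'] at h12
    exact (Nat.mul_dvd_mul_iff_left (by norm_num : 0 < 4)).mp (by simpa using h12)
  have hnd : ¬ 2 ∣ d' := by
    intro h
    have : 2 ∣ 3 := h.trans hd'3
    omega
  haveI : Fact (Nat.Prime 2) := ⟨Nat.prime_two⟩
  have h42 : padicValNat 2 4 = 2 := by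
    have : (4 : ℕ) = 2 ^ 2 := by norm_num
    rw [this, padicValNat.prime_pow]
  rw [hd', padicValNat.mul (by norm_num) hd'pos, h42,
    padicValNat.eq_zero_of_not_dvd hnd]

/-- (2a) `ℓ = 3`, `p ≡ 1 mod 3` -/
theorem ar_padic_three (p : ℕ) [Fact p.Prime] (h : p % 3 = 1) :
    padicValNat 3 (eisensteinNumerator p) + 1 = padicValNat 3 (p - 1) := by
  haveI : Fact (Nat.Prime 3) := ⟨Nat.prime_three⟩
  have h3 : 3 ∣ p - 1 := by omega
  rw [← ar_padic_mul 3 p, ar_padic_three_gcd (p - 1) h3 (ar_pred_pos p)]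

/-- (2b) `ℓ = 3`, `p ≡ 2 mod 3` -/
theorem ar_not_three_dvd (p : ℕ) [Fact p.Prime] (h : p % 3 = 2) :
    ¬ 3 ∣ eisensteinNumerator p := by
  intro hd
  have := hd.trans (ar_num_dvd p)
  have := ar_pred_pos p
  omega

/-- (3a) `ℓ = 2`, `p ≡ 1 mod 4` -/
theorem ar_padic_two (p : ℕ) [Fact p.Prime] (h : p % 4 = 1) :
    padicValNat 2 (eisensteinNumerator p) + 2 = padicValNat 2 (p - 1) := by
  haveI : Fact (Nat.Prime 2) := ⟨Nat.prime_two⟩
  have h4 : 4 ∣ p - 1 := by omega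
  rw [← ar_padic_mul 2 p, ar_padic_two_gcd (p - 1) h4 (ar_pred_pos p)]

/-- (3b) `ℓ = 2`, `p ≡ 3 mod 4` -/
theorem ar_not_two_dvd (p : ℕ) [Fact p.Prime] (h : p % 4 = 3) :
    ¬ 2 ∣ eisensteinNumerator p := by
  intro hd
  have h2 : 2 ∣ Nat.gcd (p - 1) 12 := Nat.dvd_gcd (by omega) (by norm_num)
  have h4 : 2 * 2 ∣ eisensteinNumerator p * Nat.gcd (p - 1) 12 := Nat.mul_dvd_mul hd h2
  rw [ar_num_mul_gcd] at h4
  have := ar_pred_pos p
  omega

/-! ### (5) monotonicity of `IsEisCongr` in the modulus -/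

theorem ar_isEisCongr_of_dvd {p M M' : ℕ} (h : M' ∣ M) {g : CuspForm (Gamma0 p) 2}
    (hg : IsEisCongr p M g) : IsEisCongr p M' g := by
  intro n
  obtain ⟨m, hm, hc⟩ := hg n
  refine ⟨m, hm, fun hn => ?_⟩
  have h1 := congrArg (ZMod.castHom h (ZMod M')) (hc hn)
  simpa using h1

theorem ar_isEisCongr_pow_le {p ℓ s t : ℕ} (hts : t ≤ s) {g : CuspForm (Gamma0 p) 2}
    (hg : IsEisCongr p (ℓ ^ s) g) : IsEisCongr p (ℓ ^ t) g :=
  ar_isEisCongr_of_dvd (pow_dvd_pow ℓ hts) hg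

/-! ### the levels `2` and `3` -/

theorem ar_sigP_one (p : ℕ) [hp : Fact p.Prime] : sigP p 1 = 1 := by
  have h1 : ¬ p ∣ 1 := fun h => hp.out.one_lt.ne' (Nat.dvd_one.mp h)
  simp [sigP, Finset.filter_singleton, h1]

/-- a congruence for the zero form forces the modulus to be `1` -/
theorem ar_modulus_of_zero (p M : ℕ) [Fact p.Prime] (g : CuspForm (Gamma0 p) 2) (h0 : g = 0)
    (hg : IsEisCongr p M g) : M = 1 := by
  obtain ⟨m, hm, hc⟩ := hg 1
  have hq : ModularFormClass.qCoeff (⇑g) 1 = 0 := by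
    subst h0
    unfold ModularFormClass.qCoeff
    have : qExpansion 1 (⇑(0 : CuspForm (Gamma0 p) 2)) = 0 := by
      rw [FunLike.coe_zero]
      exact qExpansion_zero 1
    rw [this, map_zero]
  rw [hq] at hm
  have hm0 : m = 0 := by exact_mod_cast hm.symm
  have h1 := hc le_rfl
  rw [hm0, ar_sigP_one] at h1
  have h2 : ((1 : ℕ) : ZMod M) = 0 := by simpa using h1.symm
  have := (ZMod.natCast_eq_zero_iff 1 M).mp h2
  exact Nat.dvd_one.mp this

theorem ar_index_three : (Gamma0 3).index = 4 := by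
  rw [Fermat.Agent.S24x.index_Gamma0 3]
  have h := Fermat.Agent.S24x.dedekindPsi_mul_prime_of_not_dvd 1 3 Nat.prime_three one_pos
    (by norm_num)
  simpa using h

theorem ar_cusp_three (f : CuspForm (Gamma0 3) 2) : f = 0 := by
  have hidx : ((2 : ℤ) * ((Gamma0 3).index : ℤ)).toNat / 12 = 0 := by
    rw [ar_index_three]; norm_num
  have h := ModularForm.sturm_bound_Gamma0 3 (ModularFormClass.modularForm f) (by
    intro n hn
    rw [hidx] at hn
    obtain rfl : n = 0 := by omega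
    exact CuspFormClass.qExpansion_coeff_zero f one_pos
      (CongruenceSubgroup.one_mem_strictPeriods_Gamma0 3))
  ext z
  have := DFunLike.congr_fun h z
  simpa using this

/-- `p ∈ {2, 3}`: `S₂(Γ₀(p)) = 0`, so a congruence forces the modulus `1` -/
theorem ar_congr_small (p M : ℕ) [Fact p.Prime] (hp : p = 2 ∨ p = 3)
    (g : CuspForm (Gamma0 p) 2) (hg : IsEisCongr p M g) : M = 1 := by
  rcases hp with rfl | rfl
  · exact ar_modulus_of_zero 2 M g (Fermat.Agent.S07.result g) hg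
  · exact ar_modulus_of_zero 3 M g (ar_cusp_three g) hg

/-! ### the abstract case split -/

theorem ar_upper_of_cases
    (hLarge : ∀ (p ℓ : ℕ) [Fact p.Prime] [Fact ℓ.Prime], 5 ≤ ℓ → 5 ≤ p → ℓ ≠ p →
      ∀ g : CuspForm (Gamma0 p) 2, IsEisCongr p (ℓ ^ (padicValNat ℓ (p - 1) + 1)) g → False)
    (hP : ∀ (p : ℕ) [Fact p.Prime], 5 ≤ p →
      ∀ g : CuspForm (Gamma0 p) 2, IsEisCongr p p g → False)
    (h32 : ∀ (p : ℕ) [Fact p.Prime], 5 ≤ p → p % 3 = 2 →
      ∀ g : CuspForm (Gamma0 p) 2, IsEisCongr p 3 g → False)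
    (h27 : ∀ (p : ℕ) [Fact p.Prime], p % 8 = 7 →
      ∀ g : CuspForm (Gamma0 p) 2, IsEisCongr p 2 g → False)
    (h31 : ∀ (p : ℕ) [Fact p.Prime], p % 3 = 1 →
      ∀ g : CuspForm (Gamma0 p) 2, IsEisCongr p (3 ^ padicValNat 3 (p - 1)) g → False)
    (h21 : ∀ (p : ℕ) [Fact p.Prime], p % 4 = 1 →
      ∀ g : CuspForm (Gamma0 p) 2, IsEisCongr p (2 ^ (padicValNat 2 (p - 1) - 1)) g → False)
    (h23 : ∀ (p : ℕ) [Fact p.Prime], p % 8 = 3 →
      ∀ g : CuspForm (Gamma0 p) 2, IsEisCongr p 2 g → False)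
    (p ℓ s : ℕ) [hp : Fact p.Prime] [hℓ : Fact ℓ.Prime] (g : CuspForm (Gamma0 p) 2)
    (hg : IsEisCongr p (ℓ ^ s) g) : ℓ ^ s ∣ eisensteinNumerator p := by
  by_contra hnd
  have hn0 : eisensteinNumerator p ≠ 0 := (ar_num_pos p).ne'
  have hvs : padicValNat ℓ (eisensteinNumerator p) < s := by
    by_contra hle
    exact hnd ((padicValNat_dvd_iff_le hn0).mpr (not_lt.mp hle))
  set v := padicValNat ℓ (eisensteinNumerator p) with hv
  have hg1 : IsEisCongr p (ℓ ^ (v + 1)) g := ar_isEisCongr_pow_le hvs hg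
  have hℓ2 := hℓ.out.two_le
  -- small levels
  by_cases hsmall : p = 2 ∨ p = 3
  · have h1 := ar_congr_small p _ hsmall g hg1
    have h2 : 2 ≤ ℓ ^ (v + 1) := by
      calc 2 ≤ ℓ := hℓ2
        _ = ℓ ^ 1 := (pow_one ℓ).symm
        _ ≤ ℓ ^ (v + 1) := Nat.pow_le_pow_right (by omega) (by omega)
    omega
  have hp5 : 5 ≤ p := by
    have h2 := hp.out.two_le
    have h4 : p ≠ 4 := by
      rintro rfl
      exact absurd hp.out (by decide)
    push Not at hsmall
    omega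
  have hpodd : p % 2 = 1 := by
    rcases hp.out.eq_two_or_odd with h | h
    · omega
    · exact h
  have hp3 : p % 3 ≠ 0 := by
    intro h
    have h3 : 3 ∣ p := Nat.dvd_of_mod_eq_zero h
    have := (Nat.prime_dvd_prime_iff_eq Nat.prime_three hp.out).mp h3
    omega
  by_cases hℓp : ℓ = p
  · -- ℓ = p
    subst hℓp
    have hv0 : v = 0 := padicValNat.eq_zero_of_not_dvd (ar_not_self_dvd ℓ)
    rw [hv0, zero_add, pow_one] at hg1
    exact hP ℓ hp5 g hg1
  by_cases h2 : ℓ = 2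
  · subst h2
    have h4 : p % 4 = 1 ∨ p % 4 = 3 := by omega
    rcases h4 with h4 | h4
    · have hval := ar_padic_two p h4
      have he : v + 1 = padicValNat 2 (p - 1) - 1 := by omega
      rw [he] at hg1
      exact h21 p h4 g hg1
    · have hv0 : v = 0 := padicValNat.eq_zero_of_not_dvd (ar_not_two_dvd p h4)
      rw [hv0, zero_add, pow_one] at hg1
      have h8 : p % 8 = 3 ∨ p % 8 = 7 := by omega
      rcases h8 with h8 | h8
      · exact h23 p h8 g hg1
      · exact h27 p h8 g hg1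
  by_cases h3 : ℓ = 3
  · subst h3
    have h31' : p % 3 = 1 ∨ p % 3 = 2 := by omega
    rcases h31' with h31' | h31'
    · have hval := ar_padic_three p h31'
      have he : v + 1 = padicValNat 3 (p - 1) := by omega
      rw [he] at hg1
      exact h31 p h31' g hg1
    · have hv0 : v = 0 := padicValNat.eq_zero_of_not_dvd (ar_not_three_dvd p h31')
      rw [hv0, zero_add, pow_one] at hg1
      exact h32 p hp5 h31' g hg1
  -- ℓ ≥ 5
  have hℓ5 : 5 ≤ ℓ := by
    have h4 : ℓ ≠ 4 := by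
      rintro rfl
      exact absurd hℓ.out (by decide)
    omega
  have hval := ar_padic_large p ℓ hℓ5
  rw [hv, hval] at hg1
  exact hLarge p ℓ hℓ5 hp5 hℓp g hg1

end Fermat.Agent.S16x
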