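/-
S16 project, module AN3 `EisForm.lean` (helper26): the weight-2 Eisenstein series of level `N`,
`e_N = (N E₂(Nz) - E₂(z))/24 = (N-1)/24 + ∑ σ'_N(n) qⁿ`, as a `ModularForm (Gamma0 N) 2`.
Spec: `Fermat/Agent/S16x/Spec.lean`, theorem `exists_eisForm`.
-/
import Mathlib
import Fermat.Agent.S16x.Defs
import Fermat.Agent.S22x.Hermite
import Fermat.Agent.S23x.LevelRaise

set_option autoImplicit false

namespace Fermat.Agent.S16x

open UpperHalfPlane ModularForm ModularFormClass CongruenceSubgroup EisensteinSeries Matrix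
open scoped MatrixGroups Manifold
open Fermat.Agent.S23x (m08_g m08_g_smul m08_denom m08_g_det m08_g_det_pos mulN m08_mapGL_apply
  m08_g_apply m08_qParam_mulN)
open Fermat.Agent.S22x (M2pos mapGL_mem_M2pos exists_SL2Z_mul_upper)

noncomputable section

/-! ### arithmetic -/

/-- `σ₁(n) = σ'_N(n) + N σ₁(n/N)·[N ∣ n]`. -/
theorem eis_sigma_eq_sigP_add (N n : ℕ) (hN : 0 < N) (hn : 0 < n) :
    ArithmeticFunction.sigma 1 n = sigP N n + (if N ∣ n then N * ArithmeticFunction.sigma 1 (n / N) else 0) := by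
  rw [ArithmeticFunction.sigma_one_apply, sigP]
  rw [← Finset.sum_filter_add_sum_filter_not n.divisors (fun d => ¬ N ∣ d), add_right_inj]
  simp only [not_not]
  split_ifs with h
  · obtain ⟨m, rfl⟩ := h
    have hm : 0 < m := by
      rcases Nat.eq_zero_or_pos m with h0 | h0
      · subst h0; simp at hn
      · exact h0
    rw [Nat.mul_div_cancel_left _ hN, ArithmeticFunction.sigma_one_apply, Finset.mul_sum]
    symm
    apply Finset.sum_bij (fun d _ => N * d)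
    · intro d hd
      rw [Finset.mem_filter, Nat.mem_divisors]
      rw [Nat.mem_divisors] at hd
      exact ⟨⟨Nat.mul_dvd_mul_left N hd.1, by positivity⟩, Dvd.intro _ rfl⟩
    · intro a _ b _ hab
      exact Nat.eq_of_mul_eq_mul_left hN hab
    · intro d hd
      rw [Finset.mem_filter, Nat.mem_divisors] at hd
      obtain ⟨⟨hd1, _⟩, ⟨e, rfl⟩⟩ := hd
      refine ⟨e, ?_, rfl⟩
      rw [Nat.mem_divisors]
      exact ⟨(Nat.mul_dvd_mul_iff_left hN).mp hd1, hm.ne'⟩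
    · intro d _; rfl
  · apply Finset.sum_eq_zero
    intro d hd
    rw [Finset.mem_filter, Nat.mem_divisors] at hd
    exact absurd (dvd_trans hd.2 hd.1.1) h

/-! ### slash by `diag(N,1)` and the cocycle `D2` -/

/-- slash by `diag(N,1)` in weight 2: `(f ∣ α_N)(z) = N f(Nz)`. -/
theorem eis_slash_g (N : ℕ) [NeZero N] (f : ℍ → ℂ) (z : ℍ) :
    (f ∣[(2 : ℤ)] (m08_g N)) z = (N : ℂ) * f (mulN N z) := by
  have hpos : (0 : ℝ) < N := Nat.cast_pos.mpr (NeZero.pos N)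
  rw [ModularForm.slash_apply, m08_g_smul, m08_denom, m08_g_det, _root_.one_zpow, mul_one,
    abs_of_pos hpos]
  have hσ : σ (m08_g N) = ContinuousAlgEquiv.refl ℝ ℂ := by
    unfold σ
    rw [if_pos (m08_g_det_pos N)]
  rw [hσ]
  simp only [ContinuousAlgEquiv.refl_apply]
  norm_num
  ring

/-- conjugating `Γ₀(N)` by `diag(N,1)` lands in `SL₂(ℤ)`. -/
theorem eis_conj (N : ℕ) [NeZero N] (γ : SL(2, ℤ)) (hγ : γ ∈ Gamma0 N) :
    ∃ δ : SL(2, ℤ), (N : ℤ) * δ 1 0 = γ 1 0 ∧ δ 1 1 = γ 1 1 ∧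
      m08_g N * SpecialLinearGroup.mapGL ℝ γ = SpecialLinearGroup.mapGL ℝ δ * m08_g N := by
  rw [Gamma0_mem] at hγ
  obtain ⟨c', hc'⟩ : (N : ℤ) ∣ γ 1 0 := (ZMod.intCast_zmod_eq_zero_iff_dvd _ N).mp hγ
  have hdet : γ 0 0 * γ 1 1 - γ 0 1 * γ 1 0 = 1 := by
    have := γ.det_coe
    rwa [Matrix.det_fin_two] at this
  have hdet' : (!![γ 0 0, N * γ 0 1; c', γ 1 1] : Matrix (Fin 2) (Fin 2) ℤ).det = 1 := by
    rw [Matrix.det_fin_two]
    simp only [Matrix.of_apply, Matrix.cons_val', Matrix.cons_val_zero, Matrix.cons_val_one,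
      Matrix.empty_val', Matrix.cons_val_fin_one]
    rw [hc'] at hdet
    linear_combination hdet
  set δ : SL(2, ℤ) := ⟨!![γ 0 0, N * γ 0 1; c', γ 1 1], hdet'⟩ with hδ
  have hδ00 : δ 0 0 = γ 0 0 := rfl
  have hδ01 : δ 0 1 = N * γ 0 1 := rfl
  have hδ10 : δ 1 0 = c' := rfl
  have hδ11 : δ 1 1 = γ 1 1 := rfl
  refine ⟨δ, by rw [hδ10, hc'], hδ11, ?_⟩
  have hc'' : ((γ 1 0 : ℤ) : ℝ) = (N : ℝ) * (c' : ℝ) := by rw [hc']; push_cast; ring
  apply Matrix.GeneralLinearGroup.ext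
  intro i j
  simp only [Matrix.GeneralLinearGroup.coe_mul, Matrix.mul_apply, Fin.sum_univ_two,
    m08_mapGL_apply, m08_g_apply]
  fin_cases i <;> fin_cases j <;>
    simp [hδ00, hδ01, hδ10, hδ11, hc''] <;> ring

/-- `(D2 δ) ∣ α_N = D2 γ` when `α γ = δ α`. -/
theorem eis_D2_slash (N : ℕ) [NeZero N] (γ δ : SL(2, ℤ)) (h10 : (N : ℤ) * δ 1 0 = γ 1 0)
    (h11 : δ 1 1 = γ 1 1) : (D2 δ) ∣[(2 : ℤ)] (m08_g N) = D2 γ := by
  funext z
  rw [eis_slash_g]
  simp only [D2]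
  have h1 : denom δ (mulN N z) = denom γ z := by
    simp only [ModularGroup.denom_apply]
    rw [← h10, h11]
    simp [mulN]
    ring
  rw [h1, ← h10]
  push_cast
  ring

/-! ### the raw function -/

theorem eis_sigma_g (N : ℕ) [NeZero N] (c : ℂ) : σ (m08_g N) c = c := by
  have hσ : σ (m08_g N) = ContinuousAlgEquiv.refl ℝ ℂ := by
    unfold σ
    rw [if_pos (m08_g_det_pos N)]
  rw [hσ]; rfl

/-- the raw function `N E₂(Nz) - E₂(z)`. -/
def eis_raw (N : ℕ) [NeZero N] : ℍ → ℂ := E2 ∣[(2 : ℤ)] (m08_g N) - E2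

theorem eis_raw_apply (N : ℕ) [NeZero N] (z : ℍ) :
    eis_raw N z = (N : ℂ) * E2 (mulN N z) - E2 z := by
  simp [eis_raw, eis_slash_g]

theorem eis_raw_mdiff (N : ℕ) [NeZero N] : MDiff (eis_raw N) :=
  (E2_mdifferentiable.slash 2 (m08_g N)).sub E2_mdifferentiable

theorem eis_SL_slash (f : ℍ → ℂ) (γ : SL(2, ℤ)) :
    f ∣[(2 : ℤ)] γ = f ∣[(2 : ℤ)] (SpecialLinearGroup.mapGL ℝ γ) := rfl

theorem eis_raw_slash (N : ℕ) [NeZero N] (γ : SL(2, ℤ)) (hγ : γ ∈ Gamma0 N) :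
    eis_raw N ∣[(2 : ℤ)] γ = eis_raw N := by
  obtain ⟨δ, h10, h11, hconj⟩ := eis_conj N γ hγ
  have h1 : (E2 ∣[(2 : ℤ)] (m08_g N)) ∣[(2 : ℤ)] γ =
      E2 ∣[(2 : ℤ)] (m08_g N) - (1 / (2 * riemannZeta 2)) • D2 γ := by
    rw [eis_SL_slash, ← SlashAction.slash_mul, hconj, SlashAction.slash_mul, ← eis_SL_slash,
      E2_slash_action, sub_eq_add_neg, SlashAction.add_slash, SlashAction.neg_slash,
      ModularForm.smul_slash, eis_sigma_g, eis_D2_slash N γ δ h10 h11, ← sub_eq_add_neg]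
  rw [eis_raw, sub_eq_add_neg, SlashAction.add_slash, SlashAction.neg_slash, h1, E2_slash_action]
  abel

/-! ### boundedness at the cusps -/

/-- `D2 γ` is bounded at `i∞`. -/
theorem eis_D2_bdd (γ : SL(2, ℤ)) : IsBoundedAtImInfty (D2 γ) := by
  rw [isBoundedAtImInfty_iff]
  refine ⟨2 * Real.pi, 1, fun z hz => ?_⟩
  simp only [D2]
  by_cases hc : (γ 1 0 : ℤ) = 0
  · simp [hc]; positivity
  · have hcR : (0 : ℝ) < |((γ 1 0 : ℤ) : ℝ)| := abs_pos.mpr (by exact_mod_cast hc)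
    have hden : |((γ 1 0 : ℤ) : ℝ)| ≤ ‖denom γ z‖ := by
      calc |((γ 1 0 : ℤ) : ℝ)| ≤ |((γ 1 0 : ℤ) : ℝ)| * z.im := by nlinarith
        _ = |(denom γ z).im| := by
            simp only [ModularGroup.denom_apply]
            simp [abs_mul, abs_of_pos z.im_pos]
        _ ≤ ‖denom γ z‖ := Complex.abs_im_le_norm _
    rw [norm_div]
    have hnum : ‖2 * (Real.pi : ℂ) * Complex.I * ((γ 1 0 : ℤ) : ℂ)‖ = 2 * Real.pi * |((γ 1 0 : ℤ) : ℝ)| := by
      simp [abs_of_pos Real.pi_pos]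
    rw [hnum, div_le_iff₀ (lt_of_lt_of_le hcR hden)]
    have := Real.pi_pos
    nlinarith

theorem eis_g_mem_M2pos (N : ℕ) [NeZero N] : m08_g N ∈ M2pos := by
  refine ⟨?_, fun i j => ?_⟩
  · have := m08_g_det_pos N
    simpa using this
  · fin_cases i <;> fin_cases j
    · exact ⟨N, by simp [m08_g, Matrix.GeneralLinearGroup.mkOfDetNeZero]⟩
    · exact ⟨0, by simp [m08_g, Matrix.GeneralLinearGroup.mkOfDetNeZero]⟩
    · exact ⟨0, by simp [m08_g, Matrix.GeneralLinearGroup.mkOfDetNeZero]⟩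
    · exact ⟨1, by simp [m08_g, Matrix.GeneralLinearGroup.mkOfDetNeZero]⟩

theorem eis_E2_slash_SL_bdd (γ : SL(2, ℤ)) : IsBoundedAtImInfty (E2 ∣[(2 : ℤ)] γ) := by
  rw [E2_slash_action, sub_eq_add_neg]
  exact isBoundedAtImInfty_E2.add ((eis_D2_bdd γ).smul _).neg

/-- `E₂ ∣ g` is bounded at `i∞` for every integral `g` of positive determinant. -/
theorem eis_E2_slash_bdd {g : GL (Fin 2) ℝ} (hg : g ∈ M2pos) :
    IsBoundedAtImInfty (E2 ∣[(2 : ℤ)] g) := by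
  obtain ⟨γ, b, _, hb10, rfl⟩ := exists_SL2Z_mul_upper hg
  rw [SlashAction.slash_mul, ← eis_SL_slash]
  exact (eis_E2_slash_SL_bdd γ).slash 2 hb10

theorem eis_raw_slash_bdd (N : ℕ) [NeZero N] (γ : SL(2, ℤ)) :
    IsBoundedAtImInfty (eis_raw N ∣[(2 : ℤ)] γ) := by
  rw [eis_raw, sub_eq_add_neg, SlashAction.add_slash, SlashAction.neg_slash]
  refine Filter.BoundedAtFilter.add ?_ (eis_E2_slash_SL_bdd γ).neg
  rw [eis_SL_slash, ← SlashAction.slash_mul]
  exact eis_E2_slash_bdd (M2pos.mul_mem (eis_g_mem_M2pos N) (mapGL_mem_M2pos γ))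

theorem eis_raw_bdd_at_cusps (N : ℕ) [NeZero N] {c : OnePoint ℝ}
    (hc : IsCusp c ((Gamma0 N : Subgroup SL(2, ℤ)) : Subgroup (GL (Fin 2) ℝ))) :
    c.IsBoundedAt (eis_raw N) 2 := by
  have hc' : IsCusp c 𝒮ℒ := hc.mono (by
    rintro _ ⟨γ, _, rfl⟩
    exact ⟨γ, rfl⟩)
  exact (OnePoint.isBoundedAt_iff_forall_SL2Z hc').mpr fun γ _ => eis_raw_slash_bdd N γ

/-! ### the modular form and its `q`-expansion -/

/-- `N E₂(Nz) - E₂(z)` as a modular form of weight 2 on `Γ₀(N)`. -/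
def eis_rawForm (N : ℕ) [NeZero N] : ModularForm (Gamma0 N) 2 where
  toFun := eis_raw N
  slash_action_eq' := by
    rintro _ ⟨γ, hγ, rfl⟩
    exact eis_raw_slash N γ hγ
  holo' := eis_raw_mdiff N
  bdd_at_cusps' := fun hc => eis_raw_bdd_at_cusps N hc

theorem eis_rawForm_apply (N : ℕ) [NeZero N] (z : ℍ) :
    eis_rawForm N z = (N : ℂ) * E2 (mulN N z) - E2 z := eis_raw_apply N z

/-- the coefficients of `E₂` -/
def eis_a (m : ℕ) : ℂ := if m = 0 then 1 else -24 * (ArithmeticFunction.sigma 1 m : ℂ)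

theorem eis_hasSum_E2 (τ : ℍ) :
    HasSum (fun m : ℕ => eis_a m • Function.Periodic.qParam 1 τ ^ m) (E2 τ) := by
  have := hasSum_qExpansion_E2 (z := τ)
  simpa only [Function.Periodic.qParam, Complex.ofReal_one, div_one, eis_a] using this

theorem eis_hasSum_E2_mulN (N : ℕ) [NeZero N] (τ : ℍ) :
    HasSum (fun n : ℕ => (if N ∣ n then eis_a (n / N) else 0) • Function.Periodic.qParam 1 τ ^ n)
      (E2 (mulN N τ)) := by
  have hsum := eis_hasSum_E2 (mulN N τ)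
  have hNpos : 0 < N := NeZero.pos N
  have hinj : Function.Injective (fun m : ℕ => N * m) :=
    fun a b hab => Nat.eq_of_mul_eq_mul_left hNpos hab
  rw [← hinj.hasSum_iff]
  · convert hsum using 1
    funext m
    simp only [Function.comp_apply, Nat.dvd_mul_right, if_true, Nat.mul_div_cancel_left _ hNpos,
      smul_eq_mul, m08_qParam_mulN, pow_mul]
  · intro x hx
    have : ¬ N ∣ x := fun ⟨m, hm⟩ => hx ⟨m, hm.symm⟩
    simp [this]

/-- the coefficients of `e_N` -/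
def eis_c (N n : ℕ) : ℂ := if n = 0 then ((N : ℂ) - 1) / 24 else (sigP N n : ℂ)

theorem eis_c_eq (N : ℕ) [NeZero N] (n : ℕ) :
    eis_c N n = (24 : ℂ)⁻¹ * ((N : ℂ) * (if N ∣ n then eis_a (n / N) else 0) - eis_a n) := by
  have hNpos : 0 < N := NeZero.pos N
  rcases Nat.eq_zero_or_pos n with rfl | hn
  · simp [eis_c, eis_a]; ring
  · have h := eis_sigma_eq_sigP_add N n hNpos hn
    have hn0 : n ≠ 0 := hn.ne'
    simp only [eis_c, eis_a, if_neg hn0]
    by_cases hd : N ∣ n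
    · have hq : n / N ≠ 0 := by
        obtain ⟨m, rfl⟩ := hd
        rw [Nat.mul_div_cancel_left _ hNpos]
        rintro rfl
        simp at hn
      rw [if_pos hd] at h
      rw [if_pos hd, if_neg hq, h]
      push_cast
      ring
    · rw [if_neg hd] at h
      rw [if_neg hd, h]
      push_cast
      ring

/-- the Eisenstein series `e_N = (N E₂(Nz) - E₂(z))/24` of weight 2 on `Γ₀(N)` -/
def eisForm (N : ℕ) [NeZero N] : ModularForm (Gamma0 N) 2 := (24 : ℂ)⁻¹ • eis_rawForm N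

theorem eisForm_apply (N : ℕ) [NeZero N] (z : ℍ) :
    eisForm N z = (24 : ℂ)⁻¹ * ((N : ℂ) * E2 (mulN N z) - E2 z) := by
  rw [eisForm, FunLike.coe_smul, Pi.smul_apply, eis_rawForm_apply, smul_eq_mul]

theorem eis_hasSum_eisForm (N : ℕ) [NeZero N] (τ : ℍ) :
    HasSum (fun n : ℕ => eis_c N n • Function.Periodic.qParam 1 τ ^ n) (eisForm N τ) := by
  rw [eisForm_apply]
  have h1 := eis_hasSum_E2 τ
  have h2 := eis_hasSum_E2_mulN N τ
  have h3 := ((h2.mul_left (N : ℂ)).sub h1).mul_left (24 : ℂ)⁻¹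
  have hfun : (fun n : ℕ => eis_c N n • Function.Periodic.qParam 1 τ ^ n) = fun i : ℕ =>
      (24 : ℂ)⁻¹ * ((N : ℂ) * (if N ∣ i then eis_a (i / N) else 0) • Function.Periodic.qParam 1 (τ : ℂ) ^ i -
          eis_a i • Function.Periodic.qParam 1 (τ : ℂ) ^ i) := by
    funext n
    rw [eis_c_eq N n]
    simp only [smul_eq_mul]
    ring
  rw [hfun]
  exact h3

theorem eis_qExpansion_coeff (N : ℕ) [NeZero N] (n : ℕ) :
    PowerSeries.coeff n (qExpansion 1 (eisForm N)) = eis_c N n :=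
  (ModularFormClass.qExpansion_coeff_unique (c := eis_c N) one_pos
    (CongruenceSubgroup.one_mem_strictPeriods_Gamma0 N) (eis_hasSum_eisForm N) n).symm

theorem exists_eisForm (N : ℕ) [Fact N.Prime] :
    ∃ e : ModularForm (Gamma0 N) 2,
      PowerSeries.coeff 0 (qExpansion 1 e) = ((N : ℂ) - 1) / 24 ∧
      ∀ n : ℕ, 1 ≤ n → PowerSeries.coeff n (qExpansion 1 e) = (sigP N n : ℂ) := by
  have : NeZero N := ⟨(Fact.out : N.Prime).ne_zero⟩
  refine ⟨eisForm N, ?_, fun n hn => ?_⟩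
  · rw [eis_qExpansion_coeff]; simp [eis_c]
  · rw [eis_qExpansion_coeff]
    have : n ≠ 0 := by omega
    simp [eis_c, this]

end

end Fermat.Agent.S16x
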