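/-
S16 project, module CASE_Large (B'), core: `ℓ ≥ 5`, `ℓ ≠ p`, `p ≥ 5`; no cusp form of level `p` is
congruent to `δ` modulo `ℓ^(v_ℓ(p-1)+1)`.  The generic norm-case lemma (`normCase_false`, helper34)
is taken as a hypothesis here; `CaseLarge.lean` instantiates it.
Forms: `A = F = c⁻¹ (e_p - g)` with `c = (p-1)/24`, `B = (24/p) e_2`.
Owner of this file: helper50.
-/
import Fermat.Agent.S16x.Defs
import Fermat.Agent.S16x.EisForm
import Fermat.Prelude.Thm_CongruenceSubgroup_one_mem_strictPeriods_Gamma0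

set_option autoImplicit false

open UpperHalfPlane ModularForm ModularFormClass CongruenceSubgroup
open scoped MatrixGroups Manifold

namespace Fermat.Agent.S16x

noncomputable section

/-! ### `ℓ`-integrality of explicit rational numbers -/

theorem cl_ne_zero_of_coprime {ℓ b : ℕ} (hℓ : ℓ.Prime) (hb : b.Coprime ℓ) : b ≠ 0 := by
  rintro rfl
  rw [Nat.coprime_zero_left] at hb
  exact hℓ.one_lt.ne' hb

/-- `a / b` with `b` prime to `ℓ` is `ℓ`-integral. -/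
theorem cl_div_mem_lintRing {ℓ : ℕ} (hℓ : ℓ.Prime) (a : ℤ) (b : ℕ) (hb : b.Coprime ℓ) :
    (a : ℂ) / (b : ℂ) ∈ lintRing ℓ := by
  have hb0 : (b : ℂ) ≠ 0 := Nat.cast_ne_zero.mpr (cl_ne_zero_of_coprime hℓ hb)
  refine ⟨b, hb, ?_⟩
  have h1 : (b : ℂ) * ((a : ℂ) / (b : ℂ)) = ((a : ℤ) : ℂ) := by field_simp
  rw [h1]
  have := isIntegral_algebraMap (R := ℤ) (A := ℂ) (x := a)
  simpa using this

/-- `ℓ * (a / b)` with `b` prime to `ℓ` lies in the maximal ideal. -/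
theorem cl_exists_mem_lintMax (ℓ : ℕ) [Fact ℓ.Prime] (a : ℤ) (b : ℕ) (hb : b.Coprime ℓ) :
    ∃ x : lintRing ℓ, x ∈ lintMax ℓ ∧ (x : ℂ) = (ℓ : ℂ) * ((a : ℂ) / (b : ℂ)) := by
  refine ⟨((ℓ : ℕ) : lintRing ℓ) * ⟨_, cl_div_mem_lintRing (Fact.out : ℓ.Prime) a b hb⟩,
    Ideal.mul_mem_right _ _ (natCast_mem_lintMax ℓ), ?_⟩
  simp

/-- `a / b` with `a`, `b` prime to `ℓ` is a unit modulo the maximal ideal. -/
theorem cl_exists_not_mem_lintMax (ℓ : ℕ) [Fact ℓ.Prime] (a : ℤ) (b : ℕ) (hb : b.Coprime ℓ)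
    (ha : IsCoprime a (ℓ : ℤ)) :
    ∃ x : lintRing ℓ, x ∉ lintMax ℓ ∧ (x : ℂ) = (a : ℂ) / (b : ℂ) := by
  have hℓ : ℓ.Prime := Fact.out
  have hb0 : (b : ℂ) ≠ 0 := Nat.cast_ne_zero.mpr (cl_ne_zero_of_coprime hℓ hb)
  refine ⟨⟨_, cl_div_mem_lintRing hℓ a b hb⟩, ?_, rfl⟩
  intro hx
  -- `b * x = a` lies in the ideal, as does `ℓ`; Bezout gives `1`
  have h1 : ((b : ℕ) : lintRing ℓ) * ⟨_, cl_div_mem_lintRing hℓ a b hb⟩ = ((a : ℤ) : lintRing ℓ) := by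
    apply Subtype.ext
    simp only [Subring.coe_mul, Subring.coe_natCast, Subring.coe_intCast]
    field_simp
  have ha' : ((a : ℤ) : lintRing ℓ) ∈ lintMax ℓ := by
    rw [← h1]; exact Ideal.mul_mem_left _ _ hx
  obtain ⟨u, v, huv⟩ := ha
  have h2 : (1 : lintRing ℓ) = (u : lintRing ℓ) * ((a : ℤ) : lintRing ℓ)
      + (v : lintRing ℓ) * ((ℓ : ℕ) : lintRing ℓ) := by
    have := congrArg (Int.cast : ℤ → lintRing ℓ) huv
    push_cast at this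
    rw [this]
  have h3 : (1 : lintRing ℓ) ∈ lintMax ℓ := by
    rw [h2]
    exact Ideal.add_mem _ (Ideal.mul_mem_left _ _ ha') (Ideal.mul_mem_left _ _ (natCast_mem_lintMax ℓ))
  exact (lintMax_isMaximal ℓ).ne_top ((Ideal.eq_top_iff_one _).mpr h3)

/-! ### the form `F = c⁻¹ • (e - g)` -/

/-- `q`-expansion coefficients of `c • (e - g)` -/
theorem cl_coeff_smul_sub (p : ℕ) (e : ModularForm (Gamma0 p) 2) (g : CuspForm (Gamma0 p) 2)
    (c : ℂ) (A : ModularForm (Gamma0 p) 2) (hA : A = c • (e - CuspForm.toModularFormₗ g)) (n : ℕ) :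
    PowerSeries.coeff n (qExpansion 1 A) =
      c * (PowerSeries.coeff n (qExpansion 1 e) - qCoeff g n) := by
  subst hA
  rw [FunLike.coe_smul, ModularForm.qExpansion_smul one_pos (one_mem_strictPeriods_Gamma0 p) c
    (e - CuspForm.toModularFormₗ g), FunLike.coe_sub,
    ModularForm.qExpansion_sub one_pos (one_mem_strictPeriods_Gamma0 p) e
      (CuspForm.toModularFormₗ g), PowerSeries.coeff_smul, map_sub, smul_eq_mul]
  rfl

/-- `q`-expansion coefficients of `c • e` -/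
theorem cl_coeff_smul (N : ℕ) (e : ModularForm (Gamma0 N) 2) (c : ℂ)
    (B : ModularForm (Gamma0 N) 2) (hB : B = c • e) (n : ℕ) :
    PowerSeries.coeff n (qExpansion 1 B) = c * PowerSeries.coeff n (qExpansion 1 e) := by
  subst hB
  rw [FunLike.coe_smul, ModularForm.qExpansion_smul one_pos (one_mem_strictPeriods_Gamma0 N) c e,
    PowerSeries.coeff_smul, smul_eq_mul]

/-- the arithmetic heart: for `n ≥ 1` the `n`-th coefficient of `F` is `ℓ * (t / w)`, `ℓ ∤ w` -/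
theorem cl_coeff_F (p ℓ : ℕ) [Fact p.Prime] [Fact ℓ.Prime] (hp : 5 ≤ p)
    (g : CuspForm (Gamma0 p) 2) (hg : IsEisCongr p (ℓ ^ (padicValNat ℓ (p - 1) + 1)) g)
    (n : ℕ) (hn : 1 ≤ n) :
    ∃ (t : ℤ) (w : ℕ), w.Coprime ℓ ∧
      (((p : ℂ) - 1) / 24)⁻¹ * ((sigP p n : ℂ) - qCoeff g n) = (ℓ : ℂ) * ((t : ℂ) / (w : ℂ)) := by
  have hℓ : ℓ.Prime := Fact.out
  obtain ⟨m, hm, hmod⟩ := hg n
  have hmod := hmod hn
  set s := padicValNat ℓ (p - 1) with hs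
  have hp1 : p - 1 ≠ 0 := by omega
  obtain ⟨w, hw⟩ : ℓ ^ s ∣ p - 1 := pow_padicValNat_dvd
  have hwℓ : ¬ ℓ ∣ w := by
    rintro ⟨w', rfl⟩
    have : ℓ ^ (s + 1) ∣ p - 1 := ⟨w', by rw [hw, pow_succ]; ring⟩
    exact pow_succ_padicValNat_not_dvd hp1 this
  have hcop : w.Coprime ℓ := ((Nat.Prime.coprime_iff_not_dvd hℓ).mpr hwℓ).symm
  have hdvd : ((ℓ ^ (s + 1) : ℕ) : ℤ) ∣ ((sigP p n : ℕ) : ℤ) - m := by
    rw [← ZMod.intCast_eq_intCast_iff_dvd_sub]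
    rw [hmod]; push_cast; rfl
  obtain ⟨t, ht⟩ := hdvd
  refine ⟨24 * t, w, hcop, ?_⟩
  have hw0 : (w : ℂ) ≠ 0 := Nat.cast_ne_zero.mpr (cl_ne_zero_of_coprime hℓ hcop)
  have hℓ0 : (ℓ : ℂ) ≠ 0 := Nat.cast_ne_zero.mpr hℓ.ne_zero
  have hpC : (p : ℂ) - 1 = (ℓ : ℂ) ^ s * (w : ℂ) := by
    have h1 : ((p - 1 : ℕ) : ℂ) = (p : ℂ) - 1 := by
      rw [Nat.cast_sub (by omega)]; simp
    rw [← h1, hw]; push_cast; ring
  have hdiff : (sigP p n : ℂ) - qCoeff g n = (ℓ : ℂ) ^ (s + 1) * (t : ℂ) := by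
    rw [hm]
    have := congrArg (Int.cast : ℤ → ℂ) ht
    push_cast at this
    rw [this]
  rw [hdiff, hpC]
  push_cast
  field_simp
  ring

/-! ### the case (B') from the generic norm-case lemma -/

/-- Case (B') with the generic norm-case lemma for `(ℓ, p, r = 2)` as a hypothesis `hNC`
(= `normCase_false ℓ p 2` with its three numerical side conditions discharged). -/
theorem cl_no_congr_large_of (p ℓ : ℕ) [Fact p.Prime] [Fact ℓ.Prime] (hℓ : 5 ≤ ℓ) (hp : 5 ≤ p)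
    (hℓp : ℓ ≠ p)
    (hNC : ∀ (A : ModularForm (Gamma0 p) 2) (B : ModularForm (Gamma0 2) 2) (a0 b0 u : ℂ),
      PowerSeries.coeff 0 (qExpansion 1 B) = b0 →
      (∀ n : ℕ, 1 ≤ n → PowerSeries.coeff n (qExpansion 1 B) = u * (sigP 2 n : ℂ)) →
      (∃ x : lintRing ℓ, x ∉ lintMax ℓ ∧ (x : ℂ) = u) →
      PowerSeries.coeff 0 (qExpansion 1 A) = a0 →
      (∀ n : ℕ, 1 ≤ n → ∃ x : lintRing ℓ, x ∈ lintMax ℓ ∧
        (x : ℂ) = PowerSeries.coeff n (qExpansion 1 A)) →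
      (∀ n : ℕ, 1 ≤ n → ∃ x : lintRing ℓ, x ∈ lintMax ℓ ∧
        (x : ℂ) = -(p : ℂ)⁻¹ * PowerSeries.coeff (n * p) (qExpansion 1 A)) →
      -(p : ℂ)⁻¹ * a0 + b0 = 0 →
      a0 + b0 ∈ lintRing ℓ →
      a0 - ((2 : ℕ) : ℂ)⁻¹ * b0 ∈ lintRing ℓ →
      (∃ x : lintRing ℓ, x ∉ lintMax ℓ ∧ (x : ℂ) = -(p : ℂ)⁻¹ * a0 - ((2 : ℕ) : ℂ)⁻¹ * b0) →
      False)
    (g : CuspForm (Gamma0 p) 2) (hg : IsEisCongr p (ℓ ^ (padicValNat ℓ (p - 1) + 1)) g) :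
    False := by
  have hℓpr : ℓ.Prime := Fact.out
  have hppr : p.Prime := Fact.out
  obtain ⟨e, he0, he⟩ := exists_eisForm p
  obtain ⟨e2, he20, he2⟩ := exists_eisForm 2
  have hpC : (p : ℂ) ≠ 0 := Nat.cast_ne_zero.mpr hppr.ne_zero
  have hc : ((p : ℂ) - 1) / 24 ≠ 0 := by
    have h1 : (p : ℂ) - 1 ≠ 0 := by
      have : ((p - 1 : ℕ) : ℂ) = (p : ℂ) - 1 := by rw [Nat.cast_sub (by omega)]; simp
      rw [← this]
      exact Nat.cast_ne_zero.mpr (by omega)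
    exact div_ne_zero h1 (by norm_num)
  -- coprimality facts
  have hcop_p : p.Coprime ℓ := (Nat.coprime_primes hppr hℓpr).mpr (Ne.symm hℓp)
  have hcop_2 : (2 : ℕ).Coprime ℓ :=
    (Nat.coprime_primes Nat.prime_two hℓpr).mpr (by omega)
  have hcop_3 : (3 : ℕ).Coprime ℓ :=
    (Nat.coprime_primes Nat.prime_three hℓpr).mpr (by omega)
  have hcop_2p : (2 * p).Coprime ℓ := Nat.Coprime.mul_left hcop_2 hcop_p
  have hcop_24 : IsCoprime (24 : ℤ) (ℓ : ℤ) := by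
    have h24 : (24 : ℕ).Coprime ℓ := by
      have : (24 : ℕ) = 2 * 2 * 2 * 3 := by norm_num
      rw [this]
      exact Nat.Coprime.mul_left (Nat.Coprime.mul_left (Nat.Coprime.mul_left hcop_2 hcop_2) hcop_2) hcop_3
    have := Nat.isCoprime_iff_coprime.mpr h24
    simpa using this
  have hcop_m3 : IsCoprime (-3 : ℤ) (ℓ : ℤ) := by
    have := Nat.isCoprime_iff_coprime.mpr hcop_3
    have h3 : IsCoprime (3 : ℤ) (ℓ : ℤ) := by simpa using this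
    exact h3.neg_left
  -- the two forms
  set A : ModularForm (Gamma0 p) 2 := (((p : ℂ) - 1) / 24)⁻¹ • (e - CuspForm.toModularFormₗ g)
    with hA
  set B : ModularForm (Gamma0 2) 2 := ((24 : ℂ) * (p : ℂ)⁻¹) • e2 with hB
  have hAcoeff := cl_coeff_smul_sub p e g (((p : ℂ) - 1) / 24)⁻¹ A hA
  have hBcoeff := cl_coeff_smul 2 e2 ((24 : ℂ) * (p : ℂ)⁻¹) B hB
  have hg0 : qCoeff g 0 = 0 :=
    CuspFormClass.qExpansion_coeff_zero g one_pos (one_mem_strictPeriods_Gamma0 p)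
  -- coefficients of `A` in positive degree
  have hApos : ∀ n : ℕ, 1 ≤ n → ∃ (t : ℤ) (w : ℕ), w.Coprime ℓ ∧
      PowerSeries.coeff n (qExpansion 1 A) = (ℓ : ℂ) * ((t : ℂ) / (w : ℂ)) := by
    intro n hn
    obtain ⟨t, w, hw, h⟩ := cl_coeff_F p ℓ hp g hg n hn
    exact ⟨t, w, hw, by rw [hAcoeff n, he n hn, h]⟩
  refine hNC A B 1 (p : ℂ)⁻¹ ((24 : ℂ) * (p : ℂ)⁻¹) ?_ ?_ ?_ ?_ ?_ ?_ ?_ ?_ ?_ ?_
  · -- constant term of `B`
    rw [hBcoeff 0, he20]; push_cast; ring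
  · intro n hn
    rw [hBcoeff n, he2 n hn]
  · obtain ⟨x, hx, hxC⟩ := cl_exists_not_mem_lintMax ℓ 24 p hcop_p hcop_24
    exact ⟨x, hx, by rw [hxC]; push_cast; ring⟩
  · -- constant term of `A`
    rw [hAcoeff 0, he0, hg0, sub_zero, inv_mul_cancel₀ hc]
  · intro n hn
    obtain ⟨t, w, hw, h⟩ := hApos n hn
    obtain ⟨x, hx, hxC⟩ := cl_exists_mem_lintMax ℓ t w hw
    exact ⟨x, hx, by rw [hxC, h]⟩
  · intro n hn
    have hnp : 1 ≤ n * p := Nat.one_le_iff_ne_zero.mpr (mul_ne_zero (by omega) hppr.ne_zero)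
    obtain ⟨t, w, hw, h⟩ := hApos (n * p) hnp
    have hw0 : (w : ℂ) ≠ 0 := Nat.cast_ne_zero.mpr (cl_ne_zero_of_coprime hℓpr hw)
    obtain ⟨x, hx, hxC⟩ := cl_exists_mem_lintMax ℓ (-t) (w * p) (Nat.Coprime.mul_left hw hcop_p)
    refine ⟨x, hx, ?_⟩
    rw [hxC, h]; push_cast; field_simp
  · ring
  · have := cl_div_mem_lintRing hℓpr ((p : ℤ) + 1) p hcop_p
    have h2 : (1 : ℂ) + (p : ℂ)⁻¹ = (((p : ℤ) + 1 : ℤ) : ℂ) / (p : ℂ) := by
      push_cast; field_simp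
    rw [h2]; exact this
  · have := cl_div_mem_lintRing hℓpr (2 * (p : ℤ) - 1) (2 * p) hcop_2p
    have h2 : (1 : ℂ) - ((2 : ℕ) : ℂ)⁻¹ * (p : ℂ)⁻¹ = ((2 * (p : ℤ) - 1 : ℤ) : ℂ) / ((2 * p : ℕ) : ℂ) := by
      push_cast; field_simp
    rw [h2]; exact this
  · obtain ⟨x, hx, hxC⟩ := cl_exists_not_mem_lintMax ℓ (-3) (2 * p) hcop_2p hcop_m3
    refine ⟨x, hx, ?_⟩
    rw [hxC]; push_cast; field_simp; ring

end

end Fermat.Agent.S16x
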