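import Mathlib

set_option autoImplicit false

/-!
# Level-one Sturm bound modulo an additive subgroup

For `f : ModularForm 𝒮ℒ k` and ANY additive subgroup `J ⊆ ℂ`: if the `n`-th q-expansion
coefficient of `f` lies in `J` for every `n` with `12 * n ≤ k`, then all of them do
(`lo_sturm_mod`).  Taking `J` = the image of an ideal `𝔪` of a subring of `ℂ` gives the
"mod `𝔪`" Sturm bound `ord_q (f mod 𝔪) ≤ k / 12`.

Also provided: integrality of the q-expansions of `E₄`, `E₆`, `Δ`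
(`lo_qExpansion_E4`, `lo_qExpansion_E6`, `lo_qExpansion_discriminant`).
-/

noncomputable section

open UpperHalfPlane ModularForm ModularFormClass MatrixGroups EisensteinSeries
open scoped ArithmeticFunction.sigma

namespace Fermat.Agent.S16x

/-- The integral series `Σ σ_3(n) qⁿ` (constant term `σ_3(0) = 0`). -/
def lo_A : PowerSeries ℤ := PowerSeries.mk fun n => (σ 3 n : ℤ)

/-- The integral series `Σ σ_5(n) qⁿ`. -/
def lo_B : PowerSeries ℤ := PowerSeries.mk fun n => (σ 5 n : ℤ)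

/-- The integral q-expansion of `E₄`. -/
def lo_E4 : PowerSeries ℤ := 1 + 240 * lo_A

/-- The integral q-expansion of `E₆`. -/
def lo_E6 : PowerSeries ℤ := 1 - 504 * lo_B

/-- Coefficientwise cast `ℤ⟦X⟧ → ℂ⟦X⟧`. -/
abbrev lo_map : PowerSeries ℤ →+* PowerSeries ℂ := PowerSeries.map (Int.castRingHom ℂ)

lemma lo_coeff_natCast_mul (c : ℕ) (P : PowerSeries ℤ) (m : ℕ) :
    PowerSeries.coeff m ((c : PowerSeries ℤ) * P) = c * PowerSeries.coeff m P := by
  rw [show ((c : PowerSeries ℤ)) = PowerSeries.C (c : ℤ) by simp, PowerSeries.coeff_C_mul]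

lemma lo_qExpansion_E4 : qExpansion 1 E₄ = lo_map lo_E4 := by
  ext m
  rw [E_qExpansion_coeff (by norm_num) ⟨2, rfl⟩ m, PowerSeries.coeff_map]
  have hb : bernoulli 4 = -1 / 30 := by decide +kernel
  have h240 : (240 : PowerSeries ℤ) = ((240 : ℕ) : PowerSeries ℤ) := by norm_num
  rw [lo_E4, map_add, h240, lo_coeff_natCast_mul, lo_A, PowerSeries.coeff_mk,
    PowerSeries.coeff_one]
  by_cases hm : m = 0
  · subst hm
    simp
  · simp only [hm, if_false, hb]
    push_cast
    norm_num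

lemma lo_qExpansion_E6 : qExpansion 1 E₆ = lo_map lo_E6 := by
  ext m
  rw [E_qExpansion_coeff (by norm_num) ⟨3, rfl⟩ m, PowerSeries.coeff_map]
  have hb : bernoulli 6 = 1 / 42 := by decide +kernel
  have h504 : (504 : PowerSeries ℤ) = ((504 : ℕ) : PowerSeries ℤ) := by norm_num
  rw [lo_E6, map_sub, h504, lo_coeff_natCast_mul, lo_B, PowerSeries.coeff_mk,
    PowerSeries.coeff_one]
  by_cases hm : m = 0
  · subst hm
    simp
  · simp only [hm, if_false, hb]
    push_cast
    norm_num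

lemma lo_twelve_dvd_term (d : ℕ) : (12 : ℤ) ∣ 5 * (d : ℤ) ^ 3 + 7 * (d : ℤ) ^ 5 := by
  have h : ∀ x : ZMod 12, 5 * x ^ 3 + 7 * x ^ 5 = 0 := by decide
  have h2 := h ((d : ℤ) : ZMod 12)
  have h3 : ((5 * (d : ℤ) ^ 3 + 7 * (d : ℤ) ^ 5 : ℤ) : ZMod 12) = 0 := by
    push_cast
    simpa using h2
  exact (ZMod.intCast_zmod_eq_zero_iff_dvd _ 12).1 h3

lemma lo_twelve_dvd (n : ℕ) : (12 : ℤ) ∣ 5 * (σ 3 n : ℤ) + 7 * (σ 5 n : ℤ) := by
  rw [ArithmeticFunction.sigma_apply, ArithmeticFunction.sigma_apply]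
  push_cast
  rw [Finset.mul_sum, Finset.mul_sum, ← Finset.sum_add_distrib]
  exact Finset.dvd_sum fun d _ => lo_twelve_dvd_term d

/-- The series `Σ (5σ_3(n) + 7σ_5(n))/12 qⁿ`. -/
def lo_F : PowerSeries ℤ := PowerSeries.mk fun n => (5 * (σ 3 n : ℤ) + 7 * (σ 5 n : ℤ)) / 12

lemma lo_twelve_mul_F : 12 * lo_F = 5 * lo_A + 7 * lo_B := by
  ext n
  have h12 : (12 : PowerSeries ℤ) = PowerSeries.C (12 : ℤ) := (map_ofNat PowerSeries.C 12).symm
  have h5 : (5 : PowerSeries ℤ) = PowerSeries.C (5 : ℤ) := (map_ofNat PowerSeries.C 5).symm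
  have h7 : (7 : PowerSeries ℤ) = PowerSeries.C (7 : ℤ) := (map_ofNat PowerSeries.C 7).symm
  rw [h12, h5, h7, map_add, PowerSeries.coeff_C_mul, PowerSeries.coeff_C_mul,
    PowerSeries.coeff_C_mul, lo_F, lo_A, lo_B, PowerSeries.coeff_mk, PowerSeries.coeff_mk,
    PowerSeries.coeff_mk]
  exact Int.mul_ediv_cancel' (lo_twelve_dvd n)

/-- The integral q-expansion of `Δ`. -/
def lo_D : PowerSeries ℤ := lo_F + 100 * lo_A ^ 2 + 8000 * lo_A ^ 3 - 147 * lo_B ^ 2

lemma lo_E4_cube_sub_E6_sq : lo_E4 ^ 3 - lo_E6 ^ 2 = 1728 * lo_D := by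
  rw [lo_E4, lo_E6, lo_D]
  linear_combination (-144 : PowerSeries ℤ) * lo_twelve_mul_F

lemma lo_qExpansion_discriminant : qExpansion 1 CuspForm.discriminant = lo_map lo_D := by
  set g : ModularForm 𝒮ℒ 12 :=
    ModularForm.mcast (by decide) (E₄.pow 3) - ModularForm.mcast (by decide) (E₆.pow 2) with hg
  have hgq : qExpansion 1 g = qExpansion 1 E₄ ^ 3 - qExpansion 1 E₆ ^ 2 := by
    simp only [hg, FunLike.coe_sub, coe_mcast,
      ModularForm.qExpansion_sub one_pos one_mem_strictPeriods_SL,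
      ModularForm.qExpansion_pow one_pos one_mem_strictPeriods_SL]
  have hfun : (g : ℍ → ℂ) = ((1728 : ℂ) • CuspForm.discriminant : ℍ → ℂ) := by
    funext z
    have := discriminant_eq_E₄_cube_sub_E₆_sq z
    simp only [hg, FunLike.coe_sub, coe_mcast, coe_pow, Pi.sub_apply, Pi.pow_apply, Pi.smul_apply,
      smul_eq_mul, CuspForm.coe_discriminant]
    rw [this]; ring
  have h2 := ModularForm.qExpansion_smul one_pos one_mem_strictPeriods_SL (1728 : ℂ)
    CuspForm.discriminant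
  rw [← hfun, hgq, lo_qExpansion_E4, lo_qExpansion_E6, ← map_pow, ← map_pow, ← map_sub,
    lo_E4_cube_sub_E6_sq, map_mul] at h2
  have h1728 : lo_map (1728 : PowerSeries ℤ) = (1728 : PowerSeries ℂ) := map_ofNat _ 1728
  rw [h1728] at h2
  ext n
  have := congrArg (PowerSeries.coeff n) h2
  have hc : (1728 : PowerSeries ℂ) = PowerSeries.C (1728 : ℂ) :=
    (map_ofNat (PowerSeries.C (R := ℂ)) 1728).symm
  rw [hc, PowerSeries.coeff_C_mul, PowerSeries.coeff_smul, smul_eq_mul] at this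
  exact (mul_left_cancel₀ (by norm_num) this).symm

lemma lo_D_coeff_zero : PowerSeries.coeff 0 lo_D = 0 := by
  have h := CuspFormClass.qExpansion_coeff_zero CuspForm.discriminant one_pos
    one_mem_strictPeriods_SL
  rw [lo_qExpansion_discriminant, PowerSeries.coeff_map, eq_intCast] at h
  exact_mod_cast h

lemma lo_D_coeff_one : PowerSeries.coeff 1 lo_D = 1 := by
  have h := discriminant_qExpansion_coeff_one
  rw [← CuspForm.coe_discriminant, lo_qExpansion_discriminant, PowerSeries.coeff_map,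
    eq_intCast] at h
  exact_mod_cast h

/-- `Δ = q · U` with `U` a unit of `ℤ⟦q⟧`; `V` is the inverse of `U`. -/
lemma lo_exists_unit : ∃ U V : PowerSeries ℤ, lo_D = PowerSeries.X * U ∧ V * U = 1 := by
  obtain ⟨U, hU⟩ : PowerSeries.X ∣ lo_D := by
    rw [PowerSeries.X_dvd_iff, ← PowerSeries.coeff_zero_eq_constantCoeff_apply]
    exact lo_D_coeff_zero
  have hU0 : PowerSeries.constantCoeff U = 1 := by
    have h := lo_D_coeff_one
    rw [hU, show (1 : ℕ) = 0 + 1 from rfl, PowerSeries.coeff_succ_X_mul] at h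
    simpa using h
  have hunit : IsUnit U := by
    rw [PowerSeries.isUnit_iff_constantCoeff, hU0]
    exact isUnit_one
  obtain ⟨V, hV⟩ := hunit.exists_left_inv
  exact ⟨U, V, hU, hV⟩

/-- Coefficients of `lo_map Q * P` up to `m` are `ℤ`-combinations of those of `P` up to `m`. -/
lemma lo_coeff_mem_of_le (J : AddSubgroup ℂ) (Q : PowerSeries ℤ) (P : PowerSeries ℂ) (m : ℕ)
    (h : ∀ n ≤ m, PowerSeries.coeff n P ∈ J) :
    ∀ n ≤ m, PowerSeries.coeff n (lo_map Q * P) ∈ J := by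
  intro n hn
  rw [PowerSeries.coeff_mul]
  refine J.sum_mem fun x hx => ?_
  rw [PowerSeries.coeff_map, eq_intCast, ← zsmul_eq_mul]
  have hx' := Finset.HasAntidiagonal.mem_antidiagonal.mp hx
  exact J.zsmul_mem (h _ (by omega)) _

lemma lo_coeff_mem (J : AddSubgroup ℂ) (Q : PowerSeries ℤ) (P : PowerSeries ℂ)
    (h : ∀ n, PowerSeries.coeff n P ∈ J) (n : ℕ) : PowerSeries.coeff n (lo_map Q * P) ∈ J :=
  lo_coeff_mem_of_le J Q P n (fun i _ => h i) n le_rfl


lemma lo_coeff_zero_form (J : AddSubgroup ℂ) {k : ℤ} (f : ModularForm 𝒮ℒ k) (hf : f = 0) (n : ℕ) :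
    PowerSeries.coeff n (qExpansion 1 f) ∈ J := by
  subst hf
  simp [qExpansion_zero]

lemma lo_exists_weights (k : ℤ) (hk0 : 0 ≤ k) (hke : Even k) (hk2 : k ≠ 2) :
    ∃ a b : ℕ, (a : ℤ) * 4 + (b : ℤ) * 6 = k := by
  obtain ⟨j, hj⟩ := hke
  by_cases h4 : k % 4 = 0
  · exact ⟨(k / 4).toNat, 0, by omega⟩
  · exact ⟨((k - 6) / 4).toNat, 1, by omega⟩

/-- The monomial `E₄^a E₆^b` as a modular form of weight `k`. -/
def lo_G (a b : ℕ) {k : ℤ} (h : (a : ℤ) * 4 + (b : ℤ) * 6 = k) : ModularForm 𝒮ℒ k :=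
  ModularForm.mcast h ((E₄.pow a).mul (E₆.pow b))

lemma lo_qExpansion_G (a b : ℕ) {k : ℤ} (h : (a : ℤ) * 4 + (b : ℤ) * 6 = k) :
    qExpansion 1 (lo_G a b h) = lo_map (lo_E4 ^ a * lo_E6 ^ b) := by
  rw [lo_G, ModularForm.qExpansion_mcast, ModularForm.qExpansion_mul one_pos one_mem_strictPeriods_SL,
    ModularForm.qExpansion_pow one_pos one_mem_strictPeriods_SL,
    ModularForm.qExpansion_pow one_pos one_mem_strictPeriods_SL, lo_qExpansion_E4,
    lo_qExpansion_E6, map_mul, map_pow, map_pow]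

lemma lo_GZ_coeff_zero (a b : ℕ) : PowerSeries.coeff 0 (lo_E4 ^ a * lo_E6 ^ b) = 1 := by
  simp [lo_E4, lo_E6, lo_A, lo_B]

theorem lo_sturm_aux (J : AddSubgroup ℂ) : ∀ (m : ℕ) (k : ℤ), k < 12 * (m : ℤ) →
    ∀ f : ModularForm 𝒮ℒ k,
    (∀ n : ℕ, 12 * (n : ℤ) ≤ k → PowerSeries.coeff n (qExpansion 1 f) ∈ J) →
    ∀ n, PowerSeries.coeff n (qExpansion 1 f) ∈ J := by
  intro m
  induction m with
  | zero =>
    intro k hk f _ n
    exact lo_coeff_zero_form J f
      (rank_zero_iff_forall_zero.mp (levelOne_neg_weight_rank_zero (by simpa using hk)) f) n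
  | succ m ih =>
    intro k hk f hf n
    rcases lt_or_ge k 0 with hk0 | hk0
    · exact lo_coeff_zero_form J f
        (rank_zero_iff_forall_zero.mp (levelOne_neg_weight_rank_zero hk0) f) n
    rcases Int.even_or_odd k with hke | hko
    swap
    · exact lo_coeff_zero_form J f (levelOne_odd_weight_eq_zero hko f) n
    by_cases hk2 : k = 2
    · subst hk2
      exact lo_coeff_zero_form J f
        (rank_zero_iff_forall_zero.mp levelOne_weight_two_rank_zero f) n
    obtain ⟨a, b, hab⟩ := lo_exists_weights k hk0 hke hk2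
    obtain ⟨U, V, hDU, hVU⟩ := lo_exists_unit
    set GZ : PowerSeries ℤ := lo_E4 ^ a * lo_E6 ^ b with hGZ
    set c : ℂ := PowerSeries.coeff 0 (qExpansion 1 f) with hc
    have hcJ : c ∈ J := hf 0 (by simpa using hk0)
    set f' : ModularForm 𝒮ℒ k := f - c • lo_G a b hab with hf'
    have hq' : qExpansion 1 f' = qExpansion 1 f - c • lo_map GZ := by
      rw [hf', FunLike.coe_sub, ModularForm.qExpansion_sub one_pos one_mem_strictPeriods_SL,
        FunLike.coe_smul, ModularForm.qExpansion_smul one_pos one_mem_strictPeriods_SL,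
        lo_qExpansion_G]
    have hcoeff' : ∀ i, PowerSeries.coeff i (qExpansion 1 f') =
        PowerSeries.coeff i (qExpansion 1 f) - (PowerSeries.coeff i GZ) • c := by
      intro i
      rw [hq', map_sub, PowerSeries.coeff_smul, PowerSeries.coeff_map, eq_intCast, zsmul_eq_mul,
        smul_eq_mul, mul_comm]
    have h0 : PowerSeries.coeff 0 (qExpansion 1 f') = 0 := by
      rw [hcoeff', hGZ, lo_GZ_coeff_zero, one_smul, sub_self]
    set h : ModularForm 𝒮ℒ (k - 12) := CuspForm.discriminantEquiv (toCuspForm f' h0) with hh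
    have hfac : qExpansion 1 f' = lo_map lo_D * qExpansion 1 h := by
      rw [qExpansion_eq_qExpansion_discriminant_mul f' h0, ← lo_qExpansion_discriminant]
      rfl
    -- coefficients of `f'` up to the Sturm bound are in `J`
    have hlow : ∀ i : ℕ, 12 * (i : ℤ) ≤ k → PowerSeries.coeff i (qExpansion 1 f') ∈ J := by
      intro i hi
      rw [hcoeff']
      exact J.sub_mem (hf i hi) (J.zsmul_mem hcJ _)
    -- `X * H = V * f'`
    have hXH : (PowerSeries.X : PowerSeries ℂ) * qExpansion 1 h = lo_map V * qExpansion 1 f' := by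
      rw [hfac, ← mul_assoc, ← map_mul, hDU, ← mul_assoc, mul_comm V, mul_assoc, hVU, mul_one,
        PowerSeries.map_X]
    have hHlow : ∀ i : ℕ, 12 * (i : ℤ) ≤ k - 12 → PowerSeries.coeff i (qExpansion 1 h) ∈ J := by
      intro i hi
      have : PowerSeries.coeff (i + 1) ((PowerSeries.X : PowerSeries ℂ) * qExpansion 1 h) ∈ J := by
        rw [hXH]
        refine lo_coeff_mem_of_le J V _ (i + 1) (fun j hj => hlow j ?_) (i + 1) le_rfl
        have : (j : ℤ) ≤ i + 1 := by exact_mod_cast hj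
        omega
      rwa [PowerSeries.coeff_succ_X_mul] at this
    have hHall := ih (k - 12) (by push_cast at hk; omega) h hHlow
    have hall' : ∀ i, PowerSeries.coeff i (qExpansion 1 f') ∈ J := by
      intro i
      rw [hfac]
      exact lo_coeff_mem J lo_D _ hHall i
    have := hall' n
    rw [hcoeff'] at this
    have h2 := J.add_mem this (J.zsmul_mem hcJ (PowerSeries.coeff n GZ))
    simpa using h2

/-- **Level-one Sturm bound modulo an additive subgroup.** -/
theorem lo_sturm_mod (J : AddSubgroup ℂ) {k : ℤ} (f : ModularForm 𝒮ℒ k)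
    (hf : ∀ n : ℕ, 12 * (n : ℤ) ≤ k → PowerSeries.coeff n (qExpansion 1 f) ∈ J) (n : ℕ) :
    PowerSeries.coeff n (qExpansion 1 f) ∈ J :=
  lo_sturm_aux J (k.toNat + 1) k (by push_cast; omega) f hf n

end Fermat.Agent.S16x
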