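import Fermat.Agent.S16x.Defs
import Fermat.Agent.S16x.LevelOneSturmMod

/-!
# S16 project, module I1: the level-one order bound modulo `lintMax ℓ`

`levelOne_redHom_order_le`: if `f` is a level one modular form of weight `k` whose `q`-expansion
has `ℓ`-integral coefficients (lift `P`) and non-zero reduction, then `12 * ord (P mod 𝔪) ≤ k`.
Instance of `lo_sturm_mod` (Sturm bound modulo an additive subgroup of `ℂ`) with
`J` = the image of `lintMax ℓ` in `ℂ`.
-/

set_option autoImplicit false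

open UpperHalfPlane ModularForm ModularFormClass CongruenceSubgroup
open scoped MatrixGroups Manifold
open Fermat.Agent.S23x (IsMF IsMF1)

namespace Fermat.Agent.S16x

noncomputable section

/-- the image of the maximal ideal `lintMax ℓ` in `ℂ`, as an additive subgroup -/
def lo_J (ℓ : ℕ) [Fact ℓ.Prime] : AddSubgroup ℂ :=
  (lintMax ℓ).toAddSubgroup.map (lintRing ℓ).subtype.toAddMonoidHom

theorem lo_mem_J_iff (ℓ : ℕ) [Fact ℓ.Prime] (x : lintRing ℓ) :
    (x : ℂ) ∈ lo_J ℓ ↔ x ∈ lintMax ℓ := by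
  constructor
  · rintro ⟨y, hy, hxy⟩
    have : y = x := Subtype.ext hxy
    rw [← this]
    exact hy
  · intro hx
    exact ⟨x, hx, rfl⟩

theorem lo_coeff_redHom_eq_zero_iff (ℓ : ℕ) [Fact ℓ.Prime] (P : PowerSeries (lintRing ℓ)) (n : ℕ) :
    PowerSeries.coeff n (redHom ℓ P) = 0 ↔ PowerSeries.coeff n (toC ℓ P) ∈ lo_J ℓ := by
  rw [redHom, toC, PowerSeries.coeff_map, PowerSeries.coeff_map, resid,
    Ideal.Quotient.eq_zero_iff_mem]
  exact (lo_mem_J_iff ℓ _).symm

/-- **I1**: the level-one order bound modulo `lintMax ℓ`. -/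
theorem levelOne_redHom_order_le (ℓ : ℕ) [Fact ℓ.Prime] {k : ℕ} {f : ℍ → ℂ} (hf : IsMF1 (k : ℤ) f)
    (P : PowerSeries (lintRing ℓ)) (hP : toC ℓ P = qExpansion 1 f) (hne : redHom ℓ P ≠ 0) :
    12 * (redHom ℓ P).order ≤ (k : ℕ∞) := by
  obtain ⟨F, rfl⟩ := hf
  by_contra hlt
  rw [not_le] at hlt
  apply hne
  ext n
  rw [map_zero, lo_coeff_redHom_eq_zero_iff, hP]
  refine lo_sturm_mod (lo_J ℓ) F (fun i hi => ?_) n
  rw [← hP, ← lo_coeff_redHom_eq_zero_iff]
  apply PowerSeries.coeff_of_lt_order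
  by_contra hge
  rw [not_lt] at hge
  have hik : (12 * (i : ℕ∞)) ≤ (k : ℕ∞) := by exact_mod_cast hi
  have : 12 * (redHom ℓ P).order ≤ (k : ℕ∞) :=
    le_trans (mul_le_mul_right hge 12) hik
  exact absurd this (not_le.mpr hlt)

end

end Fermat.Agent.S16x
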