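/-
S16 project, module NI (norm inequality), core: `norm_order_le` with the Spec statements of
AN1 (`exists_levelOne_norm`) and I1 (`levelOne_redHom_order_le`) as explicit hypotheses.
Owner of this file: helper76.
-/
import Fermat.Agent.S16x.Defs

set_option autoImplicit false

open UpperHalfPlane ModularForm ModularFormClass CongruenceSubgroup
open scoped MatrixGroups Manifold
open Fermat.Agent.S23x (IsMF IsMF1)

namespace Fermat.Agent.S16x

noncomputable section

/-- `toC` commutes with `expand` (local copy for NI). -/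
theorem ni_toC_expand (ℓ e : ℕ) (he : e ≠ 0) (P : PowerSeries (lintRing ℓ)) :
    toC ℓ (PowerSeries.expand e he P) = PowerSeries.expand e he (toC ℓ P) := by
  simp only [toC]
  exact PowerSeries.map_expand e he _ P

/-- `redHom` commutes with `expand` (local copy for NI). -/
theorem ni_redHom_expand (ℓ e : ℕ) [Fact ℓ.Prime] (he : e ≠ 0) (P : PowerSeries (lintRing ℓ)) :
    redHom ℓ (PowerSeries.expand e he P) = PowerSeries.expand e he (redHom ℓ P) := by
  simp only [redHom]
  exact PowerSeries.map_expand e he _ P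

/-- If `toC C` is an `e`-expanded series `expand e Q`, then `C = expand e P` for the series `P` of
the coefficients of `C` at multiples of `e`, and `toC P = Q`. -/
theorem ni_exists_contract (ℓ e : ℕ) (he : e ≠ 0) (C : PowerSeries (lintRing ℓ))
    (Q : PowerSeries ℂ) (h : toC ℓ C = PowerSeries.expand e he Q) :
    ∃ P : PowerSeries (lintRing ℓ), toC ℓ P = Q ∧ C = PowerSeries.expand e he P := by
  refine ⟨PowerSeries.mk fun n => PowerSeries.coeff (e * n) C, ?_, ?_⟩
  · ext n
    have h1 := congrArg (PowerSeries.coeff (e * n)) h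
    rw [PowerSeries.coeff_expand_mul] at h1
    rw [← h1]
    simp [toC]
  · have hP : toC ℓ (PowerSeries.mk fun n => PowerSeries.coeff (e * n) C) = Q := by
      ext n
      have h1 := congrArg (PowerSeries.coeff (e * n)) h
      rw [PowerSeries.coeff_expand_mul] at h1
      rw [← h1]
      simp [toC]
    apply toC_injective
    rw [ni_toC_expand, hP, h]

/-- **Norm inequality, core form.**  `hAN1` is the conclusion of `exists_levelOne_norm` for
`(p, r, A, B)`, and `hI1` is `levelOne_redHom_order_le` at `ℓ`. -/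
theorem ni_norm_order_le_of (ℓ p r : ℕ) [Fact ℓ.Prime] [Fact p.Prime] [Fact r.Prime]
    (A : ModularForm (Gamma0 p) 2) (B : ModularForm (Gamma0 r) 2)
    (hAN1 : haveI : NeZero p := ⟨(Fact.out : p.Prime).ne_zero⟩
      haveI : NeZero r := ⟨(Fact.out : r.Prime).ne_zero⟩
      ∃ f : ℍ → ℂ, IsMF1 ((2 * ((p + 1) * (r + 1)) : ℕ) : ℤ) f ∧
        PowerSeries.expand (r * p) (mul_ne_zero (NeZero.ne r) (NeZero.ne p)) (qExpansion 1 f) =
          ∏ x : Option (Fin p), ∏ y : Option (Fin r),
            conjSeries p r (qExpansion 1 A) (qExpansion 1 B) x y)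
    (hI1 : ∀ {k : ℕ} {f : ℍ → ℂ}, IsMF1 (k : ℤ) f →
      ∀ P : PowerSeries (lintRing ℓ), toC ℓ P = qExpansion 1 f → redHom ℓ P ≠ 0 →
        12 * (redHom ℓ P).order ≤ (k : ℕ∞))
    (c : Option (Fin p) → Option (Fin r) → PowerSeries (lintRing ℓ))
    (hc : haveI : NeZero p := ⟨(Fact.out : p.Prime).ne_zero⟩
          haveI : NeZero r := ⟨(Fact.out : r.Prime).ne_zero⟩
          ∀ x y, toC ℓ (c x y) = conjSeries p r (qExpansion 1 A) (qExpansion 1 B) x y)
    (hne : ∀ x y, redHom ℓ (c x y) ≠ 0) :
    6 * ∑ x : Option (Fin p), ∑ y : Option (Fin r), (redHom ℓ (c x y)).order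
      ≤ ((r * p * ((p + 1) * (r + 1)) : ℕ) : ℕ∞) := by
  have : NeZero p := ⟨(Fact.out : p.Prime).ne_zero⟩
  have : NeZero r := ⟨(Fact.out : r.Prime).ne_zero⟩
  obtain ⟨f, hf, hexp⟩ := hAN1
  have he0 : r * p ≠ 0 := mul_ne_zero (NeZero.ne r) (NeZero.ne p)
  -- the product of the lifts
  have hCtoC : toC ℓ (∏ x : Option (Fin p), ∏ y : Option (Fin r), c x y) =
      PowerSeries.expand (r * p) he0 (qExpansion 1 f) := by
    rw [hexp, map_prod]
    refine Finset.prod_congr rfl fun x _ => ?_
    rw [map_prod]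
    exact Finset.prod_congr rfl fun y _ => hc x y
  obtain ⟨P, hPQ, hCP⟩ := ni_exists_contract ℓ (r * p) he0 _ _ hCtoC
  -- reduction
  have hred : ∏ x : Option (Fin p), ∏ y : Option (Fin r), redHom ℓ (c x y) =
      PowerSeries.expand (r * p) he0 (redHom ℓ P) := by
    rw [← ni_redHom_expand, ← hCP, map_prod]
    refine Finset.prod_congr rfl fun x _ => ?_
    rw [map_prod]
  have hprod_ne : ∏ x : Option (Fin p), ∏ y : Option (Fin r), redHom ℓ (c x y) ≠ 0 :=
    Finset.prod_ne_zero_iff.mpr fun x _ => Finset.prod_ne_zero_iff.mpr fun y _ => hne x y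
  have hPne : redHom ℓ P ≠ 0 := by
    intro h0
    apply hprod_ne
    rw [hred, h0, map_zero]
  have hI := hI1 hf P hPQ hPne
  -- orders
  have hord : ∑ x : Option (Fin p), ∑ y : Option (Fin r), (redHom ℓ (c x y)).order =
      (r * p) • (redHom ℓ P).order := by
    rw [← PowerSeries.order_expand (r * p) he0, ← hred, PowerSeries.order_prod]
    refine Finset.sum_congr rfl fun x _ => ?_
    rw [PowerSeries.order_prod]
  rw [hord]
  obtain ⟨n, hn⟩ := ENat.ne_top_iff_exists.mp (PowerSeries.order_eq_top.not.mpr hPne)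
  rw [← hn] at hI ⊢
  have hI' : 12 * n ≤ 2 * ((p + 1) * (r + 1)) := by exact_mod_cast hI
  have h6 : 6 * n ≤ (p + 1) * (r + 1) := by omega
  have hfin : 6 * ((r * p) * n) ≤ r * p * ((p + 1) * (r + 1)) := by
    calc 6 * ((r * p) * n) = (r * p) * (6 * n) := by ring
      _ ≤ (r * p) * ((p + 1) * (r + 1)) := Nat.mul_le_mul_left _ h6
  rw [nsmul_eq_mul]
  exact_mod_cast hfin

end

end Fermat.Agent.S16x
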