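/-
S16 shared file (helper73): the `p+1` coset representatives `1, S T^j` of `Γ₀(p) \ SL₂(ℤ)` and the
permutation of them induced by right multiplication by an arbitrary `γ ∈ SL₂(ℤ)`.
Used by AN1 (norm) and AN2 (trace).
-/
import Mathlib

set_option autoImplicit false

noncomputable section

open scoped MatrixGroups ModularForm
open UpperHalfPlane ModularForm CongruenceSubgroup Matrix.SpecialLinearGroup ModularGroup

namespace Fermat.Agent.S16x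

/-- coset representatives of `Γ₀(p) \ SL₂(ℤ)`: `none ↦ 1`, `some j ↦ S T^j`. -/
def cp_rep (p : ℕ) : Option (Fin p) → SL(2, ℤ)
  | none => 1
  | some j => S * T ^ (j : ℕ)

@[simp] theorem cp_rep_none (p : ℕ) : cp_rep p none = 1 := rfl

@[simp] theorem cp_rep_some (p : ℕ) (j : Fin p) : cp_rep p (some j) = S * T ^ (j : ℕ) := rfl

theorem cp_coe_S_mul_T_pow (n : ℕ) :
    ((S * T ^ n : SL(2, ℤ)) : Matrix (Fin 2) (Fin 2) ℤ) = !![0, -1; 1, (n : ℤ)] := by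
  have hT : (T ^ n : SL(2, ℤ)) = T ^ (n : ℤ) := (zpow_natCast T n).symm
  rw [Matrix.SpecialLinearGroup.coe_mul, coe_S, hT, coe_T_zpow]
  ext i j
  fin_cases i <;> fin_cases j <;> simp [Matrix.mul_apply, Fin.sum_univ_two]

theorem cp_coe_S_mul_T_pow_inv (n : ℕ) :
    (((S * T ^ n)⁻¹ : SL(2, ℤ)) : Matrix (Fin 2) (Fin 2) ℤ) = !![(n : ℤ), 1; -1, 0] := by
  rw [Matrix.SpecialLinearGroup.coe_inv, cp_coe_S_mul_T_pow, Matrix.adjugate_fin_two_of]
  simp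

/-- lower-left entry of `γ (S T^n)⁻¹` -/
theorem cp_mul_inv_entry (γ : SL(2, ℤ)) (n : ℕ) :
    (γ * (S * T ^ n)⁻¹) 1 0 = γ 1 0 * (n : ℤ) - γ 1 1 := by
  rw [Matrix.SpecialLinearGroup.coe_mul, cp_coe_S_mul_T_pow_inv]
  simp [Matrix.mul_apply, Fin.sum_univ_two]
  ring

/-- The class of `γ` in `Γ₀(p) \ SL₂(ℤ) = ℙ¹(𝔽_p)`, read off from the bottom row. -/
def cp_cls (p : ℕ) [Fact p.Prime] (γ : SL(2, ℤ)) : Option (Fin p) :=
  if ((γ 1 0 : ℤ) : ZMod p) = 0 then none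
  else some ⟨(((γ 1 1 : ℤ) : ZMod p) * ((γ 1 0 : ℤ) : ZMod p)⁻¹).val, ZMod.val_lt _⟩

/-- (i) every `γ` lies in `Γ₀(p) · cp_rep (cp_cls γ)`. -/
theorem cp_mul_rep_cls_inv_mem (p : ℕ) [Fact p.Prime] (γ : SL(2, ℤ)) :
    γ * (cp_rep p (cp_cls p γ))⁻¹ ∈ Gamma0 p := by
  unfold cp_cls
  split_ifs with h
  · simpa [Gamma0_mem] using h
  · rw [cp_rep_some, Gamma0_mem, cp_mul_inv_entry]
    push_cast
    rw [ZMod.natCast_zmod_val]
    field_simp
    ring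

/-- (ii) the representatives are pairwise inequivalent. -/
theorem cp_rep_injective (p : ℕ) [hp : Fact p.Prime] (x y : Option (Fin p))
    (h : cp_rep p x * (cp_rep p y)⁻¹ ∈ Gamma0 p) : x = y := by
  have hp1 : ((1 : ℤ) : ZMod p) ≠ 0 := by
    have : Fact (1 < p) := ⟨hp.out.one_lt⟩
    simp
  rcases x with _ | i <;> rcases y with _ | j
  · rfl
  · exfalso
    rw [cp_rep_none, cp_rep_some, Gamma0_mem, cp_mul_inv_entry] at h
    simp at h
  · exfalso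
    rw [cp_rep_none, cp_rep_some, inv_one, mul_one, Gamma0_mem, cp_coe_S_mul_T_pow] at h
    simp at h
  · rw [cp_rep_some, cp_rep_some, Gamma0_mem, cp_mul_inv_entry, cp_coe_S_mul_T_pow] at h
    simp only [Matrix.of_apply, Matrix.cons_val', Matrix.cons_val_one, Matrix.cons_val_zero,
      Matrix.cons_val_fin_one, one_mul] at h
    have h2 : ((j : ℕ) : ZMod p) = ((i : ℕ) : ZMod p) := by
      push_cast at h
      exact (sub_eq_zero.mp h)
    have h3 := congrArg ZMod.val h2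
    rw [ZMod.val_natCast, ZMod.val_natCast, Nat.mod_eq_of_lt j.2, Nat.mod_eq_of_lt i.2] at h3
    congr 1
    exact (Fin.ext h3).symm

/-- Right multiplication by `γ` permutes the cosets. -/
theorem cp_exists_perm (p : ℕ) [Fact p.Prime] (γ : SL(2, ℤ)) :
    ∃ σ : Equiv.Perm (Option (Fin p)), ∀ x, ∃ δ ∈ Gamma0 p, cp_rep p x * γ = δ * cp_rep p (σ x) := by
  set f : Option (Fin p) → Option (Fin p) := fun x => cp_cls p (cp_rep p x * γ) with hf
  have key : ∀ x, ∃ δ ∈ Gamma0 p, cp_rep p x * γ = δ * cp_rep p (f x) := fun x =>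
    ⟨_, cp_mul_rep_cls_inv_mem p (cp_rep p x * γ), by simp [hf]⟩
  have hinj : Function.Injective f := by
    intro x y hxy
    obtain ⟨δ₁, hδ₁, h₁⟩ := key x
    obtain ⟨δ₂, hδ₂, h₂⟩ := key y
    apply cp_rep_injective p x y
    have : cp_rep p x * (cp_rep p y)⁻¹ = δ₁ * δ₂⁻¹ := by
      have e1 : cp_rep p x = δ₁ * cp_rep p (f x) * γ⁻¹ := by rw [← h₁]; group
      have e2 : cp_rep p y = δ₂ * cp_rep p (f x) * γ⁻¹ := by rw [hxy, ← h₂]; group
      rw [e1, e2]; group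
    rw [this]
    exact (Gamma0 p).mul_mem hδ₁ ((Gamma0 p).inv_mem hδ₂)
  exact ⟨Equiv.ofBijective f (Finite.injective_iff_bijective.mp hinj), fun x => key x⟩

/-- For a `Γ₀(p)`-invariant function `h`, right translation permutes the conjugates `h ∣ cp_rep x`. -/
theorem cp_slash_perm (p : ℕ) [Fact p.Prime] (k : ℤ) (h : ℍ → ℂ)
    (hh : ∀ δ ∈ Gamma0 p, h ∣[k] δ = h) (γ : SL(2, ℤ)) :
    ∃ σ : Equiv.Perm (Option (Fin p)), ∀ x,
      (h ∣[k] cp_rep p x) ∣[k] γ = h ∣[k] cp_rep p (σ x) := by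
  obtain ⟨σ, hσ⟩ := cp_exists_perm p γ
  refine ⟨σ, fun x => ?_⟩
  obtain ⟨δ, hδ, e⟩ := hσ x
  rw [← SlashAction.slash_mul, e, SlashAction.slash_mul, hh δ hδ]

/-- The sum of the conjugates is `SL₂(ℤ)`-invariant. -/
theorem cp_sum_slash (p : ℕ) [Fact p.Prime] (k : ℤ) (h : ℍ → ℂ)
    (hh : ∀ δ ∈ Gamma0 p, h ∣[k] δ = h) (γ : SL(2, ℤ)) :
    (∑ x : Option (Fin p), h ∣[k] cp_rep p x) ∣[k] γ = ∑ x : Option (Fin p), h ∣[k] cp_rep p x := by
  obtain ⟨σ, hσ⟩ := cp_slash_perm p k h hh γ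
  rw [SlashAction.sum_slash]
  simp_rw [hσ]
  exact Equiv.sum_comp σ (fun x => h ∣[k] cp_rep p x)

/-- The product over all pairs of conjugates of `A + B` (two prime levels) is `SL₂(ℤ)`-invariant of
weight `k * #pairs`. -/
theorem cp_prod_slash (p r : ℕ) [Fact p.Prime] [Fact r.Prime] (k : ℤ) (A B : ℍ → ℂ)
    (hA : ∀ δ ∈ Gamma0 p, A ∣[k] δ = A) (hB : ∀ δ ∈ Gamma0 r, B ∣[k] δ = B) (γ : SL(2, ℤ)) :
    (∏ xy : Option (Fin p) × Option (Fin r), (A ∣[k] cp_rep p xy.1 + B ∣[k] cp_rep r xy.2))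
        ∣[k * (Finset.univ : Finset (Option (Fin p) × Option (Fin r))).card] γ =
      ∏ xy : Option (Fin p) × Option (Fin r), (A ∣[k] cp_rep p xy.1 + B ∣[k] cp_rep r xy.2) := by
  obtain ⟨σ, hσ⟩ := cp_slash_perm p k A hA γ
  obtain ⟨τ, hτ⟩ := cp_slash_perm r k B hB γ
  rw [ModularForm.SL_slash, ModularForm.prod_slash]
  have hdet : |((γ : GL (Fin 2) ℝ).det.val)| = 1 := by
    simp
  rw [hdet, one_zpow, one_smul]
  have : ∀ xy : Option (Fin p) × Option (Fin r),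
      (A ∣[k] cp_rep p xy.1 + B ∣[k] cp_rep r xy.2) ∣[k] (γ : GL (Fin 2) ℝ) =
        A ∣[k] cp_rep p (σ xy.1) + B ∣[k] cp_rep r (τ xy.2) := by
    intro xy
    rw [SlashAction.add_slash, ← ModularForm.SL_slash, ← ModularForm.SL_slash, hσ, hτ]
  simp_rw [this]
  exact Equiv.prod_comp (σ.prodCongr τ)
    (fun xy : Option (Fin p) × Option (Fin r) => A ∣[k] cp_rep p xy.1 + B ∣[k] cp_rep r xy.2)

/-- `h ∣ S T^j` is the translate by `j` of `h ∣ S`. -/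
theorem cp_slash_rep_some (p : ℕ) (k : ℤ) (h : ℍ → ℂ) (j : Fin p) (z : ℍ) :
    (h ∣[k] cp_rep p (some j)) z = (h ∣[k] S) ((((j : ℕ) : ℝ)) +ᵥ z) := by
  rw [cp_rep_some, SlashAction.slash_mul, ModularForm.SL_slash_apply (f := h ∣[k] S)]
  have hT : (T ^ (j : ℕ) : SL(2, ℤ)) = T ^ ((j : ℕ) : ℤ) := (zpow_natCast T _).symm
  have h1 : (T ^ (j : ℕ) : SL(2, ℤ)) • z = (((j : ℕ) : ℝ)) +ᵥ z := by
    rw [hT, UpperHalfPlane.modular_T_zpow_smul]
    simp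
  have h2 : denom (T ^ (j : ℕ) : SL(2, ℤ)) z = 1 := by
    have e : ∀ (g : SL(2, ℤ)), denom g z = ((g 1 0 : ℤ) : ℂ) * z + ((g 1 1 : ℤ) : ℂ) := by
      intro g
      simp [denom]
    rw [e, hT, coe_T_zpow]
    simp
  rw [h1, h2]
  simp

end Fermat.Agent.S16x
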