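/-
S16 project, module AN1 (NormLevelOne): shared definitions for the three sub-modules
AN1a (level-one-ness of the product of conjugates), AN1b (q-expansion of a product from pointwise
expansions), AN1c (pointwise expansions of the individual conjugates).
-/
import Fermat.Agent.S16x.Defs

set_option autoImplicit false

namespace Fermat.Agent.S16x

open UpperHalfPlane ModularForm ModularFormClass CongruenceSubgroup
open scoped MatrixGroups Manifold

noncomputable section

/-- The `p + 1` conjugates of a weight-2 function `A` (thought of as a form on `Γ₀(p)`) under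
`SL₂(ℤ)`: `none ↦ A`, `some j ↦ A ∣₂ (S Tʲ)`. -/
def nl_conjFun (p : ℕ) (A : ℍ → ℂ) : Option (Fin p) → ℍ → ℂ
  | none => A
  | some j => A ∣[(2 : ℤ)] (ModularGroup.S * ModularGroup.T ^ (j : ℕ))

@[simp] theorem nl_conjFun_none (p : ℕ) (A : ℍ → ℂ) : nl_conjFun p A none = A := rfl

@[simp] theorem nl_conjFun_some (p : ℕ) (A : ℍ → ℂ) (j : Fin p) :
    nl_conjFun p A (some j) = A ∣[(2 : ℤ)] (ModularGroup.S * ModularGroup.T ^ (j : ℕ)) := rfl

/-- the variable `w = q^{1/N} = exp(2πi z / N)` -/
def nl_w (N : ℕ) (z : ℍ) : ℂ := Complex.exp (2 * Real.pi * Complex.I * z / N)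

end

end Fermat.Agent.S16x
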