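/-
S16 project, module AN1a (helper21): the product of the `(p+1)(r+1)` conjugates `A_x + B_y`
(`A ∈ M₂(Γ₀(p))`, `B ∈ M₂(Γ₀(r))`) is a level-one modular form of weight `2(p+1)(r+1)`.

Method: generic double-coset product built on Mathlib's `SlashInvariantForm.quotientFunc`
(as in `S23x/PairNorm`), plus the explicit bijection
`Option (Fin p) ≃ SL₂(ℤ) / Γ₀(p)`, `none ↦ [1]`, `some j ↦ [(S Tʲ)⁻¹]`.
-/
import Fermat.Agent.S16x.NormDefs

set_option autoImplicit false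

namespace Fermat.Agent.S16x

open UpperHalfPlane ModularForm ModularFormClass CongruenceSubgroup SlashInvariantForm
open scoped MatrixGroups Manifold Topology Filter
open Fermat.Agent.S23x (IsMF1)

noncomputable section

section general

variable {𝒢₁ 𝒢₂ ℋ : Subgroup (GL (Fin 2) ℝ)} {k : ℤ}

local notation "𝒬₁" => ℋ ⧸ (𝒢₁.subgroupOf ℋ)
local notation "𝒬₂" => ℋ ⧸ (𝒢₂.subgroupOf ℋ)

variable (A : ModularForm 𝒢₁ k) (B : ModularForm 𝒢₂ k)

/-- the factor attached to a pair of cosets -/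
def nla_fac (q : 𝒬₁ × 𝒬₂) : ℍ → ℂ := quotientFunc A q.1 + quotientFunc B q.2

lemma nla_fac_slash {h : GL (Fin 2) ℝ} (hh : h ∈ ℋ) (q : 𝒬₁ × 𝒬₂) :
    nla_fac A B q ∣[k] h =
      nla_fac A B ((⟨h, hh⟩ : ℋ)⁻¹ • q.1, (⟨h, hh⟩ : ℋ)⁻¹ • q.2) := by
  unfold nla_fac
  rw [SlashAction.add_slash, quotientFunc_smul A hh, quotientFunc_smul B hh]

variable (ℋ) in
/-- the product of all the factors -/
def nla_prod [Fintype 𝒬₁] [Fintype 𝒬₂] : ℍ → ℂ := ∏ q : 𝒬₁ × 𝒬₂, nla_fac A B q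

lemma nla_prod_slash [Fintype 𝒬₁] [Fintype 𝒬₂] [ℋ.HasDetPlusMinusOne] {h : GL (Fin 2) ℝ}
    (hh : h ∈ ℋ) :
    nla_prod ℋ A B ∣[k * (Fintype.card (𝒬₁ × 𝒬₂) : ℤ)] h = nla_prod ℋ A B := by
  classical
  unfold nla_prod
  rw [← Finset.card_univ, ModularForm.prod_slash]
  simp only [Subgroup.HasDetPlusMinusOne.abs_det hh, one_zpow, one_smul]
  simp_rw [nla_fac_slash A B hh]
  exact Equiv.prod_comp ((MulAction.toPerm (⟨h, hh⟩ : ℋ)⁻¹).prodCongr
    (MulAction.toPerm (⟨h, hh⟩ : ℋ)⁻¹)) (nla_fac A B)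

lemma nla_quotientFunc_mdiff {𝒢 : Subgroup (GL (Fin 2) ℝ)} (F : ModularForm 𝒢 k)
    (q : ℋ ⧸ (𝒢.subgroupOf ℋ)) : MDiff (quotientFunc F q) := by
  induction q using Quotient.inductionOn with
  | h r => exact (ModularForm.translate F (r.val)⁻¹).holo'

lemma nla_fac_mdiff (q : 𝒬₁ × 𝒬₂) : MDiff (nla_fac A B q) := by
  unfold nla_fac
  exact (nla_quotientFunc_mdiff A q.1).add (nla_quotientFunc_mdiff B q.2)

lemma nla_prod_mdiff [Fintype 𝒬₁] [Fintype 𝒬₂] : MDiff (nla_prod ℋ A B) := by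
  unfold nla_prod
  exact MDifferentiable.prod fun q _ => nla_fac_mdiff A B q

lemma nla_quotientFunc_bdd {𝒢 : Subgroup (GL (Fin 2) ℝ)} [𝒢.IsFiniteRelIndex ℋ]
    (F : ModularForm 𝒢 k) (q : ℋ ⧸ (𝒢.subgroupOf ℋ)) {γ : GL (Fin 2) ℝ}
    (hc : IsCusp (γ • OnePoint.infty) ℋ) :
    IsBoundedAtImInfty (quotientFunc F q ∣[k] γ) := by
  induction q using Quotient.inductionOn with
  | h r =>
    obtain ⟨r, hr⟩ := r
    have hc' := hc.of_isFiniteRelIndex_conj (𝒢 := 𝒢) hr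
    refine (ModularForm.translate F _).bdd_at_cusps' ?_ γ rfl
    simpa using hc'

lemma nla_fac_bdd [𝒢₁.IsFiniteRelIndex ℋ] [𝒢₂.IsFiniteRelIndex ℋ] (q : 𝒬₁ × 𝒬₂)
    {γ : GL (Fin 2) ℝ} (hc : IsCusp (γ • OnePoint.infty) ℋ) :
    IsBoundedAtImInfty (nla_fac A B q ∣[k] γ) := by
  unfold nla_fac
  rw [SlashAction.add_slash]
  exact Filter.BoundedAtFilter.add (nla_quotientFunc_bdd A q.1 hc) (nla_quotientFunc_bdd B q.2 hc)

lemma nla_prod_bdd [Fintype 𝒬₁] [Fintype 𝒬₂] [𝒢₁.IsFiniteRelIndex ℋ] [𝒢₂.IsFiniteRelIndex ℋ]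
    {c : OnePoint ℝ} (hc : IsCusp c ℋ) :
    c.IsBoundedAt (nla_prod ℋ A B) (k * (Fintype.card (𝒬₁ × 𝒬₂) : ℤ)) := by
  classical
  intro γ hγ
  subst hγ
  unfold nla_prod
  rw [← Finset.card_univ, ModularForm.prod_slash]
  refine Filter.BoundedAtFilter.smul _ (Filter.BoundedAtFilter.prod _ ?_)
  intro q _
  exact nla_fac_bdd A B q hc

variable (ℋ) in
/-- the product of the conjugates as a modular form for `ℋ` -/
def nla_form [Fintype 𝒬₁] [Fintype 𝒬₂] [𝒢₁.IsFiniteRelIndex ℋ] [𝒢₂.IsFiniteRelIndex ℋ]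
    [ℋ.HasDetPlusMinusOne] : ModularForm ℋ (k * (Fintype.card (𝒬₁ × 𝒬₂) : ℤ)) where
  toFun := nla_prod ℋ A B
  slash_action_eq' _ hh := nla_prod_slash A B hh
  holo' := nla_prod_mdiff A B
  bdd_at_cusps' hc := nla_prod_bdd A B hc

end general

section level

open Matrix.SpecialLinearGroup

/-- the coset space `SL₂ℤ / Γ₀(N)` used by Mathlib's norm construction -/
abbrev nla_Q (N : ℕ) : Type :=
  ↥(𝒮ℒ) ⧸ ((Gamma0 N : Subgroup (GL (Fin 2) ℝ)).subgroupOf 𝒮ℒ)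

/-- an element of `𝒮ℒ` from an element of `SL(2, ℤ)` -/
def nla_toSL (γ : SL(2, ℤ)) : ↥(𝒮ℒ) := ⟨mapGL ℝ γ, ⟨γ, rfl⟩⟩

lemma nla_toSL_surjective : Function.Surjective nla_toSL := by
  rintro ⟨_, ⟨γ, rfl⟩⟩
  exact ⟨γ, rfl⟩

lemma nla_mk_eq_iff (N : ℕ) (γ δ : SL(2, ℤ)) :
    ((⟦nla_toSL γ⟧ : nla_Q N) = ⟦nla_toSL δ⟧) ↔ γ⁻¹ * δ ∈ Gamma0 N := by
  rw [Quotient.eq, QuotientGroup.leftRel_apply, Subgroup.mem_subgroupOf]
  have h1 : (((nla_toSL γ)⁻¹ * nla_toSL δ : ↥(𝒮ℒ)) : GL (Fin 2) ℝ) = mapGL ℝ (γ⁻¹ * δ) := by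
    simp [nla_toSL]
  rw [h1]
  exact Subgroup.mem_map_iff_mem mapGL_injective

/-- the matrix of `S * T ^ j` -/
lemma nla_coe_S_mul_T_pow (j : ℕ) :
    ((ModularGroup.S * ModularGroup.T ^ j : SL(2, ℤ)) : Matrix (Fin 2) (Fin 2) ℤ) =
      !![0, -1; 1, (j : ℤ)] := by
  rw [← zpow_natCast, Matrix.SpecialLinearGroup.coe_mul, ModularGroup.coe_T_zpow, ModularGroup.coe_S]
  ext a b
  fin_cases a <;> fin_cases b <;> simp [Matrix.mul_apply, Fin.sum_univ_two]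

variable (p : ℕ)

/-- coset representatives of `SL₂(ℤ) / Γ₀(p)` -/
def nla_rep : Option (Fin p) → SL(2, ℤ)
  | none => 1
  | some j => (ModularGroup.S * ModularGroup.T ^ (j : ℕ))⁻¹

/-- the cosets of `Γ₀(p)` -/
def nla_coset (x : Option (Fin p)) : nla_Q p := ⟦nla_toSL (nla_rep p x)⟧

lemma nla_mem_Gamma0_iff (N : ℕ) (γ : SL(2, ℤ)) : γ ∈ Gamma0 N ↔ (N : ℤ) ∣ γ.1 1 0 := by
  rw [Gamma0_mem, ZMod.intCast_zmod_eq_zero_iff_dvd]

lemma nla_coe_inv_S_mul_T_pow (j : ℕ) :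
    (((ModularGroup.S * ModularGroup.T ^ j)⁻¹ : SL(2, ℤ)) : Matrix (Fin 2) (Fin 2) ℤ) =
      !![(j : ℤ), 1; -1, 0] := by
  rw [Matrix.SpecialLinearGroup.coe_inv, nla_coe_S_mul_T_pow, Matrix.adjugate_fin_two_of]
  simp

lemma nla_coset_eq_iff (x y : Option (Fin p)) :
    nla_coset p x = nla_coset p y ↔ (nla_rep p x)⁻¹ * nla_rep p y ∈ Gamma0 p :=
  nla_mk_eq_iff p _ _

lemma nla_coset_injective [hp : Fact p.Prime] : Function.Injective (nla_coset p) := by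
  have hp1 : ¬ (p : ℤ) ∣ 1 := by
    intro h
    have := Int.natCast_dvd_natCast.mp (by simpa using h : ((p : ℕ) : ℤ) ∣ ((1 : ℕ) : ℤ))
    exact hp.out.one_lt.ne' (Nat.dvd_one.mp this)
  intro x y hxy
  rw [nla_coset_eq_iff, nla_mem_Gamma0_iff] at hxy
  rcases x with _ | i <;> rcases y with _ | j
  · rfl
  · exfalso
    simp only [nla_rep, inv_one, one_mul] at hxy
    rw [nla_coe_inv_S_mul_T_pow] at hxy
    simp at hxy
    exact hp1 hxy
  · exfalso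
    simp only [nla_rep, inv_inv, mul_one] at hxy
    rw [nla_coe_S_mul_T_pow] at hxy
    simp at hxy
    exact hp1 hxy
  · simp only [nla_rep, inv_inv] at hxy
    rw [Matrix.SpecialLinearGroup.coe_mul, nla_coe_S_mul_T_pow, nla_coe_inv_S_mul_T_pow] at hxy
    simp [Matrix.mul_apply, Fin.sum_univ_two] at hxy
    -- `p ∣ j - i`
    congr 1
    apply Fin.ext
    have h2 : ((i : ℕ) : ℤ) ≡ ((j : ℕ) : ℤ) [ZMOD (p : ℤ)] :=
      Int.modEq_iff_dvd.mpr (by simpa [sub_eq_add_neg] using hxy)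
    have h3 : (i : ℕ) ≡ (j : ℕ) [MOD p] := Int.natCast_modEq_iff.mp h2
    exact Nat.ModEq.eq_of_lt_of_lt h3 i.2 j.2

lemma nla_coset_surjective [hp : Fact p.Prime] : Function.Surjective (nla_coset p) := by
  intro q
  induction q using Quotient.inductionOn with
  | h g =>
    obtain ⟨δ, rfl⟩ := nla_toSL_surjective g
    by_cases hc : (p : ℤ) ∣ δ.1 1 0
    · refine ⟨none, ?_⟩
      unfold nla_coset
      rw [nla_mk_eq_iff, nla_mem_Gamma0_iff]
      simpa [nla_rep] using hc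
    · have hc' : ((δ.1 1 0 : ℤ) : ZMod p) ≠ 0 := by
        rwa [Ne, ZMod.intCast_zmod_eq_zero_iff_dvd]
      have : NeZero p := ⟨hp.out.ne_zero⟩
      set t : ZMod p := -((δ.1 0 0 : ℤ) : ZMod p) * ((δ.1 1 0 : ℤ) : ZMod p)⁻¹ with ht
      refine ⟨some ⟨t.val, ZMod.val_lt t⟩, ?_⟩
      unfold nla_coset
      rw [nla_mk_eq_iff, nla_mem_Gamma0_iff]
      simp only [nla_rep, inv_inv]
      rw [Matrix.SpecialLinearGroup.coe_mul, nla_coe_S_mul_T_pow]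
      simp only [Matrix.mul_apply, Fin.sum_univ_two, Matrix.of_apply, Matrix.cons_val_zero,
        Matrix.cons_val_one, Matrix.cons_val', Matrix.cons_val_fin_one]
      rw [← ZMod.intCast_zmod_eq_zero_iff_dvd]
      push_cast
      rw [ZMod.natCast_zmod_val, ht]
      field_simp
      ring

/-- `Option (Fin p) ≃ SL₂(ℤ) / Γ₀(p)` -/
def nla_equiv [Fact p.Prime] : Option (Fin p) ≃ nla_Q p :=
  Equiv.ofBijective (nla_coset p) ⟨nla_coset_injective p, nla_coset_surjective p⟩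

lemma nla_quotientFunc_coset {k : ℤ} (A : ModularForm (Gamma0 p) k) (x : Option (Fin p)) :
    quotientFunc (ℋ := 𝒮ℒ) A (nla_coset p x) = (⇑A) ∣[k] (nla_rep p x)⁻¹ := by
  unfold nla_coset
  rw [quotientFunc_mk, ModularForm.SL_slash]
  congr 1
  simp only [nla_toSL, map_inv]
  rfl

lemma nla_quotientFunc_coset_two (A : ModularForm (Gamma0 p) 2) (x : Option (Fin p)) :
    quotientFunc (ℋ := 𝒮ℒ) A (nla_coset p x) = nl_conjFun p (⇑A) x := by
  rw [nla_quotientFunc_coset]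
  rcases x with _ | j
  · simp [nla_rep]
  · simp [nla_rep]

end level

/-- **AN1a**: the product of the `(p+1)(r+1)` conjugates of `A + B` is a level-one modular form of
weight `2(p+1)(r+1)`. -/
theorem nla_exists (p r : ℕ) [Fact p.Prime] [Fact r.Prime]
    (A : ModularForm (Gamma0 p) 2) (B : ModularForm (Gamma0 r) 2) :
    ∃ f : ℍ → ℂ, IsMF1 ((2 * ((p + 1) * (r + 1)) : ℕ) : ℤ) f ∧
      ∀ z : ℍ, f z = ∏ x : Option (Fin p), ∏ y : Option (Fin r),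
        (nl_conjFun p (⇑A) x z + nl_conjFun r (⇑B) y z) := by
  classical
  have : NeZero p := ⟨(Fact.out : p.Prime).ne_zero⟩
  have : NeZero r := ⟨(Fact.out : r.Prime).ne_zero⟩
  let : Fintype (nla_Q p) := Fintype.ofEquiv _ (nla_equiv p)
  let : Fintype (nla_Q r) := Fintype.ofEquiv _ (nla_equiv r)
  have hcp : Fintype.card (nla_Q p) = p + 1 := by
    rw [← Fintype.card_congr (nla_equiv p), Fintype.card_option, Fintype.card_fin]
  have hcr : Fintype.card (nla_Q r) = r + 1 := by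
    rw [← Fintype.card_congr (nla_equiv r), Fintype.card_option, Fintype.card_fin]
  have hw : ((2 * ((p + 1) * (r + 1)) : ℕ) : ℤ) =
      2 * (Fintype.card (nla_Q p × nla_Q r) : ℤ) := by
    rw [Fintype.card_prod, hcp, hcr]
    push_cast
    ring
  refine ⟨nla_prod 𝒮ℒ A B, ?_, ?_⟩
  · rw [hw]
    exact ⟨nla_form 𝒮ℒ A B, rfl⟩
  · intro z
    unfold nla_prod
    rw [Finset.prod_apply, ← Fintype.prod_prod_type']
    rw [← Equiv.prod_comp ((nla_equiv p).prodCongr (nla_equiv r))]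
    refine Finset.prod_congr rfl fun xy _ => ?_
    unfold nla_fac
    simp only [Equiv.prodCongr_apply, Prod.map_fst, Prod.map_snd, Pi.add_apply]
    rw [show (nla_equiv p) xy.1 = nla_coset p xy.1 from rfl,
      show (nla_equiv r) xy.2 = nla_coset r xy.2 from rfl,
      nla_quotientFunc_coset_two, nla_quotientFunc_coset_two]

end

end Fermat.Agent.S16x
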