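/-
S16 project, module AN1b (`NormQExp`): the `q`-expansion of a level one form that is given as a
finite product of functions with explicit expansions in the variable `w = exp(2πi z / N)`.

If `f z = ∏ i, F i z` is a level one form and every `F i` has the expansion
`F i z = ∑ₙ cᵢ(n) wⁿ` (pointwise `HasSum`, no other hypothesis), then
`expand N (qExpansion 1 f) = ∏ i, c i`.
-/
import Fermat.Agent.S16x.NormDefs
import Fermat.Agent.S23x.QRing
import Fermat.Agent.S23x.LevelRaise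

set_option autoImplicit false

namespace Fermat.Agent.S16x

open UpperHalfPlane ModularForm ModularFormClass CongruenceSubgroup Complex
open scoped MatrixGroups Manifold Real
open Fermat.Agent.S23x (IsMF1 IsNice mulN)

noncomputable section

/-- `F` has the expansion `c` in the variable `w = exp(2πi z / N)`. -/
def HasWExp (N : ℕ) (F : ℍ → ℂ) (c : PowerSeries ℂ) : Prop :=
  ∀ z : ℍ, HasSum (fun n : ℕ => PowerSeries.coeff n c * nl_w N z ^ n) (F z)

theorem nqe_w_ne_zero (N : ℕ) (z : ℍ) : nl_w N z ≠ 0 := Complex.exp_ne_zero _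

theorem nqe_norm_w (N : ℕ) (z : ℍ) : ‖nl_w N z‖ = Real.exp (-(2 * π * z.im / N)) := by
  rw [nl_w, Complex.norm_exp]
  congr 1
  have : (2 * (π : ℂ) * Complex.I * (z : ℂ) / (N : ℂ)) =
      ((2 * π / N : ℝ) : ℂ) * (Complex.I * (z : ℂ)) := by
    push_cast
    ring
  rw [this, Complex.re_ofReal_mul]
  simp
  ring

theorem nqe_norm_w_lt_one {N : ℕ} (hN : 0 < N) (z : ℍ) : ‖nl_w N z‖ < 1 := by
  rw [nqe_norm_w, Real.exp_lt_one_iff, neg_lt_zero]
  have := z.im_pos
  positivity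

/-- there is a point `z'` with strictly larger `‖w‖` -/
theorem nqe_exists_larger {N : ℕ} (hN : 0 < N) (z : ℍ) : ∃ z' : ℍ, ‖nl_w N z‖ < ‖nl_w N z'‖ := by
  refine ⟨⟨(z : ℂ) / 2, by simpa using z.im_pos⟩, ?_⟩
  rw [nqe_norm_w, nqe_norm_w, Real.exp_lt_exp, neg_lt_neg_iff]
  have h1 : (⟨(z : ℂ) / 2, by simpa using z.im_pos⟩ : ℍ).im = z.im / 2 := by
    show ((z : ℂ) / 2).im = z.im / 2
    simp
  rw [h1]
  have := z.im_pos
  have hN' : (0 : ℝ) < N := Nat.cast_pos.mpr hN
  have hπ := Real.pi_pos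
  rw [div_lt_div_iff_of_pos_right hN']
  nlinarith

/-- absolute convergence of the expansion -/
theorem HasWExp.summable_norm {N : ℕ} (hN : 0 < N) {F : ℍ → ℂ} {c : PowerSeries ℂ}
    (hF : HasWExp N F c) (z : ℍ) :
    Summable (fun n : ℕ => ‖PowerSeries.coeff n c * nl_w N z ^ n‖) := by
  obtain ⟨z', hz'⟩ := nqe_exists_larger hN z
  have hbdd : ∃ B : ℝ, ∀ n : ℕ, ‖PowerSeries.coeff n c * nl_w N z' ^ n‖ ≤ B := by
    have ht := (hF z').summable.tendsto_atTop_zero
    obtain ⟨B, hB⟩ := (ht.norm).bddAbove_range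
    exact ⟨B, fun n => hB ⟨n, rfl⟩⟩
  obtain ⟨B, hB⟩ := hbdd
  have hpos : 0 < ‖nl_w N z'‖ := norm_pos_iff.mpr (nqe_w_ne_zero N z')
  set ρ : ℝ := ‖nl_w N z‖ / ‖nl_w N z'‖ with hρ
  have hρ0 : 0 ≤ ρ := div_nonneg (norm_nonneg _) hpos.le
  have hρ1 : ρ < 1 := (div_lt_one hpos).mpr hz'
  refine Summable.of_nonneg_of_le (fun n => norm_nonneg _) (fun n => ?_)
    ((summable_geometric_of_lt_one hρ0 hρ1).mul_left B)
  have h1 : ‖PowerSeries.coeff n c * nl_w N z ^ n‖ =
      ‖PowerSeries.coeff n c * nl_w N z' ^ n‖ * ρ ^ n := by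
    rw [norm_mul, norm_mul, norm_pow, norm_pow, hρ, div_pow]
    field_simp
  rw [h1]
  exact mul_le_mul_of_nonneg_right (hB n) (pow_nonneg hρ0 n)

theorem hasWExp_one (N : ℕ) : HasWExp N (1 : ℍ → ℂ) 1 := by
  intro z
  have h := hasSum_ite_eq (0 : ℕ) (1 : ℂ)
  show HasSum _ (1 : ℂ)
  convert h using 1
  funext n
  by_cases hn : n = 0
  · simp [hn]
  · simp [hn, PowerSeries.coeff_one]

theorem HasWExp.mul {N : ℕ} (hN : 0 < N) {F G : ℍ → ℂ} {c d : PowerSeries ℂ}
    (hF : HasWExp N F c) (hG : HasWExp N G d) : HasWExp N (F * G) (c * d) := by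
  intro z
  have h1 := hF.summable_norm hN z
  have h2 := hG.summable_norm hN z
  have hprod := tsum_mul_tsum_eq_tsum_sum_antidiagonal_of_summable_norm h1 h2
  have hsum := summable_norm_sum_mul_antidiagonal_of_summable_norm h1 h2
  have heq : (fun n : ℕ => PowerSeries.coeff n (c * d) * nl_w N z ^ n) =
      fun n : ℕ => ∑ kl ∈ Finset.HasAntidiagonal.antidiagonal n,
        (PowerSeries.coeff kl.1 c * nl_w N z ^ kl.1) * (PowerSeries.coeff kl.2 d * nl_w N z ^ kl.2) := by
    funext n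
    rw [PowerSeries.coeff_mul, Finset.sum_mul]
    refine Finset.sum_congr rfl fun kl hkl => ?_
    have hn : kl.1 + kl.2 = n := Finset.HasAntidiagonal.mem_antidiagonal.mp hkl
    rw [← hn, pow_add]
    ring
  rw [heq]
  have hs : Summable (fun n : ℕ => ∑ kl ∈ Finset.HasAntidiagonal.antidiagonal n,
      (PowerSeries.coeff kl.1 c * nl_w N z ^ kl.1) * (PowerSeries.coeff kl.2 d * nl_w N z ^ kl.2)) :=
    hsum.of_norm
  have hval : (F * G) z = ∑' n : ℕ, ∑ kl ∈ Finset.HasAntidiagonal.antidiagonal n,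
      (PowerSeries.coeff kl.1 c * nl_w N z ^ kl.1) * (PowerSeries.coeff kl.2 d * nl_w N z ^ kl.2) := by
    rw [← hprod, (hF z).tsum_eq, (hG z).tsum_eq]
    rfl
  rw [hval]
  exact hs.hasSum

theorem HasWExp.prod {N : ℕ} (hN : 0 < N) {ι : Type*} (s : Finset ι) (F : ι → ℍ → ℂ)
    (c : ι → PowerSeries ℂ) (h : ∀ i ∈ s, HasWExp N (F i) (c i)) :
    HasWExp N (∏ i ∈ s, F i) (∏ i ∈ s, c i) := by
  classical
  induction s using Finset.induction_on with
  | empty =>
    simp only [Finset.prod_empty]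
    exact hasWExp_one N
  | insert a s ha ih =>
    rw [Finset.prod_insert ha, Finset.prod_insert ha]
    exact (h a (Finset.mem_insert_self a s)).mul hN
      (ih fun i hi => h i (Finset.mem_insert_of_mem hi))

theorem HasWExp.add {N : ℕ} {F G : ℍ → ℂ} {c d : PowerSeries ℂ} (hF : HasWExp N F c)
    (hG : HasWExp N G d) : HasWExp N (F + G) (c + d) := by
  intro z
  have := (hF z).add (hG z)
  simpa [add_mul] using this

theorem nqe_w_mulN (N : ℕ) [NeZero N] (τ : ℍ) :
    nl_w N (mulN N τ) = Function.Periodic.qParam 1 τ := by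
  have hN0 : (N : ℂ) ≠ 0 := Nat.cast_ne_zero.mpr (NeZero.ne N)
  simp only [nl_w, Function.Periodic.qParam, mulN, UpperHalfPlane.coe_mk]
  congr 1
  push_cast
  field_simp

/-- the `q`-expansion of `z ↦ f (N z)` for a nice function with a `w`-expansion -/
theorem HasWExp.qExpansion_comp {N : ℕ} [NeZero N] {f : ℍ → ℂ} {c : PowerSeries ℂ}
    (hf : HasWExp N f c) (hnice : IsNice (fun z => f (mulN N z))) :
    qExpansion 1 (fun z => f (mulN N z)) = c := by
  let _inst : FunLike (ℍ → ℂ) ℍ ℂ := ⟨fun f => f, fun _ _ h => h⟩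
  ext n
  have h := UpperHalfPlane.qExpansion_coeff_unique (F := ℍ → ℂ) (h := 1)
    (fun z => f (mulN N z)) one_pos hnice.analyticAt_cuspFunction
    (c := fun n => PowerSeries.coeff n c) (fun τ => ?_) n
  · exact h.symm
  · have h1 := hf (mulN N τ)
    show HasSum _ (f (mulN N τ))
    convert h1 using 1
    funext m
    rw [nqe_w_mulN, smul_eq_mul]

/-- **AN1b**: the `q`-expansion of a level one form given as a finite product of functions with
explicit expansions in `w = exp(2πi z / N)`. -/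
theorem nqe_expand_qExpansion_eq_prod {N : ℕ} (hN : N ≠ 0) {k : ℤ} {f : ℍ → ℂ} (hf : IsMF1 k f)
    {ι : Type*} [Fintype ι] (F : ι → ℍ → ℂ) (c : ι → PowerSeries ℂ)
    (hprod : ∀ z, f z = ∏ i, F i z)
    (hc : ∀ i z, HasSum (fun n : ℕ => PowerSeries.coeff n (c i) * nl_w N z ^ n) (F i z)) :
    PowerSeries.expand N hN (qExpansion 1 f) = ∏ i, c i := by
  have : NeZero N := ⟨hN⟩
  have hfun : f = ∏ i, F i := by
    funext z
    rw [hprod, Finset.prod_apply]
  have hW : HasWExp N f (∏ i, c i) := by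
    rw [hfun]
    exact HasWExp.prod (NeZero.pos N) Finset.univ F c fun i _ => hc i
  have hnice : IsNice (fun z => f (mulN N z)) := (S23x.isMF_comp_mulN N hf).isNice
  have h1 := hW.qExpansion_comp hnice
  rw [← h1]
  ext n
  rw [S23x.qExpansion_comp_mulN_coeff N hf n, PowerSeries.coeff_expand]

/-- double-product form, as used for `exists_levelOne_norm` -/
theorem nqe_expand_qExpansion_eq_prod_prod {N : ℕ} (hN : N ≠ 0) {k : ℤ} {f : ℍ → ℂ}
    (hf : IsMF1 k f) {ι κ : Type*} [Fintype ι] [Fintype κ] (F : ι → κ → ℍ → ℂ)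
    (c : ι → κ → PowerSeries ℂ) (hprod : ∀ z, f z = ∏ x, ∏ y, F x y z)
    (hc : ∀ x y z, HasSum (fun n : ℕ => PowerSeries.coeff n (c x y) * nl_w N z ^ n) (F x y z)) :
    PowerSeries.expand N hN (qExpansion 1 f) = ∏ x, ∏ y, c x y := by
  have h := nqe_expand_qExpansion_eq_prod hN hf (ι := ι × κ) (fun i => F i.1 i.2)
    (fun i => c i.1 i.2) (fun z => by rw [hprod, Fintype.prod_prod_type]) (fun i z => hc i.1 i.2 z)
  rw [h, Fintype.prod_prod_type]

end

end Fermat.Agent.S16x
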