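/-
S16 project, module AN0 (KEY FACT), helper16.

For `f ∈ M₂(Γ₀(p))`, `p` prime:  `f ∣[2] W_p = - U_p f`  (because the trace of `f ∣ W_p` to level one
is `f ∣ W_p + U_p f ∈ M₂(SL₂(ℤ)) = 0`), hence
`f ∣[2] S = -((U_p f) ∣[2] [1 0; 0 p])`, i.e. `(f ∣ S)(z) = -p⁻¹ (U_p f)(z / p)`, and more generally
`f ∣[2] (S T^j) = -((U_p f) ∣[2] [1 j; 0 p])`.
-/
import Mathlib
import Fermat.Prelude.Def_ModularForm_HeckeOperator
import Fermat.Prelude.Thm_ModularForm_mdifferentiable_heckeU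
import Fermat.Prelude.Thm_ModularForm_isBoundedAtImInfty_heckeU
import Fermat.Prelude.Thm_ModularForm_heckeU_slash_eq_self_of_mem_Gamma0
import Fermat.Agent.S23x.LevelOne

set_option autoImplicit false

namespace Fermat.Agent.S16x

open UpperHalfPlane ModularForm CongruenceSubgroup Matrix.SpecialLinearGroup OnePoint
open scoped MatrixGroups ModularForm Manifold

noncomputable section

/-! ### Matrices -/

/-- The Atkin–Lehner matrix `W_p = [0 -1; p 0]` over `ℚ`. -/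
def kf_ratW (p : ℕ) [NeZero p] : GL (Fin 2) ℚ :=
  Matrix.GeneralLinearGroup.mkOfDetNeZero !![0, -1; (p : ℚ), 0]
    (by rw [Matrix.det_fin_two_of]; simpa using NeZero.ne (p : ℚ))

/-- The Atkin–Lehner matrix `W_p = [0 -1; p 0]` over `ℝ`. -/
def kf_W (p : ℕ) [NeZero p] : GL (Fin 2) ℝ :=
  Matrix.GeneralLinearGroup.mkOfDetNeZero !![0, -1; (p : ℝ), 0]
    (by rw [Matrix.det_fin_two_of]; simpa using NeZero.ne (p : ℝ))

@[simp] theorem kf_val_W (p : ℕ) [NeZero p] :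
    ((kf_W p : GL (Fin 2) ℝ) : Matrix (Fin 2) (Fin 2) ℝ) = !![0, -1; (p : ℝ), 0] := rfl

theorem kf_W_eq_map (p : ℕ) [NeZero p] :
    kf_W p = Matrix.GeneralLinearGroup.map (Rat.castHom ℝ) (kf_ratW p) := by
  ext i j
  fin_cases i <;> fin_cases j <;>
    simp [kf_W, kf_ratW, Matrix.GeneralLinearGroup.mkOfDetNeZero]

/-- `W_p = [1 0; 0 p] * S`. -/
theorem kf_W_eq (p : ℕ) [NeZero p] :
    kf_W p = heckeMatrix p 0 * (mapGL ℝ ModularGroup.S) := by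
  have hp : p ≠ 0 := NeZero.ne p
  ext i j
  fin_cases i <;> fin_cases j <;>
    simp [hp, Matrix.mul_apply, Fin.sum_univ_two, ModularGroup.S]

/-- `W_p T W_p⁻¹ = [1 0; -p 1]`, in the form `W_p * T = [1 0; -p 1] * W_p`. -/
def kf_gammaT (p : ℕ) : SL(2, ℤ) := ⟨!![1, 0; -(p : ℤ), 1], by simp [Matrix.det_fin_two_of]⟩

theorem kf_gammaT_mem (p : ℕ) : kf_gammaT p ∈ Gamma0 p := by
  rw [Gamma0_mem]
  simp [kf_gammaT]

theorem kf_W_mul_T (p : ℕ) [NeZero p] :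
    kf_W p * (mapGL ℝ ModularGroup.T) = (mapGL ℝ (kf_gammaT p)) * kf_W p := by
  ext i j
  fin_cases i <;> fin_cases j <;>
    simp [Matrix.mul_apply, Fin.sum_univ_two, ModularGroup.T, kf_gammaT]

theorem kf_T_mem (N : ℕ) : ModularGroup.T ∈ Gamma0 N := by
  rw [Gamma0_mem]
  simp [ModularGroup.T]

theorem kf_neg_one_mem (N : ℕ) : (-1 : SL(2, ℤ)) ∈ Gamma0 N := by
  rw [Gamma0_mem]
  simp

/-- `[1 0; 0 p] * (S * S) = (-1) * [1 0; 0 p]`. -/
theorem kf_hecke_zero_mul_SS (p : ℕ) [NeZero p] :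
    heckeMatrix p 0 * (mapGL ℝ (ModularGroup.S * ModularGroup.S)) =
      (mapGL ℝ (-1 : SL(2, ℤ))) * heckeMatrix p 0 := by
  have hp : p ≠ 0 := NeZero.ne p
  ext i j
  fin_cases i <;> fin_cases j <;>
    simp [hp, Matrix.mul_apply, Fin.sum_univ_two, ModularGroup.S]

/-- For `j j' ≡ -1 mod p`: `[1 j; 0 p] * S = γ * [1 j'; 0 p]` with `γ ∈ Γ₀(p)`. -/
theorem kf_hecke_mul_S (p : ℕ) [NeZero p] (j j' : ℕ) (e : ℤ) (he : (j' : ℤ) * j + 1 = p * e) :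
    ∃ g : SL(2, ℤ), g ∈ Gamma0 p ∧
      heckeMatrix p j * (mapGL ℝ ModularGroup.S) = (mapGL ℝ g) * heckeMatrix p j' := by
  have hp : p ≠ 0 := NeZero.ne p
  refine ⟨⟨!![(j : ℤ), -e; (p : ℤ), -(j' : ℤ)], ?_⟩, ?_, ?_⟩
  · rw [Matrix.det_fin_two_of]
    linear_combination -he
  · rw [Gamma0_mem]
    simp
  · have he' := congrArg (Int.cast : ℤ → ℝ) he
    push_cast at he'
    ext a b
    fin_cases a <;> fin_cases b <;>
      simp [hp, Matrix.mul_apply, Fin.sum_univ_two, ModularGroup.S]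
    · linear_combination -he'
    · ring

/-! ### `U_p` as a sum over `ZMod p` -/

theorem kf_sum_range_eq_sum_zmod (p : ℕ) [NeZero p] {M : Type*} [AddCommMonoid M] (F : ℕ → M) :
    ∑ j ∈ Finset.range p, F j = ∑ x : ZMod p, F x.val := by
  refine Finset.sum_nbij' (fun j : ℕ ↦ (j : ZMod p)) (fun x : ZMod p ↦ x.val)
    (fun _ _ ↦ Finset.mem_univ _) (fun x _ ↦ Finset.mem_range.mpr x.val_lt) (fun j hj ↦ ?_)
    (fun x _ ↦ ?_) (fun j hj ↦ ?_)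
  · exact ZMod.val_cast_of_lt (Finset.mem_range.mp hj)
  · exact ZMod.natCast_zmod_val x
  · rw [ZMod.val_cast_of_lt (Finset.mem_range.mp hj)]

theorem kf_heckeU_eq_sum_zmod (p : ℕ) [NeZero p] (k : ℤ) (f : ℍ → ℂ) :
    heckeU k p f = ∑ x : ZMod p, f ∣[k] heckeMatrix p x.val := by
  rw [heckeU_def]
  exact kf_sum_range_eq_sum_zmod p _

/-- the involution `x ↦ -x⁻¹` of `ZMod p` -/
def kf_sigma (p : ℕ) [Fact p.Prime] : Equiv.Perm (ZMod p) :=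
  Function.Involutive.toPerm (fun x => -x⁻¹) (fun x => by simp)

@[simp] theorem kf_sigma_apply (p : ℕ) [Fact p.Prime] (x : ZMod p) : kf_sigma p x = -x⁻¹ := rfl

theorem kf_sigma_eq_zero_iff (p : ℕ) [Fact p.Prime] (x : ZMod p) : kf_sigma p x = 0 ↔ x = 0 := by
  simp

theorem kf_exists_int (p : ℕ) [Fact p.Prime] (x : ZMod p) (hx : x ≠ 0) :
    ∃ e : ℤ, ((kf_sigma p x).val : ℤ) * (x.val : ℤ) + 1 = p * e := by
  have h : (((((kf_sigma p x).val : ℤ) * (x.val : ℤ) + 1 : ℤ)) : ZMod p) = 0 := by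
    push_cast
    rw [ZMod.natCast_zmod_val, ZMod.natCast_zmod_val, kf_sigma_apply, neg_mul,
      inv_mul_cancel₀ hx, neg_add_cancel]
  obtain ⟨e, he⟩ := (ZMod.intCast_zmod_eq_zero_iff_dvd _ p).mp h
  exact ⟨e, he⟩

/-! ### The level-one form `f ∣ W_p + U_p f` -/

section core

variable (p : ℕ) [Fact p.Prime] (f : ModularForm (Gamma0 p) 2)

omit [Fact p.Prime] in
theorem kf_inv (γ : SL(2, ℤ)) (hγ : γ ∈ Gamma0 p) : (⇑f) ∣[(2 : ℤ)] (mapGL ℝ γ) = ⇑f :=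
  SlashInvariantForm.slash_action_eqn f _ ⟨γ, hγ, rfl⟩

/-- `f ∣ W_p + U_p f`. -/
def kf_h : ℍ → ℂ := (⇑f) ∣[(2 : ℤ)] kf_W p + heckeU 2 p ⇑f

theorem kf_h_slash_T : kf_h p f ∣[(2 : ℤ)] (mapGL ℝ ModularGroup.T) = kf_h p f := by
  unfold kf_h
  rw [SlashAction.add_slash, ← SlashAction.slash_mul, kf_W_mul_T, SlashAction.slash_mul,
    kf_inv p f _ (kf_gammaT_mem p)]
  congr 1
  refine ModularForm.heckeU_slash_eq_self_of_mem_Gamma0 (N := p) 2 (dvd_refl p) ?_ _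
    ⟨ModularGroup.T, kf_T_mem p, rfl⟩
  rintro γ ⟨g, hg, rfl⟩
  exact kf_inv p f g hg

theorem kf_term_slash_S (x : ZMod p) (hx : x ≠ 0) :
    ((⇑f) ∣[(2 : ℤ)] heckeMatrix p x.val) ∣[(2 : ℤ)] (mapGL ℝ ModularGroup.S) =
      (⇑f) ∣[(2 : ℤ)] heckeMatrix p (kf_sigma p x).val := by
  obtain ⟨e, he⟩ := kf_exists_int p x hx
  obtain ⟨g, hg, hmat⟩ := kf_hecke_mul_S p x.val (kf_sigma p x).val e he
  rw [← SlashAction.slash_mul, hmat, SlashAction.slash_mul, kf_inv p f g hg]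

theorem kf_h_slash_S : kf_h p f ∣[(2 : ℤ)] (mapGL ℝ ModularGroup.S) = kf_h p f := by
  classical
  unfold kf_h
  rw [SlashAction.add_slash]
  -- first term
  have h1 : ((⇑f) ∣[(2 : ℤ)] kf_W p) ∣[(2 : ℤ)] (mapGL ℝ ModularGroup.S) =
      (⇑f) ∣[(2 : ℤ)] heckeMatrix p 0 := by
    rw [kf_W_eq, ← SlashAction.slash_mul, mul_assoc, ← map_mul, kf_hecke_zero_mul_SS,
      SlashAction.slash_mul, kf_inv p f _ (kf_neg_one_mem p)]
  -- second term
  have h2 : (heckeU 2 p ⇑f) ∣[(2 : ℤ)] (mapGL ℝ ModularGroup.S) =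
      (⇑f) ∣[(2 : ℤ)] kf_W p +
        ∑ x ∈ (Finset.univ : Finset (ZMod p)).erase 0, (⇑f) ∣[(2 : ℤ)] heckeMatrix p x.val := by
    rw [kf_heckeU_eq_sum_zmod, SlashAction.sum_slash,
      ← Finset.add_sum_erase _ _ (Finset.mem_univ (0 : ZMod p))]
    congr 1
    · rw [ZMod.val_zero, ← SlashAction.slash_mul, ← kf_W_eq]
    · rw [Finset.sum_equiv (kf_sigma p) (t := (Finset.univ : Finset (ZMod p)).erase 0)
        (g := fun x => (⇑f) ∣[(2 : ℤ)] heckeMatrix p x.val)]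
      · intro x
        simp only [Finset.mem_erase, Finset.mem_univ, and_true, ne_eq, kf_sigma_eq_zero_iff]
      · intro x hx
        exact kf_term_slash_S p f x (Finset.ne_of_mem_erase hx)
  rw [h1, h2, kf_heckeU_eq_sum_zmod,
    ← Finset.add_sum_erase _ _ (Finset.mem_univ (0 : ZMod p)), ZMod.val_zero]
  abel

theorem kf_h_slash (γ : SL(2, ℤ)) : kf_h p f ∣[(2 : ℤ)] (mapGL ℝ γ) = kf_h p f := by
  have hγ : γ ∈ Subgroup.closure ({ModularGroup.S, ModularGroup.T} : Set SL(2, ℤ)) := by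
    rw [SpecialLinearGroup.SL2Z_generators]
    exact Subgroup.mem_top γ
  induction hγ using Subgroup.closure_induction with
  | mem x hx =>
    rcases hx with rfl | rfl
    · exact kf_h_slash_S p f
    · exact kf_h_slash_T p f
  | one => rw [map_one, SlashAction.slash_one]
  | mul x y _ _ hx hy => rw [map_mul, SlashAction.slash_mul, hx, hy]
  | inv x _ hx =>
    have h1 : (kf_h p f ∣[(2 : ℤ)] (mapGL ℝ x)) ∣[(2 : ℤ)] (mapGL ℝ x⁻¹) = kf_h p f := by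
      rw [← SlashAction.slash_mul, ← map_mul, mul_inv_cancel, map_one, SlashAction.slash_one]
    rwa [hx] at h1

theorem kf_isCusp_W_infty : IsCusp (kf_W p • (∞ : OnePoint ℝ)) (Gamma0 p : Subgroup (GL (Fin 2) ℝ)) := by
  rw [Subgroup.IsArithmetic.isCusp_iff_isCusp_SL2Z, isCusp_SL2Z_iff]
  refine ⟨kf_ratW p • (∞ : OnePoint ℚ), ?_⟩
  rw [kf_W_eq_map, ← Rat.coe_castHom, OnePoint.map_smul]
  rfl

theorem kf_slash_W_mdiff : MDiff ((⇑f) ∣[(2 : ℤ)] kf_W p) := by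
  rw [← ModularForm.coe_translate f (kf_W p)]
  exact (ModularForm.translate f (kf_W p)).holo'

theorem kf_slash_W_bdd : IsBoundedAtImInfty ((⇑f) ∣[(2 : ℤ)] kf_W p) :=
  f.bdd_at_cusps' (kf_isCusp_W_infty p) (kf_W p) rfl

theorem kf_isCusp_infty : IsCusp (∞ : OnePoint ℝ) (Gamma0 p : Subgroup (GL (Fin 2) ℝ)) := by
  rw [Subgroup.IsArithmetic.isCusp_iff_isCusp_SL2Z, isCusp_SL2Z_iff]
  exact ⟨(∞ : OnePoint ℚ), rfl⟩

theorem kf_f_bdd : IsBoundedAtImInfty (⇑f) := by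
  have h := f.bdd_at_cusps' (kf_isCusp_infty p) 1 (one_smul _ _)
  rwa [SlashAction.slash_one] at h

/-- `f ∣ W_p + U_p f` as a modular form of level one and weight two. -/
def kf_form : ModularForm 𝒮ℒ 2 where
  toFun := kf_h p f
  slash_action_eq' γ hγ := by
    obtain ⟨g, rfl⟩ := hγ
    exact kf_h_slash p f g
  holo' := (kf_slash_W_mdiff p f).add (ModularForm.mdifferentiable_heckeU f.holo' 2 p)
  bdd_at_cusps' {c} hc := by
    rw [OnePoint.isBoundedAt_iff_forall_SL2Z hc]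
    intro γ _
    rw [ModularForm.SL_slash]
    have h : kf_h p f ∣[(2 : ℤ)] (mapGL ℝ γ) = kf_h p f := kf_h_slash p f γ
    have h' : kf_h p f ∣[(2 : ℤ)]
        (Matrix.SpecialLinearGroup.toGL ((Matrix.SpecialLinearGroup.map (Int.castRingHom ℝ)) γ)) =
        kf_h p f := h
    rw [h']
    exact (kf_slash_W_bdd p f).add (ModularForm.isBoundedAtImInfty_heckeU (kf_f_bdd p f) 2 p)

/-- **`M₂(SL₂(ℤ)) = 0`** applied to `f ∣ W_p + U_p f`. -/
theorem kf_h_eq_zero : kf_h p f = 0 := by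
  obtain ⟨P, hP, hev⟩ := Fermat.Agent.S23x.exists_mvPolynomial_of_isMF1 (k := 2) (f := kf_h p f)
    ⟨kf_form p f, rfl⟩
  have hP0 : P = 0 := by
    rw [← MvPolynomial.support_eq_empty, Finset.eq_empty_iff_forall_notMem]
    intro m hm
    have := hP m hm
    omega
  funext z
  rw [hev z, hP0, map_zero]
  rfl

/-- **Atkin–Lehner = `-U_p`** on `M₂(Γ₀(p))`. -/
theorem kf_slash_W : (⇑f) ∣[(2 : ℤ)] kf_W p = -heckeU 2 p ⇑f := by
  have h := kf_h_eq_zero p f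
  unfold kf_h at h
  exact eq_neg_of_add_eq_zero_left h

end core

/-! ### From `W_p` to `S` -/

section final

variable (p : ℕ) [Fact p.Prime]

theorem kf_det_W_mul_hecke :
    ((kf_W p * heckeMatrix p 0 : GL (Fin 2) ℝ).det : ℝ) = (p : ℝ) ^ 2 := by
  have hp : p ≠ 0 := NeZero.ne p
  rw [map_mul, Units.val_mul, det_heckeMatrix hp, Matrix.GeneralLinearGroup.val_det_apply, kf_val_W,
    Matrix.det_fin_two_of]
  ring

theorem kf_det_W_mul_hecke_pos : 0 < ((kf_W p * heckeMatrix p 0 : GL (Fin 2) ℝ).det : ℝ) := by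
  rw [kf_det_W_mul_hecke]
  have hp : (0 : ℝ) < p := Nat.cast_pos.mpr (NeZero.pos p)
  positivity

theorem kf_val_W_mul_hecke :
    ((kf_W p * heckeMatrix p 0 : GL (Fin 2) ℝ) : Matrix (Fin 2) (Fin 2) ℝ) =
      !![0, -(p : ℝ); (p : ℝ), 0] := by
  have hp : p ≠ 0 := NeZero.ne p
  ext i j
  fin_cases i <;> fin_cases j <;>
    simp [hp, Matrix.mul_apply, Fin.sum_univ_two]

theorem kf_denom_W_mul_hecke (τ : ℍ) :
    denom (kf_W p * heckeMatrix p 0) τ = (p : ℂ) * τ := by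
  show (((kf_W p * heckeMatrix p 0 : GL (Fin 2) ℝ) : Matrix (Fin 2) (Fin 2) ℝ) 1 0 : ℂ) * (τ : ℂ) +
    (((kf_W p * heckeMatrix p 0 : GL (Fin 2) ℝ) : Matrix (Fin 2) (Fin 2) ℝ) 1 1 : ℂ) = _
  rw [kf_val_W_mul_hecke]
  simp

theorem kf_smul_W_mul_hecke (τ : ℍ) : (kf_W p * heckeMatrix p 0) • τ = ModularGroup.S • τ := by
  have hp : (p : ℂ) ≠ 0 := Nat.cast_ne_zero.mpr (NeZero.ne p)
  have hτ : (τ : ℂ) ≠ 0 := ne_zero τ
  apply UpperHalfPlane.ext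
  rw [UpperHalfPlane.coe_smul_of_det_pos (kf_det_W_mul_hecke_pos p), kf_denom_W_mul_hecke,
    modular_S_smul]
  show ((((kf_W p * heckeMatrix p 0 : GL (Fin 2) ℝ) : Matrix (Fin 2) (Fin 2) ℝ) 0 0 : ℂ) * (τ : ℂ) +
    (((kf_W p * heckeMatrix p 0 : GL (Fin 2) ℝ) : Matrix (Fin 2) (Fin 2) ℝ) 0 1 : ℂ)) / _ = _
  rw [kf_val_W_mul_hecke]
  simp
  field_simp

/-- slash by the scalar multiple `p • S` of `S` equals slash by `S` in weight two -/
theorem kf_slash_W_mul_hecke (g : ℍ → ℂ) :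
    g ∣[(2 : ℤ)] (kf_W p * heckeMatrix p 0) = g ∣[(2 : ℤ)] ModularGroup.S := by
  have hp : (p : ℂ) ≠ 0 := Nat.cast_ne_zero.mpr (NeZero.ne p)
  funext τ
  have hτ : (τ : ℂ) ≠ 0 := ne_zero τ
  rw [ModularForm.slash_apply, ModularForm.SL_slash_apply, ModularGroup.denom_S,
    UpperHalfPlane.σ, if_pos (kf_det_W_mul_hecke_pos p), kf_det_W_mul_hecke,
    kf_denom_W_mul_hecke, kf_smul_W_mul_hecke]
  simp only [ContinuousAlgEquiv.refl_apply]
  have habs : |((p : ℝ) ^ 2)| = (p : ℝ) ^ 2 := abs_of_nonneg (by positivity)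
  rw [habs]
  push_cast
  simp only [zpow_neg, zpow_ofNat]
  field_simp

variable (f : ModularForm (Gamma0 p) 2)

/-- **KEY FACT** (`j = 0`): `f ∣ S = -((U_p f) ∣ [1 0; 0 p])`. -/
theorem kf_slash_S :
    (⇑f) ∣[(2 : ℤ)] ModularGroup.S = -((heckeU 2 p ⇑f) ∣[(2 : ℤ)] heckeMatrix p 0) := by
  rw [← kf_slash_W_mul_hecke p, SlashAction.slash_mul, kf_slash_W, SlashAction.neg_slash]

theorem kf_hecke_zero_mul_T_pow (j : ℕ) :
    heckeMatrix p 0 * (mapGL ℝ (ModularGroup.T ^ j)) = heckeMatrix p j := by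
  have hp : p ≠ 0 := NeZero.ne p
  have hT : (ModularGroup.T ^ j : SL(2, ℤ)) =
      ⟨!![1, (j : ℤ); 0, 1], by simp [Matrix.det_fin_two_of]⟩ := by
    apply Subtype.ext
    rw [← zpow_natCast, ModularGroup.coe_T_zpow]
  rw [hT]
  ext a b
  fin_cases a <;> fin_cases b <;>
    simp [hp, Matrix.mul_apply, Fin.sum_univ_two]

/-- **KEY FACT**: `f ∣ (S T^j) = -((U_p f) ∣ [1 j; 0 p])`. -/
theorem kf_slash_ST (j : ℕ) :
    (⇑f) ∣[(2 : ℤ)] (ModularGroup.S * ModularGroup.T ^ j) =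
      -((heckeU 2 p ⇑f) ∣[(2 : ℤ)] heckeMatrix p j) := by
  rw [SlashAction.slash_mul, kf_slash_S, SlashAction.neg_slash]
  congr 1
  have h : ∀ g : ℍ → ℂ, g ∣[(2 : ℤ)] (ModularGroup.T ^ j) =
      g ∣[(2 : ℤ)] (mapGL ℝ (ModularGroup.T ^ j)) := fun g => rfl
  rw [h, ← SlashAction.slash_mul, kf_hecke_zero_mul_T_pow]

/-- **KEY FACT**, pointwise: `(f ∣ S T^j)(τ) = -p⁻¹ (U_p f)((τ + j) / p)`. -/
theorem kf_slash_ST_apply (j : ℕ) (τ : ℍ) :
    ((⇑f) ∣[(2 : ℤ)] (ModularGroup.S * ModularGroup.T ^ j)) τ =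
      -((p : ℂ)⁻¹ * heckeU 2 p ⇑f (heckeMatrix p j • τ)) := by
  rw [kf_slash_ST, Pi.neg_apply, slash_heckeMatrix_apply 2 (NeZero.ne p)]

end final

end

end Fermat.Agent.S16x
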