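/-
S16 project, module AN0 (`SlashS.lean`), helper16: the `q^{1/p}`-expansion of `A ∣ S` for
`A ∈ M₂(Γ₀(p))`:  `(A ∣ S)(z) = -(1/p) (U_p A)(z / p)`  (KEY FACT, `KeyFact.lean`), hence
`qExpansion p (A ∣ S) = -(1/p) • UPS p (qExpansion 1 A)`.
Exact statements of `Spec.lean` (AN0): `slashS_nice`, `qExpansion_slashS`, `hasSum_slashS`.
-/
import Fermat.Agent.S16x.KeyFact
import Fermat.Agent.S16x.Defs
import Fermat.Agent.S23x.QRing
import Fermat.Prelude.Thm_ModularFormClass_qCoeff_heckeU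
import Fermat.Prelude.Thm_ModularForm_periodic_heckeU_comp_ofComplex
import Fermat.Prelude.Thm_CongruenceSubgroup_one_mem_strictPeriods_Gamma0

set_option autoImplicit false

namespace Fermat.Agent.S16x

open UpperHalfPlane ModularForm ModularFormClass CongruenceSubgroup Function
open scoped MatrixGroups Manifold
open Fermat.Agent.S23x (IsMF IsMF1 IsNice)

local notation "𝕢" => Periodic.qParam

noncomputable section

variable (p : ℕ) [Fact p.Prime] (A : ModularForm (Gamma0 p) 2)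

/-- `U_p A` is holomorphic, `1`-periodic and bounded at `i∞`. -/
theorem ss_heckeU_isNice : IsNice (heckeU 2 p ⇑A) := by
  have hA : IsNice (⇑A) := Fermat.Agent.S23x.IsMF.isNice (N := p) (k := 2) ⟨A, rfl⟩
  have hper : Function.Periodic (heckeU 2 p ⇑A ∘ ofComplex) 1 :=
    ModularForm.periodic_heckeU_comp_ofComplex
      (by simpa using hA.periodic_comp_ofComplex) 2 p
  refine ⟨ModularForm.mdifferentiable_heckeU hA.1 2 p, fun z => ?_,
    ModularForm.isBoundedAtImInfty_heckeU hA.2.2 2 p⟩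
  have h := hper (z : ℂ)
  simp only [Function.comp_apply, ofComplex_apply] at h
  rw [← h]
  congr 1
  have him : 0 < ((z : ℂ) + 1).im := by simpa using z.im_pos
  rw [ofComplex_apply_of_im_pos him]
  ext
  simp [add_comm]

theorem ss_qExpansion_heckeU :
    qExpansion 1 (heckeU 2 p ⇑A) = UPS p (qExpansion 1 A) := by
  ext n
  rw [coeff_UPS]
  exact ModularFormClass.qCoeff_heckeU A (one_mem_strictPeriods_Gamma0 p) (NeZero.ne p) n

theorem ss_slashS_apply (τ : ℍ) :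
    (⇑A ∣[(2 : ℤ)] ModularGroup.S) τ = -((p : ℂ)⁻¹ * heckeU 2 p ⇑A (heckeMatrix p 0 • τ)) := by
  have h := kf_slash_ST_apply p A 0 τ
  rwa [pow_zero, mul_one] at h

theorem ss_qParam (τ : ℍ) : 𝕢 (1 : ℝ) (heckeMatrix p 0 • τ : ℍ) = 𝕢 (p : ℝ) τ := by
  unfold Periodic.qParam
  rw [coe_heckeMatrix_smul (NeZero.ne p)]
  congr 1
  push_cast
  ring

/-- the convergent expansion of `A ∣ S` in `q^{1/p}` -/
theorem ss_hasSum (τ : ℍ) :
    HasSum (fun m : ℕ => (-(p : ℂ)⁻¹ * PowerSeries.coeff m (UPS p (qExpansion 1 A))) •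
      𝕢 (p : ℝ) τ ^ m) ((⇑A ∣[(2 : ℤ)] ModularGroup.S) τ) := by
  have hu := ss_heckeU_isNice p A
  have h := hasSum_qExpansion one_pos hu.periodic_comp_ofComplex hu.1 hu.2.2
    (heckeMatrix p 0 • τ)
  rw [ss_qExpansion_heckeU, ss_qParam] at h
  rw [ss_slashS_apply]
  have h2 := h.mul_left (-(p : ℂ)⁻¹)
  have e1 : (fun m : ℕ => (-(p : ℂ)⁻¹ * PowerSeries.coeff m (UPS p (qExpansion 1 A))) •
      𝕢 (p : ℝ) τ ^ m) = fun i : ℕ => -(p : ℂ)⁻¹ *
        (PowerSeries.coeff i (UPS p (qExpansion 1 ⇑A)) • 𝕢 (p : ℝ) τ ^ i) := by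
    funext m
    simp only [smul_eq_mul]
    ring
  have e2 : -((p : ℂ)⁻¹ * heckeU 2 p (⇑A) (heckeMatrix p 0 • τ)) =
      -(p : ℂ)⁻¹ * heckeU 2 p (⇑A) (heckeMatrix p 0 • τ) := by ring
  rw [e1, e2]
  exact h2

/-- a function on `ℍ` invariant under `z ↦ z + h` gives an `h`-periodic function on `ℂ` -/
theorem ss_periodic_comp_ofComplex {f : ℍ → ℂ} (h : ℝ) (hf : ∀ z : ℍ, f (h +ᵥ z) = f z) :
    Function.Periodic (f ∘ ofComplex) (h : ℂ) := by
  intro w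
  by_cases hw : 0 < w.im
  · have h1 : 0 < (w + (h : ℂ)).im := by simpa using hw
    simp only [Function.comp_apply, ofComplex_apply_of_im_pos h1, ofComplex_apply_of_im_pos hw]
    have h2 : (⟨w + (h : ℂ), h1⟩ : ℍ) = h +ᵥ (⟨w, hw⟩ : ℍ) := by
      ext
      simp [add_comm]
    rw [h2]
    exact hf _
  · have hw' : w.im ≤ 0 := not_lt.mp hw
    have h1 : (w + (h : ℂ)).im ≤ 0 := by simpa using hw'
    show f (ofComplex (w + (h : ℂ))) = f (ofComplex w)
    rw [ofComplex_apply_of_im_nonpos h1, ofComplex_apply_of_im_nonpos hw']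

theorem ss_hecke_zero_vadd (z : ℍ) :
    heckeMatrix p 0 • ((p : ℝ) +ᵥ z) = (1 : ℝ) +ᵥ (heckeMatrix p 0 • z) := by
  have hp : (p : ℂ) ≠ 0 := Nat.cast_ne_zero.mpr (NeZero.ne p)
  ext
  rw [coe_heckeMatrix_smul (NeZero.ne p), UpperHalfPlane.coe_vadd, UpperHalfPlane.coe_vadd,
    coe_heckeMatrix_smul (NeZero.ne p)]
  push_cast
  field_simp
  ring

/-- **AN0**: `A ∣ S` is holomorphic, `p`-periodic and bounded at `i∞`. -/
theorem slashS_nice (p : ℕ) [Fact p.Prime] (A : ModularForm (Gamma0 p) 2) :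
    MDiff (⇑A ∣[(2 : ℤ)] ModularGroup.S) ∧
    (∀ z : ℍ, (⇑A ∣[(2 : ℤ)] ModularGroup.S) ((p : ℝ) +ᵥ z) = (⇑A ∣[(2 : ℤ)] ModularGroup.S) z) ∧
    IsBoundedAtImInfty (⇑A ∣[(2 : ℤ)] ModularGroup.S) := by
  have hp0 : (0 : ℝ) < p := Nat.cast_pos.mpr (NeZero.pos p)
  refine ⟨?_, fun z => ?_, ?_⟩
  · rw [ModularForm.SL_slash, ← ModularForm.coe_translate A]
    exact (ModularForm.translate A _).holo'
  · rw [ss_slashS_apply, ss_slashS_apply, ss_hecke_zero_vadd, (ss_heckeU_isNice p A).2.1]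
  · exact isBoundedAtImInfty_of_hasSum_qExpansion hp0 (ss_hasSum p A)

theorem ss_analyticAt :
    AnalyticAt ℂ (cuspFunction (p : ℝ) (⇑A ∣[(2 : ℤ)] ModularGroup.S)) 0 := by
  have hp0 : (0 : ℝ) < p := Nat.cast_pos.mpr (NeZero.pos p)
  obtain ⟨h1, h2, h3⟩ := slashS_nice p A
  exact analyticAt_cuspFunction_zero hp0 (ss_periodic_comp_ofComplex (p : ℝ) h2) h1 h3

/-- **AN0**: the expansion of `A ∣ S` in `q^{1/p}`. -/
theorem qExpansion_slashS (p : ℕ) [Fact p.Prime] (A : ModularForm (Gamma0 p) 2) :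
    qExpansion (p : ℝ) (⇑A ∣[(2 : ℤ)] ModularGroup.S) = -(p : ℂ)⁻¹ • UPS p (qExpansion 1 A) := by
  have hp0 : (0 : ℝ) < p := Nat.cast_pos.mpr (NeZero.pos p)
  letI : FunLike (ℍ → ℂ) ℍ ℂ := ⟨fun f => f, fun _ _ h => h⟩
  ext m
  have h := UpperHalfPlane.qExpansion_coeff_unique (F := ℍ → ℂ) (h := (p : ℝ))
    (⇑A ∣[(2 : ℤ)] ModularGroup.S) hp0 (ss_analyticAt p A)
    (c := fun m : ℕ => -(p : ℂ)⁻¹ * PowerSeries.coeff m (UPS p (qExpansion 1 A)))
    (ss_hasSum p A) m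
  rw [PowerSeries.coeff_smul, smul_eq_mul]
  exact h.symm

/-- **AN0**, pointwise form: `(A|S)(z) = -(1/p) ∑ₘ a_{pm} e^{2πi m z/p}`. -/
theorem hasSum_slashS (p : ℕ) [Fact p.Prime] (A : ModularForm (Gamma0 p) 2) (z : ℍ) :
    HasSum (fun m : ℕ => -(p : ℂ)⁻¹ * PowerSeries.coeff (m * p) (qExpansion 1 A) *
      Complex.exp (2 * Real.pi * Complex.I * m * z / p)) ((⇑A ∣[(2 : ℤ)] ModularGroup.S) z) := by
  have h := ss_hasSum p A z
  have e : (fun m : ℕ => (-(p : ℂ)⁻¹ * PowerSeries.coeff m (UPS p (qExpansion 1 A))) •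
      𝕢 (p : ℝ) z ^ m) = fun m : ℕ => -(p : ℂ)⁻¹ * PowerSeries.coeff (m * p) (qExpansion 1 A) *
      Complex.exp (2 * Real.pi * Complex.I * m * z / p) := by
    funext m
    rw [coeff_UPS, smul_eq_mul]
    congr 1
    unfold Periodic.qParam
    rw [← Complex.exp_nat_mul]
    congr 1
    push_cast
    ring
  rwa [e] at h

end

end Fermat.Agent.S16x
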