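/-
S16 project, module AN1 (`NormLevelOne.lean`), helper21: the product of the `(p+1)(r+1)` conjugates of
`A + B` (`A ∈ M₂(Γ₀(p))`, `B ∈ M₂(Γ₀(r))`) is a level-one form of weight `2(p+1)(r+1)` whose
`q`-expansion, expanded to the variable `w = q^{1/(rp)}`, is the product of the explicit series
`conjSeries`.  Exact `Spec.lean` statement `exists_levelOne_norm`.

Assembly of: AN1a `NormLevelOneA.nla_exists` (level-one-ness), AN1b `NormQExp` (q-expansion of a
product from pointwise expansions, helper23), AN0 `SlashS.hasSum_slashS` (helper16),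
`CosetPerm.cp_slash_rep_some` (helper73), and the per-factor expansions proved here (AN1c).
-/
import Fermat.Agent.S16x.NormLevelOneA
import Fermat.Agent.S16x.NormQExp
import Fermat.Agent.S16x.SlashS
import Fermat.Agent.S16x.CosetPerm

set_option autoImplicit false

namespace Fermat.Agent.S16x

open UpperHalfPlane ModularForm ModularFormClass CongruenceSubgroup Function
open scoped MatrixGroups Manifold
open Fermat.Agent.S23x (IsMF IsMF1 IsNice)

noncomputable section

/-- `w_N ^ e = w_q` when `N = e * q` -/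
theorem nl1_w_pow {N e q : ℕ} (hN : N = e * q) (he : e ≠ 0) (hq : q ≠ 0) (z : ℍ) :
    nl_w N z ^ e = nl_w q z := by
  unfold nl_w
  rw [← Complex.exp_nat_mul]
  congr 1
  subst hN
  have he' : (e : ℂ) ≠ 0 := Nat.cast_ne_zero.mpr he
  have hq' : (q : ℂ) ≠ 0 := Nat.cast_ne_zero.mpr hq
  push_cast
  field_simp

/-- an expansion in `w ^ e` becomes an expansion in `w` after `expand e` -/
theorem nl1_hasSum_expand {e : ℕ} (he : e ≠ 0) (c : PowerSeries ℂ) (w s : ℂ)
    (h : HasSum (fun n : ℕ => PowerSeries.coeff n c * (w ^ e) ^ n) s) :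
    HasSum (fun m : ℕ => PowerSeries.coeff m (PowerSeries.expand e he c) * w ^ m) s := by
  have hinj : Function.Injective (fun n : ℕ => e * n) :=
    fun a b hab => Nat.eq_of_mul_eq_mul_left (Nat.pos_of_ne_zero he) hab
  have hzero : ∀ m ∉ Set.range (fun n : ℕ => e * n),
      PowerSeries.coeff m (PowerSeries.expand e he c) * w ^ m = 0 := by
    intro m hm
    rw [PowerSeries.coeff_expand_of_not_dvd, zero_mul]
    rintro ⟨n, rfl⟩
    exact hm ⟨n, rfl⟩
  refine (hinj.hasSum_iff hzero).mp ?_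
  convert h using 1
  funext n
  simp only [Function.comp_apply, PowerSeries.coeff_expand_mul, pow_mul]

variable (q : ℕ) [Fact q.Prime] (A : ModularForm (Gamma0 q) 2)

/-- the expansion of `A` itself in the variable `w_N` -/
theorem nl1_hasWExp_none {N : ℕ} (hN : N ≠ 0) :
    HasWExp N (⇑A) (PowerSeries.expand N hN (qExpansion 1 A)) := by
  intro z
  apply nl1_hasSum_expand hN
  have hnice : IsNice (⇑A) := by
    have : NeZero q := ⟨(Fact.out : q.Prime).ne_zero⟩
    exact Fermat.Agent.S23x.IsMF.isNice (N := q) (k := 2) ⟨A, rfl⟩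
  have h := UpperHalfPlane.hasSum_qExpansion (h := 1) one_pos hnice.periodic_comp_ofComplex
    hnice.1 hnice.2.2 z
  convert h using 1
  funext n
  rw [smul_eq_mul]
  congr 2
  have := nl1_w_pow (N := N) (e := N) (q := 1) (by simp) hN one_ne_zero z
  rw [this]
  unfold nl_w Periodic.qParam
  congr 1
  push_cast
  ring

/-- the expansion of `A ∣ S Tʲ` in the variable `w_N`, `N = e * q` -/
theorem nl1_hasWExp_some {N e : ℕ} (hN : N = e * q) (he : e ≠ 0) (j : Fin q) :
    HasWExp N (nl_conjFun q (⇑A) (some j))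
      (PowerSeries.expand e he (PowerSeries.rescale (zeta q ^ (j : ℕ))
        (-(q : ℂ)⁻¹ • UPS q (qExpansion 1 A)))) := by
  have hq0 : q ≠ 0 := (Fact.out : q.Prime).ne_zero
  have hq' : (q : ℂ) ≠ 0 := Nat.cast_ne_zero.mpr hq0
  intro z
  apply nl1_hasSum_expand he
  rw [nl1_w_pow hN he hq0 z]
  have h1 : nl_conjFun q (⇑A) (some j) z = (⇑A ∣[(2 : ℤ)] ModularGroup.S) ((((j : ℕ) : ℝ)) +ᵥ z) := by
    rw [nl_conjFun_some, ← cp_rep_some, cp_slash_rep_some]
  rw [h1]
  have h := hasSum_slashS q A ((((j : ℕ) : ℝ)) +ᵥ z)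
  convert h using 1
  funext m
  rw [PowerSeries.coeff_rescale, PowerSeries.coeff_smul, coeff_UPS, smul_eq_mul]
  have hexp : Complex.exp (2 * Real.pi * Complex.I * m * ((((j : ℕ) : ℝ) +ᵥ z : ℍ) : ℂ) / q) =
      (zeta q ^ (j : ℕ)) ^ m * nl_w q z ^ m := by
    unfold zeta nl_w
    rw [← Complex.exp_nat_mul, ← Complex.exp_nat_mul, ← Complex.exp_nat_mul, ← Complex.exp_add]
    congr 1
    rw [UpperHalfPlane.coe_vadd]
    push_cast
    field_simp
  rw [hexp]
  ring

/-- **AN1c** for `A`: the expansions of all the conjugates of `A` in `w = q^{1/(rp)}` -/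
theorem nl1_hasWExp_conjA (p r : ℕ) [Fact p.Prime] [Fact r.Prime] (A : ModularForm (Gamma0 p) 2)
    (x : Option (Fin p)) :
    haveI : NeZero p := ⟨(Fact.out : p.Prime).ne_zero⟩
    haveI : NeZero r := ⟨(Fact.out : r.Prime).ne_zero⟩
    HasWExp (r * p) (nl_conjFun p (⇑A) x) (conjA p r (qExpansion 1 A) x) := by
  rcases x with _ | j
  · exact nl1_hasWExp_none p A _
  · exact nl1_hasWExp_some p A rfl _ j

/-- **AN1c** for `B`: the expansions of all the conjugates of `B` in `w = q^{1/(rp)}` -/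
theorem nl1_hasWExp_conjB (p r : ℕ) [Fact p.Prime] [Fact r.Prime] (B : ModularForm (Gamma0 r) 2)
    (y : Option (Fin r)) :
    haveI : NeZero p := ⟨(Fact.out : p.Prime).ne_zero⟩
    haveI : NeZero r := ⟨(Fact.out : r.Prime).ne_zero⟩
    HasWExp (r * p) (nl_conjFun r (⇑B) y) (conjB p r (qExpansion 1 B) y) := by
  rcases y with _ | i
  · exact nl1_hasWExp_none r B _
  · exact nl1_hasWExp_some r B (mul_comm r p) _ i

/-- **AN1** (exact `Spec` statement): the product of the `(p+1)(r+1)` conjugates of `A + B` is a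
level one form of weight `2(p+1)(r+1)`, and its `q`-expansion (expanded to the variable `w`) is
the product of the explicit series `conjSeries`. -/
theorem exists_levelOne_norm (p r : ℕ) [Fact p.Prime] [Fact r.Prime] (_hpr : p ≠ r)
    (A : ModularForm (Gamma0 p) 2) (B : ModularForm (Gamma0 r) 2) :
    haveI : NeZero p := ⟨(Fact.out : p.Prime).ne_zero⟩
    haveI : NeZero r := ⟨(Fact.out : r.Prime).ne_zero⟩
    ∃ f : ℍ → ℂ, IsMF1 ((2 * ((p + 1) * (r + 1)) : ℕ) : ℤ) f ∧
      PowerSeries.expand (r * p) (mul_ne_zero (NeZero.ne r) (NeZero.ne p)) (qExpansion 1 f) =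
        ∏ x : Option (Fin p), ∏ y : Option (Fin r),
          conjSeries p r (qExpansion 1 A) (qExpansion 1 B) x y := by
  obtain ⟨f, hf, hprod⟩ := nla_exists p r A B
  refine ⟨f, hf, ?_⟩
  exact nqe_expand_qExpansion_eq_prod_prod _ hf
    (fun x y => nl_conjFun p (⇑A) x + nl_conjFun r (⇑B) y)
    (fun x y => conjSeries p r (qExpansion 1 A) (qExpansion 1 B) x y)
    (fun z => by simpa using hprod z)
    (fun x y z => ((nl1_hasWExp_conjA p r A x).add (nl1_hasWExp_conjB p r B y)) z)

end

end Fermat.Agent.S16x
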