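/-
S16 project, module NI: the norm inequality `norm_order_le` (exact Spec statement).
Wiring of `NormIneqCore.ni_norm_order_le_of` with AN1 (`exists_levelOne_norm`) and
I1 (`levelOne_redHom_order_le`).  helper76.
-/
import Fermat.Agent.S16x.NormIneqCore
import Fermat.Agent.S16x.LevelOneBound
import Fermat.Agent.S16x.NormLevelOne

set_option autoImplicit false

open UpperHalfPlane ModularForm ModularFormClass CongruenceSubgroup
open scoped MatrixGroups Manifold
open Fermat.Agent.S23x (IsMF IsMF1)

namespace Fermat.Agent.S16x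

noncomputable section

/-- If the `(p+1)(r+1)` conjugate series of `A + B` have `ℓ`-integral coefficients (lifts `c x y`)
and non-zero reductions, then the sum of their `w`-orders is at most `rp · 2(p+1)(r+1)/12`. -/
theorem norm_order_le (ℓ p r : ℕ) [Fact ℓ.Prime] [Fact p.Prime] [Fact r.Prime] (hpr : p ≠ r)
    (A : ModularForm (Gamma0 p) 2) (B : ModularForm (Gamma0 r) 2)
    (c : Option (Fin p) → Option (Fin r) → PowerSeries (lintRing ℓ))
    (hc : haveI : NeZero p := ⟨(Fact.out : p.Prime).ne_zero⟩
          haveI : NeZero r := ⟨(Fact.out : r.Prime).ne_zero⟩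
          ∀ x y, toC ℓ (c x y) = conjSeries p r (qExpansion 1 A) (qExpansion 1 B) x y)
    (hne : ∀ x y, redHom ℓ (c x y) ≠ 0) :
    6 * ∑ x : Option (Fin p), ∑ y : Option (Fin r), (redHom ℓ (c x y)).order
      ≤ ((r * p * ((p + 1) * (r + 1)) : ℕ) : ℕ∞) :=
  ni_norm_order_le_of ℓ p r A B (exists_levelOne_norm p r hpr A B)
    (fun hf P hP hne => levelOne_redHom_order_le ℓ hf P hP hne) c hc hne

end

end Fermat.Agent.S16x
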