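import Fermat.Agent.S16x.NormCaseLift
import Fermat.Agent.S16x.NormIneq

/-!
# S16 project: generic "norm case" lemma (helper34)

One lemma `normCase_false` that does ALL the four norm cases (B'), (P), (C3+), (C2): it builds the
lifts `c x y` (`NormCaseLift.lean`), and applies `norm_order_le`.  A case file only has to
provide the forms `A`, `B = u • e_r` and check the coefficientwise hypotheses.
-/

set_option autoImplicit false

open UpperHalfPlane ModularForm ModularFormClass CongruenceSubgroup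
open scoped MatrixGroups Manifold

namespace Fermat.Agent.S16x

noncomputable section

/-- **Generic norm case.**  `A ∈ M₂(Γ₀(p))`, `B = u • e_r ∈ M₂(Γ₀(r))` (`r ≠ p, ℓ`), `u` a unit mod `m`;
`A ≡ a0` and `-(1/p) U_p A ≡ -(a0/p)` modulo `m` (coefficientwise), the constants of the four
families of conjugates are `0`, integral, integral, unit.  Then the `p` conjugates `(j, ∞)` have
`q`-order `1` mod `m` while the level-one norm has weight `2(p+1)(r+1)`: impossible when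
`(p+1)(r+1) < 6p`. -/
theorem normCase_false (ℓ p r : ℕ) [Fact ℓ.Prime] [Fact p.Prime] [Fact r.Prime]
    (hpr : p ≠ r) (hℓr : ℓ ≠ r) (hineq : (p + 1) * (r + 1) < 6 * p)
    (A : ModularForm (Gamma0 p) 2) (B : ModularForm (Gamma0 r) 2)
    (a0 b0 u : ℂ)
    (hB0 : PowerSeries.coeff 0 (qExpansion 1 B) = b0)
    (hB : ∀ n : ℕ, 1 ≤ n → PowerSeries.coeff n (qExpansion 1 B) = u * (sigP r n : ℂ))
    (hu : ∃ x : lintRing ℓ, x ∉ lintMax ℓ ∧ (x : ℂ) = u)
    (hA0 : PowerSeries.coeff 0 (qExpansion 1 A) = a0)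
    (hA1 : ∀ n : ℕ, 1 ≤ n → ∃ x : lintRing ℓ, x ∈ lintMax ℓ ∧
      (x : ℂ) = PowerSeries.coeff n (qExpansion 1 A))
    (hA2 : ∀ n : ℕ, 1 ≤ n → ∃ x : lintRing ℓ, x ∈ lintMax ℓ ∧
      (x : ℂ) = -(p : ℂ)⁻¹ * PowerSeries.coeff (n * p) (qExpansion 1 A))
    (hk1 : -(p : ℂ)⁻¹ * a0 + b0 = 0)
    (hk2 : a0 + b0 ∈ lintRing ℓ)
    (hk3 : a0 - (r : ℂ)⁻¹ * b0 ∈ lintRing ℓ)
    (hk4 : ∃ x : lintRing ℓ, x ∉ lintMax ℓ ∧ (x : ℂ) = -(p : ℂ)⁻¹ * a0 - (r : ℂ)⁻¹ * b0) :
    False := by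
  have : NeZero p := ⟨(Fact.out : p.Prime).ne_zero⟩
  have : NeZero r := ⟨(Fact.out : r.Prime).ne_zero⟩
  obtain ⟨c, hc, hne, hord⟩ := nc_exists_lifts ℓ p r (Fact.out : r.Prime) hℓr
    (qExpansion 1 A) (qExpansion 1 B) a0 b0 u hB0 hB hu hA0 hA1 hA2 hk1 hk2 hk3 hk4
  have hN := norm_order_le ℓ p r hpr A B c hc hne
  -- lower bound for the sum of the orders
  have hlow : ((p * (r * p) : ℕ) : ℕ∞) ≤
      ∑ x : Option (Fin p), ∑ y : Option (Fin r), (redHom ℓ (c x y)).order := by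
    rw [Fintype.sum_option]
    refine le_trans ?_ le_add_self
    calc ((p * (r * p) : ℕ) : ℕ∞) = ∑ _j : Fin p, ((r * p : ℕ) : ℕ∞) := by
          rw [Finset.sum_const, Finset.card_univ, Fintype.card_fin, nsmul_eq_mul]
          push_cast; ring
      _ ≤ ∑ j : Fin p, ∑ y : Option (Fin r), (redHom ℓ (c (some j) y)).order := by
          apply Finset.sum_le_sum
          intro j _
          rw [Fintype.sum_option]
          exact le_trans (hord j) le_self_add
  have h6 : ((6 * (p * (r * p)) : ℕ) : ℕ∞) ≤ ((r * p * ((p + 1) * (r + 1)) : ℕ) : ℕ∞) := by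
    refine le_trans ?_ hN
    have : ((6 * (p * (r * p)) : ℕ) : ℕ∞) = 6 * ((p * (r * p) : ℕ) : ℕ∞) := by push_cast; ring
    rw [this]
    gcongr
  have h6' : 6 * (p * (r * p)) ≤ r * p * ((p + 1) * (r + 1)) := by exact_mod_cast h6
  have hrp : 0 < r * p := Nat.pos_of_ne_zero (mul_ne_zero (NeZero.ne r) (NeZero.ne p))
  have : r * p * (6 * p) ≤ r * p * ((p + 1) * (r + 1)) := by
    calc r * p * (6 * p) = 6 * (p * (r * p)) := by ring
      _ ≤ _ := h6'
  have := Nat.le_of_mul_le_mul_left this hrp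
  omega

end

end Fermat.Agent.S16x
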