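/-
S16 project, module CASE_Large (B'): `ℓ ≥ 5`, `ℓ ≠ p`, `p ≥ 5`.  `no_congr_large` is the exact statement
of `Spec.no_congr_large`.  Core: `CaseLargeCore.cl_no_congr_large_of` (forms `A = F = c⁻¹ (e_p - g)`,
`B = (24/p) e_2`), fed with the generic norm-case lemma `NormCase.normCase_false` at `r = 2`.
Owner of this file: helper50.
-/
import Fermat.Agent.S16x.CaseLargeCore
import Fermat.Agent.S16x.NormCase

set_option autoImplicit false

namespace Fermat.Agent.S16x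

open UpperHalfPlane ModularForm ModularFormClass CongruenceSubgroup
open scoped MatrixGroups Manifold

/-- (B') `ℓ ≥ 5`, `ℓ ≠ p`, `p ≥ 5`: there is no weight-2 cusp form of level `p` with integral
`q`-expansion congruent to `δ = ∑ σ'(n) qⁿ` modulo `ℓ^(v_ℓ(p-1)+1)`. -/
theorem no_congr_large (p ℓ : ℕ) [Fact p.Prime] [Fact ℓ.Prime] (hℓ : 5 ≤ ℓ) (hp : 5 ≤ p) (hℓp : ℓ ≠ p)
    (g : CuspForm (Gamma0 p) 2) (hg : IsEisCongr p (ℓ ^ (padicValNat ℓ (p - 1) + 1)) g) : False :=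
  cl_no_congr_large_of p ℓ hℓ hp hℓp
    (fun A B a0 b0 u h1 h2 h3 h4 h5 h6 h7 h8 h9 h10 =>
      normCase_false ℓ p 2 (by omega) (by omega) (by omega) A B a0 b0 u h1 h2 h3 h4 h5 h6 h7 h8 h9 h10)
    g hg

end Fermat.Agent.S16x
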