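import Fermat.Agent.S16x.CasePCore91
import Fermat.Agent.S16x.NormIneqCore
import Fermat.Agent.S16x.NormLevelOne
import Fermat.Agent.S16x.LevelOneBound

/-!
S16 project, CASE_P (`ℓ = p ≥ 5`): `no_congr_p` (exact statement of `Spec.no_congr_p`).
Core: `CasePCore91.cp91_no_congr_p_of`; the norm inequality is `NormIneqCore.ni_norm_order_le_of` fed
with AN1 (`exists_levelOne_norm`) and I1 (`levelOne_redHom_order_le`).  (helper91)
-/

set_option autoImplicit false

namespace Fermat.Agent.S16x

open UpperHalfPlane ModularForm ModularFormClass CongruenceSubgroup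
open scoped MatrixGroups Manifold

/-- (P) `ℓ = p ≥ 5`: there is no weight-2 cusp form of level `p` with integral `q`-expansion
congruent to `δ = ∑ σ'(n) qⁿ` modulo `p`. -/
theorem no_congr_p (p : ℕ) [Fact p.Prime] (hp : 5 ≤ p)
    (g : CuspForm (Gamma0 p) 2) (hg : IsEisCongr p p g) : False := by
  haveI : Fact (Nat.Prime 2) := Nat.fact_prime_two
  refine cp91_no_congr_p_of p hp (fun A B c hc hne => ?_) g hg
  have hp2 : p ≠ 2 := by omega
  exact ni_norm_order_le_of p p 2 A B (exists_levelOne_norm p 2 hp2 A B)
    (fun {k f} hf P hP hne' => levelOne_redHom_order_le p hf P hP hne') c hc hne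

end Fermat.Agent.S16x
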