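import Mathlib
import Fermat.Agent.S16x.Defs

/-!
# S16x / CaseThreeAPre : helper lemmas for the case `ℓ = 3`, `p ≡ 2 mod 3` (shadow, helper96)

Small facts on `lintRing`, `resid`, `zeta` and the coefficients of `conjA`, `conjB`.
All names carry the prefix `c3a_`.
-/

set_option autoImplicit false

namespace Fermat.Agent.S16x

open PowerSeries

noncomputable section

/-! ### membership in `lintRing` -/

theorem c3a_mem_of_mul_eq {ℓ : ℕ} (s : ℕ) (hs : s.Coprime ℓ) (u : ℤ) (x : ℂ)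
    (h : (s : ℂ) * x = (u : ℂ)) : x ∈ lintRing ℓ := by
  refine ⟨s, hs, ?_⟩
  rw [h]
  have := isIntegral_algebraMap (R := ℤ) (A := ℂ) (x := u)
  simpa using this

theorem c3a_zeta_pow_self (N : ℕ) [NeZero N] : zeta N ^ N = 1 := by
  have hN : (N : ℂ) ≠ 0 := Nat.cast_ne_zero.mpr (NeZero.ne N)
  rw [zeta, ← Complex.exp_nat_mul]
  have : (N : ℂ) * (2 * Real.pi * Complex.I / N) = 2 * Real.pi * Complex.I := by
    field_simp
  rw [this, Complex.exp_two_pi_mul_I]

theorem c3a_zeta_pow_mem (ℓ N j : ℕ) [NeZero N] : zeta N ^ j ∈ lintRing ℓ := by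
  apply mem_lintRing_of_isIntegral
  apply IsIntegral.of_pow (Nat.pos_of_ne_zero (NeZero.ne N))
  rw [← pow_mul, mul_comm, pow_mul, c3a_zeta_pow_self, one_pow]
  exact isIntegral_one

/-! ### coefficients of the conjugate series -/

theorem c3a_coeff_conjA_none (p r : ℕ) [NeZero p] [NeZero r] (a : PowerSeries ℂ) (m : ℕ) :
    coeff m (conjA p r a none) = if r * p ∣ m then coeff (m / (r * p)) a else 0 := by
  rw [conjA, PowerSeries.coeff_expand]

theorem c3a_coeff_conjA_some (p r : ℕ) [NeZero p] [NeZero r] (a : PowerSeries ℂ) (j : Fin p)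
    (m : ℕ) :
    coeff m (conjA p r a (some j)) =
      if r ∣ m then (zeta p ^ (j : ℕ)) ^ (m / r) * (-(p : ℂ)⁻¹ * coeff (m / r * p) a) else 0 := by
  rw [conjA, PowerSeries.coeff_expand]
  split_ifs with h
  · rw [PowerSeries.coeff_rescale, PowerSeries.coeff_smul, coeff_UPS, smul_eq_mul]
  · rfl

theorem c3a_coeff_conjB_none (p r : ℕ) [NeZero p] [NeZero r] (b : PowerSeries ℂ) (m : ℕ) :
    coeff m (conjB p r b none) = if r * p ∣ m then coeff (m / (r * p)) b else 0 := by
  rw [conjB, PowerSeries.coeff_expand]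

theorem c3a_coeff_conjB_some (p r : ℕ) [NeZero p] [NeZero r] (b : PowerSeries ℂ) (i : Fin r)
    (m : ℕ) :
    coeff m (conjB p r b (some i)) =
      if p ∣ m then (zeta r ^ (i : ℕ)) ^ (m / p) * (-(r : ℂ)⁻¹ * coeff (m / p * r) b) else 0 := by
  rw [conjB, PowerSeries.coeff_expand]
  split_ifs with h
  · rw [PowerSeries.coeff_rescale, PowerSeries.coeff_smul, coeff_UPS, smul_eq_mul]
  · rfl

/-! ### residues -/

theorem c3a_resid_natCast_self (ℓ : ℕ) [Fact ℓ.Prime] : resid ℓ ((ℓ : ℕ) : lintRing ℓ) = 0 := by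
  rw [resid, Ideal.Quotient.eq_zero_iff_mem]
  exact natCast_mem_lintMax ℓ

/-- an element of `lintRing ℓ` that is `ℓ` times another one has zero residue -/
theorem c3a_resid_eq_zero_of_mul (ℓ : ℕ) [Fact ℓ.Prime] (x y : lintRing ℓ)
    (h : (x : ℂ) = (ℓ : ℂ) * (y : ℂ)) : resid ℓ x = 0 := by
  have : x = ((ℓ : ℕ) : lintRing ℓ) * y := by
    apply Subtype.ext
    simpa using h
  rw [this, map_mul, c3a_resid_natCast_self, zero_mul]

end

end Fermat.Agent.S16x
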