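import Mathlib
import Fermat.Agent.S16x.CaseThreeAPre
import Fermat.Prelude.Thm_CongruenceSubgroup_one_mem_strictPeriods_Gamma0

/-!
# S16x / CaseThreeACore : the case `ℓ = 3`, `p ≡ 2 mod 3` (shadow implementation, helper96)

`c3a_core`: there is no cusp form `g ∈ S₂(Γ₀(p))` with integral `q`-expansion congruent to
`δ = ∑ σ'(n) qⁿ` modulo `3`, GIVEN the norm inequality (`norm_order_le` with `ℓ = 3`, `r = 2`) and the
Eisenstein forms `e_p`, `e_2` (both passed as hypotheses, to be discharged in `CaseThreeA.lean`).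

Method (helper15's uniform trick): `A = g + p e_p`, `B = (p - 1) e_2`; the `p` conjugates
`(some j, none)` have reduced `w`-order `≥ 2p`, all `3(p+1)` conjugates are non-zero mod `𝔪`.
-/

set_option autoImplicit false

namespace Fermat.Agent.S16x

open PowerSeries UpperHalfPlane ModularForm ModularFormClass CongruenceSubgroup
open scoped MatrixGroups Manifold

noncomputable section

theorem c3a_core (p : ℕ) [hpF : Fact p.Prime] (hp : 5 ≤ p) (hp3 : p % 3 = 2)
    (hNI : ∀ (A : ModularForm (Gamma0 p) 2) (B : ModularForm (Gamma0 2) 2)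
      (c : Option (Fin p) → Option (Fin 2) → PowerSeries (lintRing 3)),
      (haveI : NeZero p := ⟨(Fact.out : p.Prime).ne_zero⟩
       ∀ x y, toC 3 (c x y) = conjSeries p 2 (qExpansion 1 A) (qExpansion 1 B) x y) →
      (∀ x y, redHom 3 (c x y) ≠ 0) →
      6 * ∑ x : Option (Fin p), ∑ y : Option (Fin 2), (redHom 3 (c x y)).order
        ≤ ((2 * p * ((p + 1) * (2 + 1)) : ℕ) : ℕ∞))
    (ep : ModularForm (Gamma0 p) 2)
    (hep0 : coeff 0 (qExpansion 1 ep) = ((p : ℂ) - 1) / 24)
    (hepn : ∀ n : ℕ, 1 ≤ n → coeff n (qExpansion 1 ep) = (sigP p n : ℂ))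
    (e2 : ModularForm (Gamma0 2) 2)
    (he20 : coeff 0 (qExpansion 1 e2) = (((2 : ℕ) : ℂ) - 1) / 24)
    (he2n : ∀ n : ℕ, 1 ≤ n → coeff n (qExpansion 1 e2) = (sigP 2 n : ℂ))
    (g : CuspForm (Gamma0 p) 2) (hg : IsEisCongr p 3 g) : False := by
  classical
  haveI : NeZero p := ⟨hpF.out.ne_zero⟩
  obtain ⟨k, hk⟩ : ∃ k, p = 3 * k + 2 := ⟨p / 3, by omega⟩
  have hpodd : ¬ 2 ∣ p := by
    intro h
    have := (Nat.prime_dvd_prime_iff_eq Nat.prime_two hpF.out).mp h
    omega
  have hpC : (p : ℂ) = 3 * (k : ℂ) + 2 := by rw [hk]; push_cast; ring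
  have hp0 : (p : ℂ) ≠ 0 := Nat.cast_ne_zero.mpr hpF.out.ne_zero
  have hpcop : p.Coprime 3 := by
    rw [Nat.coprime_comm, Nat.Prime.coprime_iff_not_dvd Nat.prime_three]
    omega
  -- integer coefficients of `g`
  choose gq hgq hgcong using hg
  have h1p := CongruenceSubgroup.one_mem_strictPeriods_Gamma0 p
  have h12 := CongruenceSubgroup.one_mem_strictPeriods_Gamma0 2
  have hg0 : qCoeff g 0 = 0 := CuspFormClass.qExpansion_coeff_zero g one_pos h1p
  -- the congruence `g_n + p σ'(n) = 3 t_n`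
  have hthree : ∀ n : ℕ, 1 ≤ n → ∃ t : ℤ, gq n + (p : ℤ) * (sigP p n : ℤ) = 3 * t := by
    intro n hn
    have h1 := hgcong n hn
    have h2 : ((gq n : ℤ) : ZMod 3) = (((sigP p n : ℕ) : ℤ) : ZMod 3) := by
      rw [h1]; push_cast; rfl
    rw [ZMod.intCast_eq_intCast_iff_dvd_sub] at h2
    obtain ⟨u, hu⟩ := h2
    refine ⟨(k + 1) * (sigP p n : ℤ) - u, ?_⟩
    have hkz : (p : ℤ) = 3 * (k : ℤ) + 2 := by rw [hk]; push_cast; ring
    have hu' : ((sigP p n : ℕ) : ℤ) - gq n = 3 * u := by simpa using hu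
    rw [hkz]
    linear_combination (-1 : ℤ) * hu'
  choose! tq htq using hthree
  -- the forms `A`, `B`
  set A : ModularForm (Gamma0 p) 2 := CuspForm.toModularFormₗ g + (p : ℂ) • ep with hAdef
  set B : ModularForm (Gamma0 2) 2 := ((p : ℂ) - 1) • e2 with hBdef
  have hA : qExpansion 1 A = qExpansion 1 g + (p : ℂ) • qExpansion 1 ep := by
    have h1 : (⇑A : ℍ → ℂ) = ⇑(CuspForm.toModularFormₗ g) + ⇑((p : ℂ) • ep) := rfl
    have h2 : (⇑((p : ℂ) • ep) : ℍ → ℂ) = (p : ℂ) • ⇑ep := rfl
    rw [h1, ModularForm.qExpansion_add one_pos h1p, h2,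
      ModularForm.qExpansion_smul one_pos h1p]
    rfl
  have hB : qExpansion 1 B = ((p : ℂ) - 1) • qExpansion 1 e2 := by
    have h2 : (⇑B : ℍ → ℂ) = ((p : ℂ) - 1) • ⇑e2 := rfl
    rw [h2, ModularForm.qExpansion_smul one_pos h12]
  set a := qExpansion 1 A with hadef
  set b := qExpansion 1 B with hbdef
  set cc : ℂ := ((p : ℂ) - 1) / 24 with hcc
  have ha0 : coeff 0 a = (p : ℂ) * cc := by
    rw [hA, map_add, PowerSeries.coeff_smul, hep0, smul_eq_mul]
    have : coeff 0 (qExpansion 1 g) = 0 := hg0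
    rw [this, zero_add]
  have han : ∀ n : ℕ, 1 ≤ n → coeff n a = ((3 * tq n : ℤ) : ℂ) := by
    intro n hn
    rw [hA, map_add, PowerSeries.coeff_smul, hepn n hn, smul_eq_mul, ← htq n hn]
    have : coeff n (qExpansion 1 g) = (gq n : ℂ) := hgq n
    rw [this]
    push_cast
    ring
  have hb0 : coeff 0 b = cc := by
    rw [hB, PowerSeries.coeff_smul, he20, smul_eq_mul, hcc]
    push_cast
    ring
  have hbn : ∀ n : ℕ, 1 ≤ n → coeff n b = (((p : ℤ) - 1) * (sigP 2 n : ℤ) : ℤ) := by
    intro n hn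
    rw [hB, PowerSeries.coeff_smul, he2n n hn, smul_eq_mul]
    push_cast
    ring
  -- `p⁻¹` and `2⁻¹` are `3`-integral
  have hpinv : ((p : ℂ))⁻¹ ∈ lintRing 3 :=
    c3a_mem_of_mul_eq p hpcop 1 _ (by rw [mul_inv_cancel₀ hp0]; simp)
  have h2inv : (((2 : ℕ) : ℂ))⁻¹ ∈ lintRing 3 :=
    c3a_mem_of_mul_eq 2 (by decide) 1 _ (by norm_num)
  have hint : ∀ u : ℤ, (u : ℂ) ∈ lintRing 3 := fun u => intCast_mem _ u
  -- membership of the coefficients of `conjA`, `conjB` in positive degree
  have hAmem : ∀ (x : Option (Fin p)) (m : ℕ), 1 ≤ m → coeff m (conjA p 2 a x) ∈ lintRing 3 := by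
    intro x m hm
    cases x with
    | none =>
      rw [c3a_coeff_conjA_none]
      split_ifs with h
      · have : 1 ≤ m / (2 * p) := Nat.div_pos (Nat.le_of_dvd hm h) (by positivity)
        rw [han _ this]
        exact hint _
      · exact zero_mem _
    | some j =>
      rw [c3a_coeff_conjA_some]
      split_ifs with h
      · have h1 : 1 ≤ m / 2 := Nat.div_pos (Nat.le_of_dvd hm h) (by norm_num)
        have h2 : 1 ≤ m / 2 * p := Nat.mul_pos h1 hpF.out.pos
        rw [han _ h2, ← pow_mul]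
        exact mul_mem (c3a_zeta_pow_mem 3 p _) (mul_mem (neg_mem hpinv) (hint _))
      · exact zero_mem _
  have hBmem : ∀ (y : Option (Fin 2)) (m : ℕ), 1 ≤ m → coeff m (conjB p 2 b y) ∈ lintRing 3 := by
    intro y m hm
    cases y with
    | none =>
      rw [c3a_coeff_conjB_none]
      split_ifs with h
      · have : 1 ≤ m / (2 * p) := Nat.div_pos (Nat.le_of_dvd hm h) (by positivity)
        rw [hbn _ this]
        exact hint _
      · exact zero_mem _
    | some i =>
      rw [c3a_coeff_conjB_some]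
      split_ifs with h
      · have h1 : 1 ≤ m / p := Nat.div_pos (Nat.le_of_dvd hm h) hpF.out.pos
        have h2 : 1 ≤ m / p * 2 := Nat.mul_pos h1 (by norm_num)
        rw [hbn _ h2, ← pow_mul]
        exact mul_mem (c3a_zeta_pow_mem 3 2 _) (mul_mem (neg_mem h2inv) (hint _))
      · exact zero_mem _
  -- the constant terms
  have hA0none : coeff 0 (conjA p 2 a none) = (p : ℂ) * cc := by
    rw [c3a_coeff_conjA_none, if_pos (dvd_zero _), Nat.zero_div, ha0]
  have hA0some : ∀ j, coeff 0 (conjA p 2 a (some j)) = -cc := by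
    intro j
    rw [c3a_coeff_conjA_some, if_pos (dvd_zero _), Nat.zero_div, zero_mul, pow_zero, one_mul, ha0]
    field_simp
  have hB0none : coeff 0 (conjB p 2 b none) = cc := by
    rw [c3a_coeff_conjB_none, if_pos (dvd_zero _), Nat.zero_div, hb0]
  have hB0some : ∀ i, coeff 0 (conjB p 2 b (some i)) = -cc / 2 := by
    intro i
    rw [c3a_coeff_conjB_some, if_pos (dvd_zero _), Nat.zero_div, zero_mul, pow_zero, one_mul, hb0]
    push_cast
    ring
  have h00 : ∀ (x : Option (Fin p)) (y : Option (Fin 2)),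
      coeff 0 (conjSeries p 2 a b x y) ∈ lintRing 3 := by
    intro x y
    rw [conjSeries, map_add]
    cases x with
    | none =>
      cases y with
      | none =>
        rw [hA0none, hB0none]
        refine c3a_mem_of_mul_eq 8 (by decide) (((3 * k + 1) * (k + 1) : ℕ) : ℤ) _ ?_
        rw [hcc, hpC]; push_cast; ring
      | some i =>
        rw [hA0none, hB0some]
        refine c3a_mem_of_mul_eq 16 (by decide) (((3 * k + 1) * (2 * k + 1) : ℕ) : ℤ) _ ?_
        rw [hcc, hpC]; push_cast; ring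
    | some j =>
      cases y with
      | none =>
        rw [hA0some, hB0none, neg_add_cancel]
        exact zero_mem _
      | some i =>
        rw [hA0some, hB0some]
        refine c3a_mem_of_mul_eq 16 (by decide) (-((3 * k + 1 : ℕ) : ℤ)) _ ?_
        rw [hcc, hpC]; push_cast; ring
  have hmem : ∀ (x : Option (Fin p)) (y : Option (Fin 2)) (m : ℕ),
      coeff m (conjSeries p 2 a b x y) ∈ lintRing 3 := by
    intro x y m
    rcases Nat.eq_zero_or_pos m with rfl | hm
    · exact h00 x y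
    · rw [conjSeries, map_add]
      exact add_mem (hAmem x m hm) (hBmem y m hm)
  -- the lifts
  set c : Option (Fin p) → Option (Fin 2) → PowerSeries (lintRing 3) :=
    fun x y => PowerSeries.mk fun m => ⟨coeff m (conjSeries p 2 a b x y), hmem x y m⟩ with hcdef
  have hc : ∀ x y, toC 3 (c x y) = conjSeries p 2 a b x y := by
    intro x y
    ext m
    rw [toC, PowerSeries.coeff_map, hcdef, PowerSeries.coeff_mk]
    rfl
  -- residues in positive degree: the `A`-part vanishes
  have hAres : ∀ (x : Option (Fin p)) (m : ℕ) (hm : 1 ≤ m),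
      resid 3 ⟨coeff m (conjA p 2 a x), hAmem x m hm⟩ = 0 := by
    intro x m hm
    cases x with
    | none =>
      by_cases h : 2 * p ∣ m
      · have h1 : 1 ≤ m / (2 * p) := Nat.div_pos (Nat.le_of_dvd hm h) (by positivity)
        refine c3a_resid_eq_zero_of_mul 3 _ ⟨((tq (m / (2 * p)) : ℤ) : ℂ), hint _⟩ ?_
        show coeff m (conjA p 2 a none) = _
        rw [c3a_coeff_conjA_none, if_pos h, han _ h1]
        push_cast
        ring
      · refine c3a_resid_eq_zero_of_mul 3 _ 0 ?_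
        show coeff m (conjA p 2 a none) = _
        rw [c3a_coeff_conjA_none, if_neg h]
        simp
    | some j =>
      by_cases h : 2 ∣ m
      · have h1 : 1 ≤ m / 2 := Nat.div_pos (Nat.le_of_dvd hm h) (by norm_num)
        have h2 : 1 ≤ m / 2 * p := Nat.mul_pos h1 hpF.out.pos
        refine c3a_resid_eq_zero_of_mul 3 _
          ⟨(zeta p ^ (j : ℕ)) ^ (m / 2) * (-(p : ℂ)⁻¹ * ((tq (m / 2 * p) : ℤ) : ℂ)), ?_⟩ ?_
        · rw [← pow_mul]
          exact mul_mem (c3a_zeta_pow_mem 3 p _) (mul_mem (neg_mem hpinv) (hint _))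
        · show coeff m (conjA p 2 a (some j)) = _
          rw [c3a_coeff_conjA_some, if_pos h, han _ h2]
          push_cast
          ring
      · refine c3a_resid_eq_zero_of_mul 3 _ 0 ?_
        show coeff m (conjA p 2 a (some j)) = _
        rw [c3a_coeff_conjA_some, if_neg h]
        simp
  have hres : ∀ (x : Option (Fin p)) (y : Option (Fin 2)) (m : ℕ) (hm : 1 ≤ m),
      coeff m (redHom 3 (c x y)) = resid 3 ⟨coeff m (conjB p 2 b y), hBmem y m hm⟩ := by
    intro x y m hm
    rw [redHom, PowerSeries.coeff_map, hcdef, PowerSeries.coeff_mk]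
    have : (⟨coeff m (conjSeries p 2 a b x y), hmem x y m⟩ : lintRing 3) =
        ⟨coeff m (conjA p 2 a x), hAmem x m hm⟩ + ⟨coeff m (conjB p 2 b y), hBmem y m hm⟩ := by
      apply Subtype.ext
      show coeff m (conjSeries p 2 a b x y) = _ + _
      rw [conjSeries, map_add]
    rw [this, map_add, hAres x m hm, zero_add]
  -- residue of `p - 1` is `1`
  have hres_pm1 : ∀ (h : (((p : ℤ) - 1 : ℤ) : ℂ) ∈ lintRing 3),
      resid 3 ⟨(((p : ℤ) - 1 : ℤ) : ℂ), h⟩ = 1 := by
    intro h
    have h0 : resid 3 ((⟨(((p : ℤ) - 1 : ℤ) : ℂ), h⟩ : lintRing 3) - 1) = 0 := by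
      refine c3a_resid_eq_zero_of_mul 3 _ ⟨((k : ℤ) : ℂ), hint _⟩ ?_
      show (((p : ℤ) - 1 : ℤ) : ℂ) - 1 = ((3 : ℕ) : ℂ) * ((k : ℤ) : ℂ)
      push_cast
      rw [hpC]
      ring
    rw [map_sub, map_one, sub_eq_zero] at h0
    exact h0
  -- (i) non-vanishing for `y = none`: the coefficient of `w^{2p}`
  have hne_none : ∀ x, redHom 3 (c x none) ≠ 0 := by
    intro x h
    have h1 := congrArg (coeff (2 * p)) h
    rw [hres x none (2 * p) (by have := hpF.out.pos; omega), map_zero] at h1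
    have h2 : coeff (2 * p) (conjB p 2 b none) = (((p : ℤ) - 1 : ℤ) : ℂ) := by
      rw [c3a_coeff_conjB_none, if_pos (dvd_refl _), Nat.div_self (by positivity), hbn 1 le_rfl]
      have : sigP 2 1 = 1 := by decide
      rw [this]
      push_cast
      ring
    have h3 : (⟨coeff (2 * p) (conjB p 2 b none), hBmem none (2 * p) (by have := hpF.out.pos; omega)⟩ : lintRing 3)
        = ⟨(((p : ℤ) - 1 : ℤ) : ℂ), hint _⟩ := Subtype.ext h2
    rw [h3, hres_pm1] at h1
    exact one_ne_zero h1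
  -- (ii) non-vanishing for `y = some i`: the coefficient of `w^p`
  have hne_some : ∀ x i, redHom 3 (c x (some i)) ≠ 0 := by
    intro x i h
    have hppos : 1 ≤ p := hpF.out.pos
    have h1 := congrArg (coeff p) h
    rw [hres x (some i) p hppos, map_zero] at h1
    set v : lintRing 3 := ⟨zeta 2 ^ (i : ℕ), c3a_zeta_pow_mem 3 2 _⟩ with hv
    have h2 : coeff p (conjB p 2 b (some i)) =
        zeta 2 ^ (i : ℕ) * (-(((2 : ℕ) : ℂ))⁻¹ * (((p : ℤ) - 1 : ℤ) : ℂ)) := by
      rw [c3a_coeff_conjB_some, if_pos (dvd_refl _), Nat.div_self hpF.out.pos, one_mul, pow_one,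
        hbn 2 (by norm_num)]
      have : sigP 2 2 = 1 := by decide
      rw [this]
      push_cast
      ring
    set u : lintRing 3 := ⟨coeff p (conjB p 2 b (some i)), hBmem (some i) p hppos⟩ with hu
    have h3 : (-2 : lintRing 3) * v * u = ⟨(((p : ℤ) - 1 : ℤ) : ℂ), hint _⟩ := by
      apply Subtype.ext
      show (-2 : ℂ) * zeta 2 ^ (i : ℕ) * coeff p (conjB p 2 b (some i)) = _
      rw [h2]
      have hz : zeta 2 ^ (i : ℕ) * zeta 2 ^ (i : ℕ) = 1 := by
        rw [← pow_add, ← two_mul, pow_mul, c3a_zeta_pow_self, one_pow]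
      have : (-2 : ℂ) * zeta 2 ^ (i : ℕ) * (zeta 2 ^ (i : ℕ) * (-(((2 : ℕ) : ℂ))⁻¹ *
          (((p : ℤ) - 1 : ℤ) : ℂ))) = (zeta 2 ^ (i : ℕ) * zeta 2 ^ (i : ℕ)) *
          (((p : ℤ) - 1 : ℤ) : ℂ) := by
        push_cast
        ring
      rw [this, hz, one_mul]
    have h4 := congrArg (resid 3) h3
    rw [map_mul, h1, mul_zero, hres_pm1] at h4
    exact zero_ne_one h4
  have hne : ∀ x y, redHom 3 (c x y) ≠ 0 := by
    intro x y
    cases y with
    | none => exact hne_none x
    | some i => exact hne_some x i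
  -- (iii) the order of the `p` factors `(some j, none)`
  have hord : ∀ j : Fin p, ((2 * p : ℕ) : ℕ∞) ≤ (redHom 3 (c (some j) none)).order := by
    intro j
    apply PowerSeries.nat_le_order
    intro m hm
    rcases Nat.eq_zero_or_pos m with rfl | hm0
    · rw [redHom, PowerSeries.coeff_map, hcdef, PowerSeries.coeff_mk]
      have : (⟨coeff 0 (conjSeries p 2 a b (some j) none), hmem (some j) none 0⟩ : lintRing 3) = 0 := by
        apply Subtype.ext
        show coeff 0 (conjSeries p 2 a b (some j) none) = 0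
        rw [conjSeries, map_add, hA0some, hB0none, neg_add_cancel]
      rw [this, map_zero]
    · rw [hres (some j) none m hm0]
      have h1 : ¬ 2 * p ∣ m := fun h => absurd (Nat.le_of_dvd hm0 h) (by omega)
      have : (⟨coeff m (conjB p 2 b none), hBmem none m hm0⟩ : lintRing 3) = 0 := by
        apply Subtype.ext
        show coeff m (conjB p 2 b none) = 0
        rw [c3a_coeff_conjB_none, if_neg h1]
      rw [this, map_zero]
  -- the count
  have hmain := hNI A B c hc hne
  have hsum : ((p * (2 * p) : ℕ) : ℕ∞) ≤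
      ∑ x : Option (Fin p), ∑ y : Option (Fin 2), (redHom 3 (c x y)).order := by
    rw [Fintype.sum_option]
    have h1 : ∀ j : Fin p, ((2 * p : ℕ) : ℕ∞) ≤
        ∑ y : Option (Fin 2), (redHom 3 (c (some j) y)).order := by
      intro j
      rw [Fintype.sum_option]
      exact le_trans (hord j) le_self_add
    calc ((p * (2 * p) : ℕ) : ℕ∞) = ∑ _j : Fin p, ((2 * p : ℕ) : ℕ∞) := by
          rw [Finset.sum_const, Finset.card_univ, Fintype.card_fin, nsmul_eq_mul]
          push_cast
          ring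
      _ ≤ ∑ j : Fin p, ∑ y : Option (Fin 2), (redHom 3 (c (some j) y)).order :=
          Finset.sum_le_sum fun j _ => h1 j
      _ ≤ _ := le_add_self
  have hfin : ((6 * (p * (2 * p)) : ℕ) : ℕ∞) ≤ ((2 * p * ((p + 1) * (2 + 1)) : ℕ) : ℕ∞) := by
    refine le_trans ?_ hmain
    have : ((6 * (p * (2 * p)) : ℕ) : ℕ∞) = 6 * ((p * (2 * p) : ℕ) : ℕ∞) := by push_cast; ring
    rw [this]
    gcongr
  have hfin' : 6 * (p * (2 * p)) ≤ 2 * p * ((p + 1) * (2 + 1)) := by exact_mod_cast hfin
  nlinarith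

end

end Fermat.Agent.S16x
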