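import Mathlib
import Fermat.Agent.S16x.CaseThreeACore
import Fermat.Agent.S16x.NormIneqCore
import Fermat.Agent.S16x.NormLevelOne
import Fermat.Agent.S16x.LevelOneBound
import Fermat.Agent.S16x.EisForm

/-!
# S16x / CaseThreeA : the case `ℓ = 3`, `p ≡ 2 mod 3` of the upper bound (Spec `no_congr_three_two`)

Wiring of `c3a_core` (CaseThreeACore.lean) with the landed analytic inputs:
`ni_norm_order_le_of` (NormIneqCore) fed with `exists_levelOne_norm` (AN1) and
`levelOne_redHom_order_le` (I1), and `exists_eisForm` (AN3) at the levels `p` and `2`.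
-/

set_option autoImplicit false

namespace Fermat.Agent.S16x

open UpperHalfPlane ModularForm ModularFormClass CongruenceSubgroup
open scoped MatrixGroups Manifold

/-- (C3+) `ℓ = 3`, `p ≡ 2 mod 3`, `p ≥ 5`: no cusp form congruent to `δ` modulo `3`. -/
theorem no_congr_three_two (p : ℕ) [Fact p.Prime] (hp : 5 ≤ p) (hp3 : p % 3 = 2)
    (g : CuspForm (Gamma0 p) 2) (hg : IsEisCongr p 3 g) : False := by
  obtain ⟨ep, hep0, hepn⟩ := exists_eisForm p
  obtain ⟨e2, he20, he2n⟩ := exists_eisForm 2
  have hp2 : p ≠ 2 := by omega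
  refine c3a_core p hp hp3 (fun A B c hc hne => ?_) ep hep0 hepn e2 he20 he2n g hg
  exact ni_norm_order_le_of 3 p 2 A B (exists_levelOne_norm p 2 hp2 A B)
    (fun hf P hP hne => levelOne_redHom_order_le 3 hf P hP hne) c hc hne

end Fermat.Agent.S16x
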