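/-
S16 project, trace cases (TwoB / TwoC / ThreeB): the shared ALGEBRAIC engine (helper35).
Pure power-series algebra over a commutative ring: the formal `U_p` operator is additive and
commutes with constants, and the key congruence
  `(F·D(q^p) − a^12 U_p((U_p F)·D))·E4 + a·(D(q^p) + a^11 U_p D)·E6 ≡ (1+a)·D(q^p)  mod c`
whenever `F ≡ E4 ≡ E6 ≡ 1 mod c`.
-/
import Fermat.Agent.S16x.Defs

set_option autoImplicit false

namespace Fermat.Agent.S16x

open PowerSeries

section UPSalg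

variable {R : Type*} [CommRing R]

theorem tre_UPS_add (p : ℕ) (P Q : PowerSeries R) : UPS p (P + Q) = UPS p P + UPS p Q := by
  ext n; simp

theorem tre_UPS_sub (p : ℕ) (P Q : PowerSeries R) : UPS p (P - Q) = UPS p P - UPS p Q := by
  ext n; simp

theorem tre_UPS_C_mul (p : ℕ) (a : R) (P : PowerSeries R) :
    UPS p (C a * P) = C a * UPS p P := by
  ext n; simp

theorem tre_UPS_one (p : ℕ) (hp : p ≠ 0) : UPS p (1 : PowerSeries R) = 1 := by
  ext n
  simp only [coeff_UPS, coeff_one]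
  by_cases hn : n = 0
  · simp [hn]
  · have : n * p ≠ 0 := mul_ne_zero hn hp
    simp [hn, this]

theorem tre_UPS_smul (p : ℕ) (a : R) (P : PowerSeries R) :
    UPS p (a • P) = a • UPS p P := by
  ext n; simp

/-- `F ≡ 1 mod c` implies `U_p F ≡ 1 mod c`. -/
theorem tre_UPS_one_add (p : ℕ) (hp : p ≠ 0) (c : R) (Rm : PowerSeries R) :
    UPS p (1 + C c * Rm) = 1 + C c * UPS p Rm := by
  rw [tre_UPS_add, tre_UPS_one p hp, tre_UPS_C_mul]

/-- The key congruence of the trace cases, with an explicit remainder. -/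
theorem tre_key_congr (p : ℕ) (hp : p ≠ 0) (c a : R)
    (Fl Dl E4l E6l E : PowerSeries R)
    (hF : ∃ Rm, Fl = 1 + C c * Rm) (h4 : ∃ X4, E4l = 1 + C c * X4)
    (h6 : ∃ X6, E6l = 1 + C c * X6) :
    ∃ Rem : PowerSeries R,
      (Fl * E - C (a ^ 12) * UPS p (UPS p Fl * Dl)) * E4l
        + C a * (E + C (a ^ 11) * UPS p Dl) * E6l
      = C (1 + a) * E + C c * Rem := by
  obtain ⟨Rm, rfl⟩ := hF
  obtain ⟨X4, rfl⟩ := h4
  obtain ⟨X6, rfl⟩ := h6
  have h1 : UPS p (1 + C c * Rm) = 1 + C c * UPS p Rm := tre_UPS_one_add p hp c Rm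
  have h2 : UPS p ((1 + C c * UPS p Rm) * Dl) = UPS p Dl + C c * UPS p (UPS p Rm * Dl) := by
    have : (1 + C c * UPS p Rm) * Dl = Dl + C c * (UPS p Rm * Dl) := by ring
    rw [this, tre_UPS_add, tre_UPS_C_mul]
  rw [h1, h2]
  refine ⟨Rm * E - C (a ^ 12) * UPS p (UPS p Rm * Dl)
      + X4 * ((1 + C c * Rm) * E - C (a ^ 12) * (UPS p Dl + C c * UPS p (UPS p Rm * Dl)))
      + C a * X6 * (E + C (a ^ 11) * UPS p Dl), ?_⟩
  have ha : (C (a ^ 12) : PowerSeries R) = C a * C (a ^ 11) := by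
    rw [← map_mul]; congr 1; ring
  have h1a : (C (1 + a) : PowerSeries R) = 1 + C a := by simp
  rw [ha, h1a]
  ring

end UPSalg

end Fermat.Agent.S16x
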