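/-
S16 project, trace cases (TwoB / TwoC / ThreeB): the shared engine (helper35).
From `F ∈ M₂(Γ₀(p))` with an `ℓ`-integral `q`-expansion `≡ 1 mod ℓ^s`, `E₄ ≡ E₆ ≡ 1 mod ℓ^s`,
`p + 1 = ℓ^w u`, `ℓ ∤ u`, `w < s`, derive a contradiction from the level-one trace identities
(AN2) and the level-one order bound (I1), both taken as hypotheses in the exact `Spec` shapes.
-/
import Fermat.Agent.S16x.TraceEngineAlg
import Fermat.Agent.S23x.QRing
import Fermat.Agent.S23x.LevelOne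

set_option autoImplicit false

namespace Fermat.Agent.S16x

open UpperHalfPlane ModularForm ModularFormClass CongruenceSubgroup PowerSeries
open scoped MatrixGroups Manifold
open Fermat.Agent.S23x (IsMF IsMF1 IsNice)

noncomputable section

/-! ### small facts on `lintRing` -/

theorem tre_inv_natCast_mem (ℓ n : ℕ) (h : n.Coprime ℓ) : ((n : ℂ))⁻¹ ∈ lintRing ℓ := by
  refine ⟨n, h, ?_⟩
  by_cases hn : (n : ℂ) = 0
  · rw [hn, zero_mul]; exact isIntegral_zero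
  · rw [mul_inv_cancel₀ hn]; exact isIntegral_one

/-- `1/n` as an element of `lintRing ℓ`, for `n` prime to `ℓ`. -/
def tre_invNat (ℓ n : ℕ) (h : n.Coprime ℓ) : lintRing ℓ := ⟨((n : ℂ))⁻¹, tre_inv_natCast_mem ℓ n h⟩

@[simp] theorem tre_invNat_coe (ℓ n : ℕ) (h : n.Coprime ℓ) :
    ((tre_invNat ℓ n h : lintRing ℓ) : ℂ) = ((n : ℂ))⁻¹ := rfl

theorem tre_natCast_mul_invNat (ℓ n : ℕ) (h : n.Coprime ℓ) (hn : n ≠ 0) :
    (n : lintRing ℓ) * tre_invNat ℓ n h = 1 := by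
  apply Subtype.ext
  have : (n : ℂ) ≠ 0 := Nat.cast_ne_zero.mpr hn
  simp [this]

theorem tre_resid_natCast_ne_zero (ℓ n : ℕ) [Fact ℓ.Prime] (h : n.Coprime ℓ) (hn : n ≠ 0) :
    resid ℓ (n : lintRing ℓ) ≠ 0 := by
  intro h0
  have h1 := congrArg (resid ℓ) (tre_natCast_mul_invNat ℓ n h hn)
  rw [map_mul, h0, zero_mul, map_one] at h1
  exact zero_ne_one h1

theorem tre_resid_invNat_ne_zero (ℓ n : ℕ) [Fact ℓ.Prime] (h : n.Coprime ℓ) (hn : n ≠ 0) :
    resid ℓ (tre_invNat ℓ n h) ≠ 0 := by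
  intro h0
  have h1 := congrArg (resid ℓ) (tre_natCast_mul_invNat ℓ n h hn)
  rw [map_mul, h0, mul_zero, map_one] at h1
  exact zero_ne_one h1

theorem tre_resid_natCast_self (ℓ : ℕ) [Fact ℓ.Prime] : resid ℓ ((ℓ : ℕ) : lintRing ℓ) = 0 :=
  Ideal.Quotient.eq_zero_iff_mem.mpr (natCast_mem_lintMax ℓ)

/-! ### `toC` and the formal operators -/

theorem tre_toC_C (ℓ : ℕ) (x : lintRing ℓ) : toC ℓ (C x) = C (x : ℂ) := by
  simp [toC]

theorem tre_toC_UPS (ℓ p : ℕ) (P : PowerSeries (lintRing ℓ)) : toC ℓ (UPS p P) = UPS p (toC ℓ P) := by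
  ext n; simp [toC]

theorem tre_toC_expand (ℓ e : ℕ) (he : e ≠ 0) (P : PowerSeries (lintRing ℓ)) :
    toC ℓ (PowerSeries.expand e he P) = PowerSeries.expand e he (toC ℓ P) := by
  simp [toC]

theorem tre_coeff_toC (ℓ n : ℕ) (P : PowerSeries (lintRing ℓ)) :
    PowerSeries.coeff n (toC ℓ P) = ((PowerSeries.coeff n P : lintRing ℓ) : ℂ) := by
  simp [toC]

theorem tre_redHom_C (ℓ : ℕ) [Fact ℓ.Prime] (x : lintRing ℓ) : redHom ℓ (C x) = C (resid ℓ x) := by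
  simp [redHom]

theorem tre_redHom_expand (ℓ e : ℕ) [Fact ℓ.Prime] (he : e ≠ 0) (P : PowerSeries (lintRing ℓ)) :
    redHom ℓ (PowerSeries.expand e he P) = PowerSeries.expand e he (redHom ℓ P) := by
  simp [redHom]

theorem tre_coeff_redHom (ℓ n : ℕ) [Fact ℓ.Prime] (P : PowerSeries (lintRing ℓ)) :
    PowerSeries.coeff n (redHom ℓ P) = resid ℓ (PowerSeries.coeff n P) := by
  simp [redHom]

/-! ### level-one forms: products and casts -/

theorem tre_isMF1_cast {k l : ℤ} {f : ℍ → ℂ} (h : k = l) (hf : IsMF1 k f) : IsMF1 l f := h ▸ hf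

theorem tre_isMF1_mul {k l : ℤ} {f g : ℍ → ℂ} (hf : IsMF1 k f) (hg : IsMF1 l g) :
    IsMF1 (k + l) (f * g) := by
  obtain ⟨F, rfl⟩ := hf
  obtain ⟨G, rfl⟩ := hg
  exact ⟨F.mul G, rfl⟩

theorem tre_isMF1_smul {k : ℤ} {f : ℍ → ℂ} (c : ℂ) (hf : IsMF1 k f) : IsMF1 k (c • f) := by
  obtain ⟨F, rfl⟩ := hf
  exact ⟨c • F, rfl⟩

theorem tre_isMF1_add {k : ℤ} {f g : ℍ → ℂ} (hf : IsMF1 k f) (hg : IsMF1 k g) :
    IsMF1 k (f + g) := by
  obtain ⟨F, rfl⟩ := hf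
  obtain ⟨G, rfl⟩ := hg
  exact ⟨F + G, rfl⟩

theorem tre_qExp_mul {f g : ℍ → ℂ} (hf : IsNice f) (hg : IsNice g) :
    qExpansion 1 (f * g) = qExpansion 1 f * qExpansion 1 g :=
  qExpansion_mul hf.analyticAt_cuspFunction hg.analyticAt_cuspFunction

theorem tre_qExp_add {f g : ℍ → ℂ} (hf : IsNice f) (hg : IsNice g) :
    qExpansion 1 (f + g) = qExpansion 1 f + qExpansion 1 g :=
  qExpansion_add hf.analyticAt_cuspFunction hg.analyticAt_cuspFunction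

theorem tre_qExp_smul {f : ℍ → ℂ} (hf : IsNice f) (c : ℂ) :
    qExpansion 1 (c • f) = c • qExpansion 1 f :=
  qExpansion_smul hf.analyticAt_cuspFunction c

end

end Fermat.Agent.S16x
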