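/-
S16 project, trace cases (TwoB / TwoC / ThreeB): the generic contradiction (helper35).
-/
import Fermat.Agent.S16x.TraceEngine

set_option autoImplicit false

namespace Fermat.Agent.S16x

open UpperHalfPlane ModularForm ModularFormClass CongruenceSubgroup PowerSeries
open scoped MatrixGroups Manifold
open Fermat.Agent.S23x (IsMF IsMF1 IsNice)

noncomputable section

/-- **Generic trace-case contradiction.**  `ℓ ≠ p` primes, `F ∈ M₂(Γ₀(p))` with an `ℓ`-integral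
lift `Fl ≡ 1 mod ℓ^s`, lifts of `Δ, E₄, E₆` with `E₄ ≡ E₆ ≡ 1 mod ℓ^s`, `p + 1 = ℓ^w u` with
`ℓ ∤ u` and `w < s`.  Then the AN2 trace identities and the I1 bound are contradictory. -/
theorem tre_contra (ℓ p : ℕ) [Fact ℓ.Prime] [Fact p.Prime] (hℓp : ℓ ≠ p)
    (hTr : ∀ (A : ModularForm (Gamma0 p) 2) {k : ℕ} {G : ℍ → ℂ}, IsMF1 (k : ℤ) G →
      ∃ f : ℍ → ℂ, IsMF1 ((k + 2 : ℕ) : ℤ) f ∧
        qExpansion 1 f =
          qExpansion 1 A * PowerSeries.expand p (Fact.out : p.Prime).ne_zero (qExpansion 1 G)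
            - ((p : ℂ)⁻¹) ^ k • UPS p (UPS p (qExpansion 1 A) * qExpansion 1 G))
    (hTrV : ∀ {k : ℕ}, 1 ≤ k → ∀ {G : ℍ → ℂ}, IsMF1 (k : ℤ) G →
      ∃ f : ℍ → ℂ, IsMF1 (k : ℤ) f ∧
        qExpansion 1 f = PowerSeries.expand p (Fact.out : p.Prime).ne_zero (qExpansion 1 G)
            + ((p : ℂ)⁻¹) ^ (k - 1) • UPS p (qExpansion 1 G))
    (hI1 : ∀ {k : ℕ} {f : ℍ → ℂ}, IsMF1 (k : ℤ) f → ∀ P : PowerSeries (lintRing ℓ),
      toC ℓ P = qExpansion 1 f → redHom ℓ P ≠ 0 → 12 * (redHom ℓ P).order ≤ (k : ℕ∞))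
    (Dl E4l E6l : PowerSeries (lintRing ℓ))
    (hDl : toC ℓ Dl = qExpansion 1 ModularForm.discriminant)
    (hE4l : toC ℓ E4l = qExpansion 1 (⇑E₄)) (hE6l : toC ℓ E6l = qExpansion 1 (⇑E₆))
    (s w u : ℕ) (hws : w < s)
    (hE4c : ∃ X4, E4l = 1 + C ((ℓ : lintRing ℓ) ^ s) * X4)
    (hE6c : ∃ X6, E6l = 1 + C ((ℓ : lintRing ℓ) ^ s) * X6)
    (F : ModularForm (Gamma0 p) 2) (Fl : PowerSeries (lintRing ℓ))
    (hFl : toC ℓ Fl = qExpansion 1 F)
    (hFc : ∃ Rm, Fl = 1 + C ((ℓ : lintRing ℓ) ^ s) * Rm)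
    (hu : p + 1 = ℓ ^ w * u) (hucop : ¬ ℓ ∣ u) : False := by
  have hℓpr : ℓ.Prime := Fact.out
  have hppr : p.Prime := Fact.out
  have hp0 : p ≠ 0 := hppr.ne_zero
  have hpC : (p : ℂ) ≠ 0 := Nat.cast_ne_zero.mpr hp0
  have hℓC : (ℓ : ℂ) ≠ 0 := Nat.cast_ne_zero.mpr hℓpr.ne_zero
  have hcop : p.Coprime ℓ := (Nat.coprime_primes hppr hℓpr).mpr (Ne.symm hℓp)
  have hu0 : u ≠ 0 := by
    rintro rfl
    simp at hu
  have hucop' : u.Coprime ℓ := ((Nat.Prime.coprime_iff_not_dvd hℓpr).mpr hucop).symm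
  set a : lintRing ℓ := tre_invNat ℓ p hcop with ha
  -- the two traces
  have hΔ : IsMF1 ((12 : ℕ) : ℤ) ModularForm.discriminant := by
    exact_mod_cast Fermat.Agent.S23x.m05_isMF1_discriminant
  obtain ⟨f₁, hf₁, hq₁⟩ := hTr F hΔ
  obtain ⟨f₂, hf₂, hq₂⟩ := hTrV (k := 12) (by norm_num) hΔ
  have hE4 : IsMF1 4 (⇑E₄) := Fermat.Agent.S23x.m05_isMF1_E4
  have hE6 : IsMF1 6 (⇑E₆) := Fermat.Agent.S23x.m05_isMF1_E6
  -- the weight 18 form
  have hg1 : IsMF1 18 (f₁ * ⇑E₄) :=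
    tre_isMF1_cast (by norm_num) (tre_isMF1_mul hf₁ hE4)
  have hg2 : IsMF1 18 (f₂ * ⇑E₆) :=
    tre_isMF1_cast (by norm_num) (tre_isMF1_mul hf₂ hE6)
  have hL : IsMF1 18 (f₁ * ⇑E₄ + ((p : ℂ)⁻¹) • (f₂ * ⇑E₆)) :=
    tre_isMF1_add hg1 (tre_isMF1_smul _ hg2)
  have hL' : IsMF1 ((18 : ℕ) : ℤ)
      ((((ℓ : ℂ) ^ w)⁻¹) • (f₁ * ⇑E₄ + ((p : ℂ)⁻¹) • (f₂ * ⇑E₆))) := by
    exact_mod_cast tre_isMF1_smul _ hL
  -- its q-expansion
  have hqL : qExpansion 1 (f₁ * ⇑E₄ + ((p : ℂ)⁻¹) • (f₂ * ⇑E₆)) =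
      qExpansion 1 f₁ * qExpansion 1 (⇑E₄) + ((p : ℂ)⁻¹) • (qExpansion 1 f₂ * qExpansion 1 (⇑E₆)) := by
    rw [tre_qExp_add hg1.isNice (hg2.isNice.smul _), tre_qExp_mul hf₁.isNice hE4.isNice,
      tre_qExp_smul hg2.isNice, tre_qExp_mul hf₂.isNice hE6.isNice]
  have hqL' : qExpansion 1 ((((ℓ : ℂ) ^ w)⁻¹) • (f₁ * ⇑E₄ + ((p : ℂ)⁻¹) • (f₂ * ⇑E₆))) =
      (((ℓ : ℂ) ^ w)⁻¹) • (qExpansion 1 f₁ * qExpansion 1 (⇑E₄)
        + ((p : ℂ)⁻¹) • (qExpansion 1 f₂ * qExpansion 1 (⇑E₆))) := by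
    rw [tre_qExp_smul hL.isNice, hqL]
  -- the lift
  set E : PowerSeries (lintRing ℓ) := PowerSeries.expand p hp0 Dl with hE
  obtain ⟨Rem, hRem⟩ := tre_key_congr p hp0 ((ℓ : lintRing ℓ) ^ s) a Fl Dl E4l E6l E hFc hE4c hE6c
  -- `toC` of the left-hand side
  have htoC : toC ℓ ((Fl * E - C (a ^ 12) * UPS p (UPS p Fl * Dl)) * E4l
        + C a * (E + C (a ^ 11) * UPS p Dl) * E6l) =
      qExpansion 1 f₁ * qExpansion 1 (⇑E₄)
        + ((p : ℂ)⁻¹) • (qExpansion 1 f₂ * qExpansion 1 (⇑E₆)) := by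
    rw [hq₁, hq₂]
    simp only [map_add, map_sub, map_mul, tre_toC_C, tre_toC_UPS, hE, tre_toC_expand, hFl, hDl,
      hE4l, hE6l, map_pow]
    simp only [ha, tre_invNat_coe, PowerSeries.smul_eq_C_mul, map_pow]
    norm_num
    ring
  -- `1 + a = ℓ^w (u a)`
  have h1a : (1 + a : lintRing ℓ) = (ℓ : lintRing ℓ) ^ w * ((u : lintRing ℓ) * a) := by
    apply Subtype.ext
    have hu' : ((p : ℂ) + 1) = (ℓ : ℂ) ^ w * (u : ℂ) := by exact_mod_cast congrArg (Nat.cast (R := ℂ)) hu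
    simp only [ha, Subring.coe_add, Subring.coe_one, tre_invNat_coe, Subring.coe_mul,
      SubmonoidClass.coe_pow, SubringClass.coe_natCast]
    field_simp
    rw [← hu']
  have hsw : (ℓ : lintRing ℓ) ^ s = (ℓ : lintRing ℓ) ^ w * (ℓ : lintRing ℓ) ^ (s - w) := by
    rw [← pow_add]; congr 1; omega
  set P' : PowerSeries (lintRing ℓ) :=
    C ((u : lintRing ℓ) * a) * E + C ((ℓ : lintRing ℓ) ^ (s - w)) * Rem with hP'
  have hfac : (Fl * E - C (a ^ 12) * UPS p (UPS p Fl * Dl)) * E4l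
        + C a * (E + C (a ^ 11) * UPS p Dl) * E6l = C ((ℓ : lintRing ℓ) ^ w) * P' := by
    rw [hRem, h1a, hsw, hP']
    simp only [map_mul]
    ring
  -- `toC P'` is the q-expansion of the weight 18 form divided by `ℓ^w`
  have htoC' : toC ℓ P' =
      qExpansion 1 ((((ℓ : ℂ) ^ w)⁻¹) • (f₁ * ⇑E₄ + ((p : ℂ)⁻¹) • (f₂ * ⇑E₆))) := by
    rw [hqL', ← htoC, hfac, map_mul, tre_toC_C, PowerSeries.smul_eq_C_mul, ← mul_assoc, ← map_mul]
    have : (((ℓ : ℂ) ^ w)⁻¹) * (((ℓ : lintRing ℓ) ^ w : lintRing ℓ) : ℂ) = 1 := by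
      simp only [SubmonoidClass.coe_pow, SubringClass.coe_natCast]
      exact inv_mul_cancel₀ (pow_ne_zero _ hℓC)
    rw [this, map_one, one_mul]
  -- the reduction
  have hresℓ : resid ℓ ((ℓ : lintRing ℓ) ^ (s - w)) = 0 := by
    rw [map_pow, tre_resid_natCast_self, zero_pow (by omega)]
  have hred : redHom ℓ P' =
      C (resid ℓ ((u : lintRing ℓ) * a)) * PowerSeries.expand p hp0 (redHom ℓ Dl) := by
    rw [hP', RingHom.map_add, RingHom.map_mul (redHom ℓ) (C _) E,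
      RingHom.map_mul (redHom ℓ) (C _) Rem, tre_redHom_C, tre_redHom_C, hresℓ, map_zero, zero_mul,
      add_zero, hE, tre_redHom_expand]
  have hunit : resid ℓ ((u : lintRing ℓ) * a) ≠ 0 := by
    rw [map_mul]
    exact mul_ne_zero (tre_resid_natCast_ne_zero ℓ u hucop' hu0)
      (tre_resid_invNat_ne_zero ℓ p hcop hp0)
  -- coefficients of `Δ`
  have hD1 : PowerSeries.coeff 1 Dl = 1 := by
    apply Subtype.ext
    rw [← tre_coeff_toC, hDl]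
    exact ModularForm.discriminant_qExpansion_coeff_one
  have hD0 : PowerSeries.coeff 0 Dl = 0 := by
    apply Subtype.ext
    rw [← tre_coeff_toC, hDl]
    have := ModularForm.discriminant_qExpansion_order
    exact PowerSeries.coeff_of_lt_order 0 (by rw [this]; norm_num)
  have hc0 : PowerSeries.coeff 0 (redHom ℓ P') = 0 := by
    rw [hred, PowerSeries.coeff_C_mul, PowerSeries.coeff_expand, if_pos (dvd_zero p),
      Nat.zero_div, tre_coeff_redHom, hD0, map_zero, mul_zero]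
  have hc1 : PowerSeries.coeff 1 (redHom ℓ P') = 0 := by
    rw [hred, PowerSeries.coeff_C_mul, PowerSeries.coeff_expand,
      if_neg (by rw [Nat.dvd_one]; exact hppr.one_lt.ne'), mul_zero]
  have hcp : PowerSeries.coeff p (redHom ℓ P') ≠ 0 := by
    rw [hred, PowerSeries.coeff_C_mul, PowerSeries.coeff_expand, if_pos (dvd_refl p),
      Nat.div_self hppr.pos, tre_coeff_redHom, hD1, map_one, mul_one]
    exact hunit
  have hne : redHom ℓ P' ≠ 0 := by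
    intro h0
    rw [h0] at hcp
    simp at hcp
  have hord : (2 : ℕ∞) ≤ (redHom ℓ P').order := by
    have := PowerSeries.nat_le_order (redHom ℓ P') 2 (by
      intro i hi
      interval_cases i
      · exact hc0
      · exact hc1)
    exact_mod_cast this
  have hbound := hI1 hL' P' htoC' hne
  have h24 : (12 : ℕ∞) * 2 ≤ 12 * (redHom ℓ P').order := by gcongr
  have h18 : (12 : ℕ∞) * 2 ≤ ((18 : ℕ) : ℕ∞) := h24.trans hbound
  have h' : ((24 : ℕ) : ℕ∞) ≤ ((18 : ℕ) : ℕ∞) := by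
    have e : ((24 : ℕ) : ℕ∞) = (12 : ℕ∞) * 2 := by norm_num
    rw [e]; exact h18
  have h'' : (24 : ℕ) ≤ 18 := by exact_mod_cast h'
  omega

end

end Fermat.Agent.S16x
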