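/-
S16 project, trace cases: construction of `F = (e - g)/c` and of its `ℓ`-integral lift (helper35).
-/
import Fermat.Agent.S16x.TraceEngine
import Fermat.Prelude.Thm_CongruenceSubgroup_one_mem_strictPeriods_Gamma0

set_option autoImplicit false

namespace Fermat.Agent.S16x

open UpperHalfPlane ModularForm ModularFormClass CongruenceSubgroup PowerSeries
open scoped MatrixGroups Manifold
open Fermat.Agent.S23x (IsMF IsMF1 IsNice)

noncomputable section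

/-- From a cusp form `g ≡ δ mod ℓ^t` and the Eisenstein series `e = c + δ`, `c = (p-1)/24`:
the form `F = (e - g)/c` has an `ℓ`-integral `q`-expansion `≡ 1 mod ℓ^s`, as soon as
`ℓ^t · 24/(p-1) ∈ ℓ^s · lintRing ℓ`. -/
theorem tre_exists_F (ℓ p : ℕ) [Fact ℓ.Prime] [Fact p.Prime]
    (e : ModularForm (Gamma0 p) 2)
    (he0 : PowerSeries.coeff 0 (qExpansion 1 e) = ((p : ℂ) - 1) / 24)
    (hen : ∀ n : ℕ, 1 ≤ n → PowerSeries.coeff n (qExpansion 1 e) = (sigP p n : ℂ))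
    (g : CuspForm (Gamma0 p) 2) (t s : ℕ) (hg : IsEisCongr p (ℓ ^ t) g)
    (r : lintRing ℓ) (hr : (ℓ : ℂ) ^ t * (24 / ((p : ℂ) - 1)) = (ℓ : ℂ) ^ s * (r : ℂ)) :
    ∃ (F : ModularForm (Gamma0 p) 2) (Fl : PowerSeries (lintRing ℓ)),
      toC ℓ Fl = qExpansion 1 F ∧ ∃ Rm, Fl = 1 + C ((ℓ : lintRing ℓ) ^ s) * Rm := by
  have hppr : p.Prime := Fact.out
  have : NeZero p := ⟨hppr.ne_zero⟩
  have hp1 : ((p : ℂ) - 1) ≠ 0 := by
    have : (p : ℂ) ≠ 1 := by exact_mod_cast hppr.one_lt.ne'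
    exact sub_ne_zero.mpr this
  set c : ℂ := ((p : ℂ) - 1) / 24 with hc
  have hc0 : c ≠ 0 := div_ne_zero hp1 (by norm_num)
  set gM : ModularForm (Gamma0 p) 2 := CuspForm.toModularFormₗ g with hgM
  set F : ModularForm (Gamma0 p) 2 := c⁻¹ • (e - gM) with hF
  have heN : IsNice (⇑e) := Fermat.Agent.S23x.IsMF.isNice (N := p) (k := 2) ⟨e, rfl⟩
  have hgN : IsNice (⇑gM) := Fermat.Agent.S23x.IsMF.isNice (N := p) (k := 2) ⟨gM, rfl⟩
  have hgfun : (⇑gM : ℍ → ℂ) = ⇑g := rfl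
  have hqF : qExpansion 1 (⇑F) = c⁻¹ • (qExpansion 1 (⇑e) - qExpansion 1 (⇑g)) := by
    have h1 : (⇑F : ℍ → ℂ) = c⁻¹ • ((⇑e : ℍ → ℂ) - ⇑gM) := rfl
    have hsub : IsNice ((⇑e : ℍ → ℂ) - ⇑gM) := by
      have : ((⇑e : ℍ → ℂ) - ⇑gM) = ⇑(e - gM) := rfl
      rw [this]; exact Fermat.Agent.S23x.IsMF.isNice (N := p) (k := 2) ⟨e - gM, rfl⟩
    rw [h1, tre_qExp_smul hsub,
      qExpansion_sub heN.analyticAt_cuspFunction hgN.analyticAt_cuspFunction, hgfun]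
  -- the integers `k n`
  have hk : ∀ n : ℕ, ∃ k : ℤ, 1 ≤ n →
      (sigP p n : ℂ) - PowerSeries.coeff n (qExpansion 1 (⇑g)) = (ℓ : ℂ) ^ t * (k : ℂ) := by
    intro n
    obtain ⟨m, hm, hcong⟩ := hg n
    by_cases hn : 1 ≤ n
    · have h1 := hcong hn
      have h2 : (((sigP p n : ℕ) : ℤ) - m : ℤ) ≡ 0 [ZMOD ((ℓ ^ t : ℕ) : ℤ)] := by
        rw [← ZMod.intCast_eq_intCast_iff]
        push_cast
        rw [h1]; simp
      obtain ⟨k, hk⟩ := (Int.modEq_zero_iff_dvd.mp h2)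
      refine ⟨k, fun _ => ?_⟩
      have hm' : PowerSeries.coeff n (qExpansion 1 (⇑g)) = (m : ℂ) := hm
      rw [hm']
      have := congrArg (fun z : ℤ => (z : ℂ)) hk
      push_cast at this
      rw [this]
    · exact ⟨0, fun h => absurd h hn⟩
  choose k hk using hk
  set Rm : PowerSeries (lintRing ℓ) :=
    PowerSeries.mk fun n => if n = 0 then 0 else r * (k n : lintRing ℓ) with hRm
  refine ⟨F, 1 + C ((ℓ : lintRing ℓ) ^ s) * Rm, ?_, Rm, rfl⟩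
  ext n
  rw [tre_coeff_toC, hqF]
  simp only [map_add, PowerSeries.coeff_C_mul, PowerSeries.coeff_smul, map_sub, hRm,
    PowerSeries.coeff_mk, PowerSeries.coeff_one, smul_eq_mul]
  by_cases hn : n = 0
  · subst hn
    have hg0 : PowerSeries.coeff 0 (qExpansion 1 (⇑g)) = 0 :=
      CuspFormClass.qExpansion_coeff_zero g one_pos (one_mem_strictPeriods_Gamma0 p)
    rw [he0, hg0]
    simp only [if_true, mul_zero, add_zero, sub_zero, Subring.coe_one]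
    exact (inv_mul_cancel₀ hc0).symm
  · have hn1 : 1 ≤ n := Nat.one_le_iff_ne_zero.mpr hn
    rw [hen n hn1, hk n hn1]
    simp only [hn, if_false, zero_add, Subring.coe_mul, SubmonoidClass.coe_pow,
      SubringClass.coe_natCast, SubringClass.coe_intCast]
    have hcinv : c⁻¹ = 24 / ((p : ℂ) - 1) := by rw [hc]; field_simp
    rw [hcinv]
    calc ((ℓ : ℂ)) ^ s * ((r : ℂ) * (k n : ℂ)) = ((ℓ : ℂ) ^ s * (r : ℂ)) * (k n : ℂ) := by ring
      _ = ((ℓ : ℂ) ^ t * (24 / ((p : ℂ) - 1))) * (k n : ℂ) := by rw [hr]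
      _ = 24 / ((p : ℂ) - 1) * ((ℓ : ℂ) ^ t * (k n : ℂ)) := by ring

end

end Fermat.Agent.S16x
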