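/-
S16 project, trace cases (helper35): the generic "no unit form" statement with the landed I1 /
integral lifts plugged in, and the three trace cases TwoB / TwoC / ThreeB
(`tre_no_congr_two_one`, `tre_no_congr_two_three`, `tre_no_congr_three_one`), parametrised only by
the two AN2 statements (`exists_levelOne_trace`, `exists_levelOne_traceV`) in their Spec shapes.
-/
import Fermat.Agent.S16x.TraceContra
import Fermat.Agent.S16x.TraceF
import Fermat.Agent.S16x.LevelOneBound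
import Fermat.Agent.S16x.EisForm

set_option autoImplicit false

namespace Fermat.Agent.S16x

open UpperHalfPlane ModularForm ModularFormClass CongruenceSubgroup PowerSeries
open scoped MatrixGroups Manifold
open Fermat.Agent.S23x (IsMF IsMF1 IsNice)

noncomputable section

/-- integer power series, viewed with coefficients in `lintRing ℓ` -/
def tre_zmap (ℓ : ℕ) : PowerSeries ℤ →+* PowerSeries (lintRing ℓ) :=
  PowerSeries.map (Int.castRingHom (lintRing ℓ))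

theorem tre_toC_zmap (ℓ : ℕ) (Q : PowerSeries ℤ) : toC ℓ (tre_zmap ℓ Q) = lo_map Q := by
  ext n
  simp [toC, tre_zmap, lo_map]

theorem tre_natCast_ps (ℓ n : ℕ) :
    ((n : ℕ) : PowerSeries (lintRing ℓ)) = C ((n : ℕ) : lintRing ℓ) := by
  simp

theorem tre_E4_congr (ℓ s d : ℕ) (h : 24 = ℓ ^ s * d) :
    ∃ X4, tre_zmap ℓ lo_E4 = 1 + C ((ℓ : lintRing ℓ) ^ s) * X4 := by
  refine ⟨C ((10 * d : ℕ) : lintRing ℓ) * tre_zmap ℓ lo_A, ?_⟩
  have h240 : ((240 : ℕ) : PowerSeries (lintRing ℓ)) =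
      C ((ℓ : lintRing ℓ) ^ s) * C ((10 * d : ℕ) : lintRing ℓ) := by
    rw [← map_mul, tre_natCast_ps]
    congr 1
    have : (240 : ℕ) = ℓ ^ s * (10 * d) := by
      rw [show ℓ ^ s * (10 * d) = 10 * (ℓ ^ s * d) by ring, ← h]
    rw [this]; push_cast; ring
  rw [lo_E4, map_add, map_one, map_mul]
  have : tre_zmap ℓ (240 : PowerSeries ℤ) = ((240 : ℕ) : PowerSeries (lintRing ℓ)) := by
    rw [map_ofNat]; norm_num
  rw [this, h240]; ring

theorem tre_E6_congr (ℓ s d : ℕ) (h : 24 = ℓ ^ s * d) :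
    ∃ X6, tre_zmap ℓ lo_E6 = 1 + C ((ℓ : lintRing ℓ) ^ s) * X6 := by
  refine ⟨-(C ((21 * d : ℕ) : lintRing ℓ) * tre_zmap ℓ lo_B), ?_⟩
  have h504 : ((504 : ℕ) : PowerSeries (lintRing ℓ)) =
      C ((ℓ : lintRing ℓ) ^ s) * C ((21 * d : ℕ) : lintRing ℓ) := by
    rw [← map_mul, tre_natCast_ps]
    congr 1
    have : (504 : ℕ) = ℓ ^ s * (21 * d) := by
      rw [show ℓ ^ s * (21 * d) = 21 * (ℓ ^ s * d) by ring, ← h]
    rw [this]; push_cast; ring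
  rw [lo_E6, map_sub, map_one, map_mul]
  have : tre_zmap ℓ (504 : PowerSeries ℤ) = ((504 : ℕ) : PowerSeries (lintRing ℓ)) := by
    rw [map_ofNat]; norm_num
  rw [this, h504]; ring

/-- **No unit form** (generic trace core with I1 and the integral lifts of `Δ, E₄, E₆` plugged in):
for `ℓ ≠ p`, `ℓ^s ∣ 24`, `ℓ^s ∤ p + 1` there is no `F ∈ M₂(Γ₀(p))` with `ℓ`-integral
`q`-expansion `≡ 1 mod ℓ^s`. -/
theorem tre_no_unit_form (ℓ p s : ℕ) [Fact ℓ.Prime] [Fact p.Prime] (hℓp : ℓ ≠ p)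
    (hs24 : ℓ ^ s ∣ 24) (hw : ¬ ℓ ^ s ∣ p + 1)
    (hTr : ∀ (A : ModularForm (Gamma0 p) 2) {k : ℕ} {G : ℍ → ℂ}, IsMF1 (k : ℤ) G →
      ∃ f : ℍ → ℂ, IsMF1 ((k + 2 : ℕ) : ℤ) f ∧
        qExpansion 1 f =
          qExpansion 1 A * PowerSeries.expand p (Fact.out : p.Prime).ne_zero (qExpansion 1 G)
            - ((p : ℂ)⁻¹) ^ k • UPS p (UPS p (qExpansion 1 A) * qExpansion 1 G))
    (hTrV : ∀ {k : ℕ}, 1 ≤ k → ∀ {G : ℍ → ℂ}, IsMF1 (k : ℤ) G →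
      ∃ f : ℍ → ℂ, IsMF1 (k : ℤ) f ∧
        qExpansion 1 f = PowerSeries.expand p (Fact.out : p.Prime).ne_zero (qExpansion 1 G)
            + ((p : ℂ)⁻¹) ^ (k - 1) • UPS p (qExpansion 1 G))
    (F : ModularForm (Gamma0 p) 2) (Fl : PowerSeries (lintRing ℓ))
    (hFl : toC ℓ Fl = qExpansion 1 F)
    (hFc : ∃ Rm, Fl = 1 + C ((ℓ : lintRing ℓ) ^ s) * Rm) : False := by
  have hℓpr : ℓ.Prime := Fact.out
  obtain ⟨d, hd⟩ := hs24
  set w := (p + 1).factorization ℓ with hwdef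
  have hdvd : ℓ ^ w ∣ p + 1 := Nat.ordProj_dvd (p + 1) ℓ
  have hu : p + 1 = ℓ ^ w * ((p + 1) / ℓ ^ w) := (Nat.mul_div_cancel' hdvd).symm
  have hucop : ¬ ℓ ∣ (p + 1) / ℓ ^ w := Nat.not_dvd_ordCompl hℓpr (Nat.succ_ne_zero p)
  have hws : w < s := by
    by_contra hge
    rw [not_lt] at hge
    exact hw ((pow_dvd_pow ℓ hge).trans hdvd)
  refine tre_contra ℓ p hℓp hTr hTrV (fun hf P hP hne => levelOne_redHom_order_le ℓ hf P hP hne)
    (tre_zmap ℓ lo_D) (tre_zmap ℓ lo_E4) (tre_zmap ℓ lo_E6) ?_ ?_ ?_ s w ((p + 1) / ℓ ^ w) hws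
    (tre_E4_congr ℓ s d hd) (tre_E6_congr ℓ s d hd) F Fl hFl hFc hu hucop
  · rw [tre_toC_zmap, ← lo_qExpansion_discriminant]; rfl
  · rw [tre_toC_zmap, ← lo_qExpansion_E4]
  · rw [tre_toC_zmap, ← lo_qExpansion_E6]

end

end Fermat.Agent.S16x

namespace Fermat.Agent.S16x

open UpperHalfPlane ModularForm ModularFormClass CongruenceSubgroup PowerSeries
open scoped MatrixGroups Manifold
open Fermat.Agent.S23x (IsMF IsMF1 IsNice)

noncomputable section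

/-- **Generic trace case.**  `v = v_ℓ(p-1)`; if `ℓ^t · 24 = ℓ^s · b · ℓ^v` (so that
`F = (e-g)/c ≡ 1 mod ℓ^s` for `g ≡ δ mod ℓ^t`), `ℓ^s ∣ 24`, `ℓ^s ∤ p+1`, `ℓ ≠ p`, then there is no
cusp form `g ≡ δ mod ℓ^t`. -/
theorem tre_case (ℓ p s t b : ℕ) [Fact ℓ.Prime] [Fact p.Prime] (hℓp : ℓ ≠ p)
    (hs24 : ℓ ^ s ∣ 24) (hw : ¬ ℓ ^ s ∣ p + 1)
    (hb : ℓ ^ t * 24 = ℓ ^ s * b * ℓ ^ (padicValNat ℓ (p - 1)))
    (hTr : ∀ (A : ModularForm (Gamma0 p) 2) {k : ℕ} {G : ℍ → ℂ}, IsMF1 (k : ℤ) G →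
      ∃ f : ℍ → ℂ, IsMF1 ((k + 2 : ℕ) : ℤ) f ∧
        qExpansion 1 f =
          qExpansion 1 A * PowerSeries.expand p (Fact.out : p.Prime).ne_zero (qExpansion 1 G)
            - ((p : ℂ)⁻¹) ^ k • UPS p (UPS p (qExpansion 1 A) * qExpansion 1 G))
    (hTrV : ∀ {k : ℕ}, 1 ≤ k → ∀ {G : ℍ → ℂ}, IsMF1 (k : ℤ) G →
      ∃ f : ℍ → ℂ, IsMF1 (k : ℤ) f ∧
        qExpansion 1 f = PowerSeries.expand p (Fact.out : p.Prime).ne_zero (qExpansion 1 G)
            + ((p : ℂ)⁻¹) ^ (k - 1) • UPS p (qExpansion 1 G))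
    (g : CuspForm (Gamma0 p) 2) (hg : IsEisCongr p (ℓ ^ t) g) : False := by
  have hℓpr : ℓ.Prime := Fact.out
  have hppr : p.Prime := Fact.out
  obtain ⟨e, he0, hen⟩ := exists_eisForm p
  set v := padicValNat ℓ (p - 1) with hv
  have hp1 : p - 1 ≠ 0 := by have := hppr.two_le; omega
  set u₀ := (p - 1) / ℓ ^ v with hu₀
  have hfac : ℓ ^ v * u₀ = p - 1 := by
    have := Nat.ordProj_mul_ordCompl_eq_self (p - 1) ℓ
    rwa [Nat.factorization_def _ hℓpr] at this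
  have hu₀cop : ¬ ℓ ∣ u₀ := by
    have := Nat.not_dvd_ordCompl hℓpr hp1
    rwa [Nat.factorization_def _ hℓpr] at this
  have hu₀0 : u₀ ≠ 0 := by
    rintro h0
    rw [h0, mul_zero] at hfac
    exact hp1 hfac.symm
  have hcop : u₀.Coprime ℓ := ((Nat.Prime.coprime_iff_not_dvd hℓpr).mpr hu₀cop).symm
  -- `r = b / u₀`
  set r : lintRing ℓ := (b : lintRing ℓ) * tre_invNat ℓ u₀ hcop with hr
  have hpC : ((p : ℂ) - 1) = (ℓ : ℂ) ^ v * (u₀ : ℂ) := by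
    have h1 : ((p - 1 : ℕ) : ℂ) = (p : ℂ) - 1 := by
      rw [Nat.cast_sub hppr.one_le]; simp
    rw [← h1, ← hfac]; push_cast; ring
  have hℓC : (ℓ : ℂ) ≠ 0 := Nat.cast_ne_zero.mpr hℓpr.ne_zero
  have hu₀C : (u₀ : ℂ) ≠ 0 := Nat.cast_ne_zero.mpr hu₀0
  have hbC : (ℓ : ℂ) ^ t * 24 = (ℓ : ℂ) ^ s * (b : ℂ) * (ℓ : ℂ) ^ v := by
    exact_mod_cast congrArg (Nat.cast (R := ℂ)) hb
  have hrC : (ℓ : ℂ) ^ t * (24 / ((p : ℂ) - 1)) = (ℓ : ℂ) ^ s * (r : ℂ) := by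
    rw [hpC, hr]
    simp only [Subring.coe_mul, SubringClass.coe_natCast, tre_invNat_coe]
    have hv0 : (ℓ : ℂ) ^ v ≠ 0 := pow_ne_zero _ hℓC
    field_simp
    linear_combination hbC
  obtain ⟨F, Fl, hFl, hFc⟩ := tre_exists_F ℓ p e he0 hen g t s hg r hrC
  exact tre_no_unit_form ℓ p s hℓp hs24 hw hTr hTrV F Fl hFl hFc

end

end Fermat.Agent.S16x

namespace Fermat.Agent.S16x

open UpperHalfPlane ModularForm ModularFormClass CongruenceSubgroup PowerSeries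
open scoped MatrixGroups Manifold
open Fermat.Agent.S23x (IsMF IsMF1 IsNice)

noncomputable section

/-- the two AN2 statements (Spec shapes), bundled as one hypothesis -/
def tre_AN2 (p : ℕ) [Fact p.Prime] : Prop :=
  (∀ (A : ModularForm (Gamma0 p) 2) {k : ℕ} {G : ℍ → ℂ}, IsMF1 (k : ℤ) G →
      ∃ f : ℍ → ℂ, IsMF1 ((k + 2 : ℕ) : ℤ) f ∧
        qExpansion 1 f =
          qExpansion 1 A * PowerSeries.expand p (Fact.out : p.Prime).ne_zero (qExpansion 1 G)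
            - ((p : ℂ)⁻¹) ^ k • UPS p (UPS p (qExpansion 1 A) * qExpansion 1 G)) ∧
  (∀ {k : ℕ}, 1 ≤ k → ∀ {G : ℍ → ℂ}, IsMF1 (k : ℤ) G →
      ∃ f : ℍ → ℂ, IsMF1 (k : ℤ) f ∧
        qExpansion 1 f = PowerSeries.expand p (Fact.out : p.Prime).ne_zero (qExpansion 1 G)
            + ((p : ℂ)⁻¹) ^ (k - 1) • UPS p (qExpansion 1 G))

/-- (A3) `ℓ = 3`, `p ≡ 1 mod 3` (Spec `no_congr_three_one`, given AN2). -/
theorem tre_no_congr_three_one (p : ℕ) [Fact p.Prime] (hAN2 : tre_AN2 p) (hp3 : p % 3 = 1)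
    (g : CuspForm (Gamma0 p) 2) (hg : IsEisCongr p (3 ^ padicValNat 3 (p - 1)) g) : False := by
  have : Fact (Nat.Prime 3) := ⟨Nat.prime_three⟩
  refine tre_case 3 p 1 (padicValNat 3 (p - 1)) 8 (by omega) (by norm_num) (by omega) (by ring)
    hAN2.1 hAN2.2 g hg

/-- (A2a) `ℓ = 2`, `p ≡ 1 mod 4` (Spec `no_congr_two_one`, given AN2). -/
theorem tre_no_congr_two_one (p : ℕ) [Fact p.Prime] (hAN2 : tre_AN2 p) (hp4 : p % 4 = 1)
    (g : CuspForm (Gamma0 p) 2) (hg : IsEisCongr p (2 ^ (padicValNat 2 (p - 1) - 1)) g) :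
    False := by
  have : Fact (Nat.Prime 2) := ⟨Nat.prime_two⟩
  have hp2 : 2 ≤ p := (Fact.out : p.Prime).two_le
  have hp1 : p - 1 ≠ 0 := by omega
  have hv : 1 ≤ padicValNat 2 (p - 1) := one_le_padicValNat_of_dvd hp1 (by omega)
  refine tre_case 2 p 2 (padicValNat 2 (p - 1) - 1) 3 (by omega) (by norm_num) (by omega) ?_
    hAN2.1 hAN2.2 g hg
  obtain ⟨v', hv'⟩ : ∃ v', padicValNat 2 (p - 1) = v' + 1 := ⟨padicValNat 2 (p - 1) - 1, by omega⟩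
  rw [hv', Nat.add_sub_cancel, pow_succ]
  ring

/-- (A2b) `ℓ = 2`, `p ≡ 3 mod 8` (Spec `no_congr_two_three`, given AN2). -/
theorem tre_no_congr_two_three (p : ℕ) [Fact p.Prime] (hAN2 : tre_AN2 p) (hp8 : p % 8 = 3)
    (g : CuspForm (Gamma0 p) 2) (hg : IsEisCongr p 2 g) : False := by
  have : Fact (Nat.Prime 2) := ⟨Nat.prime_two⟩
  have hp1 : p - 1 ≠ 0 := by omega
  -- `v₂(p - 1) = 1`
  have hv : padicValNat 2 (p - 1) = 1 := by
    obtain ⟨k, hk⟩ : ∃ k, p - 1 = 2 * k := ⟨(p - 1) / 2, by omega⟩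
    have hk0 : k ≠ 0 := by omega
    have hkodd : ¬ 2 ∣ k := by omega
    rw [hk, padicValNat.mul (by norm_num) hk0, padicValNat.self (by norm_num),
      padicValNat.eq_zero_of_not_dvd hkodd]
  have hg' : IsEisCongr p (2 ^ 1) g := by rwa [pow_one]
  refine tre_case 2 p 3 1 3 (by omega) (by norm_num) (by omega) ?_ hAN2.1 hAN2.2 g hg'
  rw [hv]; norm_num

end

end Fermat.Agent.S16x
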