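/-
S16 / AN2 (helper73), part V: the trace to level one of `G(pz)`, `G` of level one, is
`p^{1-k} T_p G = G(pz) + p^{1-k} U_p G`.  Realised through the Prelude Hecke operator `heckeT` on
level one forms.
-/
import Mathlib
import Fermat.Agent.S16x.Defs
import Fermat.Agent.S23x.QRing
import Fermat.Prelude.Thm_ModularForm_heckeT_slash_eq_self_of_mem_Gamma0
import Fermat.Prelude.Thm_ModularForm_mdifferentiable_heckeT
import Fermat.Prelude.Thm_ModularForm_isBoundedAtImInfty_heckeT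
import Fermat.Prelude.Thm_UpperHalfPlane_qCoeff_heckeT

set_option autoImplicit false

noncomputable section

open UpperHalfPlane ModularForm ModularFormClass CongruenceSubgroup
open scoped MatrixGroups Manifold
open Fermat.Agent.S23x (IsMF IsMF1 IsNice)

namespace Fermat.Agent.S16x

/-- `Γ₀(1)` is all of `SL(2, ℤ)`. -/
theorem tr_Gamma0_one_eq_top : CongruenceSubgroup.Gamma0 1 = ⊤ := by
  ext A
  simp only [CongruenceSubgroup.Gamma0_mem, Subgroup.mem_top, iff_true]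
  exact Subsingleton.elim _ _

theorem tr_mem_Gamma0_one (γ : SL(2, ℤ)) :
    (Matrix.SpecialLinearGroup.mapGL ℝ γ) ∈ ((Gamma0 1 : Subgroup SL(2, ℤ)) : Subgroup (GL (Fin 2) ℝ)) :=
  Subgroup.mem_map.mpr ⟨γ, by rw [tr_Gamma0_one_eq_top]; trivial, rfl⟩

/-- A function that is holomorphic, `SL₂(ℤ)`-invariant of weight `k` and bounded at `i∞` is a level
one modular form. -/
theorem tr_isMF1_of {k : ℤ} {f : ℍ → ℂ} (hol : MDiff f)
    (hinv : ∀ γ : SL(2, ℤ), f ∣[k] γ = f) (hbdd : IsBoundedAtImInfty f) : IsMF1 k f := by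
  refine ⟨{ toFun := f
            slash_action_eq' := ?_
            holo' := hol
            bdd_at_cusps' := ?_ }, rfl⟩
  · intro γ hγ
    obtain ⟨γ₀, rfl⟩ := MonoidHom.mem_range.mp hγ
    exact hinv γ₀
  · intro c hc
    rw [OnePoint.isBoundedAt_iff_forall_SL2Z hc]
    intro γ _
    show IsBoundedAtImInfty (f ∣[k] γ)
    rw [hinv γ]
    exact hbdd

theorem tr_isMF1_cast {k l : ℤ} {f : ℍ → ℂ} (h : k = l) (hf : IsMF1 k f) : IsMF1 l f := h ▸ hf

/-- `T_p` preserves level one forms. -/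
theorem tr_isMF1_heckeT (p : ℕ) (hp : p.Prime) {k : ℤ} {G : ℍ → ℂ} (hG : IsMF1 k G) :
    IsMF1 k (ModularForm.heckeT k p G) := by
  have hnice := hG.isNice
  obtain ⟨F, rfl⟩ := hG
  have hp1 : ¬ p ∣ 1 := fun h => hp.one_lt.ne' (Nat.dvd_one.mp h)
  have hF : ∀ γ ∈ ((Gamma0 1 : Subgroup SL(2, ℤ)) : Subgroup (GL (Fin 2) ℝ)),
      SlashAction.map k γ (⇑F) = ⇑F := by
    intro γ hγ
    obtain ⟨γ₀, _, rfl⟩ := Subgroup.mem_map.mp hγ
    exact SlashInvariantFormClass.slash_action_eq F _ (MonoidHom.mem_range.mpr ⟨γ₀, rfl⟩)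
  refine tr_isMF1_of (ModularForm.mdifferentiable_heckeT hnice.1 k p) (fun γ => ?_)
    (ModularForm.isBoundedAtImInfty_heckeT hnice.2.2 k p)
  exact ModularForm.heckeT_slash_eq_self_of_mem_Gamma0 (N := 1) k hp hp1 hF _ (tr_mem_Gamma0_one γ)

theorem exists_levelOne_traceV (p : ℕ) [Fact p.Prime] {k : ℕ} (hk : 1 ≤ k) {G : ℍ → ℂ}
    (hG : IsMF1 (k : ℤ) G) :
    ∃ f : ℍ → ℂ, IsMF1 (k : ℤ) f ∧
      qExpansion 1 f = PowerSeries.expand p (Fact.out : p.Prime).ne_zero (qExpansion 1 G)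
          + ((p : ℂ)⁻¹) ^ (k - 1) • UPS p (qExpansion 1 G) := by
  have hp : p.Prime := Fact.out
  have hp0 : p ≠ 0 := hp.ne_zero
  have hpc : (p : ℂ) ≠ 0 := Nat.cast_ne_zero.mpr hp0
  have hnice := hG.isNice
  obtain ⟨FT, hFT⟩ := tr_isMF1_heckeT p hp hG
  refine ⟨⇑(((p : ℂ)⁻¹) ^ (k - 1) • FT), ⟨_, rfl⟩, ?_⟩
  ext n
  have h1 : (qExpansion 1 (⇑(((p : ℂ)⁻¹) ^ (k - 1) • FT))) =
      ((p : ℂ)⁻¹) ^ (k - 1) • qExpansion 1 (⇑FT) := by
    rw [FunLike.coe_smul]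
    exact qExpansion_smul (IsNice.analyticAt_cuspFunction (by rw [hFT]; exact (tr_isMF1_heckeT p hp hG).isNice)) _
  rw [h1, hFT]
  have h2 := UpperHalfPlane.qCoeff_heckeT hnice.periodic_comp_ofComplex hnice.1 hnice.2.2 (k : ℤ) hp0 n
  unfold ModularFormClass.qCoeff at h2
  rw [PowerSeries.coeff_smul, h2, ModularForm.coeffHeckeT_apply, map_add, PowerSeries.coeff_smul,
    coeff_UPS, PowerSeries.coeff_expand]
  have hk' : ((k : ℤ) - 1) = ((k - 1 : ℕ) : ℤ) := by omega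
  rw [hk', zpow_natCast, smul_eq_mul, smul_eq_mul, mul_add]
  rw [add_comm]
  congr 1
  split_ifs with hdiv
  · rw [← mul_assoc, ← mul_pow, inv_mul_cancel₀ hpc, one_pow, one_mul]
  · simp

end Fermat.Agent.S16x
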