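/-
S16 / AN2 (helper73): the trace to level one of `A · G(pz)` (`A ∈ M₂(Γ₀(p))`, `G` of level one and
weight `k`) is the level one form `A·G(pz) − p^{-k} U_p((U_p A)·G)`.
The KEY FACT of AN0 (`hasSum_slashS`) enters as the hypothesis `hS`.
-/
import Mathlib
import Fermat.Agent.S16x.Defs
import Fermat.Agent.S16x.CosetPerm
import Fermat.Agent.S16x.TraceV
import Fermat.Agent.S23x.QRing
import Fermat.Agent.S23x.LevelRaise
import Fermat.Prelude.Thm_ModularForm_mdifferentiable_heckeU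
import Fermat.Prelude.Thm_ModularForm_isBoundedAtImInfty_heckeU
import Fermat.Prelude.Thm_ModularForm_periodic_heckeU_comp_ofComplex
import Fermat.Prelude.Thm_UpperHalfPlane_qCoeff_heckeU

set_option autoImplicit false

noncomputable section

open UpperHalfPlane ModularForm ModularFormClass CongruenceSubgroup
open scoped MatrixGroups Manifold
open Fermat.Agent.S23x (IsMF IsMF1 IsNice mulN)

namespace Fermat.Agent.S16x

/-- niceness from periodicity of `f ∘ ofComplex` -/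
theorem tr_isNice_of {f : ℍ → ℂ} (hol : MDiff f)
    (hper : Function.Periodic (f ∘ UpperHalfPlane.ofComplex) 1) (hbdd : IsBoundedAtImInfty f) :
    IsNice f := by
  refine ⟨hol, fun z => ?_, hbdd⟩
  have h1 := hper (z : ℂ)
  simp only [Function.comp_apply] at h1
  have h2 : UpperHalfPlane.ofComplex ((z : ℂ) + 1) = (1 : ℝ) +ᵥ z := by
    have h3 : ((z : ℂ) + 1) = (((1 : ℝ) +ᵥ z : ℍ) : ℂ) := by
      simp [add_comm]
    rw [h3, UpperHalfPlane.ofComplex_apply]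
  rw [h2, UpperHalfPlane.ofComplex_apply] at h1
  exact h1

theorem tr_isNice_heckeU {f : ℍ → ℂ} (hf : IsNice f) (k : ℤ) (p : ℕ) :
    IsNice (ModularForm.heckeU k p f) :=
  tr_isNice_of (ModularForm.mdifferentiable_heckeU hf.1 k p)
    (ModularForm.periodic_heckeU_comp_ofComplex hf.periodic_comp_ofComplex k p)
    (ModularForm.isBoundedAtImInfty_heckeU hf.2.2 k p)

theorem tr_qExpansion_heckeU {f : ℍ → ℂ} (hf : IsNice f) (k : ℤ) {p : ℕ} (hp : p ≠ 0) :
    qExpansion 1 (ModularForm.heckeU k p f) = UPS p (qExpansion 1 f) := by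
  ext n
  have := UpperHalfPlane.qCoeff_heckeU hf.periodic_comp_ofComplex hf.1 hf.2.2 k hp n
  unfold ModularFormClass.qCoeff at this
  rw [this, ModularForm.coeffHeckeU_apply, coeff_UPS]

theorem tr_qExpansion_comp_mulN (N : ℕ) [NeZero N] {k : ℤ} {f : ℍ → ℂ} (h : IsMF1 k f) :
    qExpansion 1 (fun z => f (mulN N z)) = PowerSeries.expand N (NeZero.ne N) (qExpansion 1 f) := by
  ext n
  rw [Fermat.Agent.S23x.qExpansion_comp_mulN_coeff N h n, PowerSeries.coeff_expand]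

/-- the point `(z + j)/p` of the upper half plane -/
abbrev tr_pt (p j : ℕ) (z : ℍ) : ℍ := ModularForm.heckeMatrix p j • z

theorem tr_pt_coe {p : ℕ} (hp : p ≠ 0) (j : ℕ) (z : ℍ) :
    ((tr_pt p j z : ℍ) : ℂ) = ((z : ℂ) + j) / p :=
  ModularForm.coe_heckeMatrix_smul hp j z

theorem tr_pt_vadd {p : ℕ} (hp : p ≠ 0) (j : ℕ) (z : ℍ) :
    tr_pt p 0 (((j : ℕ) : ℝ) +ᵥ z) = tr_pt p j z := by
  apply UpperHalfPlane.ext
  rw [tr_pt_coe hp, tr_pt_coe hp]
  simp [add_comm]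

/-- Step 1: the function form of the KEY FACT: `(A|S)(z) = -(1/p) (U_p A)(z/p)`. -/
theorem tr_slashS_eq (p : ℕ) [Fact p.Prime] (A : ModularForm (Gamma0 p) 2)
    (hS : ∀ z : ℍ, HasSum (fun m : ℕ => -(p : ℂ)⁻¹ * PowerSeries.coeff (m * p) (qExpansion 1 A) *
      Complex.exp (2 * Real.pi * Complex.I * m * z / p)) ((⇑A ∣[(2 : ℤ)] ModularGroup.S) z))
    (z : ℍ) :
    (⇑A ∣[(2 : ℤ)] ModularGroup.S) z =
      -(p : ℂ)⁻¹ * (ModularForm.heckeU 2 p ⇑A) (tr_pt p 0 z) := by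
  have hp : p.Prime := Fact.out
  have hp0 : p ≠ 0 := hp.ne_zero
  have hpc : (p : ℂ) ≠ 0 := Nat.cast_ne_zero.mpr hp0
  have : NeZero p := ⟨hp0⟩
  have hA : IsNice (⇑A) := IsMF.isNice (N := p) ⟨A, rfl⟩
  have hAt := tr_isNice_heckeU hA 2 p
  have h1 := UpperHalfPlane.hasSum_qExpansion one_pos hAt.periodic_comp_ofComplex hAt.1 hAt.2.2
    (tr_pt p 0 z)
  rw [tr_qExpansion_heckeU hA 2 hp0] at h1
  have h2 := h1.mul_left (-(p : ℂ)⁻¹)
  have hfun : (fun m : ℕ => -(p : ℂ)⁻¹ * PowerSeries.coeff (m * p) (qExpansion 1 A) *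
      Complex.exp (2 * Real.pi * Complex.I * m * z / p)) =
      fun i : ℕ => -(p : ℂ)⁻¹ * (PowerSeries.coeff i (UPS p (qExpansion 1 ⇑A)) •
        Function.Periodic.qParam 1 ((tr_pt p 0 z : ℍ) : ℂ) ^ i) := by
    funext m
    rw [coeff_UPS, smul_eq_mul, mul_assoc]
    congr 2
    rw [Function.Periodic.qParam, tr_pt_coe hp0, ← Complex.exp_nat_mul]
    congr 1
    push_cast
    field_simp
    ring
  have h3 := hS z
  rw [hfun] at h3
  exact h3.unique h2

/-- Step 2: `G(p·) | S = p^{-k} G(·/p)` for `G` of level one. -/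
theorem tr_comp_mulN_slashS (p : ℕ) [Fact p.Prime] {k : ℤ} {G : ℍ → ℂ} (hG : IsMF1 k G) (z : ℍ) :
    haveI : NeZero p := ⟨(Fact.out : p.Prime).ne_zero⟩
    ((fun w => G (mulN p w)) ∣[k] ModularGroup.S) z = ((p : ℂ)⁻¹) ^ k * G (tr_pt p 0 z) := by
  have hp : p.Prime := Fact.out
  have hp0 : p ≠ 0 := hp.ne_zero
  have hpc : (p : ℂ) ≠ 0 := Nat.cast_ne_zero.mpr hp0
  have : NeZero p := ⟨hp0⟩
  obtain ⟨F, rfl⟩ := hG
  have hz : (z : ℂ) ≠ 0 := UpperHalfPlane.ne_zero z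
  set w : ℍ := tr_pt p 0 z with hw
  have hwc : (w : ℂ) = (z : ℂ) / p := by rw [hw, tr_pt_coe hp0]; simp
  have hw0 : (w : ℂ) ≠ 0 := UpperHalfPlane.ne_zero w
  -- `F | S = F` at the point `w`
  have hFS : (⇑F ∣[k] ModularGroup.S) w = F w := by
    have := SlashInvariantFormClass.slash_action_eq F (Matrix.SpecialLinearGroup.mapGL ℝ ModularGroup.S)
      (MonoidHom.mem_range.mpr ⟨ModularGroup.S, rfl⟩)
    exact congrFun this w
  rw [ModularForm.SL_slash_apply] at hFS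
  rw [ModularForm.SL_slash_apply]
  have hpt : mulN p (ModularGroup.S • z) = ModularGroup.S • w := by
    apply UpperHalfPlane.ext
    rw [UpperHalfPlane.modular_S_smul, UpperHalfPlane.modular_S_smul]
    simp only [mulN, UpperHalfPlane.coe_mk]
    rw [hwc]
    field_simp
  have hd1 : denom (ModularGroup.S : SL(2, ℤ)) z = z := ModularGroup.denom_S z
  have hd2 : denom (ModularGroup.S : SL(2, ℤ)) w = w := ModularGroup.denom_S w
  rw [hd2] at hFS
  rw [hd1, hpt]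
  have : F (ModularGroup.S • w) = F w * (w : ℂ) ^ k := by
    rw [← hFS, mul_assoc, ← zpow_add₀ hw0]
    simp
  rw [this, hwc, div_zpow, mul_assoc, div_mul_eq_mul_div, ← zpow_add₀ hz]
  simp only [add_neg_cancel, zpow_zero, one_div, inv_zpow]
  ring

/-- Steps 3–5: the sum of the `p+1` conjugates of `A · G(p·)` as an explicit function. -/
theorem tr_sum_conj_eq (p : ℕ) [Fact p.Prime] (A : ModularForm (Gamma0 p) 2)
    (hS : ∀ z : ℍ, HasSum (fun m : ℕ => -(p : ℂ)⁻¹ * PowerSeries.coeff (m * p) (qExpansion 1 A) *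
      Complex.exp (2 * Real.pi * Complex.I * m * z / p)) ((⇑A ∣[(2 : ℤ)] ModularGroup.S) z))
    {k : ℕ} {G : ℍ → ℂ} (hG : IsMF1 (k : ℤ) G) :
    haveI : NeZero p := ⟨(Fact.out : p.Prime).ne_zero⟩
    (∑ x : Option (Fin p), (⇑A * fun w => G (mulN p w)) ∣[(2 : ℤ) + k] cp_rep p x) =
      (⇑A * fun w => G (mulN p w)) -
        ((p : ℂ)⁻¹) ^ k • ModularForm.heckeU ((2 : ℤ) + k) p (ModularForm.heckeU 2 p ⇑A * G) := by
  have hp : p.Prime := Fact.out
  have hp0 : p ≠ 0 := hp.ne_zero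
  have hpc : (p : ℂ) ≠ 0 := Nat.cast_ne_zero.mpr hp0
  have : NeZero p := ⟨hp0⟩
  funext z
  rw [Fintype.sum_option, cp_rep_none, SlashAction.slash_one]
  simp only [Pi.add_apply, Pi.sub_apply, Finset.sum_apply, Pi.smul_apply, smul_eq_mul]
  rw [sub_eq_add_neg]
  congr 1
  have hterm : ∀ j : Fin p, ((⇑A * fun w => G (mulN p w)) ∣[(2 : ℤ) + k] cp_rep p (some j)) z =
      -((p : ℂ)⁻¹) ^ (k + 1) * (ModularForm.heckeU 2 p ⇑A * G) (tr_pt p (j : ℕ) z) := by
    intro j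
    rw [cp_slash_rep_some, ModularForm.mul_slash_SL2, Pi.mul_apply, tr_slashS_eq p A hS,
      tr_comp_mulN_slashS p hG, tr_pt_vadd hp0, Pi.mul_apply, zpow_natCast]
    ring
  simp_rw [hterm]
  rw [← Finset.mul_sum, ModularForm.heckeU_apply _ hp0, ← Finset.sum_range
    (fun j => (ModularForm.heckeU 2 p ⇑A * G) (tr_pt p j z))]
  rw [pow_succ]
  ring

/-- AN2 with the KEY FACT of AN0 as a hypothesis. -/
theorem tr_exists_levelOne_trace_of (p : ℕ) [Fact p.Prime] (A : ModularForm (Gamma0 p) 2)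
    (hS : ∀ z : ℍ, HasSum (fun m : ℕ => -(p : ℂ)⁻¹ * PowerSeries.coeff (m * p) (qExpansion 1 A) *
      Complex.exp (2 * Real.pi * Complex.I * m * z / p)) ((⇑A ∣[(2 : ℤ)] ModularGroup.S) z))
    {k : ℕ} {G : ℍ → ℂ} (hG : IsMF1 (k : ℤ) G) :
    ∃ f : ℍ → ℂ, IsMF1 ((k + 2 : ℕ) : ℤ) f ∧
      qExpansion 1 f =
        qExpansion 1 A * PowerSeries.expand p (Fact.out : p.Prime).ne_zero (qExpansion 1 G)
          - ((p : ℂ)⁻¹) ^ k • UPS p (UPS p (qExpansion 1 A) * qExpansion 1 G) := by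
  have hp : p.Prime := Fact.out
  have hp0 : p ≠ 0 := hp.ne_zero
  have : NeZero p := ⟨hp0⟩
  obtain ⟨GP, hGP⟩ := Fermat.Agent.S23x.isMF_comp_mulN p hG
  set h : ℍ → ℂ := ⇑A * fun w => G (mulN p w) with hh_def
  have hcoe : ⇑(A.mul GP) = h := by rw [ModularForm.coe_mul, hGP]
  have hA : IsNice (⇑A) := IsMF.isNice (N := p) ⟨A, rfl⟩
  have hGn : IsNice G := hG.isNice
  have hGPn : IsNice (fun w => G (mulN p w)) := IsMF.isNice (N := p) ⟨GP, hGP⟩
  have hhn : IsNice h := hA.mul hGPn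
  have hAt : IsNice (ModularForm.heckeU 2 p ⇑A) := tr_isNice_heckeU hA 2 p
  have hΦ : IsNice (ModularForm.heckeU 2 p ⇑A * G) := hAt.mul hGn
  have hUΦ : IsNice (ModularForm.heckeU ((2 : ℤ) + k) p (ModularForm.heckeU 2 p ⇑A * G)) :=
    tr_isNice_heckeU hΦ _ p
  have hinv : ∀ δ ∈ Gamma0 p, h ∣[(2 : ℤ) + k] δ = h := by
    intro δ hδ
    rw [← hcoe]
    exact SlashInvariantFormClass.slash_action_eq (A.mul GP) _ (Subgroup.mem_map.mpr ⟨δ, hδ, rfl⟩)
  have hsum := tr_sum_conj_eq p A hS hG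
  refine ⟨∑ x : Option (Fin p), h ∣[(2 : ℤ) + k] cp_rep p x, ?_, ?_⟩
  · refine tr_isMF1_cast (by push_cast; ring) (tr_isMF1_of (k := (2 : ℤ) + k) ?_ ?_ ?_)
    · rw [hsum]
      exact hhn.1.sub (hUΦ.1.const_smul _)
    · exact fun γ => cp_sum_slash p _ h hinv γ
    · rw [hsum]
      exact hhn.2.2.sub (hUΦ.2.2.const_smul_left _)
  · rw [hsum, qExpansion_sub hhn.analyticAt_cuspFunction
        (IsNice.analyticAt_cuspFunction (hUΦ.smul _)),
      qExpansion_smul hUΦ.analyticAt_cuspFunction, tr_qExpansion_heckeU hΦ _ hp0,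
      qExpansion_mul hAt.analyticAt_cuspFunction hGn.analyticAt_cuspFunction,
      tr_qExpansion_heckeU hA _ hp0, hh_def,
      qExpansion_mul hA.analyticAt_cuspFunction hGPn.analyticAt_cuspFunction,
      tr_qExpansion_comp_mulN p hG]

end Fermat.Agent.S16x
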