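/-
S16 / AN2 (helper73): `exists_levelOne_trace` (exact Spec statement) = `tr_exists_levelOne_trace_of`
(TraceLevelOneCore) fed with the KEY FACT `hasSum_slashS` of AN0 (SlashS).  The companion
`exists_levelOne_traceV` lives in `TraceV.lean`.
-/
import Fermat.Agent.S16x.TraceLevelOneCore
import Fermat.Agent.S16x.SlashS

set_option autoImplicit false

noncomputable section

open UpperHalfPlane ModularForm ModularFormClass CongruenceSubgroup
open scoped MatrixGroups Manifold
open Fermat.Agent.S23x (IsMF IsMF1)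

namespace Fermat.Agent.S16x

theorem exists_levelOne_trace (p : ℕ) [Fact p.Prime] (A : ModularForm (Gamma0 p) 2) {k : ℕ}
    {G : ℍ → ℂ} (hG : IsMF1 (k : ℤ) G) :
    ∃ f : ℍ → ℂ, IsMF1 ((k + 2 : ℕ) : ℤ) f ∧
      qExpansion 1 f =
        qExpansion 1 A * PowerSeries.expand p (Fact.out : p.Prime).ne_zero (qExpansion 1 G)
          - ((p : ℂ)⁻¹) ^ k • UPS p (UPS p (qExpansion 1 A) * qExpansion 1 G) :=
  tr_exists_levelOne_trace_of p A (hasSum_slashS p A) hG

end Fermat.Agent.S16x
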