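/-
S16 project, module CASE_ThreeB: `no_congr_three_one` (exact Spec statement) = the generic trace
case `tre_no_congr_three_one` (TraceCases, helper35) fed with the two AN2 statements
`exists_levelOne_trace` (TraceLevelOne) and `exists_levelOne_traceV` (TraceV).
-/
import Fermat.Agent.S16x.TraceCases
import Fermat.Agent.S16x.TraceLevelOne
import Fermat.Agent.S16x.TraceV

set_option autoImplicit false

open CongruenceSubgroup

namespace Fermat.Agent.S16x

/-- the two AN2 statements, bundled in the shape expected by `TraceCases` -/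
theorem ub5_AN2 (p : ℕ) [Fact p.Prime] : tre_AN2 p :=
  ⟨fun A _ _ hG => exists_levelOne_trace p A hG, fun hk _ hG => exists_levelOne_traceV p hk hG⟩

/-- (A3) `ℓ = 3`, `p ≡ 1 mod 3` -/
theorem no_congr_three_one (p : ℕ) [Fact p.Prime] (hp3 : p % 3 = 1)
    (g : CuspForm (Gamma0 p) 2) (hg : IsEisCongr p (3 ^ padicValNat 3 (p - 1)) g) : False :=
  tre_no_congr_three_one p (ub5_AN2 p) hp3 g hg

end Fermat.Agent.S16x
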