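import Fermat.Agent.S16x.NormCaseE

/-!
# S16 project, module CASE_TwoA: `ℓ = 2`, `p ≡ 7 mod 8` (the former open case (C2))

`no_congr_two_seven` (exact Spec statement): norm with the auxiliary level `r = 3`,
`A = g + p e_p`, `B = ((p-1)/2) e_3` (helper15's uniform trick), via the generic lemmas
`normCase_false` / `normCaseE_false` (helper34).
-/

set_option autoImplicit false

open UpperHalfPlane ModularForm ModularFormClass CongruenceSubgroup
open scoped MatrixGroups Manifold

namespace Fermat.Agent.S16x

/-- (C2) `CaseTwoA.lean` : `ℓ = 2`, `p ≡ 7 mod 8` (norm with `r = 3`, `X' = g + p e + c b₃`) -/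
theorem no_congr_two_seven (p : ℕ) [Fact p.Prime] (hp8 : p % 8 = 7)
    (g : CuspForm (Gamma0 p) 2) (hg : IsEisCongr p 2 g) : False :=
  nce_no_congr_two_seven p hp8 g hg

end Fermat.Agent.S16x
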