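/-
S16 project, module ALG0 `Reduction`: algebra of `lintRing`, `toC`, `redHom`
(pure algebra, Mathlib + `S16x/Defs` only).  Names and statements are EXACTLY those of
`S16x/Spec.lean`.  Author: helper78 (backup of helper5).
-/
import Fermat.Agent.S16x.Defs

set_option autoImplicit false

namespace Fermat.Agent.S16x

noncomputable section

/-- `ℓ = 0` in the residue field -/
theorem resid_natCast_self (ℓ : ℕ) [Fact ℓ.Prime] : resid ℓ ((ℓ : ℕ) : lintRing ℓ) = 0 :=
  Ideal.Quotient.eq_zero_iff_mem.mpr (natCast_mem_lintMax ℓ)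

/-- a rational number with denominator prime to `ℓ` is `ℓ`-integral -/
theorem ratCast_mem_lintRing {ℓ : ℕ} (x : ℚ) (h : x.den.Coprime ℓ) :
    ((x : ℚ) : ℂ) ∈ lintRing ℓ := by
  refine ⟨x.den, h, ?_⟩
  have h1 : ((x.den : ℕ) : ℂ) * ((x : ℚ) : ℂ) = ((x.num : ℤ) : ℂ) := by
    have h2 : ((x.den : ℕ) : ℚ) * x = ((x.num : ℤ) : ℚ) := by
      rw [mul_comm]; exact Rat.mul_den_eq_num x
    have h3 : (((((x.den : ℕ) : ℚ) * x : ℚ)) : ℂ) = ((((x.num : ℤ) : ℚ) : ℚ) : ℂ) := by
      rw [h2]
    rw [Rat.cast_mul, Rat.cast_natCast, Rat.cast_intCast] at h3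
    exact h3
  rw [h1]
  have := isIntegral_algebraMap (R := ℤ) (A := ℂ) (x := x.num)
  simpa using this

/-- `ζ_N ^ N = 1` -/
theorem red_zeta_pow_self (N : ℕ) [NeZero N] : zeta N ^ N = 1 := by
  unfold zeta
  rw [← Complex.exp_nat_mul]
  have hN : (N : ℂ) ≠ 0 := Nat.cast_ne_zero.mpr (NeZero.ne N)
  have : (N : ℂ) * (2 * Real.pi * Complex.I / N) = 2 * Real.pi * Complex.I := by
    field_simp
  rw [this]
  exact Complex.exp_two_pi_mul_I

/-- roots of unity are algebraic integers -/
theorem red_isIntegral_zeta_pow (N j : ℕ) [NeZero N] : IsIntegral ℤ (zeta N ^ j) := by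
  refine IsIntegral.of_pow (Nat.pos_of_ne_zero (NeZero.ne N)) ?_
  rw [← pow_mul, mul_comm, pow_mul, red_zeta_pow_self, one_pow]
  exact isIntegral_one

/-- roots of unity are `ℓ`-integral -/
theorem zeta_pow_mem_lintRing (ℓ N j : ℕ) [NeZero N] : zeta N ^ j ∈ lintRing ℓ :=
  mem_lintRing_of_isIntegral (red_isIntegral_zeta_pow N j)

/-- `ζ_N^j` is a unit of `R`, so its residue is non-zero -/
theorem resid_zeta_pow_ne_zero (ℓ N j : ℕ) [Fact ℓ.Prime] [NeZero N] :
    resid ℓ ⟨zeta N ^ j, zeta_pow_mem_lintRing ℓ N j⟩ ≠ 0 := by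
  have hmul : (⟨zeta N ^ j, zeta_pow_mem_lintRing ℓ N j⟩ : lintRing ℓ) *
      ⟨zeta N ^ ((N - 1) * j), zeta_pow_mem_lintRing ℓ N ((N - 1) * j)⟩ = 1 := by
    apply Subtype.ext
    show zeta N ^ j * zeta N ^ ((N - 1) * j) = 1
    rw [← pow_add]
    have hN : 1 ≤ N := Nat.pos_of_ne_zero (NeZero.ne N)
    have : j + (N - 1) * j = N * j := by
      have h2 : (N - 1) + 1 = N := Nat.sub_add_cancel hN
      calc j + (N - 1) * j = ((N - 1) + 1) * j := by ring
        _ = N * j := by rw [h2]
    rw [this, pow_mul, red_zeta_pow_self, one_pow]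
  intro h0
  have := congrArg (resid ℓ) hmul
  rw [map_mul, h0, zero_mul, map_one] at this
  exact zero_ne_one this

/-- `toC` commutes with `expand` -/
theorem toC_expand (ℓ e : ℕ) (he : e ≠ 0) (P : PowerSeries (lintRing ℓ)) :
    toC ℓ (PowerSeries.expand e he P) = PowerSeries.expand e he (toC ℓ P) :=
  PowerSeries.map_expand e he _ P

/-- `toC` commutes with `rescale` -/
theorem toC_rescale (ℓ : ℕ) (u : lintRing ℓ) (P : PowerSeries (lintRing ℓ)) :
    toC ℓ (PowerSeries.rescale u P) = PowerSeries.rescale (u : ℂ) (toC ℓ P) :=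
  (PowerSeries.rescale_map (lintRing ℓ).subtype u P).symm

/-- `toC` commutes with `UPS` -/
theorem toC_UPS (ℓ p : ℕ) (P : PowerSeries (lintRing ℓ)) : toC ℓ (UPS p P) = UPS p (toC ℓ P) := by
  ext n
  simp [toC]

/-- `redHom` commutes with `expand` -/
theorem redHom_expand (ℓ e : ℕ) [Fact ℓ.Prime] (he : e ≠ 0) (P : PowerSeries (lintRing ℓ)) :
    redHom ℓ (PowerSeries.expand e he P) = PowerSeries.expand e he (redHom ℓ P) :=
  PowerSeries.map_expand e he _ P

/-- `redHom` commutes with `rescale` -/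
theorem redHom_rescale (ℓ : ℕ) [Fact ℓ.Prime] (u : lintRing ℓ) (P : PowerSeries (lintRing ℓ)) :
    redHom ℓ (PowerSeries.rescale u P) = PowerSeries.rescale (resid ℓ u) (redHom ℓ P) :=
  (PowerSeries.rescale_map (resid ℓ) u P).symm

/-- `redHom` commutes with `UPS` -/
theorem redHom_UPS (ℓ p : ℕ) [Fact ℓ.Prime] (P : PowerSeries (lintRing ℓ)) :
    redHom ℓ (UPS p P) = UPS p (redHom ℓ P) := by
  ext n
  simp [redHom]

/-- orders: `expand` multiplies the order -/
theorem order_expand {K : Type*} [Field K] (e : ℕ) (he : e ≠ 0) (P : PowerSeries K) :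
    (PowerSeries.expand e he P).order = e * P.order := by
  rw [PowerSeries.order_expand, nsmul_eq_mul]

/-- orders: `rescale` by a non-zero scalar of a field keeps the order -/
theorem order_rescale {K : Type*} [Field K] {u : K} (hu : u ≠ 0) (P : PowerSeries K) :
    (PowerSeries.rescale u P).order = P.order := by
  by_cases hP : P = 0
  · subst hP; simp
  · have hne : PowerSeries.rescale u P ≠ 0 := by
      intro h0
      apply hP
      ext n
      have := congrArg (PowerSeries.coeff n) h0
      rw [PowerSeries.coeff_rescale, map_zero] at this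
      rcases mul_eq_zero.mp this with h | h
      · exact absurd h (pow_ne_zero n hu)
      · simpa using h
    apply le_antisymm
    · -- order of rescale ≤ order P : the coefficient at `order P` is non-zero
      obtain ⟨n, hn⟩ : ∃ n : ℕ, P.order = n := by
        refine ⟨P.order.toNat, ?_⟩
        exact (ENat.natCast_toNat (PowerSeries.order_finite_iff_ne_zero.mpr hP).ne).symm
      rw [hn]
      apply PowerSeries.order_le
      rw [PowerSeries.coeff_rescale]
      have hc : PowerSeries.coeff n P ≠ 0 := by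
        have := PowerSeries.coeff_order hP
        have h2 : P.order.toNat = n := by rw [hn]; rfl
        rwa [h2] at this
      exact mul_ne_zero (pow_ne_zero n hu) hc
    · apply PowerSeries.le_order
      intro i hi
      rw [PowerSeries.coeff_rescale, PowerSeries.coeff_of_lt_order i hi, mul_zero]

/-- a finite product of series over a field: the order is the sum of the orders -/
theorem order_prod {K : Type*} [Field K] {ι : Type*} (s : Finset ι) (P : ι → PowerSeries K) :
    (∏ i ∈ s, P i).order = ∑ i ∈ s, (P i).order :=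
  PowerSeries.order_prod P s

end

end Fermat.Agent.S16x
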