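/-
S16 project: generic "trace to level one" core for the three trace cases
(CASE_TwoB `no_congr_two_one`, CASE_TwoC `no_congr_two_three`, CASE_ThreeB `no_congr_three_one`).
* `twb_core`: `ℓ ≠ p` primes, `ℓ^s ∣ 24`, `ℓ^s ∤ p + 1`: no `F ∈ M₂(Γ₀(p))` with `ℓ`-integral
  `q`-expansion `≡ 1 mod ℓ^s` (given the two AN2 traces with `G = Δ`; uses `lo_sturm_mod`).
* `twb_exists_F`: `F = (24/(p-1)) (e - g)`.
* `twb_false_of_trace`: both combined; `twb_no_congr_two_one_of`, `twb_no_congr_two_three_of`,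
  `twb_no_congr_three_one_of`: the three cases, with the AN2 traces as hypotheses.
Owner: helper14.
-/
import Fermat.Agent.S16x.Reduction
import Fermat.Agent.S16x.LevelOneSturmMod
import Fermat.Agent.S16x.EisForm
import Fermat.Agent.S23x.LevelOne
import Fermat.Agent.S24x.E4QExp
import Fermat.Agent.S24x.DeltaQExp
import Fermat.Prelude.Thm_CongruenceSubgroup_one_mem_strictPeriods_Gamma0

set_option autoImplicit false

open UpperHalfPlane ModularForm ModularFormClass CongruenceSubgroup EisensteinSeries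
open scoped MatrixGroups Manifold
open Fermat.Agent.S23x (IsMF IsMF1)

namespace Fermat.Agent.S16x

noncomputable section

/-! ### Integral `q`-expansions of `E₄`, `E₆`, `Δ` -/

/-- the formal `E₆ = 1 - 504 ∑ σ₅(n) qⁿ` -/
def twbEis6 : PowerSeries ℤ :=
  PowerSeries.mk fun n => if n = 0 then 1 else -504 * ∑ d ∈ n.divisors, (d : ℤ) ^ 5

lemma twb_bernoulli_six : bernoulli 6 = 1 / 42 := by decide +kernel

theorem twb_qExpansion_E6 :
    qExpansion 1 (E₆ : ℍ → ℂ) = twbEis6.map (Int.castRingHom ℂ) := by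
  ext m
  have h := E_qExpansion_coeff (k := 6) (by norm_num) ⟨3, rfl⟩ m
  rw [PowerSeries.coeff_map, twbEis6, PowerSeries.coeff_mk]
  change (PowerSeries.coeff m) (qExpansion 1 ⇑(E (k := 6) (by norm_num))) = _
  rw [h]
  by_cases hm : m = 0
  · simp [hm]
  · simp only [hm, if_false, twb_bernoulli_six, ArithmeticFunction.sigma_apply]
    simp only [eq_intCast]
    push_cast
    ring

/-! ### Lifts to `lintRing ℓ` -/

/-- integer power series as `ℓ`-integral power series -/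
def twbInt (ℓ : ℕ) : PowerSeries ℤ →+* PowerSeries (lintRing ℓ) :=
  PowerSeries.map (Int.castRingHom (lintRing ℓ))

theorem twb_toC_int (ℓ : ℕ) (P : PowerSeries ℤ) :
    toC ℓ (twbInt ℓ P) = P.map (Int.castRingHom ℂ) := by
  ext n
  simp [toC, twbInt]

/-- the lift of `Δ` -/
def twbDelta (ℓ : ℕ) : PowerSeries (lintRing ℓ) :=
  twbInt ℓ (PowerSeries.X * ModularCurve.etaProd ^ 24)

theorem twb_toC_delta (ℓ : ℕ) : toC ℓ (twbDelta ℓ) = qExpansion 1 ModularForm.discriminant := by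
  rw [twbDelta, twb_toC_int, Fermat.Agent.S24x.qExpansion_discriminant, map_mul, PowerSeries.map_X]

theorem twb_coeff_delta_zero (ℓ : ℕ) : PowerSeries.coeff 0 (twbDelta ℓ) = 0 := by
  simp [twbDelta, twbInt]

theorem twb_coeff_delta_one (ℓ : ℕ) : PowerSeries.coeff 1 (twbDelta ℓ) = 1 := by
  have h : PowerSeries.coeff 1 (PowerSeries.X * ModularCurve.etaProd ^ 24 : PowerSeries ℤ) = 1 := by
    rw [PowerSeries.coeff_succ_X_mul, PowerSeries.coeff_zero_eq_constantCoeff, map_pow,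
      ModularCurve.constantCoeff_etaProd, one_pow]
  simp only [twbDelta, twbInt, PowerSeries.coeff_map, h]
  simp

/-- `E₄ = 1 + 240 A`, `E₆ = 1 - 504 B` with integral `A`, `B` -/
def twbA4 : PowerSeries ℤ :=
  PowerSeries.mk fun n => if n = 0 then 0 else ∑ d ∈ n.divisors, (d : ℤ) ^ 3

def twbA6 : PowerSeries ℤ :=
  PowerSeries.mk fun n => if n = 0 then 0 else ∑ d ∈ n.divisors, (d : ℤ) ^ 5

theorem twb_eis4_eq : ModularCurve.eisenstein4 = 1 + 240 * twbA4 := by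
  ext n
  by_cases hn : n = 0
  · subst hn; simp [ModularCurve.eisenstein4, twbA4]
  · have h240 : (240 : PowerSeries ℤ) = PowerSeries.C (240 : ℤ) := by simp
    rw [map_add, h240, PowerSeries.coeff_C_mul]
    simp [ModularCurve.eisenstein4, twbA4, hn, PowerSeries.coeff_one]

theorem twb_eis6_eq : twbEis6 = 1 + (-504) * twbA6 := by
  ext n
  by_cases hn : n = 0
  · subst hn; simp [twbEis6, twbA6]
  · have h504 : (-504 : PowerSeries ℤ) = PowerSeries.C (-504 : ℤ) := by simp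
    rw [map_add, h504, PowerSeries.coeff_C_mul]
    simp [twbEis6, twbA6, hn, PowerSeries.coeff_one]

/-! ### `UPS` is additive -/

theorem twb_UPS_add {R : Type*} [Semiring R] (p : ℕ) (P Q : PowerSeries R) :
    UPS p (P + Q) = UPS p P + UPS p Q := by
  ext n; simp

theorem twb_UPS_zero {R : Type*} [Semiring R] (p : ℕ) : UPS p (0 : PowerSeries R) = 0 := by
  ext n; simp

theorem twb_UPS_one {R : Type*} [Semiring R] (p : ℕ) (hp : p ≠ 0) :
    UPS p (1 : PowerSeries R) = 1 := by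
  ext n
  simp only [coeff_UPS, PowerSeries.coeff_one]
  by_cases hn : n = 0
  · simp [hn]
  · simp [hn, hp]

theorem twb_UPS_C_mul {R : Type*} [Semiring R] (p : ℕ) (c : R) (P : PowerSeries R) :
    UPS p (PowerSeries.C c * P) = PowerSeries.C c * UPS p P := by
  ext n; simp

/-- `UPS p` as an additive map -/
def twbU {R : Type*} [Semiring R] (p : ℕ) : PowerSeries R →+ PowerSeries R where
  toFun := UPS p
  map_zero' := twb_UPS_zero p
  map_add' := twb_UPS_add p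

theorem twb_UPS_natCast_mul {R : Type*} [Semiring R] (p N : ℕ) (P : PowerSeries R) :
    UPS p ((N : PowerSeries R) * P) = (N : PowerSeries R) * UPS p P := by
  have h := map_nsmul (twbU (R := R) p) N P
  simpa [twbU, nsmul_eq_mul] using h

/-- the algebraic heart: modulo `N`, `L' = (1 + p⁻¹) Δ(q^p)` -/
theorem twb_identity {S : Type*} [CommRing S] (U : S → S) (N : S)
    (c D Dp H A4 A6 : S)
    (hU1 : U (1 + N * H) = 1 + N * U H)
    (hU2 : U ((1 + N * U H) * D) = U D + N * U (U H * D)) :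
    ((1 + N * H) * Dp - c ^ 12 * U (U (1 + N * H) * D)) * (1 + N * A4)
        + c * ((Dp + c ^ 11 * U D) * (1 + N * A6))
      = (1 + c) * Dp + N * (H * Dp - c ^ 12 * U (U H * D)
          + ((1 + N * H) * Dp - c ^ 12 * U (U (1 + N * H) * D)) * A4
          + c * ((Dp + c ^ 11 * U D) * A6)) := by
  rw [hU1, hU2]
  ring

/-! ### The additive subgroup `N • lintRing ℓ ⊆ ℂ` -/

/-- `N • lintRing ℓ` as an additive subgroup of `ℂ` -/
def twbJ (ℓ N : ℕ) : AddSubgroup ℂ :=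
  (lintRing ℓ).toAddSubgroup.map (AddMonoidHom.mulLeft (N : ℂ))

theorem twb_mem_J {ℓ N : ℕ} {x : ℂ} : x ∈ twbJ ℓ N ↔ ∃ y ∈ lintRing ℓ, (N : ℂ) * y = x := by
  simp [twbJ, AddSubgroup.mem_map]

/-- if `a / ℓ^s` is `ℓ`-integral then `ℓ^s ∣ a` -/
theorem twb_dvd_of_mem (ℓ : ℕ) [hℓ : Fact ℓ.Prime] (s a : ℕ) (y : ℂ) (hy : y ∈ lintRing ℓ)
    (h : ((ℓ ^ s : ℕ) : ℂ) * y = (a : ℂ)) : ℓ ^ s ∣ a := by
  obtain ⟨t, ht, hint⟩ := hy
  have hN0 : ((ℓ ^ s : ℕ) : ℂ) ≠ 0 := Nat.cast_ne_zero.mpr (pow_ne_zero _ hℓ.out.ne_zero)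
  have hy' : y = (a : ℂ) / ((ℓ ^ s : ℕ) : ℂ) := by
    field_simp
    rw [mul_comm]; exact h
  have h1 : (t : ℂ) * y = algebraMap ℚ ℂ (((t * a : ℕ) : ℚ) / ((ℓ ^ s : ℕ) : ℚ)) := by
    rw [hy']
    simp only [eq_ratCast]
    push_cast
    ring
  rw [h1] at hint
  have hq : IsIntegral ℤ (((t * a : ℕ) : ℚ) / ((ℓ ^ s : ℕ) : ℚ)) :=
    (isIntegral_algebraMap_iff (algebraMap ℚ ℂ).injective).mp hint
  obtain ⟨m, hm⟩ := IsIntegrallyClosed.isIntegral_iff.mp hq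
  have hNq : ((ℓ ^ s : ℕ) : ℚ) ≠ 0 := Nat.cast_ne_zero.mpr (pow_ne_zero _ hℓ.out.ne_zero)
  have hm' : ((t * a : ℕ) : ℚ) = (m : ℚ) * ((ℓ ^ s : ℕ) : ℚ) := by
    have hm'' : (m : ℚ) = ((t * a : ℕ) : ℚ) / ((ℓ ^ s : ℕ) : ℚ) := by simpa using hm
    rw [hm'']; field_simp
  have hdiv : ((ℓ ^ s : ℕ) : ℤ) ∣ ((t * a : ℕ) : ℤ) :=
    ⟨m, by exact_mod_cast (by rw [hm']; ring : ((t * a : ℕ) : ℚ) = ((ℓ ^ s : ℕ) : ℚ) * (m : ℚ))⟩
  have hdiv' : ℓ ^ s ∣ t * a := by exact_mod_cast hdiv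
  have hcop : (ℓ ^ s).Coprime t := (Nat.Coprime.pow_left s ht.symm)
  exact hcop.dvd_of_dvd_mul_left hdiv'

/-! ### The generic core -/

theorem twb_pinv_mem (ℓ p : ℕ) [hℓ : Fact ℓ.Prime] [hp : Fact p.Prime] (hℓp : ℓ ≠ p) :
    ((p : ℂ)⁻¹) ∈ lintRing ℓ := by
  refine ⟨p, (Nat.coprime_primes hp.out hℓ.out).mpr (Ne.symm hℓp), ?_⟩
  have hp0 : (p : ℂ) ≠ 0 := Nat.cast_ne_zero.mpr hp.out.ne_zero
  rw [mul_inv_cancel₀ hp0]
  exact isIntegral_one

theorem twb_toC_C (ℓ : ℕ) (c : lintRing ℓ) : toC ℓ (PowerSeries.C c) = PowerSeries.C (c : ℂ) := by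
  ext n
  simp [toC, PowerSeries.coeff_C]

theorem twb_coeff_expand_delta (ℓ p : ℕ) (hp : 2 ≤ p) (n : ℕ) (hn : n ≤ 1) :
    PowerSeries.coeff n (PowerSeries.expand p (by omega) (twbDelta ℓ)) = 0 := by
  rw [PowerSeries.coeff_expand]
  split_ifs with h
  · have hn0 : n = 0 := by
      rcases h with ⟨k, hk⟩
      rcases Nat.eq_zero_or_pos k with h0 | h0
      · simp [hk, h0]
      · have : p * 1 ≤ p * k := Nat.mul_le_mul_left p h0
        omega
    subst hn0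
    simp [twb_coeff_delta_zero]
  · rfl

theorem twb_coeff_expand_delta_self (ℓ p : ℕ) (hp : p ≠ 0) :
    PowerSeries.coeff p (PowerSeries.expand p hp (twbDelta ℓ)) = 1 := by
  rw [PowerSeries.coeff_expand, if_pos (dvd_refl p), Nat.div_self (Nat.pos_of_ne_zero hp),
    twb_coeff_delta_one]

/-- **Generic trace core.**  `ℓ ≠ p` primes, `ℓ^s ∣ 24`, `ℓ^s ∤ p + 1`: there is no
`F ∈ M₂(Γ₀(p))` with `ℓ`-integral `q`-expansion `≡ 1 mod ℓ^s`.  (`h14`, `h12`: the two instances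
of AN2 with `G = Δ`.) -/
theorem twb_core (ℓ p s : ℕ) [hℓ : Fact ℓ.Prime] [hp : Fact p.Prime] (hℓp : ℓ ≠ p)
    (hs24 : ℓ ^ s ∣ 24) (hw : ¬ ℓ ^ s ∣ p + 1)
    (F : ModularForm (Gamma0 p) 2) (H : PowerSeries (lintRing ℓ))
    (hF : toC ℓ (1 + ((ℓ ^ s : ℕ) : PowerSeries (lintRing ℓ)) * H) = qExpansion 1 F)
    (h14 : ∃ f : ℍ → ℂ, IsMF1 ((12 + 2 : ℕ) : ℤ) f ∧
      qExpansion 1 f =
        qExpansion 1 F * PowerSeries.expand p (Fact.out : p.Prime).ne_zero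
            (qExpansion 1 ModularForm.discriminant)
          - ((p : ℂ)⁻¹) ^ 12 •
            UPS p (UPS p (qExpansion 1 F) * qExpansion 1 ModularForm.discriminant))
    (h12 : ∃ f : ℍ → ℂ, IsMF1 ((12 : ℕ) : ℤ) f ∧
      qExpansion 1 f = PowerSeries.expand p (Fact.out : p.Prime).ne_zero
            (qExpansion 1 ModularForm.discriminant)
          + ((p : ℂ)⁻¹) ^ (12 - 1) • UPS p (qExpansion 1 ModularForm.discriminant)) : False := by
  obtain ⟨f14, ⟨F14, rfl⟩, hq14⟩ := h14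
  obtain ⟨f12, ⟨F12, rfl⟩, hq12⟩ := h12
  obtain ⟨t, ht⟩ := hs24
  have hp0 : p ≠ 0 := hp.out.ne_zero
  have hp2 : 2 ≤ p := hp.out.two_le
  have hpC : (p : ℂ) ≠ 0 := Nat.cast_ne_zero.mpr hp0
  set pinv : lintRing ℓ := ⟨(p : ℂ)⁻¹, twb_pinv_mem ℓ p hℓp⟩ with hpinv
  set N : PowerSeries (lintRing ℓ) := ((ℓ ^ s : ℕ) : PowerSeries (lintRing ℓ)) with hN
  set c : PowerSeries (lintRing ℓ) := PowerSeries.C pinv with hc
  set D : PowerSeries (lintRing ℓ) := twbDelta ℓ with hD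
  set Dp : PowerSeries (lintRing ℓ) := PowerSeries.expand p hp0 D with hDp
  set A4 : PowerSeries (lintRing ℓ) :=
    ((10 * t : ℕ) : PowerSeries (lintRing ℓ)) * twbInt ℓ twbA4 with hA4
  set A6 : PowerSeries (lintRing ℓ) :=
    -(((21 * t : ℕ) : PowerSeries (lintRing ℓ)) * twbInt ℓ twbA6) with hA6
  have hE4 : twbInt ℓ ModularCurve.eisenstein4 = 1 + N * A4 := by
    rw [twb_eis4_eq, map_add, map_one, map_mul, hA4, hN, ← mul_assoc, ← Nat.cast_mul]
    have h240 : twbInt ℓ (240 : PowerSeries ℤ) = ((ℓ ^ s * (10 * t) : ℕ) : PowerSeries (lintRing ℓ)) := by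
      rw [show ℓ ^ s * (10 * t) = 10 * (ℓ ^ s * t) by ring, ← ht, map_ofNat]
      norm_num
    rw [h240]
  have hE6 : twbInt ℓ twbEis6 = 1 + N * A6 := by
    rw [twb_eis6_eq, map_add, map_one, map_mul, hA6, hN, mul_neg, ← mul_assoc, ← Nat.cast_mul]
    have h504 : twbInt ℓ (-504 : PowerSeries ℤ) =
        -((ℓ ^ s * (21 * t) : ℕ) : PowerSeries (lintRing ℓ)) := by
      rw [show ℓ ^ s * (21 * t) = 21 * (ℓ ^ s * t) by ring, ← ht, map_neg, map_ofNat]
      norm_num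
    rw [h504, neg_mul]
  have hU1 : UPS p (1 + N * H) = 1 + N * UPS p H := by
    rw [twb_UPS_add, twb_UPS_one p hp0, hN, twb_UPS_natCast_mul]
  have hU2 : UPS p ((1 + N * UPS p H) * D) = UPS p D + N * UPS p (UPS p H * D) := by
    rw [add_mul, one_mul, twb_UPS_add, mul_assoc, hN, twb_UPS_natCast_mul]
  have hid := twb_identity (UPS p) N c D Dp H A4 A6 hU1 hU2
  have htoC_c : toC ℓ c = PowerSeries.C ((p : ℂ)⁻¹) := twb_toC_C ℓ pinv
  have htoC_Dp : toC ℓ Dp = PowerSeries.expand p hp0 (qExpansion 1 ModularForm.discriminant) := by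
    rw [hDp, toC_expand, hD, twb_toC_delta]
  -- the two traces
  have h14' : toC ℓ ((1 + N * H) * Dp - c ^ 12 * UPS p (UPS p (1 + N * H) * D))
      = qExpansion 1 F14 := by
    rw [hq14, map_sub, map_mul, map_mul, map_pow, toC_UPS, map_mul, toC_UPS, hF, htoC_c, htoC_Dp,
      hD, twb_toC_delta, ← map_pow, ← PowerSeries.smul_eq_C_mul]
  have h12' : toC ℓ (Dp + c ^ 11 * UPS p D) = qExpansion 1 F12 := by
    rw [hq12, map_add, map_mul, map_pow, toC_UPS, htoC_c, htoC_Dp,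
      hD, twb_toC_delta, ← map_pow, ← PowerSeries.smul_eq_C_mul]
  -- the weight 18 form
  set LL : ModularForm 𝒮ℒ 18 :=
    ModularForm.mcast (by norm_num) (F14.mul E₄)
      + ((p : ℂ)⁻¹) • ModularForm.mcast (by norm_num) (F12.mul E₆) with hLL
  have hqLL : qExpansion 1 LL =
      toC ℓ (((1 + N * H) * Dp - c ^ 12 * UPS p (UPS p (1 + N * H) * D)) * (1 + N * A4)
        + c * ((Dp + c ^ 11 * UPS p D) * (1 + N * A6))) := by
    rw [hLL, FunLike.coe_add, ModularForm.qExpansion_add one_pos one_mem_strictPeriods_SL,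
      FunLike.coe_smul, ModularForm.qExpansion_smul one_pos one_mem_strictPeriods_SL,
      ModularForm.qExpansion_mcast, ModularForm.qExpansion_mcast,
      ModularForm.qExpansion_mul one_pos one_mem_strictPeriods_SL,
      ModularForm.qExpansion_mul one_pos one_mem_strictPeriods_SL,
      Fermat.Agent.S24x.qExpansion_E4, twb_qExpansion_E6, ← h14', ← h12', ← twb_toC_int ℓ,
      ← twb_toC_int ℓ, hE4, hE6, PowerSeries.smul_eq_C_mul, ← htoC_c, ← map_mul, ← map_mul,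
      ← map_mul, ← map_add]
  rw [hid] at hqLL
  -- Sturm modulo `J = ℓ^s • lintRing ℓ`
  set Y : PowerSeries (lintRing ℓ) := H * Dp - c ^ 12 * UPS p (UPS p H * D)
          + ((1 + N * H) * Dp - c ^ 12 * UPS p (UPS p (1 + N * H) * D)) * A4
          + c * ((Dp + c ^ 11 * UPS p D) * A6) with hY
  have hcoeff : ∀ n, PowerSeries.coeff n (qExpansion 1 LL) =
      ((1 + pinv : lintRing ℓ) : ℂ) * ((PowerSeries.coeff n Dp : lintRing ℓ) : ℂ)
        + ((ℓ ^ s : ℕ) : ℂ) * ((PowerSeries.coeff n Y : lintRing ℓ) : ℂ) := by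
    intro n
    rw [hqLL, toC, PowerSeries.coeff_map, map_add, hN, hc,
      show (1 + PowerSeries.C pinv : PowerSeries (lintRing ℓ)) = PowerSeries.C (1 + pinv) by simp,
      PowerSeries.coeff_C_mul,
      show ((ℓ ^ s : ℕ) : PowerSeries (lintRing ℓ)) = PowerSeries.C ((ℓ ^ s : ℕ) : lintRing ℓ) by simp,
      PowerSeries.coeff_C_mul]
    simp
  have hall := lo_sturm_mod (twbJ ℓ (ℓ ^ s)) LL (fun n hn => by
    have hn1 : n ≤ 1 := by omega
    rw [hcoeff n, hDp, hD, twb_coeff_expand_delta ℓ p hp2 n hn1, twb_mem_J]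
    exact ⟨((PowerSeries.coeff n Y : lintRing ℓ) : ℂ), Subtype.property _, by simp⟩) p
  rw [hcoeff p, hDp, hD, twb_coeff_expand_delta_self ℓ p hp0, twb_mem_J] at hall
  obtain ⟨y, hy, hyeq⟩ := hall
  apply hw
  set Yp : lintRing ℓ := PowerSeries.coeff p Y with hYp
  refine twb_dvd_of_mem ℓ s (p + 1) ((y - (Yp : ℂ)) * (p : ℂ))
    ((lintRing ℓ).mul_mem ((lintRing ℓ).sub_mem hy Yp.2) (natCast_mem _ p)) ?_
  have h1 : ((ℓ ^ s : ℕ) : ℂ) * (y - (Yp : ℂ)) = 1 + (p : ℂ)⁻¹ := by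
    have : ((1 + pinv : lintRing ℓ) : ℂ) = 1 + (p : ℂ)⁻¹ := by simp [hpinv]
    rw [mul_sub, hyeq, ← this]
    simp
  rw [← mul_assoc, h1]
  push_cast
  field_simp

/-! ### Construction of `F = (24/(p-1)) (e - g)` -/

/-- Generic construction: if `g ≡ δ mod M` and `24 M / (p - 1) = ℓ^s a / u` with `u` prime to `ℓ`,
then `F = (24/(p-1)) (e - g) ∈ M₂(Γ₀(p))` has an `ℓ`-integral `q`-expansion `≡ 1 mod ℓ^s`. -/
theorem twb_exists_F (ℓ p M s a u : ℕ) [hℓ : Fact ℓ.Prime] [hp : Fact p.Prime] (hu : u.Coprime ℓ)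
    (h : 24 * M * u = ℓ ^ s * a * (p - 1))
    (g : CuspForm (Gamma0 p) 2) (hg : IsEisCongr p M g) :
    ∃ (F : ModularForm (Gamma0 p) 2) (H : PowerSeries (lintRing ℓ)),
      toC ℓ (1 + ((ℓ ^ s : ℕ) : PowerSeries (lintRing ℓ)) * H) = qExpansion 1 F := by
  obtain ⟨e, he0, hen⟩ := exists_eisForm p
  choose m hm hmc using hg
  have hu0 : u ≠ 0 := by
    rintro rfl
    rw [Nat.coprime_zero_left] at hu
    exact hℓ.out.one_lt.ne' hu
  have huC : (u : ℂ) ≠ 0 := Nat.cast_ne_zero.mpr hu0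
  have hp1 : 1 ≤ p := hp.out.one_le
  have hp2 : 2 ≤ p := hp.out.two_le
  have hpC : (p : ℂ) - 1 ≠ 0 := by
    have : ((p - 1 : ℕ) : ℂ) ≠ 0 := Nat.cast_ne_zero.mpr (by omega)
    rwa [Nat.cast_sub hp1, Nat.cast_one] at this
  -- the quotients `k n`
  have hk : ∀ n : ℕ, ∃ k : ℤ, 1 ≤ n → (sigP p n : ℤ) - m n = (M : ℤ) * k := by
    intro n
    by_cases hn : 1 ≤ n
    · have h1 := hmc n hn
      rw [← Int.cast_natCast (sigP p n), ZMod.intCast_eq_intCast_iff_dvd_sub] at h1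
      obtain ⟨k, hk⟩ := h1
      exact ⟨k, fun _ => hk⟩
    · exact ⟨0, fun h => absurd h hn⟩
  choose k hk using hk
  have hmem : ∀ n : ℕ, ((a * k n : ℤ) : ℂ) / (u : ℂ) ∈ lintRing ℓ := by
    intro n
    refine ⟨u, hu, ?_⟩
    have : (u : ℂ) * (((a * k n : ℤ) : ℂ) / (u : ℂ)) = ((a * k n : ℤ) : ℂ) := by field_simp
    rw [this]
    have := isIntegral_algebraMap (R := ℤ) (A := ℂ) (x := (a * k n : ℤ))
    simpa using this
  set Hs : PowerSeries (lintRing ℓ) :=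
    PowerSeries.mk fun n => if n = 0 then 0 else ⟨((a * k n : ℤ) : ℂ) / (u : ℂ), hmem n⟩ with hHs
  refine ⟨((24 : ℂ) / ((p : ℂ) - 1)) • (e - CuspForm.toModularFormₗ g), Hs, ?_⟩
  have hgq : qExpansion 1 (CuspForm.toModularFormₗ g) = qExpansion 1 g := rfl
  have hg0 : PowerSeries.coeff 0 (qExpansion 1 g) = 0 :=
    CuspFormClass.qExpansion_coeff_zero g one_pos (one_mem_strictPeriods_Gamma0 p)
  rw [FunLike.coe_smul, ModularForm.qExpansion_smul one_pos (one_mem_strictPeriods_Gamma0 p),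
    FunLike.coe_sub, ModularForm.qExpansion_sub one_pos (one_mem_strictPeriods_Gamma0 p), hgq]
  ext n
  rw [toC, PowerSeries.coeff_map, map_add, PowerSeries.coeff_one,
    show ((ℓ ^ s : ℕ) : PowerSeries (lintRing ℓ)) = PowerSeries.C ((ℓ ^ s : ℕ) : lintRing ℓ) by simp,
    PowerSeries.coeff_C_mul, PowerSeries.coeff_smul, map_sub, hHs, PowerSeries.coeff_mk]
  by_cases hn : n = 0
  · subst hn
    rw [he0, hg0]
    simp only [if_true, mul_zero, add_zero, sub_zero, smul_eq_mul]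
    rw [map_one]
    field_simp
  · have hn1 : 1 ≤ n := Nat.one_le_iff_ne_zero.mpr hn
    have hmn := hm n
    unfold ModularFormClass.qCoeff at hmn
    rw [hen n hn1, hmn]
    simp only [hn, if_false, zero_add, smul_eq_mul]
    have hkn := hk n hn1
    have hkC : ((sigP p n : ℕ) : ℂ) - ((m n : ℤ) : ℂ) = (M : ℂ) * ((k n : ℤ) : ℂ) := by
      exact_mod_cast congrArg (Int.cast (R := ℂ)) hkn
    have hC : (24 : ℂ) * (M : ℂ) * (u : ℂ) = ((ℓ : ℂ) ^ s) * (a : ℂ) * ((p : ℂ) - 1) := by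
      have := congrArg (Nat.cast (R := ℂ)) h
      push_cast [Nat.cast_sub hp1] at this
      exact this
    rw [hkC]
    simp only [Subring.subtype_apply, Subring.coe_mul, Subring.coe_natCast]
    push_cast
    field_simp
    linear_combination (-(k n : ℂ)) * hC

/-! ### The trace cases, with the two AN2 traces as hypotheses -/

/-- the AN2 trace of `F · Δ(pz)` (the instance `G = Δ`, `k = 12` of `exists_levelOne_trace`) -/
def TwbTrace (p : ℕ) [Fact p.Prime] : Prop :=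
  ∀ F : ModularForm (Gamma0 p) 2, ∃ f : ℍ → ℂ, IsMF1 ((12 + 2 : ℕ) : ℤ) f ∧
      qExpansion 1 f =
        qExpansion 1 F * PowerSeries.expand p (Fact.out : p.Prime).ne_zero
            (qExpansion 1 ModularForm.discriminant)
          - ((p : ℂ)⁻¹) ^ 12 •
            UPS p (UPS p (qExpansion 1 F) * qExpansion 1 ModularForm.discriminant)

/-- the AN2 trace of `Δ(pz)` (the instance `G = Δ`, `k = 12` of `exists_levelOne_traceV`) -/
def TwbTraceV (p : ℕ) [Fact p.Prime] : Prop :=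
  ∃ f : ℍ → ℂ, IsMF1 ((12 : ℕ) : ℤ) f ∧
      qExpansion 1 f = PowerSeries.expand p (Fact.out : p.Prime).ne_zero
            (qExpansion 1 ModularForm.discriminant)
          + ((p : ℂ)⁻¹) ^ (12 - 1) • UPS p (qExpansion 1 ModularForm.discriminant)

theorem twb_false_of_trace (ℓ p M s a u : ℕ) [Fact ℓ.Prime] [Fact p.Prime] (hℓp : ℓ ≠ p)
    (hs24 : ℓ ^ s ∣ 24) (hw : ¬ ℓ ^ s ∣ p + 1) (hu : u.Coprime ℓ)
    (h : 24 * M * u = ℓ ^ s * a * (p - 1)) (hT : TwbTrace p) (hV : TwbTraceV p)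
    (g : CuspForm (Gamma0 p) 2) (hg : IsEisCongr p M g) : False := by
  obtain ⟨F, H, hF⟩ := twb_exists_F ℓ p M s a u hu h g hg
  exact twb_core ℓ p s hℓp hs24 hw F H hF (hT F) hV

/-- `n = ℓ^v u` with `u` prime to `ℓ` -/
theorem twb_exists_unit_part (ℓ n : ℕ) [hℓ : Fact ℓ.Prime] (hn : n ≠ 0) :
    ∃ u : ℕ, u.Coprime ℓ ∧ n = ℓ ^ padicValNat ℓ n * u := by
  obtain ⟨u, hu⟩ := pow_padicValNat_dvd (p := ℓ) (n := n)
  refine ⟨u, ?_, hu⟩
  rw [Nat.coprime_comm, Nat.Prime.coprime_iff_not_dvd hℓ.out]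
  intro hdvd
  obtain ⟨w, hw⟩ := hdvd
  apply pow_succ_padicValNat_not_dvd (p := ℓ) hn
  refine ⟨w, ?_⟩
  calc n = ℓ ^ padicValNat ℓ n * u := hu
    _ = ℓ ^ padicValNat ℓ n * (ℓ * w) := by rw [hw]
    _ = ℓ ^ (padicValNat ℓ n + 1) * w := by ring

/-- (A2a) `ℓ = 2`, `p ≡ 1 mod 4` -/
theorem twb_no_congr_two_one_of (p : ℕ) [hp : Fact p.Prime] (hp4 : p % 4 = 1)
    (hT : TwbTrace p) (hV : TwbTraceV p)
    (g : CuspForm (Gamma0 p) 2) (hg : IsEisCongr p (2 ^ (padicValNat 2 (p - 1) - 1)) g) : False := by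
  have : Fact (Nat.Prime 2) := ⟨Nat.prime_two⟩
  have hp2 : 2 ≤ p := hp.out.two_le
  have hn : p - 1 ≠ 0 := by omega
  obtain ⟨u, hu, hpu⟩ := twb_exists_unit_part 2 (p - 1) hn
  have hv : 2 ≤ padicValNat 2 (p - 1) := by
    rw [← padicValNat_dvd_iff_le hn]
    exact (Nat.dvd_iff_mod_eq_zero).mpr (by omega)
  refine twb_false_of_trace 2 p (2 ^ (padicValNat 2 (p - 1) - 1)) 2 3 u (by omega) (by norm_num)
    (by omega) hu ?_ hT hV g hg
  obtain ⟨v, hv'⟩ : ∃ v, padicValNat 2 (p - 1) = v + 1 := ⟨padicValNat 2 (p - 1) - 1, by omega⟩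
  rw [hv'] at hpu ⊢
  generalize p - 1 = n at hpu ⊢
  rw [hpu, Nat.add_sub_cancel]
  ring

/-- (A2b) `ℓ = 2`, `p ≡ 3 mod 8` -/
theorem twb_no_congr_two_three_of (p : ℕ) [hp : Fact p.Prime] (hp8 : p % 8 = 3)
    (hT : TwbTrace p) (hV : TwbTraceV p)
    (g : CuspForm (Gamma0 p) 2) (hg : IsEisCongr p 2 g) : False := by
  have : Fact (Nat.Prime 2) := ⟨Nat.prime_two⟩
  have hp2 : 2 ≤ p := hp.out.two_le
  obtain ⟨u, hu⟩ : ∃ u, p = 4 * u + 3 := ⟨p / 4, by omega⟩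
  have hodd : (2 * u + 1).Coprime 2 := by
    rw [Nat.coprime_comm, Nat.Prime.coprime_iff_not_dvd Nat.prime_two]
    omega
  have hu8 : u % 2 = 0 := by omega
  refine twb_false_of_trace 2 p 2 3 3 (2 * u + 1) (by omega) (by norm_num)
    (by omega) hodd ?_ hT hV g hg
  subst hu
  have : 4 * u + 3 - 1 = 2 * (2 * u + 1) := by omega
  rw [this]
  ring

/-- (A3) `ℓ = 3`, `p ≡ 1 mod 3` -/
theorem twb_no_congr_three_one_of (p : ℕ) [hp : Fact p.Prime] (hp3 : p % 3 = 1)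
    (hT : TwbTrace p) (hV : TwbTraceV p)
    (g : CuspForm (Gamma0 p) 2) (hg : IsEisCongr p (3 ^ padicValNat 3 (p - 1)) g) : False := by
  have : Fact (Nat.Prime 3) := ⟨Nat.prime_three⟩
  have hp2 : 2 ≤ p := hp.out.two_le
  have hn : p - 1 ≠ 0 := by omega
  obtain ⟨u, hu, hpu⟩ := twb_exists_unit_part 3 (p - 1) hn
  refine twb_false_of_trace 3 p (3 ^ padicValNat 3 (p - 1)) 1 8 u (by omega) (by norm_num)
    (by omega) hu ?_ hT hV g hg
  generalize padicValNat 3 (p - 1) = v at hpu ⊢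
  rw [hpu]
  ring

end

end Fermat.Agent.S16x
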