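/-
S16 project, module CASE_TwoB (helper14): `no_congr_two_one` (exact Spec statement):
`ℓ = 2`, `p ≡ 1 mod 4`.  Generic trace core `TwbCore.lean` fed with the two AN2 traces
(`TraceLevelOne.lean`, `TraceV.lean`) for `G = Δ`.
-/
import Fermat.Agent.S16x.TwbCore
import Fermat.Agent.S16x.TraceLevelOne
import Fermat.Agent.S16x.TraceV

set_option autoImplicit false

open UpperHalfPlane ModularForm ModularFormClass CongruenceSubgroup
open scoped MatrixGroups Manifold
open Fermat.Agent.S23x (IsMF IsMF1)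

namespace Fermat.Agent.S16x

/-- the AN2 trace of `F · Δ(pz)` -/
theorem twb_trace (p : ℕ) [Fact p.Prime] : TwbTrace p := fun F =>
  exists_levelOne_trace p F (k := 12)
    (by exact_mod_cast Fermat.Agent.S23x.m05_isMF1_discriminant)

/-- the AN2 trace of `Δ(pz)` -/
theorem twb_traceV (p : ℕ) [Fact p.Prime] : TwbTraceV p :=
  exists_levelOne_traceV p (k := 12) (by norm_num)
    (by exact_mod_cast Fermat.Agent.S23x.m05_isMF1_discriminant)

/-- (A2a) `ℓ = 2`, `p ≡ 1 mod 4` (trace, `F ≡ 1 mod 4`, `v₂(p+1) = 1`) -/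
theorem no_congr_two_one (p : ℕ) [Fact p.Prime] (hp4 : p % 4 = 1)
    (g : CuspForm (Gamma0 p) 2) (hg : IsEisCongr p (2 ^ (padicValNat 2 (p - 1) - 1)) g) : False :=
  twb_no_congr_two_one_of p hp4 (twb_trace p) (twb_traceV p) g hg

end Fermat.Agent.S16x
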