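/-
S16 project, shared core of the three "trace" cases (CASE_ThreeB, CASE_TwoB, CASE_TwoC), helper57.
If `F ∈ M₂(Γ₀(p))` has an `ℓ`-integral `q`-expansion `≡ 1 mod ℓ^s`, `ℓ ≠ p`, `E₄ ≡ E₆ ≡ 1 mod ℓ^s`
and `w = v_ℓ(p+1) < s`, then the level-one form `Tr(F·Δ(pz))·E₄ + p⁻¹ Tr(Δ(pz))·E₆` of weight 18,
divided by `ℓ^w`, reduces to a unit times `Δ(q^p)`, of order `p > 18/12`: contradiction with (I1).
-/
import Fermat.Agent.S16x.Defs
import Fermat.Agent.S23x.LevelOne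
import Fermat.Agent.S24x.DeltaQExp

set_option autoImplicit false

namespace Fermat.Agent.S16x

open PowerSeries

noncomputable section

section alg

variable {R : Type*} [CommRing R]

theorem trc_UPS_add (p : ℕ) (P Q : PowerSeries R) : UPS p (P + Q) = UPS p P + UPS p Q := by
  ext n; simp

theorem trc_UPS_sub (p : ℕ) (P Q : PowerSeries R) : UPS p (P - Q) = UPS p P - UPS p Q := by
  ext n; simp

theorem trc_UPS_C_mul (p : ℕ) (c : R) (P : PowerSeries R) : UPS p (C c * P) = C c * UPS p P := by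
  ext n; simp

theorem trc_UPS_one (p : ℕ) (hp : p ≠ 0) : UPS p (1 : PowerSeries R) = 1 := by
  ext n
  rw [coeff_UPS, coeff_one, coeff_one]
  by_cases hn : n = 0
  · simp [hn]
  · simp [hn, hp]

theorem trc_map_UPS {S : Type*} [CommRing S] (f : R →+* S) (p : ℕ) (P : PowerSeries R) :
    PowerSeries.map f (UPS p P) = UPS p (PowerSeries.map f P) := by
  ext n; simp

/-- a series congruent to `1` coefficientwise modulo `I` maps to `1` in the quotient -/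
theorem trc_map_eq_one (I : Ideal R) (P : PowerSeries R)
    (h : ∀ n, coeff n P - coeff n (1 : PowerSeries R) ∈ I) :
    PowerSeries.map (Ideal.Quotient.mk I) P = 1 := by
  ext n
  rw [coeff_map, ← map_one (PowerSeries.map (Ideal.Quotient.mk I)), coeff_map]
  exact (Ideal.Quotient.eq).mpr (h n)

/-- the basic congruence of the trace argument -/
theorem trc_alg (p : ℕ) (hp : p ≠ 0) (I : Ideal R) (pinv : R) (a e4 e6 D : PowerSeries R)
    (ha : ∀ n, coeff n a - coeff n (1 : PowerSeries R) ∈ I)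
    (h4 : ∀ n, coeff n e4 - coeff n (1 : PowerSeries R) ∈ I)
    (h6 : ∀ n, coeff n e6 - coeff n (1 : PowerSeries R) ∈ I) (n : ℕ) :
    coeff n ((a * expand p hp D - C (pinv ^ 12) * UPS p (UPS p a * D)) * e4
        + C pinv * ((expand p hp D + C (pinv ^ 11) * UPS p D) * e6))
      - coeff n (C (1 + pinv) * expand p hp D) ∈ I := by
  rw [← Ideal.Quotient.eq, ← coeff_map, ← coeff_map]
  congr 1
  have h1 := trc_map_eq_one I a ha
  have h2 := trc_map_eq_one I e4 h4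
  have h3 := trc_map_eq_one I e6 h6
  simp only [map_add, map_sub, map_mul, map_expand, trc_map_UPS, h1, h2, h3, map_C, map_pow,
    trc_UPS_one p hp, map_one]
  ring_nf

end alg

/-! ### Reduction step -/

section red

variable (ℓ : ℕ) [Fact ℓ.Prime]

theorem trc_resid_ell : resid ℓ ((ℓ : ℕ) : lintRing ℓ) = 0 :=
  Ideal.Quotient.eq_zero_iff_mem.mpr (natCast_mem_lintMax ℓ)

/-- If `PL ≡ ℓ^w u₀ E mod ℓ^s` coefficientwise and `w < s` then `PL = ℓ^w Q` with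
`Q ≡ u₀ E` modulo the maximal ideal. -/
theorem trc_factor {s w : ℕ} (hws : w < s) (u0 : lintRing ℓ) (PL E : PowerSeries (lintRing ℓ))
    (h : ∀ n, coeff n PL - coeff n (C (((ℓ : ℕ) : lintRing ℓ) ^ w * u0) * E)
      ∈ Ideal.span {((ℓ : ℕ) : lintRing ℓ) ^ s}) :
    ∃ Q : PowerSeries (lintRing ℓ), C (((ℓ : ℕ) : lintRing ℓ) ^ w) * Q = PL ∧
      redHom ℓ Q = C (resid ℓ u0) * redHom ℓ E := by
  have h' : ∀ n, ∃ r : lintRing ℓ, r * ((ℓ : ℕ) : lintRing ℓ) ^ s =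
      coeff n PL - coeff n (C (((ℓ : ℕ) : lintRing ℓ) ^ w * u0) * E) := fun n =>
    Ideal.mem_span_singleton'.mp (h n)
  choose r hr using h'
  have hpow : ((ℓ : ℕ) : lintRing ℓ) ^ s
      = ((ℓ : ℕ) : lintRing ℓ) ^ w * ((ℓ : ℕ) : lintRing ℓ) ^ (s - w) := by
    rw [← pow_add]; congr 1; omega
  refine ⟨PowerSeries.mk fun n => u0 * coeff n E + ((ℓ : ℕ) : lintRing ℓ) ^ (s - w) * r n, ?_, ?_⟩
  · refine PowerSeries.ext fun n => ?_
    have := hr n
    rw [coeff_C_mul] at this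
    rw [coeff_C_mul, coeff_mk]
    rw [hpow] at this
    linear_combination this
  · refine PowerSeries.ext fun n => ?_
    have hz : resid ℓ (((ℓ : ℕ) : lintRing ℓ) ^ (s - w)) = 0 := by
      rw [map_pow, trc_resid_ell, zero_pow (by omega)]
    simp only [redHom, coeff_map, coeff_mk, coeff_C_mul, map_add, map_mul, hz, zero_mul, add_zero]

end red

/-! ### Level-one bookkeeping -/

section an

open UpperHalfPlane ModularForm ModularFormClass CongruenceSubgroup EisensteinSeries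
open scoped MatrixGroups Manifold
open Fermat.Agent.S23x (IsMF IsMF1)

theorem trc_isMF1_cast {k l : ℤ} {f : ℍ → ℂ} (h : k = l) (hf : IsMF1 k f) : IsMF1 l f := h ▸ hf

theorem trc_isMF1_mul {k l : ℤ} {f g : ℍ → ℂ} (hf : IsMF1 k f) (hg : IsMF1 l g) :
    IsMF1 (k + l) (f * g) ∧ qExpansion 1 (f * g) = qExpansion 1 f * qExpansion 1 g := by
  obtain ⟨F, rfl⟩ := hf
  obtain ⟨G, rfl⟩ := hg
  exact ⟨⟨F.mul G, rfl⟩, ModularForm.qExpansion_mul_coe one_pos one_mem_strictPeriods_SL F G⟩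

theorem trc_qExp_add {k : ℤ} {f g : ℍ → ℂ} (hf : IsMF1 k f) (hg : IsMF1 k g) :
    qExpansion 1 (f + g) = qExpansion 1 f + qExpansion 1 g := by
  obtain ⟨F, rfl⟩ := hf
  obtain ⟨G, rfl⟩ := hg
  exact ModularForm.qExpansion_add one_pos one_mem_strictPeriods_SL F G

theorem trc_qExp_smul {k : ℤ} {f : ℍ → ℂ} (c : ℂ) (hf : IsMF1 k f) :
    qExpansion 1 (c • f) = c • qExpansion 1 f := by
  obtain ⟨F, rfl⟩ := hf
  exact ModularForm.qExpansion_smul one_pos one_mem_strictPeriods_SL c F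

/-- the `ℓ`-integral lift of the `q`-expansion of `Δ` -/
def trc_D (ℓ : ℕ) : PowerSeries (lintRing ℓ) :=
  X * PowerSeries.map (Int.castRingHom (lintRing ℓ)) (ModularCurve.etaProd ^ 24)

theorem trc_toC_D (ℓ : ℕ) : toC ℓ (trc_D ℓ) = qExpansion 1 ModularForm.discriminant := by
  rw [Fermat.Agent.S24x.qExpansion_discriminant, trc_D, toC, map_mul, PowerSeries.map_X]
  congr 1

theorem trc_order_redHom_D (ℓ : ℕ) [Fact ℓ.Prime] : (redHom ℓ (trc_D ℓ)).order = 1 := by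
  rw [trc_D, redHom, map_mul, PowerSeries.map_X, order_mul, order_X]
  have hu : IsUnit (PowerSeries.map (resid ℓ) (PowerSeries.map (Int.castRingHom (lintRing ℓ))
      (ModularCurve.etaProd ^ 24))) := by
    rw [PowerSeries.isUnit_iff_constantCoeff, ← coeff_zero_eq_constantCoeff_apply, coeff_map,
      coeff_map, coeff_zero_eq_constantCoeff_apply, map_pow, ModularCurve.constantCoeff_etaProd]
    simp
  rw [order_zero_of_unit hu, add_zero]

/-- `p⁻¹` is `ℓ`-integral for `ℓ ≠ p` -/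
theorem trc_pinv_mem (ℓ p : ℕ) [hℓ : Fact ℓ.Prime] [hp : Fact p.Prime] (hℓp : ℓ ≠ p) :
    ((p : ℂ))⁻¹ ∈ lintRing ℓ := by
  refine ⟨p, (Nat.coprime_primes hp.out hℓ.out).mpr (Ne.symm hℓp), ?_⟩
  have hp0 : (p : ℂ) ≠ 0 := Nat.cast_ne_zero.mpr hp.out.ne_zero
  rw [mul_inv_cancel₀ hp0]
  exact isIntegral_one

/-- `n / m` is `ℓ`-integral for `m` prime to `ℓ` -/
theorem trc_div_mem (ℓ n m : ℕ) (hm : m.Coprime ℓ) (hm0 : m ≠ 0) :
    (n : ℂ) * ((m : ℂ))⁻¹ ∈ lintRing ℓ := by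
  refine ⟨m, hm, ?_⟩
  have hm0' : (m : ℂ) ≠ 0 := Nat.cast_ne_zero.mpr hm0
  have : (m : ℂ) * ((n : ℂ) * ((m : ℂ))⁻¹) = ((n : ℤ) : ℂ) := by
    field_simp
    simp
  rw [this]
  exact isIntegral_algebraMap (R := ℤ) (A := ℂ) (x := (n : ℤ))

/-- **The trace argument (A)**, with AN2 and I1 as hypotheses. -/
theorem trc_trace_contra (ℓ p s w m : ℕ) [hℓ : Fact ℓ.Prime] [hp : Fact p.Prime] (hℓp : ℓ ≠ p)
    (hws : w < s) (hm : p + 1 = ℓ ^ w * m) (hmℓ : m.Coprime ℓ)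
    (F : ModularForm (Gamma0 p) 2)
    (a e4 e6 : PowerSeries (lintRing ℓ))
    (haF : toC ℓ a = qExpansion 1 F)
    (ha : ∀ n, coeff n a - coeff n (1 : PowerSeries (lintRing ℓ))
      ∈ Ideal.span {((ℓ : ℕ) : lintRing ℓ) ^ s})
    (he4 : toC ℓ e4 = qExpansion 1 (⇑E₄))
    (h4 : ∀ n, coeff n e4 - coeff n (1 : PowerSeries (lintRing ℓ))
      ∈ Ideal.span {((ℓ : ℕ) : lintRing ℓ) ^ s})
    (he6 : toC ℓ e6 = qExpansion 1 (⇑E₆))
    (h6 : ∀ n, coeff n e6 - coeff n (1 : PowerSeries (lintRing ℓ))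
      ∈ Ideal.span {((ℓ : ℕ) : lintRing ℓ) ^ s})
    (hT : ∃ f : ℍ → ℂ, IsMF1 ((12 + 2 : ℕ) : ℤ) f ∧ qExpansion 1 f =
        qExpansion 1 F * PowerSeries.expand p hp.out.ne_zero
            (qExpansion 1 ModularForm.discriminant)
          - ((p : ℂ)⁻¹) ^ 12 • UPS p (UPS p (qExpansion 1 F)
            * qExpansion 1 ModularForm.discriminant))
    (hTV : ∃ f : ℍ → ℂ, IsMF1 ((12 : ℕ) : ℤ) f ∧ qExpansion 1 f =
        PowerSeries.expand p hp.out.ne_zero (qExpansion 1 ModularForm.discriminant)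
          + ((p : ℂ)⁻¹) ^ (12 - 1) • UPS p (qExpansion 1 ModularForm.discriminant))
    (hI1 : ∀ {k : ℕ} {f : ℍ → ℂ}, IsMF1 (k : ℤ) f → ∀ P : PowerSeries (lintRing ℓ),
        toC ℓ P = qExpansion 1 f → redHom ℓ P ≠ 0 → 12 * (redHom ℓ P).order ≤ (k : ℕ∞)) :
    False := by
  have hp0 : p ≠ 0 := hp.out.ne_zero
  have hpC : (p : ℂ) ≠ 0 := Nat.cast_ne_zero.mpr hp0
  have hℓC : (ℓ : ℂ) ≠ 0 := Nat.cast_ne_zero.mpr hℓ.out.ne_zero
  have hm0 : m ≠ 0 := by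
    rintro rfl
    have : ℓ = 1 := by simpa using hmℓ
    exact hℓ.out.one_lt.ne' this
  have hmC : (m : ℂ) ≠ 0 := Nat.cast_ne_zero.mpr hm0
  -- the scalars
  set pinv : lintRing ℓ := ⟨((p : ℂ))⁻¹, trc_pinv_mem ℓ p hℓp⟩ with hpinv
  set u0 : lintRing ℓ := ⟨(m : ℂ) * ((p : ℂ))⁻¹, trc_div_mem ℓ m p
    ((Nat.coprime_primes hp.out hℓ.out).mpr (Ne.symm hℓp)) hp0⟩ with hu0
  set v0 : lintRing ℓ := ⟨(p : ℂ) * ((m : ℂ))⁻¹, trc_div_mem ℓ p m hmℓ hm0⟩ with hv0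
  have huv : u0 * v0 = 1 := by
    apply Subtype.ext
    simp only [hu0, hv0, Subring.coe_mul, Subring.coe_one]
    field_simp
  have hmC' : ((p : ℂ) + 1) = (ℓ : ℂ) ^ w * (m : ℂ) := by exact_mod_cast congrArg (Nat.cast (R := ℂ)) hm
  have h1p : (1 : lintRing ℓ) + pinv = ((ℓ : ℕ) : lintRing ℓ) ^ w * u0 := by
    apply Subtype.ext
    simp only [hu0, hpinv, Subring.coe_mul, Subring.coe_one, Subring.coe_add, Subring.coe_pow,
      Subring.coe_natCast]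
    field_simp
    rw [← hmC']
  have hru0 : resid ℓ u0 ≠ 0 := by
    intro h0
    have := congrArg (resid ℓ) huv
    rw [map_mul, h0, zero_mul, map_one] at this
    exact zero_ne_one this
  -- the integral series
  set D := trc_D ℓ with hD
  set PL : PowerSeries (lintRing ℓ) :=
    (a * expand p hp0 D - C (pinv ^ 12) * UPS p (UPS p a * D)) * e4
        + C pinv * ((expand p hp0 D + C (pinv ^ 11) * UPS p D) * e6) with hPL
  have hA := trc_alg p hp0 (Ideal.span {((ℓ : ℕ) : lintRing ℓ) ^ s}) pinv a e4 e6 D ha h4 h6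
  rw [h1p] at hA
  obtain ⟨Q, hQ1, hQ2⟩ := trc_factor ℓ hws u0 PL (expand p hp0 D) hA
  -- order of the reduction of Q
  have hordQ : (redHom ℓ Q).order = (p : ℕ∞) := by
    rw [hQ2, order_mul, order_zero_of_unit ((isUnit_iff_ne_zero.mpr hru0).map C), zero_add,
      redHom, map_expand, order_expand]
    have := trc_order_redHom_D ℓ
    rw [redHom] at this
    rw [this]
    simp
  have hneQ : redHom ℓ Q ≠ 0 := by
    intro h0
    rw [h0, order_zero] at hordQ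
    exact ENat.top_ne_natCast p hordQ
  -- the level one form
  obtain ⟨f14, hf14, hq14⟩ := hT
  obtain ⟨f12, hf12, hq12⟩ := hTV
  have hE4 : IsMF1 4 (⇑E₄) := ⟨E₄, rfl⟩
  have hE6 : IsMF1 6 (⇑E₆) := ⟨E₆, rfl⟩
  have h1 := trc_isMF1_mul hf14 hE4
  have h2 := trc_isMF1_mul hf12 hE6
  have h1' : IsMF1 ((18 : ℕ) : ℤ) (f14 * ⇑E₄) := trc_isMF1_cast (by norm_num) h1.1
  have h2' : IsMF1 ((18 : ℕ) : ℤ) (f12 * ⇑E₆) := trc_isMF1_cast (by norm_num) h2.1
  have h3 : IsMF1 ((18 : ℕ) : ℤ) (((p : ℂ))⁻¹ • (f12 * ⇑E₆)) :=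
    Fermat.Agent.S23x.m05_isMF1_smul _ h2'
  have h4' : IsMF1 ((18 : ℕ) : ℤ) (f14 * ⇑E₄ + ((p : ℂ))⁻¹ • (f12 * ⇑E₆)) :=
    Fermat.Agent.S23x.m05_isMF1_add h1' h3
  have h5 : IsMF1 ((18 : ℕ) : ℤ) ((((ℓ : ℂ)) ^ w)⁻¹ • (f14 * ⇑E₄ + ((p : ℂ))⁻¹ • (f12 * ⇑E₆))) :=
    Fermat.Agent.S23x.m05_isMF1_smul _ h4'
  -- its q-expansion is `toC Q`
  have hqPL : qExpansion 1 (f14 * ⇑E₄ + ((p : ℂ))⁻¹ • (f12 * ⇑E₆)) = toC ℓ PL := by
    rw [trc_qExp_add h1' h3, trc_qExp_smul _ h2', h1.2, h2.2, hq14, hq12, hPL]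
    simp only [toC, map_add, map_sub, map_mul, map_expand, trc_map_UPS, map_C, map_pow]
    rw [show PowerSeries.map (lintRing ℓ).subtype a = qExpansion 1 F from haF,
      show PowerSeries.map (lintRing ℓ).subtype e4 = qExpansion 1 (⇑E₄) from he4,
      show PowerSeries.map (lintRing ℓ).subtype e6 = qExpansion 1 (⇑E₆) from he6,
      show PowerSeries.map (lintRing ℓ).subtype D = qExpansion 1 ModularForm.discriminant
        from trc_toC_D ℓ]
    simp only [smul_eq_C_mul, hpinv, Subring.coe_subtype, map_pow]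
  have hqQ : toC ℓ Q = qExpansion 1
      ((((ℓ : ℂ)) ^ w)⁻¹ • (f14 * ⇑E₄ + ((p : ℂ))⁻¹ • (f12 * ⇑E₆))) := by
    rw [trc_qExp_smul _ h4', hqPL, ← hQ1, map_mul]
    have : toC ℓ (C (((ℓ : ℕ) : lintRing ℓ) ^ w)) = C ((ℓ : ℂ) ^ w) := by
      simp [toC]
    rw [this, smul_eq_C_mul, ← mul_assoc, ← map_mul, inv_mul_cancel₀ (pow_ne_zero w hℓC), map_one,
      one_mul]
  have hfin := hI1 h5 Q hqQ hneQ
  rw [hordQ] at hfin
  have h2p : 2 ≤ p := hp.out.two_le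
  have : (12 : ℕ∞) * (p : ℕ∞) = ((12 * p : ℕ) : ℕ∞) := by push_cast; rfl
  rw [this, Nat.cast_le] at hfin
  omega

end an

end

end Fermat.Agent.S16x
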