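/-
S16 project, CASE_TwoC (helper56): `ℓ = 2`, `p ≡ 3 mod 8`.  No cusp form of level `Γ₀(p)` is
congruent to `δ` modulo `2`.  Core statement with the AN2 trace identity as a hypothesis;
everything else (AN3 Eisenstein form, traceV, I1, the generic trace contradiction) is cited.
Also: generic integral lifts of `E₄`, `E₆` congruent to `1` modulo `ℓ^s` when `ℓ^s ∣ 24`.
-/
import Fermat.Agent.S16x.TraceContra
import Fermat.Agent.S16x.TraceF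
import Fermat.Agent.S16x.TraceCore
import Fermat.Agent.S16x.TraceV
import Fermat.Agent.S16x.EisForm
import Fermat.Agent.S16x.LevelOneBound

set_option autoImplicit false

namespace Fermat.Agent.S16x

open UpperHalfPlane ModularForm ModularFormClass CongruenceSubgroup PowerSeries
open scoped MatrixGroups Manifold
open Fermat.Agent.S23x (IsMF IsMF1 IsNice)

noncomputable section

/-- coefficientwise cast `ℤ⟦X⟧ → (lintRing ℓ)⟦X⟧` -/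
def c2c_mapZ (ℓ : ℕ) : PowerSeries ℤ →+* PowerSeries (lintRing ℓ) :=
  PowerSeries.map (Int.castRingHom (lintRing ℓ))

theorem c2c_toC_mapZ (ℓ : ℕ) (P : PowerSeries ℤ) : toC ℓ (c2c_mapZ ℓ P) = lo_map P := by
  ext n
  simp [toC, c2c_mapZ, lo_map]

/-- lifts of `E₄`, `E₆` congruent to `1` modulo `ℓ^s`, as soon as `ℓ^s ∣ 24` -/
theorem c2c_exists_E4l (ℓ s : ℕ) (h : ℓ ^ s ∣ 24) :
    ∃ E4l : PowerSeries (lintRing ℓ), toC ℓ E4l = qExpansion 1 (⇑E₄) ∧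
      ∃ X4, E4l = 1 + C ((ℓ : lintRing ℓ) ^ s) * X4 := by
  obtain ⟨d, hd⟩ := h
  refine ⟨c2c_mapZ ℓ lo_E4, ?_, c2c_mapZ ℓ (C ((10 * d : ℕ) : ℤ) * lo_A), ?_⟩
  · rw [c2c_toC_mapZ, lo_qExpansion_E4]
  · have h240 : (240 : PowerSeries ℤ) = C (((ℓ ^ s : ℕ) : ℤ)) * C ((10 * d : ℕ) : ℤ) := by
      rw [← map_mul, ← Nat.cast_mul, show ℓ ^ s * (10 * d) = 10 * (ℓ ^ s * d) by ring, ← hd]
      norm_num
    have : lo_E4 = 1 + C (((ℓ ^ s : ℕ) : ℤ)) * (C ((10 * d : ℕ) : ℤ) * lo_A) := by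
      rw [lo_E4, h240, mul_assoc]
    conv_lhs => rw [this]
    rw [map_add, map_one, map_mul]
    congr 2
    simp [c2c_mapZ]

theorem c2c_exists_E6l (ℓ s : ℕ) (h : ℓ ^ s ∣ 24) :
    ∃ E6l : PowerSeries (lintRing ℓ), toC ℓ E6l = qExpansion 1 (⇑E₆) ∧
      ∃ X6, E6l = 1 + C ((ℓ : lintRing ℓ) ^ s) * X6 := by
  obtain ⟨d, hd⟩ := h
  refine ⟨c2c_mapZ ℓ lo_E6, ?_, c2c_mapZ ℓ (-(C ((21 * d : ℕ) : ℤ) * lo_B)), ?_⟩
  · rw [c2c_toC_mapZ, lo_qExpansion_E6]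
  · have h504 : (504 : PowerSeries ℤ) = C (((ℓ ^ s : ℕ) : ℤ)) * C ((21 * d : ℕ) : ℤ) := by
      rw [← map_mul, ← Nat.cast_mul, show ℓ ^ s * (21 * d) = 21 * (ℓ ^ s * d) by ring, ← hd]
      norm_num
    have : lo_E6 = 1 + C (((ℓ ^ s : ℕ) : ℤ)) * (-(C ((21 * d : ℕ) : ℤ) * lo_B)) := by
      rw [lo_E6, h504]; ring
    conv_lhs => rw [this]
    rw [map_add, map_one, map_mul]
    congr 2
    simp [c2c_mapZ]

/-- CASE_TwoC with the AN2 trace identity as a hypothesis. -/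
theorem c2c_no_congr_two_three_of (p : ℕ) [Fact p.Prime] (hp8 : p % 8 = 3)
    (hTr : ∀ (A : ModularForm (Gamma0 p) 2) {k : ℕ} {G : ℍ → ℂ}, IsMF1 (k : ℤ) G →
      ∃ f : ℍ → ℂ, IsMF1 ((k + 2 : ℕ) : ℤ) f ∧
        qExpansion 1 f =
          qExpansion 1 A * PowerSeries.expand p (Fact.out : p.Prime).ne_zero (qExpansion 1 G)
            - ((p : ℂ)⁻¹) ^ k • UPS p (UPS p (qExpansion 1 A) * qExpansion 1 G))
    (g : CuspForm (Gamma0 p) 2) (hg : IsEisCongr p 2 g) : False := by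
  have : Fact (Nat.Prime 2) := ⟨Nat.prime_two⟩
  have hppr : p.Prime := Fact.out
  obtain ⟨k, hk⟩ : ∃ k, p = 8 * k + 3 := ⟨p / 8, by omega⟩
  have h2p : (2 : ℕ) ≠ p := by omega
  -- the Eisenstein form
  obtain ⟨e, he0, hen⟩ := exists_eisForm p
  -- `F = (e - g)/c ≡ 1 mod 8`
  have hg1 : IsEisCongr p (2 ^ 1) g := by simpa using hg
  have hm : (4 * k + 1).Coprime 2 := by
    rw [Nat.coprime_two_right]
    exact ⟨2 * k, by ring⟩
  have hm0 : 4 * k + 1 ≠ 0 := by omega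
  set r : lintRing 2 := ⟨((3 : ℕ) : ℂ) * (((4 * k + 1 : ℕ) : ℂ))⁻¹, trc_div_mem 2 3 (4 * k + 1) hm hm0⟩
    with hr
  have hrC : ((2 : ℕ) : ℂ) ^ 1 * (24 / ((p : ℂ) - 1)) = ((2 : ℕ) : ℂ) ^ 3 * (r : ℂ) := by
    have hmC : (((4 * k + 1 : ℕ) : ℂ)) ≠ 0 := Nat.cast_ne_zero.mpr hm0
    have hp1 : (p : ℂ) - 1 = 2 * ((4 * k + 1 : ℕ) : ℂ) := by
      rw [hk]; push_cast; ring
    have h2m : (2 : ℂ) * ((4 * k + 1 : ℕ) : ℂ) ≠ 0 := mul_ne_zero two_ne_zero hmC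
    rw [hr, hp1]
    simp only [Nat.cast_ofNat]
    field_simp
    norm_num
  obtain ⟨F, Fl, hFl, hFc⟩ := tre_exists_F 2 p e he0 hen g 1 3 hg1 r hrC
  obtain ⟨E4l, hE4l, hE4c⟩ := c2c_exists_E4l 2 3 (by norm_num)
  obtain ⟨E6l, hE6l, hE6c⟩ := c2c_exists_E6l 2 3 (by norm_num)
  refine tre_contra 2 p h2p hTr
    (fun {k} hk {G} hG => exists_levelOne_traceV p hk hG)
    (fun {k} {f} hf P hP hne => levelOne_redHom_order_le 2 hf P hP hne)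
    (trc_D 2) E4l E6l (trc_toC_D 2) hE4l hE6l 3 2 (2 * k + 1) (by norm_num) hE4c hE6c
    F Fl hFl hFc (by rw [hk]; ring) (by omega)

end

end Fermat.Agent.S16x
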