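/-
S16 project, CASE_TwoC (helper56): `ℓ = 2`, `p ≡ 3 mod 8` (exact Spec statement
`no_congr_two_three`): the core `c2c_no_congr_two_three_of` fed with AN2 `exists_levelOne_trace`.
-/
import Fermat.Agent.S16x.CaseTwoCCore
import Fermat.Agent.S16x.TraceLevelOne

set_option autoImplicit false

namespace Fermat.Agent.S16x

open UpperHalfPlane ModularForm ModularFormClass CongruenceSubgroup
open scoped MatrixGroups Manifold

/-- (A2b) `ℓ = 2`, `p ≡ 3 mod 8` (trace, `F ≡ 1 mod 8`, `v₂(p+1) = 2`) -/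
theorem no_congr_two_three (p : ℕ) [Fact p.Prime] (hp8 : p % 8 = 3)
    (g : CuspForm (Gamma0 p) 2) (hg : IsEisCongr p 2 g) : False :=
  c2c_no_congr_two_three_of p hp8 (fun A {_} {_} hG => exists_levelOne_trace p A hG) g hg

end Fermat.Agent.S16x
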