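/-
S16 project, module UB `Upper.lean`: assembly of the seven CASE files with the arithmetic of
`eisensteinNumerator` (`Arith.lean`, `ar_upper_of_cases`).
-/
import Fermat.Agent.S16x.Arith
import Fermat.Agent.S16x.CaseLarge
import Fermat.Agent.S16x.CaseP
import Fermat.Agent.S16x.CaseThreeA
import Fermat.Agent.S16x.CaseTwoA
import Fermat.Agent.S16x.CaseThreeB
import Fermat.Agent.S16x.CaseTwoB
import Fermat.Agent.S16x.CaseTwoC

set_option autoImplicit false

open CongruenceSubgroup

namespace Fermat.Agent.S16x

/-- **Upper bound**: a cusp form of weight 2 and level `Γ₀(p)` with integral `q`-expansion congruent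
to the Eisenstein series modulo `ℓ ^ s` forces `ℓ ^ s ∣ (p - 1) / gcd (p - 1, 12)`. -/
theorem upper (p ℓ s : ℕ) [Fact p.Prime] [Fact ℓ.Prime] (g : CuspForm (Gamma0 p) 2)
    (hg : IsEisCongr p (ℓ ^ s) g) : ℓ ^ s ∣ ModularCurve.eisensteinNumerator p :=
  ar_upper_of_cases no_congr_large no_congr_p no_congr_three_two no_congr_two_seven
    no_congr_three_one no_congr_two_one no_congr_two_three p ℓ s g hg

end Fermat.Agent.S16x
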