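import Fermat.Agent.S16x.ConjLift
import Fermat.Agent.S16x.EisForm

/-!
# S16 project, CASE (P): `ℓ = p ≥ 5` -- no cusp form of level `p` is congruent to `δ` mod `p`

Norm case with `r = 2`, `A = p F`, `F = (e_p - g)/c`, `c = (p-1)/24`, `B = 24 e_2`.
All conjugate / reduction / order work is done by `ConjLift.cjl_false`; this file builds the data.
The norm inequality (NI) is taken as a hypothesis (exact `Spec.norm_order_le` shape).
-/

set_option autoImplicit false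

namespace Fermat.Agent.S16x

open PowerSeries ModularFormClass UpperHalfPlane CongruenceSubgroup

noncomputable section

/-! ### residues of integers -/

theorem cp_resid_natCast_ne_zero (ℓ : ℕ) [Fact ℓ.Prime] (n : ℕ) (h : ¬ ℓ ∣ n) :
    resid ℓ ((n : ℕ) : lintRing ℓ) ≠ 0 := by
  have hcop : IsCoprime (n : ℤ) (ℓ : ℤ) := by
    rw [Int.isCoprime_iff_gcd_eq_one, Int.gcd_natCast_natCast]
    exact ((Nat.Prime.coprime_iff_not_dvd (Fact.out : ℓ.Prime)).mpr h).symm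
  obtain ⟨a, b, hab⟩ := hcop
  intro h0
  have h1 : resid ℓ (((a * n + b * ℓ : ℤ) : ℤ) : lintRing ℓ) = 1 := by
    rw [hab]; simp
  push_cast at h1
  rw [map_add, map_mul, map_mul, h0, resid_natCast_self, mul_zero, mul_zero, add_zero] at h1
  exact zero_ne_one h1

theorem cp_resid_natCast_self_mul (ℓ : ℕ) [Fact ℓ.Prime] (x : lintRing ℓ) :
    resid ℓ (((ℓ : ℕ) : lintRing ℓ) * x) = 0 := by
  rw [map_mul, resid_natCast_self, zero_mul]

theorem cp_coe_natCast (ℓ n : ℕ) : (((n : ℕ) : lintRing ℓ) : ℂ) = (n : ℂ) := rfl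

/-! ### series of the form `C κ * intR ℓ X` -/

theorem cp_toC_C_mul_intR (ℓ : ℕ) (κ : lintRing ℓ) (X : PowerSeries ℤ) :
    toC ℓ (C κ * intR ℓ X) = (κ : ℂ) • PowerSeries.map (Int.castRingHom ℂ) X := by
  rw [map_mul, cc_toC_C, cc_toC_intR, PowerSeries.smul_eq_C_mul]

theorem cp_redHom_C_mul_intR (ℓ : ℕ) [Fact ℓ.Prime] (κ : lintRing ℓ) (X : PowerSeries ℤ) :
    redHom ℓ (C κ * intR ℓ X) =
      C (resid ℓ κ) * PowerSeries.map (Int.castRingHom (kappa ℓ)) X := by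
  rw [map_mul, cc_redHom_C, cc_redHom_intR]

theorem cp_coeff_redHom_C_mul_intR (ℓ : ℕ) [Fact ℓ.Prime] (κ : lintRing ℓ) (X : PowerSeries ℤ)
    (n : ℕ) :
    coeff n (redHom ℓ (C κ * intR ℓ X)) = resid ℓ κ * ((coeff n X : ℤ) : kappa ℓ) := by
  rw [cp_redHom_C_mul_intR, PowerSeries.coeff_C_mul, PowerSeries.coeff_map]
  rfl

theorem cp_redHom_eq_zero_of_resid (ℓ : ℕ) [Fact ℓ.Prime] (κ : lintRing ℓ) (X : PowerSeries ℤ)
    (h : resid ℓ κ = 0) : redHom ℓ (C κ * intR ℓ X) = 0 := by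
  rw [cp_redHom_C_mul_intR, h, map_zero, zero_mul]

/-! ### the constants `1/2` and `24/(p-1)` in `lintRing` -/

/-- `1/2` as an `ℓ`-integral number (`ℓ` odd) -/
def cpHalf (ℓ : ℕ) (hℓ : Nat.Coprime 2 ℓ) : lintRing ℓ :=
  ⟨(2 : ℂ)⁻¹, ⟨2, hℓ, by
    have : ((2 : ℕ) : ℂ) * (2 : ℂ)⁻¹ = 1 := by norm_num
    rw [this]; exact isIntegral_one⟩⟩

theorem cpHalf_coe (ℓ : ℕ) (hℓ : Nat.Coprime 2 ℓ) : ((cpHalf ℓ hℓ : lintRing ℓ) : ℂ) = (2 : ℂ)⁻¹ :=
  rfl

theorem cpHalf_mul_two (ℓ : ℕ) (hℓ : Nat.Coprime 2 ℓ) :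
    cpHalf ℓ hℓ * ((2 : ℕ) : lintRing ℓ) = 1 := by
  apply Subtype.ext
  show (2 : ℂ)⁻¹ * (((2 : ℕ) : lintRing ℓ) : ℂ) = 1
  have : (((2 : ℕ) : lintRing ℓ) : ℂ) = 2 := by push_cast; rfl
  rw [this]; norm_num

/-- `24/(p-1)` as a `p`-integral number -/
def cpCinv (p : ℕ) (hp : 2 ≤ p) : lintRing p :=
  ⟨24 / ((p : ℂ) - 1), ⟨p - 1, by
      have h : Nat.Coprime (p - 1) p := by
        have := Nat.coprime_self_sub_left (m := 1) (n := p) (by omega)
        simpa using this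
      exact h, by
    have hne : ((p : ℂ) - 1) ≠ 0 := by
      intro h0
      have h1 : (p : ℂ) = 1 := by linear_combination h0
      have : (p : ℕ) = 1 := by exact_mod_cast h1
      omega
    have : (((p - 1 : ℕ) : ℂ)) * (24 / ((p : ℂ) - 1)) = 24 := by
      rw [Nat.cast_sub (by omega : 1 ≤ p)]
      push_cast
      field_simp
    rw [this]
    have h24 : (24 : ℂ) = ((24 : ℤ) : ℂ) := by norm_num
    rw [h24]
    exact isIntegral_algebraMap (R := ℤ) (A := ℂ) (x := (24 : ℤ))⟩⟩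

theorem cpCinv_coe (p : ℕ) (hp : 2 ≤ p) : ((cpCinv p hp : lintRing p) : ℂ) = 24 / ((p : ℂ) - 1) :=
  rfl

/-! ### the forms `A = p F` and `B = 24 e₂` -/

/-- the form `A = p F = (p / c) (e_p - g)` of case (P), `c = (p-1)/24` -/
def cpA (p : ℕ) [Fact p.Prime] (g : CuspForm (Gamma0 p) 2) : ModularForm (Gamma0 p) 2 :=
  ((p : ℂ) * (24 / ((p : ℂ) - 1))) • (eisForm p - CuspForm.toModularFormₗ g)

theorem cp_coeff_qExpansion_cpA (p : ℕ) [Fact p.Prime] (g : CuspForm (Gamma0 p) 2) (n : ℕ) :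
    coeff n (qExpansion 1 (cpA p g)) =
      ((p : ℂ) * (24 / ((p : ℂ) - 1))) * (eis_c p n - qCoeff g n) := by
  have hΓ := one_mem_strictPeriods_Gamma0 p
  unfold cpA
  rw [FunLike.coe_smul, ModularForm.qExpansion_smul one_pos hΓ, FunLike.coe_sub,
    ModularForm.qExpansion_sub one_pos hΓ, PowerSeries.coeff_smul, map_sub, eis_qExpansion_coeff,
    smul_eq_mul]
  rfl

/-- the form `B = 24 e₂ = 1 + 24 ∑ σ'₂(n) qⁿ` -/
def cpB : ModularForm (Gamma0 2) 2 := (24 : ℂ) • eisForm 2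

theorem cp_coeff_qExpansion_cpB (n : ℕ) :
    coeff n (qExpansion 1 cpB) = (24 : ℂ) * eis_c 2 n := by
  have hΓ := one_mem_strictPeriods_Gamma0 2
  unfold cpB
  rw [FunLike.coe_smul, ModularForm.qExpansion_smul one_pos hΓ, PowerSeries.coeff_smul,
    eis_qExpansion_coeff, smul_eq_mul]

/-- `qExpansion 1 B = 1 + 24 δ₂`, with the lift `Q1 = C 24 * δ₂` over any `lintRing ℓ` -/
theorem cp_qExpansion_cpB (ℓ : ℕ) :
    qExpansion 1 cpB =
      C (1 : ℂ) + toC ℓ (C ((24 : ℕ) : lintRing ℓ) * intR ℓ (deltaPS 2)) := by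
  ext n
  rw [cp_coeff_qExpansion_cpB, map_add, cp_toC_C_mul_intR, PowerSeries.coeff_smul,
    PowerSeries.coeff_map, cc_coeff_deltaPS, PowerSeries.coeff_C]
  rw [cp_coe_natCast]
  rcases Nat.eq_zero_or_pos n with h | h
  · subst h
    simp [eis_c]
    norm_num
  · have hn : n ≠ 0 := h.ne'
    simp [eis_c, hn]

/-- `(1/2) U₂ (24 δ₂) = 12 δ₂` -/
theorem cp_UPS_Q (ℓ : ℕ) :
    (((2 : ℕ) : ℂ))⁻¹ • UPS 2 (toC ℓ (C ((24 : ℕ) : lintRing ℓ) * intR ℓ (deltaPS 2))) =
      toC ℓ (C ((12 : ℕ) : lintRing ℓ) * intR ℓ (deltaPS 2)) := by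
  rw [cp_toC_C_mul_intR, cp_toC_C_mul_intR, cc_UPS_smul, cc_UPS_map,
    cc_UPS_deltaPS 2 Nat.prime_two, smul_smul]
  congr 1
  rw [cp_coe_natCast, cp_coe_natCast]
  push_cast
  norm_num

/-! ### the `A`-side -/

/-- the integral series `D` with `δ_p - g = p D` -/
theorem cp_exists_D (p : ℕ) [Fact p.Prime] (g : CuspForm (Gamma0 p) 2) (hg : IsEisCongr p p g) :
    ∃ D : PowerSeries ℤ, coeff 0 D = 0 ∧ ∀ n, 1 ≤ n →
      (sigP p n : ℂ) - qCoeff g n = (p : ℂ) * ((coeff n D : ℤ) : ℂ) := by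
  choose m hm using hg
  have hdiv : ∀ n, 1 ≤ n → (p : ℤ) ∣ (sigP p n : ℤ) - m n := by
    intro n hn
    have h := (hm n).2 hn
    rw [← ZMod.intCast_zmod_eq_zero_iff_dvd]
    push_cast
    rw [h, sub_self]
  refine ⟨PowerSeries.mk fun n => if n = 0 then 0 else ((sigP p n : ℤ) - m n) / p, ?_, ?_⟩
  · simp
  · intro n hn
    have hn0 : n ≠ 0 := by omega
    rw [PowerSeries.coeff_mk, if_neg hn0, (hm n).1]
    obtain ⟨c, hc⟩ := hdiv n hn
    have hp0 : (p : ℤ) ≠ 0 := by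
      have := (Fact.out : p.Prime).ne_zero
      exact_mod_cast this
    rw [hc, Int.mul_ediv_cancel_left _ hp0]
    have : ((sigP p n : ℤ) : ℂ) - ((m n : ℤ) : ℂ) = (((p : ℤ) * c : ℤ) : ℂ) := by
      rw [← hc]; push_cast; rfl
    push_cast at this
    exact this

theorem cp_qExpansion_cpA (p : ℕ) [Fact p.Prime] (hp : 2 ≤ p) (g : CuspForm (Gamma0 p) 2)
    (D : PowerSeries ℤ) (hD0 : coeff 0 D = 0)
    (hD : ∀ n, 1 ≤ n → (sigP p n : ℂ) - qCoeff g n = (p : ℂ) * ((coeff n D : ℤ) : ℂ)) :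
    qExpansion 1 (cpA p g) =
      C (p : ℂ) + toC p (C (((p : ℕ) : lintRing p) * ((p : ℕ) : lintRing p) * cpCinv p hp) *
        intR p D) := by
  have hΓ := one_mem_strictPeriods_Gamma0 p
  have hne : ((p : ℂ) - 1) ≠ 0 := by
    intro h0
    have h1 : (p : ℂ) = 1 := by linear_combination h0
    have : (p : ℕ) = 1 := by exact_mod_cast h1
    omega
  ext n
  rw [cp_coeff_qExpansion_cpA, map_add, cp_toC_C_mul_intR, PowerSeries.coeff_smul,
    PowerSeries.coeff_map, PowerSeries.coeff_C, Subring.coe_mul, Subring.coe_mul, cp_coe_natCast,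
    cpCinv_coe]
  rcases Nat.eq_zero_or_pos n with h | h
  · subst h
    have hg0 : qCoeff g 0 = 0 := CuspFormClass.qExpansion_coeff_zero g one_pos hΓ
    rw [hg0, hD0]
    simp only [eis_c, if_true, sub_zero, Int.cast_zero, smul_zero, add_zero,
      eq_intCast, Int.cast_zero]
    field_simp
  · have hn : n ≠ 0 := h.ne'
    have h1 := hD n h
    simp only [eis_c, if_neg hn, eq_intCast, zero_add, smul_eq_mul]
    rw [h1]
    ring

theorem cp_UPS_P (p : ℕ) [Fact p.Prime] (hp : 2 ≤ p) (D : PowerSeries ℤ) :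
    ((p : ℕ) : ℂ)⁻¹ • UPS p (toC p (C (((p : ℕ) : lintRing p) * ((p : ℕ) : lintRing p) *
        cpCinv p hp) * intR p D)) =
      toC p (C (((p : ℕ) : lintRing p) * cpCinv p hp) * intR p (UPS p D)) := by
  have hp0 : (p : ℂ) ≠ 0 := by
    have := (Fact.out : p.Prime).ne_zero
    exact_mod_cast this
  rw [cp_toC_C_mul_intR, cp_toC_C_mul_intR, cc_UPS_smul, cc_UPS_map, smul_smul]
  congr 1
  rw [Subring.coe_mul, Subring.coe_mul, Subring.coe_mul, cp_coe_natCast]
  field_simp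

/-! ### the contradiction -/

/-- **Case (P), core.**  `hNI` is `Spec.norm_order_le` at `ℓ = p`, `r = 2`. -/
theorem cp_no_congr_p_of (p : ℕ) [Fact p.Prime] (hp : 5 ≤ p)
    (hNI : ∀ (A : ModularForm (Gamma0 p) 2) (B : ModularForm (Gamma0 2) 2)
      (c : Option (Fin p) → Option (Fin 2) → PowerSeries (lintRing p)),
      (∀ x y, toC p (c x y) = conjSeries p 2 (qExpansion 1 A) (qExpansion 1 B) x y) →
      (∀ x y, redHom p (c x y) ≠ 0) →
      6 * ∑ x : Option (Fin p), ∑ y : Option (Fin 2), (redHom p (c x y)).order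
        ≤ ((2 * p * ((p + 1) * (2 + 1)) : ℕ) : ℕ∞))
    (g : CuspForm (Gamma0 p) 2) (hg : IsEisCongr p p g) : False := by
  have hpP : p.Prime := Fact.out
  have hp2 : 2 ≤ p := by omega
  have hp0 : (p : ℂ) ≠ 0 := by exact_mod_cast hpP.ne_zero
  have hcop2 : Nat.Coprime 2 p := by
    rw [Nat.coprime_primes Nat.prime_two hpP]; omega
  obtain ⟨D, hD0, hD⟩ := cp_exists_D p g hg
  -- the data
  set pR : lintRing p := ((p : ℕ) : lintRing p) with hpR
  set P1 : PowerSeries (lintRing p) := C (pR * pR * cpCinv p hp2) * intR p D with hP1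
  set P2 : PowerSeries (lintRing p) := C (pR * cpCinv p hp2) * intR p (UPS p D) with hP2
  set Q1 : PowerSeries (lintRing p) := C ((24 : ℕ) : lintRing p) * intR p (deltaPS 2) with hQ1
  set Q2 : PowerSeries (lintRing p) := C ((12 : ℕ) : lintRing p) * intR p (deltaPS 2) with hQ2
  set half : lintRing p := cpHalf p hcop2 with hhalf
  have hA : qExpansion 1 (cpA p g) = C (p : ℂ) + toC p P1 := cp_qExpansion_cpA p hp2 g D hD0 hD
  have hB : qExpansion 1 cpB = C (1 : ℂ) + toC p Q1 := cp_qExpansion_cpB p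
  have hP : ((p : ℕ) : ℂ)⁻¹ • UPS p (toC p P1) = toC p P2 := cp_UPS_P p hp2 D
  have hQ : ((2 : ℕ) : ℂ)⁻¹ • UPS 2 (toC p Q1) = toC p Q2 := cp_UPS_Q p
  -- residues
  have hrp : resid p pR = 0 := resid_natCast_self p
  have hrhalf : resid p half ≠ 0 := by
    intro h0
    have h1 := congrArg (resid p) (cpHalf_mul_two p hcop2)
    rw [map_mul, ← hhalf, h0, zero_mul, map_one] at h1
    exact zero_ne_one h1
  have hr2 : resid p half * resid p ((2 : ℕ) : lintRing p) = 1 := by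
    rw [← map_mul, hhalf, cpHalf_mul_two, map_one]
  have hr3 : resid p ((3 : ℕ) : lintRing p) ≠ 0 :=
    cp_resid_natCast_ne_zero p 3 (by
      intro h
      have := (Nat.prime_dvd_prime_iff_eq hpP Nat.prime_three).mp h
      omega)
  have hr24 : resid p ((24 : ℕ) : lintRing p) ≠ 0 :=
    cp_resid_natCast_ne_zero p 24 (by
      intro h
      have h1 : p ∣ 2 ^ 3 * 3 := by norm_num; exact h
      rcases (Nat.Prime.dvd_mul hpP).mp h1 with h2 | h2
      · have := (Nat.prime_dvd_prime_iff_eq hpP Nat.prime_two).mp (hpP.dvd_of_dvd_pow h2)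
        omega
      · have := (Nat.prime_dvd_prime_iff_eq hpP Nat.prime_three).mp h2
        omega)
  refine cjl_false (ℓ := p) (p := p) (r := 2) (by norm_num) (by omega)
    (pR + 1) 0 (pR - half) (-1 - half) P1 P2 Q1 Q2 ?_ ?_ ?_ ?_ ?_ ?_ ?_ ?_ ?_ ?_ ?_
  · -- NI
    intro hne
    refine hNI (cpA p g) cpB _ (fun x y => ?_) hne
    rw [hA, hB]
    refine cjl_toC (ℓ := p) (p := p) (r := 2) (p : ℂ) 1 _ _ _ _ P1 P2 Q1 Q2 hP hQ ?_ ?_ ?_ ?_ x y
    · rw [Subring.coe_add, Subring.coe_one, hpR, cp_coe_natCast]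
    · rw [Subring.coe_zero]
      field_simp
      ring
    · rw [AddSubgroupClass.coe_sub, hpR, cp_coe_natCast, hhalf, cpHalf_coe]
      push_cast
      ring
    · rw [AddSubgroupClass.coe_sub, Subring.coe_neg, Subring.coe_one, hhalf, cpHalf_coe]
      push_cast
      field_simp
      ring
  · -- coeff 0 (redHom P1) = 0
    rw [hP1, cp_redHom_eq_zero_of_resid p _ D (by rw [map_mul, map_mul, hrp, zero_mul, zero_mul]),
      map_zero]
  · -- coeff 0 (redHom P2) = 0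
    rw [hP2, cp_redHom_eq_zero_of_resid p _ _ (by rw [map_mul, hrp, zero_mul]), map_zero]
  · -- coeff 0 (redHom Q1) = 0
    rw [hQ1, cp_coeff_redHom_C_mul_intR, cc_coeff_zero_deltaPS, Int.cast_zero, mul_zero]
  · -- coeff 0 (redHom Q2) = 0
    rw [hQ2, cp_coeff_redHom_C_mul_intR, cc_coeff_zero_deltaPS, Int.cast_zero, mul_zero]
  · -- redHom P2 = 0
    rw [hP2, cp_redHom_eq_zero_of_resid p _ _ (by rw [map_mul, hrp, zero_mul])]
  · -- resid k2 = 0
    exact map_zero _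
  · -- coeff 1 (redHom Q1) ≠ 0
    rw [hQ1, cp_coeff_redHom_C_mul_intR, cc_coeff_one_deltaPS 2 Nat.prime_two, Int.cast_one,
      mul_one]
    exact hr24
  · -- k1 unit
    left
    rw [map_add, hrp, zero_add, map_one]
    exact one_ne_zero
  · -- k3 unit
    left
    rw [map_sub, hrp, zero_sub, neg_ne_zero]
    exact hrhalf
  · -- k4 unit
    intro h0
    rw [map_sub, map_neg, map_one] at h0
    -- multiply by 2
    have h1 : (-1 - resid p half) * resid p ((2 : ℕ) : lintRing p) = 0 := by rw [h0, zero_mul]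
    have h2 : resid p ((3 : ℕ) : lintRing p) = 0 := by
      have h3 : resid p ((3 : ℕ) : lintRing p) = resid p ((2 : ℕ) : lintRing p) + 1 := by
        rw [← map_one (resid p), ← map_add]
        congr 1
        push_cast
        norm_num
      rw [h3]
      linear_combination -h1 - hr2
    exact hr3 h2

end

end Fermat.Agent.S16x
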