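import Fermat.Agent.S16x.Defs
import Fermat.Prelude.Thm_CongruenceSubgroup_one_mem_strictPeriods_Gamma0
import Fermat.Agent.S16x.EisForm

/-!
S16 project, CASE_P (`ℓ = p ≥ 5`), core (helper91): `cp91_no_congr_p_of` = `no_congr_p` with the norm
inequality NI (exact shape of `Spec.norm_order_le` for `ℓ = p`, `r = 2`) as an explicit hypothesis.
Method: `A = 24 p (e_p - g)`, `B = 24 (p-1) e_2`; all four series (`a`, `-p⁻¹ U_p a`, `b`, `-2⁻¹ U_2 b`) have
integer coefficients; modulo `lintMax p` they are `0`, `1`, `-1 - 24 q + …`, `1/2 + …`, so the `p` conjugates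
`(some j, none)` have `w`-order `2p` and all others are non-zero: `2p² ≤ p(p+1)` is absurd.
All names prefixed `cp91_`.
-/

set_option autoImplicit false

namespace Fermat.Agent.S16x

open UpperHalfPlane ModularForm ModularFormClass CongruenceSubgroup
open scoped MatrixGroups Manifold

noncomputable section

/-! ### residue field facts -/

theorem cp91_resid_natCast_self (ℓ : ℕ) [Fact ℓ.Prime] : resid ℓ ((ℓ : ℕ) : lintRing ℓ) = 0 := by
  unfold resid
  exact Ideal.Quotient.eq_zero_iff_mem.mpr (natCast_mem_lintMax ℓ)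

theorem cp91_charP_kappa (ℓ : ℕ) [hℓ : Fact ℓ.Prime] : CharP (kappa ℓ) ℓ := by
  rw [CharP.charP_iff_prime_eq_zero hℓ.out]
  have h := cp91_resid_natCast_self ℓ
  rwa [map_natCast] at h

theorem cp91_intCast_kappa_eq_zero_iff (ℓ : ℕ) [Fact ℓ.Prime] (n : ℤ) :
    ((n : ℤ) : kappa ℓ) = 0 ↔ (ℓ : ℤ) ∣ n :=
  haveI := cp91_charP_kappa ℓ
  CharP.intCast_eq_zero_iff (kappa ℓ) ℓ n

/-! ### integer series -/

/-- integer power series viewed over `lintRing ℓ` -/
def cp91_toL (ℓ : ℕ) : PowerSeries ℤ →+* PowerSeries (lintRing ℓ) :=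
  PowerSeries.map (Int.castRingHom (lintRing ℓ))

theorem cp91_toC_toL (ℓ : ℕ) (P : PowerSeries ℤ) :
    toC ℓ (cp91_toL ℓ P) = PowerSeries.map (Int.castRingHom ℂ) P := by
  ext n
  simp [toC, cp91_toL]

theorem cp91_redHom_toL (ℓ : ℕ) [Fact ℓ.Prime] (P : PowerSeries ℤ) :
    redHom ℓ (cp91_toL ℓ P) = PowerSeries.map (Int.castRingHom (kappa ℓ)) P := by
  ext n
  simp [redHom, cp91_toL]

/-! ### roots of unity in `lintRing` -/

theorem cp91_zeta_pow_self (N : ℕ) [NeZero N] : zeta N ^ N = 1 := by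
  unfold zeta
  rw [← Complex.exp_nat_mul]
  have hN : (N : ℂ) ≠ 0 := Nat.cast_ne_zero.mpr (NeZero.ne N)
  have : (N : ℂ) * (2 * Real.pi * Complex.I / N) = 2 * Real.pi * Complex.I := by
    field_simp
  rw [this, Complex.exp_two_pi_mul_I]

theorem cp91_zeta_pow_mem (ℓ N j : ℕ) [NeZero N] : zeta N ^ j ∈ lintRing ℓ := by
  apply mem_lintRing_of_isIntegral
  apply IsIntegral.pow
  apply IsIntegral.of_pow (Nat.pos_of_ne_zero (NeZero.ne N))
  rw [cp91_zeta_pow_self]
  exact isIntegral_one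

/-- `ζ_N^j` as an element of `lintRing ℓ` -/
def cp91_zetaL (ℓ N j : ℕ) [NeZero N] : lintRing ℓ := ⟨zeta N ^ j, cp91_zeta_pow_mem ℓ N j⟩

/-! ### the lifted conjugates -/

/-- lift of `conjA` -/
def cp91_cA (ℓ p r : ℕ) [NeZero p] [NeZero r] (aL uL : PowerSeries (lintRing ℓ)) :
    Option (Fin p) → PowerSeries (lintRing ℓ)
  | none => PowerSeries.expand (r * p) (mul_ne_zero (NeZero.ne r) (NeZero.ne p)) aL
  | some j => PowerSeries.expand r (NeZero.ne r)
      (PowerSeries.rescale (cp91_zetaL ℓ p (j : ℕ)) uL)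

/-- lift of `conjB` -/
def cp91_cB (ℓ p r : ℕ) [NeZero p] [NeZero r] (bL vL : PowerSeries (lintRing ℓ)) :
    Option (Fin r) → PowerSeries (lintRing ℓ)
  | none => PowerSeries.expand (r * p) (mul_ne_zero (NeZero.ne r) (NeZero.ne p)) bL
  | some i => PowerSeries.expand p (NeZero.ne p)
      (PowerSeries.rescale (cp91_zetaL ℓ r (i : ℕ)) vL)

theorem cp91_toC_rescale (ℓ : ℕ) (u : lintRing ℓ) (P : PowerSeries (lintRing ℓ)) :
    toC ℓ (PowerSeries.rescale u P) = PowerSeries.rescale (u : ℂ) (toC ℓ P) := by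
  ext n
  simp [toC, PowerSeries.coeff_rescale]

theorem cp91_redHom_rescale (ℓ : ℕ) [Fact ℓ.Prime] (u : lintRing ℓ)
    (P : PowerSeries (lintRing ℓ)) :
    redHom ℓ (PowerSeries.rescale u P) = PowerSeries.rescale (resid ℓ u) (redHom ℓ P) := by
  ext n
  simp [redHom, PowerSeries.coeff_rescale]

theorem cp91_toC_expand (ℓ e : ℕ) (he : e ≠ 0) (P : PowerSeries (lintRing ℓ)) :
    toC ℓ (PowerSeries.expand e he P) = PowerSeries.expand e he (toC ℓ P) := by
  unfold toC
  exact PowerSeries.map_expand e he _ P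

theorem cp91_redHom_expand (ℓ e : ℕ) [Fact ℓ.Prime] (he : e ≠ 0) (P : PowerSeries (lintRing ℓ)) :
    redHom ℓ (PowerSeries.expand e he P) = PowerSeries.expand e he (redHom ℓ P) := by
  unfold redHom
  exact PowerSeries.map_expand e he _ P

theorem cp91_toC_cA (ℓ p r : ℕ) [NeZero p] [NeZero r] (a : PowerSeries ℂ)
    (aL uL : PowerSeries (lintRing ℓ)) (ha : toC ℓ aL = a)
    (hu : toC ℓ uL = -(p : ℂ)⁻¹ • UPS p a) (x : Option (Fin p)) :
    toC ℓ (cp91_cA ℓ p r aL uL x) = conjA p r a x := by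
  cases x with
  | none => simp only [cp91_cA, conjA, cp91_toC_expand, ha]
  | some j =>
    simp only [cp91_cA, conjA, cp91_toC_expand, cp91_toC_rescale, hu]
    rfl

theorem cp91_toC_cB (ℓ p r : ℕ) [NeZero p] [NeZero r] (b : PowerSeries ℂ)
    (bL vL : PowerSeries (lintRing ℓ)) (hb : toC ℓ bL = b)
    (hv : toC ℓ vL = -(r : ℂ)⁻¹ • UPS r b) (y : Option (Fin r)) :
    toC ℓ (cp91_cB ℓ p r bL vL y) = conjB p r b y := by
  cases y with
  | none => simp only [cp91_cB, conjB, cp91_toC_expand, hb]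
  | some i =>
    simp only [cp91_cB, conjB, cp91_toC_expand, cp91_toC_rescale, hv]
    rfl


/-! ### reductions of the lifted conjugates -/

theorem cp91_redHom_cA_none (ℓ p r : ℕ) [Fact ℓ.Prime] [NeZero p] [NeZero r]
    (aL uL : PowerSeries (lintRing ℓ)) :
    redHom ℓ (cp91_cA ℓ p r aL uL none) =
      PowerSeries.expand (r * p) (mul_ne_zero (NeZero.ne r) (NeZero.ne p)) (redHom ℓ aL) := by
  simp only [cp91_cA, cp91_redHom_expand]

theorem cp91_redHom_cA_some (ℓ p r : ℕ) [Fact ℓ.Prime] [NeZero p] [NeZero r]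
    (aL uL : PowerSeries (lintRing ℓ)) (j : Fin p) :
    redHom ℓ (cp91_cA ℓ p r aL uL (some j)) =
      PowerSeries.expand r (NeZero.ne r)
        (PowerSeries.rescale (resid ℓ (cp91_zetaL ℓ p (j : ℕ))) (redHom ℓ uL)) := by
  simp only [cp91_cA, cp91_redHom_expand, cp91_redHom_rescale]

theorem cp91_redHom_cB_none (ℓ p r : ℕ) [Fact ℓ.Prime] [NeZero p] [NeZero r]
    (bL vL : PowerSeries (lintRing ℓ)) :
    redHom ℓ (cp91_cB ℓ p r bL vL none) =
      PowerSeries.expand (r * p) (mul_ne_zero (NeZero.ne r) (NeZero.ne p)) (redHom ℓ bL) := by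
  simp only [cp91_cB, cp91_redHom_expand]

theorem cp91_redHom_cB_some (ℓ p r : ℕ) [Fact ℓ.Prime] [NeZero p] [NeZero r]
    (bL vL : PowerSeries (lintRing ℓ)) (i : Fin r) :
    redHom ℓ (cp91_cB ℓ p r bL vL (some i)) =
      PowerSeries.expand p (NeZero.ne p)
        (PowerSeries.rescale (resid ℓ (cp91_zetaL ℓ r (i : ℕ))) (redHom ℓ vL)) := by
  simp only [cp91_cB, cp91_redHom_expand, cp91_redHom_rescale]

theorem cp91_ne_zero_of_constantCoeff {K : Type*} [Semiring K] {P : PowerSeries K}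
    (h : PowerSeries.constantCoeff P ≠ 0) : P ≠ 0 := by
  rintro rfl
  exact h (map_zero _)

theorem cp91_constantCoeff_expand_rescale {K : Type*} [CommRing K] (e : ℕ) (he : e ≠ 0) (u : K)
    (P : PowerSeries K) :
    PowerSeries.constantCoeff (PowerSeries.expand e he (PowerSeries.rescale u P)) =
      PowerSeries.constantCoeff P := by
  rw [PowerSeries.constantCoeff_expand, ← PowerSeries.coeff_zero_eq_constantCoeff_apply,
    PowerSeries.coeff_rescale, pow_zero, one_mul, PowerSeries.coeff_zero_eq_constantCoeff_apply]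

/-! ### the core count for `ℓ = p`, `r = 2` -/

/-- Pure power-series core of CASE_P: integer series `aZ, uZ, bZ, vZ` with the stated congruences
modulo `p`; then all `3(p+1)` lifted conjugates are non-zero modulo `lintMax p` and the `p` conjugates
`(some j, none)` have order `2p`. -/
theorem cp91_core (p : ℕ) [hp : Fact p.Prime] (hp5 : 5 ≤ p) [NeZero p]
    (aZ uZ bZ vZ : PowerSeries ℤ)
    (ha : ∀ n, (p : ℤ) ∣ PowerSeries.coeff n aZ)
    (hu0 : (p : ℤ) ∣ PowerSeries.coeff 0 uZ - 1)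
    (hu : ∀ n, 1 ≤ n → (p : ℤ) ∣ PowerSeries.coeff n uZ)
    (hb0 : (p : ℤ) ∣ PowerSeries.coeff 0 bZ + 1)
    (hb1 : ¬ (p : ℤ) ∣ PowerSeries.coeff 1 bZ)
    (hv0 : (p : ℤ) ∣ 2 * PowerSeries.coeff 0 vZ - 1) :
    (∀ (x : Option (Fin p)) (y : Option (Fin 2)),
      redHom p (cp91_cA p p 2 (cp91_toL p aZ) (cp91_toL p uZ) x +
        cp91_cB p p 2 (cp91_toL p bZ) (cp91_toL p vZ) y) ≠ 0) ∧
    (∀ j : Fin p,
      (redHom p (cp91_cA p p 2 (cp91_toL p aZ) (cp91_toL p uZ) (some j) +
        cp91_cB p p 2 (cp91_toL p bZ) (cp91_toL p vZ) none)).order = ((2 * p : ℕ) : ℕ∞)) := by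
  classical
  set ι : ℤ →+* kappa p := Int.castRingHom (kappa p) with hι
  have hιz : ∀ n : ℤ, ι n = 0 ↔ (p : ℤ) ∣ n := fun n => cp91_intCast_kappa_eq_zero_iff p n
  -- reductions of the four series
  have hab : redHom p (cp91_toL p aZ) = 0 := by
    rw [cp91_redHom_toL]
    ext n
    rw [PowerSeries.coeff_map, map_zero]
    exact (hιz _).mpr (ha n)
  have hub : redHom p (cp91_toL p uZ) = 1 := by
    rw [cp91_redHom_toL]
    ext n
    rw [PowerSeries.coeff_map, PowerSeries.coeff_one]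
    split_ifs with h0
    · subst h0
      have := (hιz _).mpr hu0
      rw [map_sub, map_one, sub_eq_zero] at this
      exact this
    · exact (hιz _).mpr (hu n (Nat.one_le_iff_ne_zero.mpr h0))
  set bbar : PowerSeries (kappa p) := redHom p (cp91_toL p bZ) with hbbar
  set vbar : PowerSeries (kappa p) := redHom p (cp91_toL p vZ) with hvbar
  have hbb0 : PowerSeries.constantCoeff bbar = -1 := by
    rw [hbbar, cp91_redHom_toL, ← PowerSeries.coeff_zero_eq_constantCoeff_apply,
      PowerSeries.coeff_map]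
    have := (hιz _).mpr hb0
    rw [map_add, map_one] at this
    exact eq_neg_of_add_eq_zero_left this
  have hbb1 : PowerSeries.coeff 1 bbar ≠ 0 := by
    rw [hbbar, cp91_redHom_toL, PowerSeries.coeff_map]
    exact fun h => hb1 ((hιz _).mp h)
  have h2v : 2 * PowerSeries.constantCoeff vbar = 1 := by
    rw [hvbar, cp91_redHom_toL, ← PowerSeries.coeff_zero_eq_constantCoeff_apply,
      PowerSeries.coeff_map]
    have := (hιz _).mpr hv0
    rw [map_sub, map_mul, map_one, sub_eq_zero] at this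
    simpa using this
  have h2ne : (2 : kappa p) ≠ 0 := by
    intro h
    have h2 : ι 2 = 0 := by simpa using h
    have := (hιz 2).mp h2
    have : p ∣ 2 := by exact_mod_cast this
    have := Nat.le_of_dvd (by norm_num) this
    omega
  have h3ne : (3 : kappa p) ≠ 0 := by
    intro h
    have h3 : ι 3 = 0 := by simpa using h
    have := (hιz 3).mp h3
    have : p ∣ 3 := by exact_mod_cast this
    have := Nat.le_of_dvd (by norm_num) this
    omega
  have hvb0 : PowerSeries.constantCoeff vbar ≠ 0 := by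
    intro h
    rw [h, mul_zero] at h2v
    exact zero_ne_one h2v
  have hvb1 : 1 + PowerSeries.constantCoeff vbar ≠ 0 := by
    intro h
    have : (3 : kappa p) = 2 * (1 + PowerSeries.constantCoeff vbar) := by
      rw [mul_add, h2v]; norm_num
    rw [h, mul_zero] at this
    exact h3ne this
  have hsome : ∀ j : Fin p, redHom p (cp91_cA p p 2 (cp91_toL p aZ) (cp91_toL p uZ) (some j)) = 1 := by
    intro j
    rw [cp91_redHom_cA_some, hub, map_one, map_one]
  have hnone : redHom p (cp91_cA p p 2 (cp91_toL p aZ) (cp91_toL p uZ) none) = 0 := by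
    rw [cp91_redHom_cA_none, hab, map_zero]
  refine ⟨?_, ?_⟩
  · intro x y
    rw [map_add]
    cases x with
    | none =>
      rw [hnone, zero_add]
      cases y with
      | none =>
        rw [cp91_redHom_cB_none]
        apply cp91_ne_zero_of_constantCoeff
        rw [PowerSeries.constantCoeff_expand, hbb0]
        exact neg_ne_zero.mpr one_ne_zero
      | some i =>
        rw [cp91_redHom_cB_some]
        apply cp91_ne_zero_of_constantCoeff
        rw [cp91_constantCoeff_expand_rescale]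
        exact hvb0
    | some j =>
      rw [hsome j]
      cases y with
      | none =>
        rw [cp91_redHom_cB_none]
        intro h
        have h1 := congrArg (PowerSeries.coeff (2 * p * 1)) h
        rw [map_add, PowerSeries.coeff_expand_mul, map_zero, PowerSeries.coeff_one,
          if_neg (by
            have := hp.out.pos
            omega), zero_add] at h1
        exact hbb1 h1
      | some i =>
        rw [cp91_redHom_cB_some]
        apply cp91_ne_zero_of_constantCoeff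
        rw [map_add, map_one, cp91_constantCoeff_expand_rescale]
        exact hvb1
  · intro j
    rw [map_add, hsome j, cp91_redHom_cB_none]
    have h1 : (1 : PowerSeries (kappa p)) + PowerSeries.expand (2 * p)
          (mul_ne_zero (NeZero.ne 2) (NeZero.ne p)) bbar =
        PowerSeries.expand (2 * p) (mul_ne_zero (NeZero.ne 2) (NeZero.ne p)) (1 + bbar) := by
      rw [map_add, map_one]
    rw [h1, PowerSeries.order_expand]
    have hord : (1 + bbar).order = 1 := by
      have : (1 + bbar).order = ((1 : ℕ) : ℕ∞) := by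
        rw [PowerSeries.order_eq_nat]
        refine ⟨?_, ?_⟩
        · rw [map_add, PowerSeries.coeff_one, if_neg one_ne_zero, zero_add]
          exact hbb1
        · intro i hi
          have hi0 : i = 0 := by omega
          subst hi0
          rw [PowerSeries.coeff_zero_eq_constantCoeff_apply, map_add, map_one, hbb0]
          ring
      simpa using this
    rw [hord]
    simp


/-! ### q-expansions of the two forms `A = 24 p (e_p - g)`, `B = 24 (p-1) e_2` -/

theorem cp91_sigP_two_one : sigP 2 1 = 1 := by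
  unfold sigP
  decide

theorem cp91_qExp_A (p : ℕ) (ep : ModularForm (Gamma0 p) 2) (g : CuspForm (Gamma0 p) 2) (t : ℂ)
    (A : ModularForm (Gamma0 p) 2) (hA : A = t • (ep - CuspForm.toModularFormₗ g)) (n : ℕ) :
    PowerSeries.coeff n (qExpansion 1 A) =
      t * (PowerSeries.coeff n (qExpansion 1 ep) - ModularFormClass.qCoeff g n) := by
  have hΓ := CongruenceSubgroup.one_mem_strictPeriods_Gamma0 p
  subst hA
  rw [FunLike.coe_smul, ModularForm.qExpansion_smul one_pos hΓ, FunLike.coe_sub,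
    ModularForm.qExpansion_sub one_pos hΓ, PowerSeries.coeff_smul, smul_eq_mul, map_sub]
  rfl

theorem cp91_qExp_B (e2 : ModularForm (Gamma0 2) 2) (t : ℂ)
    (B : ModularForm (Gamma0 2) 2) (hB : B = t • e2) (n : ℕ) :
    PowerSeries.coeff n (qExpansion 1 B) = t * PowerSeries.coeff n (qExpansion 1 e2) := by
  have hΓ := CongruenceSubgroup.one_mem_strictPeriods_Gamma0 2
  subst hB
  rw [FunLike.coe_smul, ModularForm.qExpansion_smul one_pos hΓ, PowerSeries.coeff_smul,
    smul_eq_mul]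

/-- CASE_P with the norm inequality NI (for `ℓ = p`, `r = 2`) as an explicit hypothesis. -/
theorem cp91_no_congr_p_of (p : ℕ) [hp : Fact p.Prime] (hp5 : 5 ≤ p)
    (hNI : ∀ (A : ModularForm (Gamma0 p) 2) (B : ModularForm (Gamma0 2) 2)
      (c : Option (Fin p) → Option (Fin 2) → PowerSeries (lintRing p)),
      (haveI : NeZero p := ⟨(Fact.out : p.Prime).ne_zero⟩
       haveI : NeZero 2 := ⟨two_ne_zero⟩
       ∀ x y, toC p (c x y) = conjSeries p 2 (qExpansion 1 A) (qExpansion 1 B) x y) →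
      (∀ x y, redHom p (c x y) ≠ 0) →
      6 * ∑ x : Option (Fin p), ∑ y : Option (Fin 2), (redHom p (c x y)).order
        ≤ ((2 * p * ((p + 1) * (2 + 1)) : ℕ) : ℕ∞))
    (g : CuspForm (Gamma0 p) 2) (hg : IsEisCongr p p g) : False := by
  classical
  haveI : NeZero p := ⟨hp.out.ne_zero⟩
  have hp0 : (p : ℂ) ≠ 0 := Nat.cast_ne_zero.mpr hp.out.ne_zero
  obtain ⟨ep, hep0, hep⟩ := exists_eisForm p
  obtain ⟨e2, he20, he2⟩ := exists_eisForm 2
  choose m hm hmc using hg
  have hg0 : ModularFormClass.qCoeff g 0 = 0 :=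
    CuspFormClass.qExpansion_coeff_zero g one_pos (CongruenceSubgroup.one_mem_strictPeriods_Gamma0 p)
  -- `p` is odd
  obtain ⟨k, hk⟩ : ∃ k : ℕ, p = 2 * k + 1 := by
    rcases hp.out.eq_two_or_odd with h2 | hodd
    · omega
    · exact ⟨p / 2, by omega⟩
  -- congruence: `p ∣ σ'(n) - m n`
  have hdvd : ∀ n, 1 ≤ n → (p : ℤ) ∣ (sigP p n : ℤ) - m n := by
    intro n hn
    have h := hmc n hn
    have h2 : (((sigP p n : ℤ) - m n : ℤ) : ZMod p) = 0 := by
      push_cast
      rw [h]; simp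
    exact (ZMod.intCast_zmod_eq_zero_iff_dvd _ p).mp h2
  -- the two forms
  set A : ModularForm (Gamma0 p) 2 := ((24 * p : ℕ) : ℂ) • (ep - CuspForm.toModularFormₗ g) with hA
  set B : ModularForm (Gamma0 2) 2 := ((24 * (p - 1) : ℕ) : ℂ) • e2 with hB
  -- the four integer series
  set aZ : PowerSeries ℤ := PowerSeries.mk fun n =>
    if n = 0 then (p : ℤ) * (p - 1) else 24 * p * ((sigP p n : ℤ) - m n) with haZ
  set uZ : PowerSeries ℤ := PowerSeries.mk fun n =>
    if n = 0 then -((p : ℤ) - 1) else -24 * ((sigP p (n * p) : ℤ) - m (n * p)) with huZ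
  set bZ : PowerSeries ℤ := PowerSeries.mk fun n =>
    if n = 0 then (p : ℤ) - 1 else 24 * ((p : ℤ) - 1) * (sigP 2 n : ℤ) with hbZ
  set vZ : PowerSeries ℤ := PowerSeries.mk fun n =>
    if n = 0 then -(k : ℤ) else -12 * ((p : ℤ) - 1) * (sigP 2 (n * 2) : ℤ) with hvZ
  have hp1 : ((p - 1 : ℕ) : ℂ) = (p : ℂ) - 1 := by
    rw [Nat.cast_sub hp.out.one_le]; simp
  -- coefficients of `A`, `B`
  have hAc : ∀ n, PowerSeries.coeff n (qExpansion 1 A) =
      ((PowerSeries.coeff n aZ : ℤ) : ℂ) := by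
    intro n
    rw [cp91_qExp_A p ep g _ A hA, haZ, PowerSeries.coeff_mk]
    by_cases hn : n = 0
    · subst hn
      rw [if_pos rfl, hep0, hg0]
      push_cast
      field_simp
      ring
    · rw [if_neg hn, hep n (Nat.one_le_iff_ne_zero.mpr hn), hm n]
      push_cast
      ring
  have hBc : ∀ n, PowerSeries.coeff n (qExpansion 1 B) =
      ((PowerSeries.coeff n bZ : ℤ) : ℂ) := by
    intro n
    rw [cp91_qExp_B e2 _ B hB, hbZ, PowerSeries.coeff_mk]
    by_cases hn : n = 0
    · subst hn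
      rw [if_pos rfl, he20, Nat.cast_mul, hp1]
      push_cast
      field_simp
      ring
    · rw [if_neg hn, he2 n (Nat.one_le_iff_ne_zero.mpr hn), Nat.cast_mul, hp1]
      push_cast
      ring
  have hIa : toC p (cp91_toL p aZ) = qExpansion 1 A := by
    rw [cp91_toC_toL]
    ext n
    rw [PowerSeries.coeff_map, hAc]; rfl
  have hIb : toC p (cp91_toL p bZ) = qExpansion 1 B := by
    rw [cp91_toC_toL]
    ext n
    rw [PowerSeries.coeff_map, hBc]; rfl
  have hIu : toC p (cp91_toL p uZ) = -(p : ℂ)⁻¹ • UPS p (qExpansion 1 A) := by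
    rw [cp91_toC_toL]
    ext n
    rw [PowerSeries.coeff_map, PowerSeries.coeff_smul, coeff_UPS, hAc, haZ, huZ,
      PowerSeries.coeff_mk, PowerSeries.coeff_mk, smul_eq_mul]
    by_cases hn : n = 0
    · subst hn
      rw [if_pos rfl, zero_mul, if_pos rfl]
      simp only [eq_intCast]
      push_cast
      field_simp
    · rw [if_neg hn, if_neg (Nat.mul_ne_zero hn hp.out.ne_zero)]
      simp only [eq_intCast]
      push_cast
      field_simp
  have hIv : toC p (cp91_toL p vZ) = -((2 : ℕ) : ℂ)⁻¹ • UPS 2 (qExpansion 1 B) := by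
    rw [cp91_toC_toL]
    ext n
    rw [PowerSeries.coeff_map, PowerSeries.coeff_smul, coeff_UPS, hBc, hbZ, hvZ,
      PowerSeries.coeff_mk, PowerSeries.coeff_mk, smul_eq_mul]
    by_cases hn : n = 0
    · subst hn
      rw [if_pos rfl, zero_mul, if_pos rfl]
      simp only [eq_intCast]
      have : (p : ℂ) = 2 * (k : ℂ) + 1 := by exact_mod_cast congrArg (Nat.cast (R := ℂ)) hk
      push_cast
      rw [this]
      ring
    · rw [if_neg hn, if_neg (Nat.mul_ne_zero hn two_ne_zero)]
      simp only [eq_intCast]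
      push_cast
      ring
  -- the congruences for the core
  have ha : ∀ n, (p : ℤ) ∣ PowerSeries.coeff n aZ := by
    intro n
    rw [haZ, PowerSeries.coeff_mk]
    split_ifs
    · exact Dvd.intro _ rfl
    · exact ⟨24 * ((sigP p n : ℤ) - m n), by ring⟩
  have hu0 : (p : ℤ) ∣ PowerSeries.coeff 0 uZ - 1 := by
    rw [huZ, PowerSeries.coeff_mk, if_pos rfl]
    exact ⟨-1, by ring⟩
  have hu : ∀ n, 1 ≤ n → (p : ℤ) ∣ PowerSeries.coeff n uZ := by
    intro n hn
    rw [huZ, PowerSeries.coeff_mk, if_neg (by omega)]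
    exact Dvd.dvd.mul_left (hdvd (n * p) (Nat.one_le_iff_ne_zero.mpr
      (Nat.mul_ne_zero (by omega) hp.out.ne_zero))) _
  have hb0 : (p : ℤ) ∣ PowerSeries.coeff 0 bZ + 1 := by
    rw [hbZ, PowerSeries.coeff_mk, if_pos rfl]
    exact ⟨1, by ring⟩
  have hb1 : ¬ (p : ℤ) ∣ PowerSeries.coeff 1 bZ := by
    rw [hbZ, PowerSeries.coeff_mk, if_neg one_ne_zero, cp91_sigP_two_one]
    intro h
    have h24 : (p : ℤ) ∣ 24 := by
      have h' : (p : ℤ) ∣ 24 * (p : ℤ) - 24 * ((p : ℤ) - 1) * ((1 : ℕ) : ℤ) :=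
        dvd_sub (Dvd.intro_left _ rfl) h
      have e : 24 * (p : ℤ) - 24 * ((p : ℤ) - 1) * ((1 : ℕ) : ℤ) = 24 := by push_cast; ring
      rwa [e] at h'
    have h24' : p ∣ 24 := by exact_mod_cast h24
    have h23 : p ∣ 2 ^ 3 * 3 := by norm_num; exact h24'
    rcases (Nat.Prime.dvd_mul hp.out).mp h23 with h | h
    · have := Nat.le_of_dvd (by norm_num) (hp.out.dvd_of_dvd_pow h)
      omega
    · have := Nat.le_of_dvd (by norm_num) h
      omega
  have hv0 : (p : ℤ) ∣ 2 * PowerSeries.coeff 0 vZ - 1 := by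
    rw [hvZ, PowerSeries.coeff_mk, if_pos rfl]
    refine ⟨-1, ?_⟩
    have : (p : ℤ) = 2 * (k : ℤ) + 1 := by exact_mod_cast congrArg (Nat.cast (R := ℤ)) hk
    rw [this]; ring
  obtain ⟨hne, hord⟩ := cp91_core p hp5 aZ uZ bZ vZ ha hu0 hu hb0 hb1 hv0
  -- apply NI
  have hNI' := hNI A B
    (fun x y => cp91_cA p p 2 (cp91_toL p aZ) (cp91_toL p uZ) x +
      cp91_cB p p 2 (cp91_toL p bZ) (cp91_toL p vZ) y)
    (fun x y => by
      rw [map_add, cp91_toC_cA p p 2 (qExpansion 1 A) _ _ hIa hIu,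
        cp91_toC_cB p p 2 (qExpansion 1 B) _ _ hIb hIv]
      rfl)
    hne
  -- lower bound for the sum of the orders
  have hlow : ((p * (2 * p) : ℕ) : ℕ∞) ≤
      ∑ x : Option (Fin p), ∑ y : Option (Fin 2),
        (redHom p (cp91_cA p p 2 (cp91_toL p aZ) (cp91_toL p uZ) x +
          cp91_cB p p 2 (cp91_toL p bZ) (cp91_toL p vZ) y)).order := by
    rw [Fintype.sum_option]
    refine le_trans ?_ (le_add_self)
    have : ∀ j : Fin p, ((2 * p : ℕ) : ℕ∞) ≤ ∑ y : Option (Fin 2),
        (redHom p (cp91_cA p p 2 (cp91_toL p aZ) (cp91_toL p uZ) (some j) +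
          cp91_cB p p 2 (cp91_toL p bZ) (cp91_toL p vZ) y)).order := by
      intro j
      rw [Fintype.sum_option, hord j]
      exact le_self_add
    calc ((p * (2 * p) : ℕ) : ℕ∞) = ∑ _j : Fin p, ((2 * p : ℕ) : ℕ∞) := by
          rw [Finset.sum_const, Finset.card_univ, Fintype.card_fin]
          push_cast
          simp
      _ ≤ _ := Finset.sum_le_sum fun j _ => this j
  have hfin : (6 : ℕ∞) * ((p * (2 * p) : ℕ) : ℕ∞) ≤ ((2 * p * ((p + 1) * (2 + 1)) : ℕ) : ℕ∞) :=
    le_trans (mul_le_mul_right hlow 6) hNI'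
  have hfin' : 6 * (p * (2 * p)) ≤ 2 * p * ((p + 1) * (2 + 1)) := by
    have : ((6 * (p * (2 * p)) : ℕ) : ℕ∞) ≤ ((2 * p * ((p + 1) * (2 + 1)) : ℕ) : ℕ∞) := by
      push_cast at hfin ⊢
      exact hfin
    exact_mod_cast this
  nlinarith

end

end Fermat.Agent.S16x

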