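import Fermat.Agent.S16x.Defs
import Fermat.Agent.S16x.Reduction
import Fermat.Agent.S16x.LevelOneBound

/-!
# S16 project, CASE_ThreeB (part 2): the trace argument for `ℓ = 3`, `p ≡ 1 mod 3`

If `A ∈ M₂(Γ₀(p))` has `q`-expansion `1 + 3 H` (`H` `3`-integral), then with
`f14 = Tr(A · Δ(pz))`, `f12 = Tr(Δ(pz))` (module AN2) the level one form
`L = f14 E₄ + p⁻¹ f12 E₆` of weight 18 satisfies `L ≡ 2 Δ(q^p) mod 3`, of order `p > 18/12`:
contradiction with the level one bound (module I1).
-/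

set_option autoImplicit false

open UpperHalfPlane ModularForm ModularFormClass CongruenceSubgroup MatrixGroups EisensteinSeries
open scoped Manifold
open Fermat.Agent.S23x (IsMF IsMF1)

namespace Fermat.Agent.S16x

noncomputable section

/-- integral series to `3`-integral series -/
abbrev c3b_iota : PowerSeries ℤ →+* PowerSeries (lintRing 3) :=
  PowerSeries.map (Int.castRingHom (lintRing 3))

theorem c3b_toC_iota (Q : PowerSeries ℤ) : toC 3 (c3b_iota Q) = lo_map Q := by
  ext n
  simp [toC, c3b_iota, lo_map]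

instance c3b_fact3 : Fact (Nat.Prime 3) := ⟨Nat.prime_three⟩

theorem c3b_three_kappa : (3 : kappa 3) = 0 := by
  have h := resid_natCast_self 3
  rw [map_natCast] at h
  exact_mod_cast h

theorem c3b_natCast_kappa (n : ℕ) (h : 3 ∣ n) : ((n : ℕ) : PowerSeries (kappa 3)) = 0 := by
  obtain ⟨m, rfl⟩ := h
  have h3 : ((3 : ℕ) : PowerSeries (kappa 3)) = 0 := by
    have : ((3 : ℕ) : PowerSeries (kappa 3)) = PowerSeries.C ((3 : ℕ) : kappa 3) :=
      (map_natCast PowerSeries.C 3).symm
    rw [this]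
    have h0 : ((3 : ℕ) : kappa 3) = 0 := by exact_mod_cast c3b_three_kappa
    rw [h0, map_zero]
  rw [Nat.cast_mul, h3, zero_mul]

theorem c3b_two_ne_zero : (2 : kappa 3) ≠ 0 := by
  intro h
  have h1 : (1 : kappa 3) = 3 - 2 := by norm_num
  rw [c3b_three_kappa, h, sub_zero] at h1
  exact one_ne_zero h1

theorem c3b_redHom_C (x : lintRing 3) :
    redHom 3 (PowerSeries.C x) = PowerSeries.C (resid 3 x) := by
  simp [redHom]

theorem c3b_toC_C (x : lintRing 3) :
    toC 3 (PowerSeries.C x) = PowerSeries.C (x : ℂ) := by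
  simp [toC]

theorem c3b_redHom_one_add (H : PowerSeries (lintRing 3)) :
    redHom 3 (1 + PowerSeries.C (3 : lintRing 3) * H) = 1 := by
  have h3 : resid 3 (3 : lintRing 3) = 0 := by
    have h := resid_natCast_self 3
    exact_mod_cast h
  rw [map_add, map_one, map_mul, c3b_redHom_C, h3, map_zero, zero_mul, add_zero]

theorem c3b_UPS_one {R : Type*} [Semiring R] (p : ℕ) (hp : p ≠ 0) :
    UPS p (1 : PowerSeries R) = 1 := by
  ext n
  rw [coeff_UPS, PowerSeries.coeff_one, PowerSeries.coeff_one]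
  simp [hp]

theorem c3b_redHom_E4 : redHom 3 (c3b_iota lo_E4) = 1 := by
  rw [lo_E4, map_add, map_add, map_one, map_one, map_mul, map_mul]
  have h : redHom 3 (c3b_iota (240 : PowerSeries ℤ)) = ((240 : ℕ) : PowerSeries (kappa 3)) := by
    rw [map_ofNat, map_ofNat, Nat.cast_ofNat]
  rw [h, c3b_natCast_kappa 240 (by norm_num), zero_mul, add_zero]

theorem c3b_redHom_E6 : redHom 3 (c3b_iota lo_E6) = 1 := by
  rw [lo_E6, map_sub, map_sub, map_one, map_one, map_mul, map_mul]
  have h : redHom 3 (c3b_iota (504 : PowerSeries ℤ)) = ((504 : ℕ) : PowerSeries (kappa 3)) := by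
    rw [map_ofNat, map_ofNat, Nat.cast_ofNat]
  rw [h, c3b_natCast_kappa 504 (by norm_num), zero_mul, sub_zero]

/-- the `3`-integral lift of `p⁻¹` -/
def c3b_pinv (p : ℕ) (hp3 : p % 3 = 1) : lintRing 3 :=
  ⟨(p : ℂ)⁻¹, by
    have hp0 : p ≠ 0 := by
      rintro rfl
      simp at hp3
    refine ⟨p, ?_, ?_⟩
    · rw [Nat.coprime_comm, Nat.Prime.coprime_iff_not_dvd Nat.prime_three]
      omega
    · rw [mul_inv_cancel₀ (Nat.cast_ne_zero.mpr hp0)]
      exact isIntegral_one⟩

theorem c3b_resid_pinv (p : ℕ) (hp3 : p % 3 = 1) : resid 3 (c3b_pinv p hp3) = 1 := by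
  have hp0 : p ≠ 0 := by
    rintro rfl
    simp at hp3
  have hmul : c3b_pinv p hp3 * ((p : ℕ) : lintRing 3) = 1 := by
    apply Subtype.ext
    simp only [c3b_pinv, Subring.coe_mul, Subring.coe_natCast, Subring.coe_one]
    exact inv_mul_cancel₀ (Nat.cast_ne_zero.mpr hp0)
  have hp1 : resid 3 ((p : ℕ) : lintRing 3) = 1 := by
    rw [map_natCast]
    have : p = 3 * (p / 3) + 1 := by omega
    rw [this, Nat.cast_add, Nat.cast_mul, Nat.cast_one]
    have h0 : ((3 : ℕ) : kappa 3) = 0 := by exact_mod_cast c3b_three_kappa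
    rw [h0, zero_mul, zero_add]
  have := congrArg (resid 3) hmul
  rw [map_mul, hp1, mul_one, map_one] at this
  exact this


theorem c3b_isMF1_discriminant : IsMF1 ((12 : ℕ) : ℤ) (⇑CuspForm.discriminant) :=
  ⟨(CuspForm.discriminant : ModularForm 𝒮ℒ 12), rfl⟩

/-- **The trace argument** for `ℓ = 3`, `p ≡ 1 mod 3` (AN2 as hypotheses `h14q`, `h12q`). -/
theorem c3b_core (p : ℕ) [Fact p.Prime] (hp3 : p % 3 = 1)
    (A : ModularForm (Gamma0 p) 2) (H : PowerSeries (lintRing 3))
    (hA : toC 3 (1 + PowerSeries.C (3 : lintRing 3) * H) = qExpansion 1 A)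
    (f14 f12 : ℍ → ℂ)
    (h14 : IsMF1 ((12 + 2 : ℕ) : ℤ) f14)
    (h14q : qExpansion 1 f14 =
        qExpansion 1 A * PowerSeries.expand p (Fact.out : p.Prime).ne_zero
          (qExpansion 1 (⇑CuspForm.discriminant))
          - ((p : ℂ)⁻¹) ^ 12 • UPS p (UPS p (qExpansion 1 A) *
              qExpansion 1 (⇑CuspForm.discriminant)))
    (h12 : IsMF1 ((12 : ℕ) : ℤ) f12)
    (h12q : qExpansion 1 f12 =
        PowerSeries.expand p (Fact.out : p.Prime).ne_zero (qExpansion 1 (⇑CuspForm.discriminant))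
          + ((p : ℂ)⁻¹) ^ (12 - 1) • UPS p (qExpansion 1 (⇑CuspForm.discriminant))) : False := by
  have hp : p.Prime := Fact.out
  have hp0 : p ≠ 0 := hp.ne_zero
  obtain ⟨F14, rfl⟩ := h14
  obtain ⟨F12, rfl⟩ := h12
  -- the level one form of weight 18
  set L : ModularForm 𝒮ℒ ((18 : ℕ) : ℤ) :=
    ModularForm.mcast (by norm_num) (F14.mul E₄) +
      ((p : ℂ)⁻¹) • ModularForm.mcast (by norm_num) (F12.mul E₆) with hL
  have hLq : qExpansion 1 L = qExpansion 1 F14 * lo_map lo_E4 +
      ((p : ℂ)⁻¹) • (qExpansion 1 F12 * lo_map lo_E6) := by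
    rw [hL, FunLike.coe_add, ModularForm.qExpansion_add one_pos one_mem_strictPeriods_SL,
      FunLike.coe_smul, ModularForm.qExpansion_smul one_pos one_mem_strictPeriods_SL,
      ModularForm.qExpansion_mcast, ModularForm.qExpansion_mcast,
      ModularForm.qExpansion_mul one_pos one_mem_strictPeriods_SL,
      ModularForm.qExpansion_mul one_pos one_mem_strictPeriods_SL, lo_qExpansion_E4,
      lo_qExpansion_E6]
  -- the lifts
  set u : lintRing 3 := c3b_pinv p hp3 with hu
  have huC : (u : ℂ) = (p : ℂ)⁻¹ := rfl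
  have hures : resid 3 u = 1 := c3b_resid_pinv p hp3
  set PA : PowerSeries (lintRing 3) := 1 + PowerSeries.C (3 : lintRing 3) * H with hPA
  set PD : PowerSeries (lintRing 3) := c3b_iota lo_D with hPD
  have hPDC : toC 3 PD = qExpansion 1 (⇑CuspForm.discriminant) := by
    rw [hPD, c3b_toC_iota, lo_qExpansion_discriminant]
  set P14 : PowerSeries (lintRing 3) :=
    PA * PowerSeries.expand p hp0 PD - PowerSeries.C (u ^ 12) * UPS p (UPS p PA * PD) with hP14
  set P12 : PowerSeries (lintRing 3) :=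
    PowerSeries.expand p hp0 PD + PowerSeries.C (u ^ 11) * UPS p PD with hP12
  set PL : PowerSeries (lintRing 3) :=
    P14 * c3b_iota lo_E4 + PowerSeries.C u * (P12 * c3b_iota lo_E6) with hPL
  have h14C : toC 3 P14 = qExpansion 1 F14 := by
    rw [h14q, hP14, map_sub, map_mul, map_mul, toC_expand, toC_UPS, map_mul, toC_UPS, hA, hPDC,
      c3b_toC_C, PowerSeries.smul_eq_C_mul]
    simp [huC]
  have h12C : toC 3 P12 = qExpansion 1 F12 := by
    rw [h12q, hP12, map_add, map_mul, toC_expand, toC_UPS, hPDC, c3b_toC_C,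
      PowerSeries.smul_eq_C_mul]
    simp [huC]
  have hLC : toC 3 PL = qExpansion 1 L := by
    rw [hLq, hPL, map_add, map_mul, map_mul, map_mul, h14C, h12C, c3b_toC_iota, c3b_toC_iota,
      c3b_toC_C, PowerSeries.smul_eq_C_mul, huC]
  -- the reduction
  set d : PowerSeries (kappa 3) := redHom 3 PD with hd
  have hd0 : PowerSeries.coeff 0 d = 0 := by
    rw [hd, hPD, redHom, c3b_iota, PowerSeries.coeff_map, PowerSeries.coeff_map, lo_D_coeff_zero]
    simp
  have hd1 : PowerSeries.coeff 1 d = 1 := by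
    rw [hd, hPD, redHom, c3b_iota, PowerSeries.coeff_map, PowerSeries.coeff_map, lo_D_coeff_one]
    simp
  have hPAred : redHom 3 PA = 1 := c3b_redHom_one_add H
  have hred : redHom 3 PL = 2 * PowerSeries.expand p hp0 d := by
    rw [hPL, hP14, hP12]
    simp only [map_add, map_mul, map_sub, map_pow, redHom_expand, redHom_UPS, hPAred,
      c3b_redHom_E4, c3b_redHom_E6, c3b_redHom_C, hures, c3b_UPS_one p hp0, one_pow, map_one]
    rw [← hd]
    ring_nf
  have hcoeff : ∀ n, PowerSeries.coeff n (redHom 3 PL) =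
      2 * (if p ∣ n then PowerSeries.coeff (n / p) d else 0) := by
    intro n
    rw [hred, show (2 : PowerSeries (kappa 3)) = PowerSeries.C (2 : kappa 3) from
      (map_ofNat PowerSeries.C 2).symm, PowerSeries.coeff_C_mul, PowerSeries.coeff_expand]
  have hne : redHom 3 PL ≠ 0 := by
    intro h0
    have := congrArg (PowerSeries.coeff p) h0
    rw [hcoeff, if_pos (dvd_refl p), Nat.div_self hp.pos, hd1, mul_one, map_zero] at this
    exact c3b_two_ne_zero this
  have hle := levelOne_redHom_order_le 3 (k := 18) (f := ⇑L) ⟨L, rfl⟩ PL hLC hne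
  have h2 : ((2 : ℕ) : ℕ∞) ≤ (redHom 3 PL).order := by
    apply PowerSeries.nat_le_order
    intro i hi
    rw [hcoeff]
    by_cases hpi : p ∣ i
    · have hi0 : i = 0 := by
        have h2p := hp.two_le
        rcases Nat.eq_zero_or_pos i with h | h
        · exact h
        · have := Nat.le_of_dvd h hpi
          omega
      subst hi0
      rw [if_pos hpi, Nat.zero_div, hd0, mul_zero]
    · rw [if_neg hpi, mul_zero]
  have h3 : (12 : ℕ∞) * ((2 : ℕ) : ℕ∞) ≤ ((18 : ℕ) : ℕ∞) := le_trans (mul_le_mul_right h2 12) hle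
  have h4 : ((24 : ℕ) : ℕ∞) ≤ ((18 : ℕ) : ℕ∞) := by
    have h5 : (12 : ℕ∞) * ((2 : ℕ) : ℕ∞) = ((24 : ℕ) : ℕ∞) := by norm_cast
    rw [← h5]
    exact h3
  rw [Nat.cast_le] at h4
  omega

end

end Fermat.Agent.S16x
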