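import Fermat.Agent.S16x.Defs
import Fermat.Agent.S16x.Reduction
import Fermat.Prelude.Thm_CongruenceSubgroup_one_mem_strictPeriods_Gamma0

/-!
# S16 project, CASE_ThreeB (part 1): construction of the form `F ≡ 1 mod 3`

`p ≡ 1 mod 3`, `v = v₃(p-1)`, `g` a cusp form with `g ≡ δ mod 3^v`.  Then
`F = c⁻¹ (e - g)`, `c = (p-1)/24`, has a `3`-integral `q`-expansion `P = 1 + 3 H`.
-/

set_option autoImplicit false

open UpperHalfPlane ModularForm ModularFormClass CongruenceSubgroup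
open scoped MatrixGroups Manifold

namespace Fermat.Agent.S16x

noncomputable section

/-- arithmetic of `p - 1` for `p ≡ 1 mod 3`: `p - 1 = 3 * M' * t` with `3 ∤ t`, where
`3 ^ v₃(p-1) = 3 * M'`. -/
theorem c3b_arith (p : ℕ) (hp : p.Prime) (hp3 : p % 3 = 1) :
    ∃ M' t : ℕ, 3 ^ padicValNat 3 (p - 1) = 3 * M' ∧ p - 1 = 3 * M' * t ∧ ¬ 3 ∣ t ∧
      M' ≠ 0 ∧ t ≠ 0 := by
  have hp1 : p - 1 ≠ 0 := by
    have := hp.two_le
    omega
  have h3 : 3 ∣ p - 1 := by omega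
  haveI : Fact (Nat.Prime 3) := ⟨Nat.prime_three⟩
  have hv : 1 ≤ padicValNat 3 (p - 1) := one_le_padicValNat_of_dvd hp1 h3
  obtain ⟨t, ht⟩ := pow_padicValNat_dvd (p := 3) (n := p - 1)
  refine ⟨3 ^ (padicValNat 3 (p - 1) - 1), t, ?_, ?_, ?_, ?_, ?_⟩
  · rw [← pow_succ']
    congr 1
    omega
  · rw [← pow_succ']
    rw [show padicValNat 3 (p - 1) - 1 + 1 = padicValNat 3 (p - 1) by omega]
    exact ht
  · intro h3t
    obtain ⟨s, rfl⟩ := h3t
    have : 3 ^ (padicValNat 3 (p - 1) + 1) ∣ p - 1 := by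
      rw [pow_succ]
      exact ⟨s, ht.trans (by ring)⟩
    exact pow_succ_padicValNat_not_dvd hp1 this
  · positivity
  · rintro rfl
    rw [mul_zero] at ht
    exact hp1 ht


/-- `8 k / t` is `3`-integral when `3 ∤ t`. -/
theorem c3b_mem (t : ℕ) (ht : ¬ 3 ∣ t) (k : ℤ) : (8 * (k : ℂ)) / (t : ℂ) ∈ lintRing 3 := by
  have ht0 : t ≠ 0 := by
    rintro rfl
    exact ht (dvd_zero 3)
  refine ⟨t, ?_, ?_⟩
  · exact ((Nat.Prime.coprime_iff_not_dvd Nat.prime_three).2 ht).symm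
  · have h : (t : ℂ) * (8 * (k : ℂ) / (t : ℂ)) = algebraMap ℤ ℂ (8 * k) := by
      have : (t : ℂ) ≠ 0 := Nat.cast_ne_zero.mpr ht0
      simp only [eq_intCast, Int.cast_mul, Int.cast_ofNat]
      field_simp
    rw [h]
    exact isIntegral_algebraMap

/-- **F-construction** (`ℓ = 3`, `p ≡ 1 mod 3`): from the Eisenstein series `e` and a cusp form
`g ≡ δ mod 3^{v₃(p-1)}`, a weight-2 form `A` on `Γ₀(p)` whose `q`-expansion is `1 + 3 H` with `H`
`3`-integral. -/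
theorem c3b_exists_F (p : ℕ) [Fact p.Prime] (hp3 : p % 3 = 1)
    (e : ModularForm (Gamma0 p) 2)
    (he0 : PowerSeries.coeff 0 (qExpansion 1 e) = ((p : ℂ) - 1) / 24)
    (hen : ∀ n : ℕ, 1 ≤ n → PowerSeries.coeff n (qExpansion 1 e) = (sigP p n : ℂ))
    (g : CuspForm (Gamma0 p) 2) (hg : IsEisCongr p (3 ^ padicValNat 3 (p - 1)) g) :
    ∃ (A : ModularForm (Gamma0 p) 2) (H : PowerSeries (lintRing 3)),
      toC 3 (1 + PowerSeries.C (3 : lintRing 3) * H) = qExpansion 1 A := by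
  have hp : p.Prime := Fact.out
  obtain ⟨M', t, hM, hpt, h3t, hM0, ht0⟩ := c3b_arith p hp hp3
  rw [hM] at hg
  choose m hm hcong using hg
  have hdiv : ∀ n, 1 ≤ n → ((3 * M' : ℕ) : ℤ) ∣ (sigP p n : ℤ) - m n := by
    intro n hn
    have := hcong n hn
    rw [← Int.cast_natCast (sigP p n), ZMod.intCast_eq_intCast_iff_dvd_sub] at this
    exact this
  set k : ℕ → ℤ := fun n => ((sigP p n : ℤ) - m n) / ((3 * M' : ℕ) : ℤ) with hk
  have hkn : ∀ n, 1 ≤ n → (sigP p n : ℤ) - m n = ((3 * M' : ℕ) : ℤ) * k n := by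
    intro n hn
    exact (Int.mul_ediv_cancel' (hdiv n hn)).symm
  set H : PowerSeries (lintRing 3) := PowerSeries.mk fun n =>
    if n = 0 then 0 else ⟨(8 * (k n : ℂ)) / (t : ℂ), c3b_mem t h3t (k n)⟩ with hH
  set c : ℂ := ((p : ℂ) - 1) / 24 with hc
  have hpC : (p : ℂ) - 1 = 3 * (M' : ℂ) * (t : ℂ) := by
    have h1 : 1 ≤ p := hp.one_le
    have h2 : ((p - 1 : ℕ) : ℂ) = (p : ℂ) - 1 := by
      rw [Nat.cast_sub h1, Nat.cast_one]
    rw [← h2, hpt]
    push_cast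
    ring
  have hM0' : (M' : ℂ) ≠ 0 := Nat.cast_ne_zero.mpr hM0
  have ht0' : (t : ℂ) ≠ 0 := Nat.cast_ne_zero.mpr ht0
  have hc0 : c ≠ 0 := by
    rw [hc, hpC]
    have : (3 : ℂ) * (M' : ℂ) * (t : ℂ) ≠ 0 := mul_ne_zero (mul_ne_zero (by norm_num) hM0') ht0'
    exact div_ne_zero this (by norm_num)
  have hΓ := CongruenceSubgroup.one_mem_strictPeriods_Gamma0 p
  refine ⟨c⁻¹ • (e - (g : ModularForm (Gamma0 p) 2)), H, ?_⟩
  rw [FunLike.coe_smul, ModularForm.qExpansion_smul one_pos hΓ, FunLike.coe_sub,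
    ModularForm.qExpansion_sub one_pos hΓ]
  have hg0 : PowerSeries.coeff 0 (qExpansion 1 ((g : ModularForm (Gamma0 p) 2))) = 0 :=
    CuspFormClass.qExpansion_coeff_zero g one_pos hΓ
  have hgn : ∀ n, PowerSeries.coeff n (qExpansion 1 ((g : ModularForm (Gamma0 p) 2))) = (m n : ℂ) :=
    fun n => hm n
  ext n
  rw [PowerSeries.coeff_smul, map_sub, toC, PowerSeries.coeff_map, map_add,
    PowerSeries.coeff_C_mul, hH, PowerSeries.coeff_mk, PowerSeries.coeff_one]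
  by_cases hn : n = 0
  · subst hn
    rw [he0, hg0]
    simp only [if_true, mul_zero, add_zero, sub_zero, map_one, smul_eq_mul]
    exact (inv_mul_cancel₀ hc0).symm
  · have hn1 : 1 ≤ n := Nat.one_le_iff_ne_zero.mpr hn
    rw [hen n hn1, hgn n]
    simp only [hn, if_false, zero_add, smul_eq_mul, map_mul, Subring.coe_subtype]
    have h1 : ((sigP p n : ℕ) : ℂ) - (m n : ℂ) = 3 * (M' : ℂ) * (k n : ℂ) := by
      have := congrArg (fun x : ℤ => (x : ℂ)) (hkn n hn1)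
      simpa using this
    rw [h1, hc, hpC]
    have h3 : (((3 : lintRing 3) : lintRing 3) : ℂ) = 3 := rfl
    rw [h3]
    field_simp
    ring

end

end Fermat.Agent.S16x
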