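import Fermat.Agent.S16x.CaseThreeB_F
import Fermat.Agent.S16x.CaseThreeB_Core

/-!
# S16 project, CASE_ThreeB (part 3): assembly, with the statements of AN2 (traces to level one)
and AN3 (Eisenstein series of level `p`) as hypotheses, in the exact form of `Spec.lean`.
-/

set_option autoImplicit false

open UpperHalfPlane ModularForm ModularFormClass CongruenceSubgroup MatrixGroups
open scoped Manifold
open Fermat.Agent.S23x (IsMF IsMF1)

namespace Fermat.Agent.S16x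

noncomputable section

theorem c3b_main (p : ℕ) [Fact p.Prime] (hp3 : p % 3 = 1)
    (hAN3 : ∃ e : ModularForm (Gamma0 p) 2,
      PowerSeries.coeff 0 (qExpansion 1 e) = ((p : ℂ) - 1) / 24 ∧
      ∀ n : ℕ, 1 ≤ n → PowerSeries.coeff n (qExpansion 1 e) = (sigP p n : ℂ))
    (hAN2 : ∀ (A : ModularForm (Gamma0 p) 2) {k : ℕ} {G : ℍ → ℂ} (_ : IsMF1 (k : ℤ) G),
      ∃ f : ℍ → ℂ, IsMF1 ((k + 2 : ℕ) : ℤ) f ∧
        qExpansion 1 f =
          qExpansion 1 A * PowerSeries.expand p (Fact.out : p.Prime).ne_zero (qExpansion 1 G)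
            - ((p : ℂ)⁻¹) ^ k • UPS p (UPS p (qExpansion 1 A) * qExpansion 1 G))
    (hAN2V : ∀ {k : ℕ} (_ : 1 ≤ k) {G : ℍ → ℂ} (_ : IsMF1 (k : ℤ) G),
      ∃ f : ℍ → ℂ, IsMF1 (k : ℤ) f ∧
        qExpansion 1 f = PowerSeries.expand p (Fact.out : p.Prime).ne_zero (qExpansion 1 G)
            + ((p : ℂ)⁻¹) ^ (k - 1) • UPS p (qExpansion 1 G))
    (g : CuspForm (Gamma0 p) 2) (hg : IsEisCongr p (3 ^ padicValNat 3 (p - 1)) g) : False := by
  obtain ⟨e, he0, hen⟩ := hAN3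
  obtain ⟨A, H, hA⟩ := c3b_exists_F p hp3 e he0 hen g hg
  obtain ⟨f14, h14, h14q⟩ := hAN2 A c3b_isMF1_discriminant
  obtain ⟨f12, h12, h12q⟩ := hAN2V (k := 12) (by norm_num) c3b_isMF1_discriminant
  exact c3b_core p hp3 A H hA f14 f12 h14 h14q h12 h12q

end

end Fermat.Agent.S16x
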