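import Mathlib
import Fermat.Prelude.Def_CuspForm_HeckeLocal
import Fermat.Prelude.Def_CuspForm_HeckeEvalForms
import Fermat.Prelude.Def_HeckeGalois_EichlerShimura
import Fermat.Prelude.Def_ModularCurve_PeriodHomPair
import Fermat.Agent.S21x.PeriodMap

/-!
# S16 project, L2 (non-analytic half): `charInvolution` commutes with `cohOpGen`,
and the Hecke-equivariance of `periodHomPair` from that of `periodMap`.
Prefix `cei_`.  (helper75)
-/

set_option autoImplicit false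

open UpperHalfPlane CongruenceSubgroup ModularCurve ModularCurve.Period CuspForm
open scoped MatrixGroups

namespace Fermat.Agent.S16x

noncomputable section

/-- The standard representatives of the Hecke double coset at `ℓ`, level `N` (verbatim the
`heckeReps` of `SpecLower.lean` / `CohHecke.lean`; kept under a private name so that this file does
not depend on L1). -/
def cei_reps (N ℓ : ℕ) : Finset (Matrix (Fin 2) (Fin 2) ℤ) :=
  (Finset.range ℓ).image (fun j : ℕ => !![1, (j : ℤ); 0, (ℓ : ℤ)]) ∪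
    (if ℓ ∣ N then ∅ else {!![(ℓ : ℤ), 0; 0, 1]})

/-- membership in `cei_reps`, unfolded -/
theorem cei_mem_reps {N ℓ : ℕ} {A : Matrix (Fin 2) (Fin 2) ℤ} :
    A ∈ cei_reps N ℓ ↔
      (∃ j : ℕ, j < ℓ ∧ A = !![1, (j : ℤ); 0, (ℓ : ℤ)]) ∨
        (¬ ℓ ∣ N ∧ A = !![(ℓ : ℤ), 0; 0, 1]) := by
  unfold cei_reps
  rw [Finset.mem_union, Finset.mem_image]
  constructor
  · rintro (⟨j, hj, rfl⟩ | h)
    · exact Or.inl ⟨j, Finset.mem_range.mp hj, rfl⟩
    · right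
      by_cases hd : ℓ ∣ N
      · simp [hd] at h
      · simp [hd] at h
        exact ⟨hd, h⟩
  · rintro (⟨j, hj, rfl⟩ | ⟨hd, rfl⟩)
    · exact Or.inl ⟨j, Finset.mem_range.mpr hj, rfl⟩
    · right; simp [hd]

/-- the translation `T = [[1,1],[0,1]]` as an element of `Γ₀(N)` -/
def cei_T (N : ℕ) : Gamma0 N :=
  ⟨ModularGroup.T, by
    rw [Gamma0_mem]
    simp [ModularGroup.T]⟩

theorem cei_T_coe (N : ℕ) :
    (((cei_T N : Gamma0 N) : SL(2, ℤ)) : Matrix (Fin 2) (Fin 2) ℤ) = !![1, 1; 0, 1] := by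
  simp [cei_T, ModularGroup.T]

/-- the correcting element `v_A ∈ {1, T}` -/
def cei_v (N : ℕ) (A : Matrix (Fin 2) (Fin 2) ℤ) : Gamma0 N :=
  if A 0 1 = 0 then 1 else cei_T N

/-- `σ(A) = v_A · J(A)` -/
def cei_sigma (N : ℕ) (A : Matrix (Fin 2) (Fin 2) ℤ) : Matrix (Fin 2) (Fin 2) ℤ :=
  (((cei_v N A : Gamma0 N) : SL(2, ℤ)) : Matrix (Fin 2) (Fin 2) ℤ) * jConjMat A

theorem cei_sigma_upper (N ℓ j : ℕ) (hj : j < ℓ) :
    cei_sigma N !![1, (j : ℤ); 0, (ℓ : ℤ)] =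
      !![1, (((ℓ - j) % ℓ : ℕ) : ℤ); 0, (ℓ : ℤ)] := by
  unfold cei_sigma cei_v
  by_cases h0 : j = 0
  · subst h0
    simp [jConjMat]
  · have hne : (!![1, (j : ℤ); 0, (ℓ : ℤ)] : Matrix (Fin 2) (Fin 2) ℤ) 0 1 ≠ 0 := by
      simpa using h0
    rw [if_neg hne, cei_T_coe]
    have hlt : ℓ - j < ℓ := by omega
    rw [Nat.mod_eq_of_lt hlt]
    have : ((ℓ - j : ℕ) : ℤ) = (ℓ : ℤ) - (j : ℤ) := by
      rw [Nat.cast_sub hj.le]
    rw [this]
    ext a b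
    fin_cases a <;> fin_cases b <;> simp [jConjMat, Matrix.mul_apply, Fin.sum_univ_two]
    ring

theorem cei_sigma_diag (N ℓ : ℕ) :
    cei_sigma N !![(ℓ : ℤ), 0; 0, 1] = !![(ℓ : ℤ), 0; 0, 1] := by
  unfold cei_sigma cei_v
  simp [jConjMat]

theorem cei_sigma_mem {N ℓ : ℕ} {A : Matrix (Fin 2) (Fin 2) ℤ} (hA : A ∈ cei_reps N ℓ) :
    cei_sigma N A ∈ cei_reps N ℓ := by
  rw [cei_mem_reps] at hA ⊢
  rcases hA with ⟨j, hj, rfl⟩ | ⟨hd, rfl⟩
  · left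
    refine ⟨(ℓ - j) % ℓ, Nat.mod_lt _ (by omega), cei_sigma_upper N ℓ j hj⟩
  · right
    exact ⟨hd, cei_sigma_diag N ℓ⟩

theorem cei_sigma_sigma {N ℓ : ℕ} {A : Matrix (Fin 2) (Fin 2) ℤ} (hA : A ∈ cei_reps N ℓ) :
    cei_sigma N (cei_sigma N A) = A := by
  rw [cei_mem_reps] at hA
  rcases hA with ⟨j, hj, rfl⟩ | ⟨hd, rfl⟩
  · rw [cei_sigma_upper N ℓ j hj, cei_sigma_upper N ℓ _ (Nat.mod_lt _ (by omega))]
    have : (ℓ - (ℓ - j) % ℓ) % ℓ = j := by
      by_cases h0 : j = 0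
      · subst h0; simp
      · have hlt : ℓ - j < ℓ := by omega
        rw [Nat.mod_eq_of_lt hlt]
        have : ℓ - (ℓ - j) = j := by omega
        rw [this, Nat.mod_eq_of_lt hj]
    rw [this]
  · rw [cei_sigma_diag, cei_sigma_diag]

/-- coercion of `jConjGamma0` to matrices -/
theorem cei_jConj_coe (N : ℕ) (g : Gamma0 N) :
    (((jConjGamma0 N g : Gamma0 N) : SL(2, ℤ)) : Matrix (Fin 2) (Fin 2) ℤ) =
      jConjMat (((g : Gamma0 N) : SL(2, ℤ)) : Matrix (Fin 2) (Fin 2) ℤ) := by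
  rw [jConjGamma0_coe, jConjSL_coe]

theorem cei_coe_mul (N : ℕ) (a b : Gamma0 N) :
    (((a * b : Gamma0 N) : SL(2, ℤ)) : Matrix (Fin 2) (Fin 2) ℤ) =
      (((a : Gamma0 N) : SL(2, ℤ)) : Matrix (Fin 2) (Fin 2) ℤ) *
        (((b : Gamma0 N) : SL(2, ℤ)) : Matrix (Fin 2) (Fin 2) ℤ) := by
  rw [Subgroup.coe_mul, Matrix.SpecialLinearGroup.coe_mul]

theorem cei_coe_inv_mul (N : ℕ) (a : Gamma0 N) (X : Matrix (Fin 2) (Fin 2) ℤ) :
    (((a⁻¹ : Gamma0 N) : SL(2, ℤ)) : Matrix (Fin 2) (Fin 2) ℤ) *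
        ((((a : Gamma0 N) : SL(2, ℤ)) : Matrix (Fin 2) (Fin 2) ℤ) * X) = X := by
  rw [← Matrix.mul_assoc, ← cei_coe_mul, inv_mul_cancel]
  simp

/-- **L2 (b)**, generic form: any operator `op` on `Hom(Γ₀(N), B)` which is computed by the
relations `h_A · τ(A) = A · g` over the representatives `cei_reps N ℓ` commutes with the
involution `ι = charInvolution`. -/
theorem cei_charInvolution_comm (N : ℕ) (ℓ : ℕ) {B : Type*} [AddCommGroup B]
    (op : (Additive (Gamma0 N) →+ B) → (Additive (Gamma0 N) →+ B))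
    (hrel : ∀ g : Gamma0 N, ∃ (τ : Matrix (Fin 2) (Fin 2) ℤ → Matrix (Fin 2) (Fin 2) ℤ)
      (h : Matrix (Fin 2) (Fin 2) ℤ → Gamma0 N),
      Set.BijOn τ (cei_reps N ℓ) (cei_reps N ℓ) ∧
      ∀ A ∈ cei_reps N ℓ,
        (((h A : Gamma0 N) : SL(2, ℤ)) : Matrix (Fin 2) (Fin 2) ℤ) * τ A =
          A * (((g : Gamma0 N) : SL(2, ℤ)) : Matrix (Fin 2) (Fin 2) ℤ))
    (happly : ∀ (ψ : Additive (Gamma0 N) →+ B) (g : Gamma0 N)
      (τ : Matrix (Fin 2) (Fin 2) ℤ → Matrix (Fin 2) (Fin 2) ℤ)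
      (h : Matrix (Fin 2) (Fin 2) ℤ → Gamma0 N),
      (∀ A ∈ cei_reps N ℓ, τ A ∈ cei_reps N ℓ) →
      (∀ A ∈ cei_reps N ℓ,
        (((h A : Gamma0 N) : SL(2, ℤ)) : Matrix (Fin 2) (Fin 2) ℤ) * τ A =
          A * (((g : Gamma0 N) : SL(2, ℤ)) : Matrix (Fin 2) (Fin 2) ℤ)) →
      op ψ (Additive.ofMul g) = ∑ A ∈ cei_reps N ℓ, ψ (Additive.ofMul (h A)))
    (ψ : Additive (Gamma0 N) →+ B) :
    charInvolution N ℤ B (op ψ) = op (charInvolution N ℤ B ψ) := by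
  refine AddMonoidHom.ext fun γ => ?_
  obtain ⟨g, rfl⟩ := Additive.ofMul.surjective γ
  obtain ⟨τ, h, hτ, hh⟩ := hrel g
  -- right-hand side
  have hR : op (charInvolution N ℤ B ψ) (Additive.ofMul g) =
      ∑ A ∈ cei_reps N ℓ, ψ (Additive.ofMul (jConjGamma0 N (h A))) := by
    rw [happly _ g τ h (fun A hA => hτ.mapsTo hA) hh]
    rfl
  -- left-hand side
  have hL : charInvolution N ℤ B (op ψ) (Additive.ofMul g) =
      op ψ (Additive.ofMul (jConjGamma0 N g)) := rfl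
  rw [hL, hR]
  -- the solution of the relations for `J g`
  set τ' : Matrix (Fin 2) (Fin 2) ℤ → Matrix (Fin 2) (Fin 2) ℤ :=
    fun B => cei_sigma N (τ (cei_sigma N B)) with hτ'
  set h' : Matrix (Fin 2) (Fin 2) ℤ → Gamma0 N :=
    fun B => cei_v N (cei_sigma N B) * jConjGamma0 N (h (cei_sigma N B)) *
      (cei_v N (τ (cei_sigma N B)))⁻¹ with hh'
  have hτ'mem : ∀ B ∈ cei_reps N ℓ, τ' B ∈ cei_reps N ℓ := fun B hB =>
    cei_sigma_mem (hτ.mapsTo (cei_sigma_mem hB))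
  have hrel' : ∀ B ∈ cei_reps N ℓ,
      (((h' B : Gamma0 N) : SL(2, ℤ)) : Matrix (Fin 2) (Fin 2) ℤ) * τ' B =
        B * (((jConjGamma0 N g : Gamma0 N) : SL(2, ℤ)) : Matrix (Fin 2) (Fin 2) ℤ) := by
    intro B hB
    have hA := cei_sigma_mem hB
    set A := cei_sigma N B with hAdef
    have hBA : B = cei_sigma N A := (cei_sigma_sigma hB).symm
    have h1 := hh A hA
    -- apply `J`
    have h2 : jConjMat ((((h A : Gamma0 N) : SL(2, ℤ)) : Matrix (Fin 2) (Fin 2) ℤ)) *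
        jConjMat (τ A) = jConjMat A *
          jConjMat ((((g : Gamma0 N) : SL(2, ℤ)) : Matrix (Fin 2) (Fin 2) ℤ)) := by
      rw [← jConjMat_mul, ← jConjMat_mul, h1]
    show (((cei_v N A * jConjGamma0 N (h A) * (cei_v N (τ A))⁻¹ : Gamma0 N) : SL(2, ℤ)) :
        Matrix (Fin 2) (Fin 2) ℤ) * cei_sigma N (τ A) = _
    rw [cei_coe_mul, cei_coe_mul, cei_jConj_coe, cei_jConj_coe]
    conv_lhs => rw [cei_sigma]
    rw [Matrix.mul_assoc, cei_coe_inv_mul, Matrix.mul_assoc, h2, hBA, cei_sigma,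
      Matrix.mul_assoc]
  rw [happly ψ (jConjGamma0 N g) τ' h' hτ'mem hrel']
  -- reindex by `σ`
  have hre : ∑ B ∈ cei_reps N ℓ, ψ (Additive.ofMul (h' B)) =
      ∑ A ∈ cei_reps N ℓ, ψ (Additive.ofMul (cei_v N A * jConjGamma0 N (h A) *
        (cei_v N (τ A))⁻¹)) := by
    refine Finset.sum_nbij' (cei_sigma N) (cei_sigma N) (fun B hB => cei_sigma_mem hB)
      (fun A hA => cei_sigma_mem hA) (fun B hB => cei_sigma_sigma hB)
      (fun A hA => cei_sigma_sigma hA) (fun B hB => rfl)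
  rw [hre]
  have hsplit : ∀ A, ψ (Additive.ofMul (cei_v N A * jConjGamma0 N (h A) *
        (cei_v N (τ A))⁻¹)) =
      ψ (Additive.ofMul (cei_v N A)) + ψ (Additive.ofMul (jConjGamma0 N (h A))) -
        ψ (Additive.ofMul (cei_v N (τ A))) := by
    intro A
    rw [ofMul_mul, ofMul_mul, ofMul_inv, map_add, map_add, map_neg, sub_eq_add_neg]
  simp_rw [hsplit]
  rw [Finset.sum_sub_distrib, Finset.sum_add_distrib]
  have hperm : ∑ A ∈ cei_reps N ℓ, ψ (Additive.ofMul (cei_v N (τ A))) =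
      ∑ A ∈ cei_reps N ℓ, ψ (Additive.ofMul (cei_v N A)) :=
    Finset.sum_nbij τ (fun A hA => hτ.mapsTo hA) hτ.injOn hτ.surjOn (fun A hA => rfl)
  rw [hperm]
  abel

/-- **L2 (c)**, generic form: if an additive operator `op` on `Hom(Γ₀(N), ℂ)` commutes with `ι`
and `periodMap N (t f) = op (periodMap N f)` for an endomorphism `t` of `S₂(Γ₀(N))`, then
`periodHomPair N (t f, t g) = op (periodHomPair N (f, g))`. -/
theorem cei_periodHomPair_comm (N : ℕ) [NeZero N]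
    (op : (Additive (Gamma0 N) →+ ℂ) →+ (Additive (Gamma0 N) →+ ℂ))
    (hι : ∀ φ : Additive (Gamma0 N) →+ ℂ,
      charInvolution N ℤ ℂ (op φ) = op (charInvolution N ℤ ℂ φ))
    (t : CuspForm (Gamma0 N) 2 → CuspForm (Gamma0 N) 2)
    (hP : ∀ f : CuspForm (Gamma0 N) 2, periodMap N (t f) = op (periodMap N f))
    (f g : CuspForm (Gamma0 N) 2) :
    periodHomPair N (t f, t g) = op (periodHomPair N (f, g)) := by
  have hι' : ∀ φ : Additive (Gamma0 N) →+ ℂ,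
      charInvolution N ℂ ℂ (op φ) = op (charInvolution N ℂ ℂ φ) := fun φ => hι φ
  rw [Fermat.Agent.S21x.periodHomPair_apply, Fermat.Agent.S21x.periodHomPair_apply, hP f, hP g,
    hι', hι', map_add, map_add, map_sub]

end

end Fermat.Agent.S16x
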