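import Fermat.Agent.S16x.CohHecke
import Fermat.Agent.S16x.CohEquivInv

/-!
# S16 project, L2 (b): `charInvolution` commutes with `cohOpGen` (exact `SpecLower` statement),
and the reduction of `periodHomPair_heckeFormsGen` to `periodMap_heckeFormsGen`.  (helper75)
-/

set_option autoImplicit false

open UpperHalfPlane CongruenceSubgroup ModularCurve ModularCurve.Period CuspForm
open scoped MatrixGroups

namespace Fermat.Agent.S16x

/-- `ι` commutes with the Hecke operators (conjugation by `diag(1,-1)` permutes `heckeReps`). -/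
theorem cei_charInvolution_cohOpGen (N : ℕ) [NeZero N] (ℓ : Nat.Primes) {B : Type*} [AddCommGroup B]
    (ψ : Additive (Gamma0 N) →+ B) :
    charInvolution N ℤ B (cohOpGen N ℓ ψ) = cohOpGen N ℓ (charInvolution N ℤ B ψ) :=
  cei_charInvolution_comm N ℓ (fun ψ => cohOpGen N ℓ ψ) (exists_heckeReps_rel N ℓ)
    (cohOpGen_apply N ℓ) ψ

/-- `periodHomPair_heckeFormsGen` from `periodMap_heckeFormsGen` (L2a). -/
theorem cei_periodHomPair_heckeFormsGen_of (N : ℕ) [NeZero N] (ℓ : Nat.Primes)
    (hP : ∀ f : CuspForm (Gamma0 N) 2,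
      periodMap N (((heckeFormsGen N 2 ℓ : heckeAlgebra N 2 ∅) :
        Module.End ℂ (CuspForm (Gamma0 N) 2)) f) = cohOpGen N ℓ (periodMap N f))
    (f g : CuspForm (Gamma0 N) 2) :
    periodHomPair N
        ((((heckeFormsGen N 2 ℓ : heckeAlgebra N 2 ∅) :
            Module.End ℂ (CuspForm (Gamma0 N) 2)) f),
         (((heckeFormsGen N 2 ℓ : heckeAlgebra N 2 ∅) :
            Module.End ℂ (CuspForm (Gamma0 N) 2)) g)) =
      cohOpGen N ℓ (periodHomPair N (f, g)) :=
  cei_periodHomPair_comm N (cohOpGen N ℓ) (cei_charInvolution_cohOpGen N ℓ)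
    (fun f => ((heckeFormsGen N 2 ℓ : heckeAlgebra N 2 ∅) :
            Module.End ℂ (CuspForm (Gamma0 N) 2)) f) hP f g

end Fermat.Agent.S16x
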