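/-
S16 project, lower bound, module L2a (analytic core): the normalised primitive of `T_ℓ f` / `U_ℓ f`
is the sum of the translates of the normalised primitive of `f` over the standard Hecke
representatives.  Proof: both sides are primitives of the same function (chain rule) and both tend
to `0` at `i∞`; uniqueness of such primitives (`S22x.IsPrimitiveOf.eq_of_isZeroAtImInfty`).
(helper46)
-/
import Fermat.Prelude.Def_CuspForm_HeckeEvalForms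
import Fermat.Agent.S21x.PeriodMap

set_option autoImplicit false

open UpperHalfPlane CongruenceSubgroup Filter Topology ModularCurve ModularCurve.Period
open scoped MatrixGroups Real Manifold ModularForm

namespace Fermat.Agent.S16x

/-- chain rule for a primitive composed with a map of `ℍ` that is affine in the coordinate. -/
theorem l2_hasDerivAt_affine {F F' : ℍ → ℂ} (hF : S22x.IsPrimitiveOf F F') (A : ℍ → ℍ) (a b : ℂ)
    (hA : ∀ τ : ℍ, ((A τ : ℍ) : ℂ) = a * (τ : ℂ) + b) (τ : ℍ) :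
    HasDerivAt ((fun z => F (A z)) ∘ ofComplex) (a * F' (A τ)) (τ : ℂ) := by
  have h1 : HasDerivAt (fun w : ℂ => a * w + b) a (τ : ℂ) := by
    simpa using ((hasDerivAt_id (τ : ℂ)).const_mul a).add_const b
  have h2 : HasDerivAt (F ∘ ofComplex) (F' (A τ)) (a * (τ : ℂ) + b) := by
    rw [← hA τ]
    exact hF (A τ)
  have h3 := HasDerivAt.comp (τ : ℂ) h2 h1
  rw [mul_comm] at h3
  refine h3.congr_of_eventuallyEq ?_
  filter_upwards [isOpen_upperHalfPlaneSet.mem_nhds τ.2] with w hw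
  simp only [Function.comp_apply]
  congr 1
  have h4 : ((A (ofComplex w) : ℍ) : ℂ) = a * w + b := by
    rw [hA, ofComplex_apply_of_im_pos hw]
  rw [← h4, ofComplex_apply]


variable {N : ℕ} [NeZero N]

/-- `prim f` is a primitive of `f`. -/
theorem l2_isPrimitiveOf_prim (f : CuspForm (Gamma0 N) 2) : S22x.IsPrimitiveOf (S21x.prim f) (⇑f) :=
  fun τ => S21x.prim_hasDerivAt f τ

theorem l2_hasDerivAt_heckeMatrix (f : CuspForm (Gamma0 N) 2) {ℓ : ℕ} (hℓ : ℓ ≠ 0) (j : ℕ) (τ : ℍ) :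
    HasDerivAt ((fun z => S21x.prim f (ModularForm.heckeMatrix ℓ j • z)) ∘ ofComplex)
      ((ℓ : ℂ)⁻¹ * f (ModularForm.heckeMatrix ℓ j • τ)) (τ : ℂ) := by
  refine l2_hasDerivAt_affine (l2_isPrimitiveOf_prim f) (fun z => ModularForm.heckeMatrix ℓ j • z)
    (ℓ : ℂ)⁻¹ ((j : ℂ) / ℓ) (fun z => ?_) τ
  rw [ModularForm.coe_heckeMatrix_smul hℓ]
  ring

theorem l2_hasDerivAt_heckeDiagMatrix (f : CuspForm (Gamma0 N) 2) {ℓ : ℕ} (hℓ : ℓ ≠ 0) (τ : ℍ) :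
    HasDerivAt ((fun z => S21x.prim f (ModularForm.heckeDiagMatrix ℓ • z)) ∘ ofComplex)
      ((ℓ : ℂ) * f (ModularForm.heckeDiagMatrix ℓ • τ)) (τ : ℂ) := by
  refine l2_hasDerivAt_affine (l2_isPrimitiveOf_prim f) (fun z => ModularForm.heckeDiagMatrix ℓ • z)
    (ℓ : ℂ) 0 (fun z => ?_) τ
  rw [ModularForm.coe_heckeDiagMatrix_smul hℓ]
  ring

/-- a map of `ℍ` scaling the imaginary part by a positive constant preserves `i∞`. -/
theorem l2_tendsto_atImInfty (A : ℍ → ℍ) (c : ℝ) (hc : 0 < c) (hA : ∀ z : ℍ, (A z).im = c * z.im) :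
    Tendsto A atImInfty atImInfty := by
  rw [atImInfty, tendsto_comap_iff]
  have h : (UpperHalfPlane.im ∘ A) = fun z : ℍ => c * z.im := funext hA
  rw [h]
  exact (tendsto_comap (f := UpperHalfPlane.im) (x := atTop)).const_mul_atTop hc

theorem l2_tendsto_heckeMatrix {ℓ : ℕ} (hℓ : ℓ ≠ 0) (j : ℕ) :
    Tendsto (fun z : ℍ => ModularForm.heckeMatrix ℓ j • z) atImInfty atImInfty := by
  have hℓ' : (0 : ℝ) < ℓ := by exact_mod_cast Nat.pos_of_ne_zero hℓ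
  refine l2_tendsto_atImInfty _ ((ℓ : ℝ)⁻¹) (inv_pos.mpr hℓ') (fun z => ?_)
  have h := congrArg Complex.im (ModularForm.coe_heckeMatrix_smul hℓ j z)
  rw [UpperHalfPlane.coe_im] at h
  rw [h]
  have h2 : ((((z : ℂ) + (j : ℂ)) / (ℓ : ℂ))).im = (z : ℂ).im / ℓ := by
    have : ((z : ℂ) + (j : ℂ)) / (ℓ : ℂ) = (((z : ℂ) + ((j : ℝ) : ℂ)) / ((ℓ : ℝ) : ℂ)) := by
      push_cast; rfl
    rw [this, Complex.div_ofReal_im]
    simp
  rw [h2, UpperHalfPlane.coe_im]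
  field_simp

theorem l2_tendsto_heckeDiagMatrix {ℓ : ℕ} (hℓ : ℓ ≠ 0) :
    Tendsto (fun z : ℍ => ModularForm.heckeDiagMatrix ℓ • z) atImInfty atImInfty := by
  have hℓ' : (0 : ℝ) < ℓ := by exact_mod_cast Nat.pos_of_ne_zero hℓ
  refine l2_tendsto_atImInfty _ (ℓ : ℝ) hℓ' (fun z => ?_)
  have h := congrArg Complex.im (ModularForm.coe_heckeDiagMatrix_smul hℓ z)
  rw [UpperHalfPlane.coe_im] at h
  rw [h]
  have : ((ℓ : ℂ) * (z : ℂ)) = (((ℓ : ℝ) : ℂ) * (z : ℂ)) := by push_cast; rfl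
  rw [this, Complex.im_ofReal_mul, UpperHalfPlane.coe_im]

/-- the candidate primitive of `U_ℓ f`: the sum of `prim f` over the representatives
`[[1,j],[0,ℓ]]`. -/
noncomputable def l2_GU (f : CuspForm (Gamma0 N) 2) (ℓ : ℕ) : ℍ → ℂ :=
  fun z => ∑ j ∈ Finset.range ℓ, S21x.prim f (ModularForm.heckeMatrix ℓ j • z)

/-- the candidate primitive of `T_ℓ f`. -/
noncomputable def l2_GT (f : CuspForm (Gamma0 N) 2) (ℓ : ℕ) : ℍ → ℂ :=
  fun z => l2_GU f ℓ z + S21x.prim f (ModularForm.heckeDiagMatrix ℓ • z)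

theorem l2_GU_isPrimitiveOf (f : CuspForm (Gamma0 N) 2) {ℓ : ℕ} (hℓ : ℓ ≠ 0) :
    S22x.IsPrimitiveOf (l2_GU f ℓ) (ModularForm.heckeU 2 ℓ ⇑f) := by
  intro τ
  have h := HasDerivAt.fun_sum (u := Finset.range ℓ)
    (fun j _ => l2_hasDerivAt_heckeMatrix f hℓ j τ)
  rw [ModularForm.heckeU_apply 2 hℓ, Finset.mul_sum]
  exact h

theorem l2_GT_isPrimitiveOf (f : CuspForm (Gamma0 N) 2) {ℓ : ℕ} (hℓ : ℓ ≠ 0) :
    S22x.IsPrimitiveOf (l2_GT f ℓ) (ModularForm.heckeT 2 ℓ ⇑f) := by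
  intro τ
  have h1 := l2_GU_isPrimitiveOf f hℓ τ
  have h2 := l2_hasDerivAt_heckeDiagMatrix f hℓ τ
  have h3 := h1.add h2
  rw [ModularForm.heckeT_apply 2 hℓ, ← ModularForm.heckeU_apply 2 hℓ]
  have h4 : ((ℓ : ℂ) ^ ((2 : ℤ) - 1)) = (ℓ : ℂ) := by norm_num
  rw [h4]
  exact h3

theorem l2_GU_tendsto (f : CuspForm (Gamma0 N) 2) {ℓ : ℕ} (hℓ : ℓ ≠ 0) :
    Tendsto (l2_GU f ℓ) atImInfty (𝓝 0) := by
  have h : ∀ j ∈ Finset.range ℓ,
      Tendsto (fun z : ℍ => S21x.prim f (ModularForm.heckeMatrix ℓ j • z)) atImInfty (𝓝 0) :=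
    fun j _ => (S21x.prim_tendsto_zero f).comp (l2_tendsto_heckeMatrix hℓ j)
  have h2 := tendsto_finsetSum (Finset.range ℓ) h
  rw [Finset.sum_const_zero] at h2
  exact h2

theorem l2_GT_tendsto (f : CuspForm (Gamma0 N) 2) {ℓ : ℕ} (hℓ : ℓ ≠ 0) :
    Tendsto (l2_GT f ℓ) atImInfty (𝓝 0) := by
  have h1 := l2_GU_tendsto f hℓ
  have h2 : Tendsto (fun z : ℍ => S21x.prim f (ModularForm.heckeDiagMatrix ℓ • z)) atImInfty (𝓝 0) :=
    (S21x.prim_tendsto_zero f).comp (l2_tendsto_heckeDiagMatrix hℓ)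
  have h3 := h1.add h2
  rw [add_zero] at h3
  exact h3

/-- the primitive of `U_ℓ f` -/
theorem l2_prim_heckeULin (f : CuspForm (Gamma0 N) 2) {ℓ : ℕ} (hℓ : ℓ ≠ 0) (hℓN : ℓ ∣ N) :
    S21x.prim (CuspForm.heckeULin 2 hℓN f) = l2_GU f ℓ :=
  S22x.IsPrimitiveOf.eq_of_isZeroAtImInfty (l2_isPrimitiveOf_prim _) (l2_GU_isPrimitiveOf f hℓ)
    (S21x.prim_tendsto_zero _) (l2_GU_tendsto f hℓ)

/-- the primitive of `T_ℓ f` -/
theorem l2_prim_heckeTLin (f : CuspForm (Gamma0 N) 2) {ℓ : ℕ} (hℓ : ℓ.Prime) (hℓN : ¬ ℓ ∣ N) :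
    S21x.prim (CuspForm.heckeTLin 2 hℓ hℓN f) = l2_GT f ℓ :=
  S22x.IsPrimitiveOf.eq_of_isZeroAtImInfty (l2_isPrimitiveOf_prim _)
    (l2_GT_isPrimitiveOf f hℓ.ne_zero) (S21x.prim_tendsto_zero _) (l2_GT_tendsto f hℓ.ne_zero)

/-- MAIN (A): the primitive of `heckeFormsGen N 2 ℓ f`. -/
theorem l2_prim_hecke (N : ℕ) [NeZero N] (ℓ : Nat.Primes) (f : CuspForm (Gamma0 N) 2) (z : ℍ) :
    S21x.prim (((CuspForm.heckeFormsGen N 2 ℓ : CuspForm.heckeAlgebra N 2 ∅) :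
        Module.End ℂ (CuspForm (Gamma0 N) 2)) f) z =
      (∑ j ∈ Finset.range (ℓ : ℕ), S21x.prim f (ModularForm.heckeMatrix ℓ j • z)) +
        (if (ℓ : ℕ) ∣ N then 0 else S21x.prim f (ModularForm.heckeDiagMatrix ℓ • z)) := by
  by_cases h : (ℓ : ℕ) ∣ N
  · rw [CuspForm.heckeFormsGen_of_dvd h, CuspForm.heckeAlgebra.coe_U, if_pos h, add_zero,
      l2_prim_heckeULin f ℓ.2.ne_zero h]
    rfl
  · rw [CuspForm.heckeFormsGen_of_not_dvd h, CuspForm.heckeAlgebra.coe_T, if_neg h,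
      l2_prim_heckeTLin f ℓ.2 h]
    rfl

end Fermat.Agent.S16x
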