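/-
S16 project, module CASE0 `ConjCalc`: shared power-series calculus for the CASE modules.
* `conjA`, `conjB` are `ℂ`-linear in the `q`-expansion;
* `deltaPS p = ∑_{n ≥ 1} σ'_p(n) Xⁿ ∈ ℤ⟦X⟧` and `UPS p (deltaPS p) = deltaPS p`;
* integer power series inside `lintRing ℓ`, `ℂ`, `kappa ℓ`.
-/
import Fermat.Agent.S16x.Defs

set_option autoImplicit false

namespace Fermat.Agent.S16x

open PowerSeries ModularFormClass UpperHalfPlane

noncomputable section

/-! ### linearity of `UPS`, `conjA`, `conjB` -/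

theorem cc_UPS_add {R : Type*} [Semiring R] (p : ℕ) (P Q : PowerSeries R) :
    UPS p (P + Q) = UPS p P + UPS p Q := by
  ext n; simp

theorem cc_UPS_smul {R : Type*} [CommSemiring R] (p : ℕ) (c : R) (P : PowerSeries R) :
    UPS p (c • P) = c • UPS p P := by
  ext n; simp

theorem cc_UPS_C {R : Type*} [Semiring R] (p : ℕ) [NeZero p] (c : R) :
    UPS p (PowerSeries.C c : PowerSeries R) = PowerSeries.C c := by
  ext n
  rw [coeff_UPS, PowerSeries.coeff_C, PowerSeries.coeff_C]
  rcases Nat.eq_zero_or_pos n with h | h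
  · simp [h]
  · have : n * p ≠ 0 := Nat.mul_ne_zero h.ne' (NeZero.ne p)
    rw [if_neg this, if_neg h.ne']

theorem cc_rescale_C {R : Type*} [CommSemiring R] (a c : R) :
    PowerSeries.rescale a (PowerSeries.C c : PowerSeries R) = PowerSeries.C c := by
  ext n
  rw [PowerSeries.coeff_rescale, PowerSeries.coeff_C]
  split_ifs with h
  · subst h; simp
  · simp

theorem cc_UPS_map {R S : Type*} [Semiring R] [Semiring S] (f : R →+* S) (p : ℕ)
    (P : PowerSeries R) : UPS p (PowerSeries.map f P) = PowerSeries.map f (UPS p P) := by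
  ext n; simp

variable (p r : ℕ) [NeZero p] [NeZero r]

theorem cc_conjA_add (a a' : PowerSeries ℂ) (x : Option (Fin p)) :
    conjA p r (a + a') x = conjA p r a x + conjA p r a' x := by
  cases x with
  | none => simp [conjA]
  | some j => simp [conjA, cc_UPS_add, smul_add]

theorem cc_conjA_smul (c : ℂ) (a : PowerSeries ℂ) (x : Option (Fin p)) :
    conjA p r (c • a) x = c • conjA p r a x := by
  cases x with
  | none => simp [conjA]
  | some j =>
    simp only [conjA, cc_UPS_smul]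
    rw [smul_comm (-(p : ℂ)⁻¹) c]
    generalize (-(p : ℂ)⁻¹ • UPS p a) = Q
    rw [PowerSeries.smul_eq_C_mul, map_mul, map_mul,
      cc_rescale_C, PowerSeries.expand_C, ← PowerSeries.smul_eq_C_mul]

theorem cc_conjB_add (b b' : PowerSeries ℂ) (y : Option (Fin r)) :
    conjB p r (b + b') y = conjB p r b y + conjB p r b' y := by
  cases y with
  | none => simp [conjB]
  | some j => simp [conjB, cc_UPS_add, smul_add]

theorem cc_conjB_smul (c : ℂ) (b : PowerSeries ℂ) (y : Option (Fin r)) :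
    conjB p r (c • b) y = c • conjB p r b y := by
  cases y with
  | none => simp [conjB]
  | some j =>
    simp only [conjB, cc_UPS_smul]
    rw [smul_comm (-(r : ℂ)⁻¹) c]
    generalize (-(r : ℂ)⁻¹ • UPS r b) = Q
    rw [PowerSeries.smul_eq_C_mul, map_mul, map_mul,
      cc_rescale_C, PowerSeries.expand_C, ← PowerSeries.smul_eq_C_mul]

/-- conjugates of a constant -/
theorem cc_conjA_C_none (c : ℂ) : conjA p r (PowerSeries.C c) none = PowerSeries.C c := by
  simp [conjA, PowerSeries.expand_C]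

theorem cc_conjA_C_some (c : ℂ) (j : Fin p) :
    conjA p r (PowerSeries.C c) (some j) = PowerSeries.C (-(p : ℂ)⁻¹ * c) := by
  simp only [conjA, cc_UPS_C]
  rw [PowerSeries.smul_eq_C_mul, ← map_mul, cc_rescale_C, PowerSeries.expand_C]

theorem cc_conjB_C_none (c : ℂ) : conjB p r (PowerSeries.C c) none = PowerSeries.C c := by
  simp [conjB, PowerSeries.expand_C]

theorem cc_conjB_C_some (c : ℂ) (i : Fin r) :
    conjB p r (PowerSeries.C c) (some i) = PowerSeries.C (-(r : ℂ)⁻¹ * c) := by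
  simp only [conjB, cc_UPS_C]
  rw [PowerSeries.smul_eq_C_mul, ← map_mul, cc_rescale_C, PowerSeries.expand_C]


/-! ### `δ_p = ∑_{n ≥ 1} σ'_p(n) Xⁿ` -/

omit [NeZero p] [NeZero r] in
theorem cc_sigP_mul_self (n : ℕ) (hp : p.Prime) (hn : n ≠ 0) : sigP p (n * p) = sigP p n := by
  unfold sigP
  congr 1
  ext d
  simp only [Finset.mem_filter, Nat.mem_divisors]
  constructor
  · rintro ⟨⟨hd, -⟩, hpd⟩
    refine ⟨⟨?_, hn⟩, hpd⟩
    have hcop : Nat.Coprime d p := (Nat.Prime.coprime_iff_not_dvd hp).mpr hpd |>.symm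
    exact hcop.dvd_of_dvd_mul_right hd
  · rintro ⟨⟨hd, -⟩, hpd⟩
    exact ⟨⟨Dvd.dvd.mul_right hd p, Nat.mul_ne_zero hn hp.ne_zero⟩, hpd⟩

omit [NeZero p] [NeZero r] in
theorem cc_sigP_one (hp : p.Prime) : sigP p 1 = 1 := by
  unfold sigP
  have : (Nat.divisors 1).filter (fun d => ¬ p ∣ d) = {1} := by
    ext d
    simp only [Nat.divisors_one, Finset.mem_filter, Finset.mem_singleton]
    constructor
    · exact fun h => h.1
    · rintro rfl
      exact ⟨rfl, fun h => hp.one_lt.ne' (Nat.dvd_one.mp h)⟩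
  rw [this]; simp

/-- `δ_p = ∑_{n ≥ 1} σ'_p(n) Xⁿ` as an integral power series -/
def deltaPS (p : ℕ) : PowerSeries ℤ :=
  PowerSeries.mk fun n => if n = 0 then 0 else (sigP p n : ℤ)

omit [NeZero p] [NeZero r] in
@[simp] theorem cc_coeff_deltaPS (n : ℕ) :
    PowerSeries.coeff n (deltaPS p) = if n = 0 then 0 else (sigP p n : ℤ) := by
  simp [deltaPS]

omit [NeZero p] [NeZero r] in
theorem cc_UPS_deltaPS (hp : p.Prime) : UPS p (deltaPS p) = deltaPS p := by
  ext n
  rw [coeff_UPS, cc_coeff_deltaPS, cc_coeff_deltaPS]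
  rcases Nat.eq_zero_or_pos n with h | h
  · simp [h]
  · have : n * p ≠ 0 := Nat.mul_ne_zero h.ne' hp.ne_zero
    rw [if_neg this, if_neg h.ne', cc_sigP_mul_self p n hp h.ne']

omit [NeZero p] [NeZero r] in
/-- the order of `δ_p` modulo anything: coefficient of `X` is `1` -/
theorem cc_coeff_one_deltaPS (hp : p.Prime) : PowerSeries.coeff 1 (deltaPS p) = 1 := by
  rw [cc_coeff_deltaPS, if_neg one_ne_zero, cc_sigP_one p hp]; rfl

omit [NeZero p] [NeZero r] in
theorem cc_coeff_zero_deltaPS : PowerSeries.coeff 0 (deltaPS p) = 0 := by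
  rw [cc_coeff_deltaPS, if_pos rfl]

omit [NeZero p] [NeZero r] in
/-- over a field: `δ_p` has order exactly `1` -/
theorem cc_order_map_deltaPS {K : Type*} [Field K] (hp : p.Prime) :
    (PowerSeries.map (Int.castRingHom K) (deltaPS p)).order = 1 := by
  apply PowerSeries.order_eq_nat.mpr
  constructor
  · rw [PowerSeries.coeff_map, cc_coeff_one_deltaPS p hp]; simp
  · intro i hi
    have : i = 0 := by omega
    subst this
    rw [PowerSeries.coeff_map, cc_coeff_zero_deltaPS]; simp

/-! ### integer power series in `lintRing ℓ`, `ℂ`, `kappa ℓ` -/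

/-- integer series viewed in `lintRing ℓ` -/
def intR (ℓ : ℕ) : PowerSeries ℤ →+* PowerSeries (lintRing ℓ) :=
  PowerSeries.map (Int.castRingHom (lintRing ℓ))

omit [NeZero p] [NeZero r] in
theorem cc_toC_intR (ℓ : ℕ) (P : PowerSeries ℤ) :
    toC ℓ (intR ℓ P) = PowerSeries.map (Int.castRingHom ℂ) P := by
  ext n
  simp [toC, intR]

omit [NeZero p] [NeZero r] in
theorem cc_redHom_intR (ℓ : ℕ) [Fact ℓ.Prime] (P : PowerSeries ℤ) :
    redHom ℓ (intR ℓ P) = PowerSeries.map (Int.castRingHom (kappa ℓ)) P := by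
  ext n
  simp [redHom, intR]

omit [NeZero p] [NeZero r] in
theorem cc_toC_C (ℓ : ℕ) (c : lintRing ℓ) : toC ℓ (PowerSeries.C c) = PowerSeries.C (c : ℂ) := by
  ext n
  simp [toC, PowerSeries.coeff_C]

omit [NeZero p] [NeZero r] in
theorem cc_redHom_C (ℓ : ℕ) [Fact ℓ.Prime] (c : lintRing ℓ) :
    redHom ℓ (PowerSeries.C c) = PowerSeries.C (resid ℓ c) := by
  ext n
  simp [redHom, PowerSeries.coeff_C]

omit [NeZero p] [NeZero r] in
/-- a cusp form with integral `q`-expansion: the integral series -/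
theorem cc_exists_intPS {N : ℕ} (g : CuspForm (CongruenceSubgroup.Gamma0 N) 2)
    (hg : ∀ n : ℕ, ∃ m : ℤ, ModularFormClass.qCoeff g n = (m : ℂ)) :
    ∃ G : PowerSeries ℤ, PowerSeries.map (Int.castRingHom ℂ) G = qExpansion 1 g := by
  choose m hm using hg
  refine ⟨PowerSeries.mk m, ?_⟩
  ext n
  rw [PowerSeries.coeff_map, PowerSeries.coeff_mk]
  have := hm n
  unfold ModularFormClass.qCoeff at this
  rw [this]; simp

end

end Fermat.Agent.S16x
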