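/-
S16 project, module CASE0 part 2 `ConjCalc2` (owner helper51): the GENERIC LIFT LEMMA for the
conjugate series `conjSeries p r a b x y`, the formula for the reductions of the lifts, order
lemmas, and the MASTER LEMMA for the four norm cases (B'), (P), (C3+), (C2).
-/
import Fermat.Agent.S16x.ConjCalc
import Fermat.Agent.S16x.Reduction
import Fermat.Prelude.Thm_CongruenceSubgroup_one_mem_strictPeriods_Gamma0

set_option autoImplicit false

namespace Fermat.Agent.S16x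

open PowerSeries

noncomputable section

/-! ### roots of unity and rationals inside `lintRing ℓ` -/

/-- `ζ_N ^ j` as an element of `lintRing ℓ` -/
def cc2_zetaR (ℓ N j : ℕ) [NeZero N] : lintRing ℓ := ⟨zeta N ^ j, zeta_pow_mem_lintRing ℓ N j⟩

@[simp] theorem cc2_coe_zetaR (ℓ N j : ℕ) [NeZero N] : ((cc2_zetaR ℓ N j : lintRing ℓ) : ℂ) = zeta N ^ j :=
  rfl

theorem cc2_resid_zetaR_ne_zero (ℓ N j : ℕ) [Fact ℓ.Prime] [NeZero N] :
    resid ℓ (cc2_zetaR ℓ N j) ≠ 0 := resid_zeta_pow_ne_zero ℓ N j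

/-- a rational number with denominator prime to `ℓ`, as an element of `lintRing ℓ` -/
def cc2_ratR (ℓ : ℕ) (x : ℚ) (h : x.den.Coprime ℓ) : lintRing ℓ := ⟨(x : ℂ), ratCast_mem_lintRing x h⟩

@[simp] theorem cc2_coe_ratR (ℓ : ℕ) (x : ℚ) (h : x.den.Coprime ℓ) :
    ((cc2_ratR ℓ x h : lintRing ℓ) : ℂ) = (x : ℂ) := rfl

/-- integer casts: `lintRing ℓ → ℂ` (use BEFORE `push_cast`, which would otherwise produce numerals of
`lintRing ℓ`) -/
theorem cc2_coe_intCast (ℓ : ℕ) (m : ℤ) : (((m : ℤ) : lintRing ℓ) : ℂ) = (m : ℂ) := by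
  simp

theorem cc2_coe_natCast (ℓ : ℕ) (m : ℕ) : (((m : ℕ) : lintRing ℓ) : ℂ) = (m : ℂ) := by
  simp

/-- `1 / N` lies in `lintRing ℓ` when `N` is prime to `ℓ` -/
theorem cc2_inv_natCast_mem (ℓ N : ℕ) (h : N.Coprime ℓ) : ((N : ℂ))⁻¹ ∈ lintRing ℓ := by
  refine ⟨N, h, ?_⟩
  rcases Nat.eq_zero_or_pos N with h0 | h0
  · subst h0; simpa using isIntegral_zero
  · have : ((N : ℕ) : ℂ) * ((N : ℂ))⁻¹ = 1 := by
      have hN : (N : ℂ) ≠ 0 := Nat.cast_ne_zero.mpr h0.ne'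
      field_simp
    rw [this]; exact isIntegral_one

/-- `1 / N` as an element of `lintRing ℓ` -/
def cc2_invR (ℓ N : ℕ) (h : N.Coprime ℓ) : lintRing ℓ := ⟨((N : ℂ))⁻¹, cc2_inv_natCast_mem ℓ N h⟩

@[simp] theorem cc2_coe_invR (ℓ N : ℕ) (h : N.Coprime ℓ) :
    ((cc2_invR ℓ N h : lintRing ℓ) : ℂ) = ((N : ℂ))⁻¹ := rfl

/-! ### the explicit lifts -/

section lifts

variable (ℓ p r : ℕ) [NeZero p] [NeZero r]

/-- lifts of the conjugates of the `A`-part: `none ↦ α(w^{rp})`, `some j ↦ α'(ζ_p^j w^r)` -/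
def cc2_liftA (α α' : PowerSeries (lintRing ℓ)) : Option (Fin p) → PowerSeries (lintRing ℓ)
  | none => PowerSeries.expand (r * p) (mul_ne_zero (NeZero.ne r) (NeZero.ne p)) α
  | some j => PowerSeries.expand r (NeZero.ne r)
      (PowerSeries.rescale (cc2_zetaR ℓ p (j : ℕ)) α')

/-- lifts of the conjugates of the `B`-part: `none ↦ β(w^{rp})`, `some i ↦ β'(ζ_r^i w^p)` -/
def cc2_liftB (β β' : PowerSeries (lintRing ℓ)) : Option (Fin r) → PowerSeries (lintRing ℓ)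
  | none => PowerSeries.expand (r * p) (mul_ne_zero (NeZero.ne r) (NeZero.ne p)) β
  | some i => PowerSeries.expand p (NeZero.ne p)
      (PowerSeries.rescale (cc2_zetaR ℓ r (i : ℕ)) β')

/-- the four constants -/
def cc2_kap (k00 k10 k01 k11 : lintRing ℓ) : Option (Fin p) → Option (Fin r) → lintRing ℓ
  | none, none => k00
  | some _, none => k10
  | none, some _ => k01
  | some _, some _ => k11

/-- the explicit lift of `conjSeries p r a b x y` -/
def cc2_lift (k00 k10 k01 k11 : lintRing ℓ) (α α' β β' : PowerSeries (lintRing ℓ))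
    (x : Option (Fin p)) (y : Option (Fin r)) : PowerSeries (lintRing ℓ) :=
  PowerSeries.C (cc2_kap ℓ p r k00 k10 k01 k11 x y) + cc2_liftA ℓ p r α α' x + cc2_liftB ℓ p r β β' y

theorem cc2_toC_liftA (α α' : PowerSeries (lintRing ℓ))
    (hα' : toC ℓ α' = -(p : ℂ)⁻¹ • UPS p (toC ℓ α)) (x : Option (Fin p)) :
    toC ℓ (cc2_liftA ℓ p r α α' x) = conjA p r (toC ℓ α) x := by
  cases x with
  | none => simp only [cc2_liftA, conjA, toC_expand]
  | some j => simp only [cc2_liftA, conjA, toC_expand, toC_rescale, hα', cc2_coe_zetaR]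

theorem cc2_toC_liftB (β β' : PowerSeries (lintRing ℓ))
    (hβ' : toC ℓ β' = -(r : ℂ)⁻¹ • UPS r (toC ℓ β)) (y : Option (Fin r)) :
    toC ℓ (cc2_liftB ℓ p r β β' y) = conjB p r (toC ℓ β) y := by
  cases y with
  | none => simp only [cc2_liftB, conjB, toC_expand]
  | some i => simp only [cc2_liftB, conjB, toC_expand, toC_rescale, hβ', cc2_coe_zetaR]

/-- GENERIC LIFT LEMMA.  If `a = C a₀ + a⁺`, `b = C b₀ + b⁺` where `a⁺, b⁺, -(1/p) U_p a⁺,
-(1/r) U_r b⁺` have lifts `α, β, α', β'` to `lintRing ℓ` and the four constants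
`a₀ + b₀, -a₀/p + b₀, a₀ - b₀/r, -a₀/p - b₀/r` lie in `lintRing ℓ`, then `cc2_lift` lifts
all the conjugate series. -/
theorem cc2_toC_lift (a b : PowerSeries ℂ) (a0 b0 : ℂ) (k00 k10 k01 k11 : lintRing ℓ)
    (α α' β β' : PowerSeries (lintRing ℓ))
    (ha : a = PowerSeries.C a0 + toC ℓ α) (hα' : toC ℓ α' = -(p : ℂ)⁻¹ • UPS p (toC ℓ α))
    (hb : b = PowerSeries.C b0 + toC ℓ β) (hβ' : toC ℓ β' = -(r : ℂ)⁻¹ • UPS r (toC ℓ β))
    (h00 : (k00 : ℂ) = a0 + b0) (h10 : (k10 : ℂ) = -(p : ℂ)⁻¹ * a0 + b0)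
    (h01 : (k01 : ℂ) = a0 + -(r : ℂ)⁻¹ * b0)
    (h11 : (k11 : ℂ) = -(p : ℂ)⁻¹ * a0 + -(r : ℂ)⁻¹ * b0)
    (x : Option (Fin p)) (y : Option (Fin r)) :
    toC ℓ (cc2_lift ℓ p r k00 k10 k01 k11 α α' β β' x y) = conjSeries p r a b x y := by
  unfold cc2_lift conjSeries
  rw [map_add, map_add, cc2_toC_liftA ℓ p r α α' hα' x, cc2_toC_liftB ℓ p r β β' hβ' y, ha, hb,
    cc_conjA_add, cc_conjB_add, cc_toC_C]
  cases x with
  | none =>
    cases y with
    | none =>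
      rw [cc_conjA_C_none, cc_conjB_C_none]
      simp only [cc2_kap, h00, map_add]
      ring
    | some i =>
      rw [cc_conjA_C_none, cc_conjB_C_some]
      simp only [cc2_kap, h01, map_add]
      ring
  | some j =>
    cases y with
    | none =>
      rw [cc_conjA_C_some, cc_conjB_C_none]
      simp only [cc2_kap, h10, map_add]
      ring
    | some i =>
      rw [cc_conjA_C_some, cc_conjB_C_some]
      simp only [cc2_kap, h11, map_add]
      ring

/-! ### reductions of the lifts -/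

variable [Fact ℓ.Prime]

theorem cc2_redHom_liftA_none (α α' : PowerSeries (lintRing ℓ)) :
    redHom ℓ (cc2_liftA ℓ p r α α' none) =
      PowerSeries.expand (r * p) (mul_ne_zero (NeZero.ne r) (NeZero.ne p)) (redHom ℓ α) := by
  simp only [cc2_liftA, redHom_expand]

theorem cc2_redHom_liftA_some (α α' : PowerSeries (lintRing ℓ)) (j : Fin p) :
    redHom ℓ (cc2_liftA ℓ p r α α' (some j)) =
      PowerSeries.expand r (NeZero.ne r)
        (PowerSeries.rescale (resid ℓ (cc2_zetaR ℓ p (j : ℕ))) (redHom ℓ α')) := by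
  simp only [cc2_liftA, redHom_expand, redHom_rescale]

theorem cc2_redHom_liftB_none (β β' : PowerSeries (lintRing ℓ)) :
    redHom ℓ (cc2_liftB ℓ p r β β' none) =
      PowerSeries.expand (r * p) (mul_ne_zero (NeZero.ne r) (NeZero.ne p)) (redHom ℓ β) := by
  simp only [cc2_liftB, redHom_expand]

theorem cc2_redHom_liftB_some (β β' : PowerSeries (lintRing ℓ)) (i : Fin r) :
    redHom ℓ (cc2_liftB ℓ p r β β' (some i)) =
      PowerSeries.expand p (NeZero.ne p)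
        (PowerSeries.rescale (resid ℓ (cc2_zetaR ℓ r (i : ℕ))) (redHom ℓ β')) := by
  simp only [cc2_liftB, redHom_expand, redHom_rescale]

/-- the `A`-part dies modulo `lintMax ℓ` as soon as `α ≡ 0` and `α' ≡ 0` -/
theorem cc2_redHom_liftA_eq_zero (α α' : PowerSeries (lintRing ℓ)) (hα : redHom ℓ α = 0)
    (hα' : redHom ℓ α' = 0) (x : Option (Fin p)) : redHom ℓ (cc2_liftA ℓ p r α α' x) = 0 := by
  cases x with
  | none => rw [cc2_redHom_liftA_none, hα, map_zero]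
  | some j => rw [cc2_redHom_liftA_some, hα', map_zero, map_zero]

/-- FORMULA for the reduction of the lifts -/
theorem cc2_redHom_lift (k00 k10 k01 k11 : lintRing ℓ) (α α' β β' : PowerSeries (lintRing ℓ))
    (x : Option (Fin p)) (y : Option (Fin r)) :
    redHom ℓ (cc2_lift ℓ p r k00 k10 k01 k11 α α' β β' x y) =
      PowerSeries.C (resid ℓ (cc2_kap ℓ p r k00 k10 k01 k11 x y)) +
        redHom ℓ (cc2_liftA ℓ p r α α' x) + redHom ℓ (cc2_liftB ℓ p r β β' y) := by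
  unfold cc2_lift
  rw [map_add, map_add, cc_redHom_C]

end lifts

/-! ### order lemmas -/

theorem cc2_ne_zero_of_coeff_ne_zero {K : Type*} [Semiring K] {P : PowerSeries K} (n : ℕ)
    (h : PowerSeries.coeff n P ≠ 0) : P ≠ 0 := by
  rintro rfl
  exact h (by simp)

/-- unit constant term: order `0` -/
theorem cc2_order_eq_zero {K : Type*} [Semiring K] {P : PowerSeries K}
    (h : PowerSeries.coeff 0 P ≠ 0) : P.order = 0 := by
  have := PowerSeries.order_le (φ := P) 0 h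
  simpa using this

/-- zero constant term and unit `X¹`-coefficient: order `1` -/
theorem cc2_order_eq_one {K : Type*} [Semiring K] {P : PowerSeries K}
    (h0 : PowerSeries.coeff 0 P = 0) (h1 : PowerSeries.coeff 1 P ≠ 0) : P.order = 1 := by
  apply PowerSeries.order_eq_nat.mpr
  refine ⟨h1, fun i hi => ?_⟩
  have : i = 0 := by omega
  subst this; exact h0

/-- zero constant term and unit `X¹`-coefficient: order exactly `e` after `expand e` -/
theorem cc2_order_expand {K : Type*} [Field K] (e : ℕ) (he : e ≠ 0) {P : PowerSeries K}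
    (h0 : PowerSeries.coeff 0 P = 0) (h1 : PowerSeries.coeff 1 P ≠ 0) :
    (PowerSeries.expand e he P).order = (e : ℕ∞) := by
  rw [order_expand, cc2_order_eq_one h0 h1, mul_one]

/-- the coefficient of `X^e` in `C k + expand e P + expand e' Q` when `e < e'`... we only need:
the coefficient of `X^e` of `expand e P` is the `X¹`-coefficient of `P` -/
theorem cc2_coeff_expand_self {K : Type*} [CommRing K] (e : ℕ) (he : e ≠ 0) (P : PowerSeries K) :
    PowerSeries.coeff e (PowerSeries.expand e he P) = PowerSeries.coeff 1 P := by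
  have := PowerSeries.coeff_expand_mul e he P 1
  rwa [mul_one] at this

theorem cc2_coeff_C_of_ne_zero {K : Type*} [Semiring K] {e : ℕ} (he : e ≠ 0) (k : K) :
    PowerSeries.coeff e (PowerSeries.C k : PowerSeries K) = 0 := by
  rw [PowerSeries.coeff_C, if_neg he]

/-! ### MASTER LEMMA for the four norm cases (B'), (P), (C3+), (C2) -/

section master

variable (ℓ p r : ℕ) [Fact ℓ.Prime] [NeZero p] [NeZero r]

omit [NeZero r] in
/-- the reduction of `δ_r` -/
theorem cc2_coeff_zero_redDelta :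
    PowerSeries.coeff 0 (redHom ℓ (intR ℓ (deltaPS r))) = 0 := by
  rw [cc_redHom_intR, PowerSeries.coeff_map, cc_coeff_zero_deltaPS]; simp

omit [NeZero r] in
theorem cc2_coeff_one_redDelta (hr : r.Prime) :
    PowerSeries.coeff 1 (redHom ℓ (intR ℓ (deltaPS r))) = 1 := by
  rw [cc_redHom_intR, PowerSeries.coeff_map, cc_coeff_one_deltaPS r hr]; simp

/-- MASTER LEMMA.  `a`, `b` are the `q`-expansions of `A ∈ M₂(Γ₀(p))`, `B ∈ M₂(Γ₀(r))`;
`hNI` is the conclusion of `norm_order_le ℓ p r hpr A B`.  Data: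
* `a = C a₀ + toC α` with `α ≡ 0`, and a lift `α' ≡ 0` of `-(1/p) U_p (toC α)`
  (for `ℓ ≠ p` see `cc2_norm_master'`, where `α'` is automatic);
* `b = C b₀ + u • δ_r` with `u` a unit modulo `lintMax ℓ` (i.e. `B = u • e_r`, `b₀ = u (r-1)/24`);
* the constants: `-a₀/p + b₀ = 0`, and `a₀ + b₀`, `a₀ - b₀/r`, `-a₀/p - b₀/r` are in `lintRing ℓ`.
Then all `(p+1)(r+1)` conjugates have non-zero reduction, the `p` conjugates `(j, ∞)` have
`w`-order `rp` (and also `(∞, ∞)` if `a₀ + b₀ ≡ 0`), which contradicts the norm inequality for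
`r = 2`, resp. for `r = 3` when `a₀ + b₀ ≡ 0`. -/
theorem cc2_norm_master (hp : p.Prime) (hr : r.Prime) (hℓr : ℓ ≠ r) (a b : PowerSeries ℂ)
    (hNI : ∀ c : Option (Fin p) → Option (Fin r) → PowerSeries (lintRing ℓ),
      (∀ x y, toC ℓ (c x y) = conjSeries p r a b x y) → (∀ x y, redHom ℓ (c x y) ≠ 0) →
      6 * ∑ x : Option (Fin p), ∑ y : Option (Fin r), (redHom ℓ (c x y)).order
        ≤ ((r * p * ((p + 1) * (r + 1)) : ℕ) : ℕ∞))
    (a0 : ℂ) (α α' : PowerSeries (lintRing ℓ))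
    (ha : a = PowerSeries.C a0 + toC ℓ α) (hα' : toC ℓ α' = -(p : ℂ)⁻¹ • UPS p (toC ℓ α))
    (hα0 : redHom ℓ α = 0) (hα'0 : redHom ℓ α' = 0)
    (u : lintRing ℓ) (hu : resid ℓ u ≠ 0) (b0 : ℂ)
    (hb : b = PowerSeries.C b0 + (u : ℂ) • PowerSeries.map (Int.castRingHom ℂ) (deltaPS r))
    (k00 k01 k11 : lintRing ℓ)
    (h00 : (k00 : ℂ) = a0 + b0) (h10 : -(p : ℂ)⁻¹ * a0 + b0 = 0)
    (h01 : (k01 : ℂ) = a0 + -(r : ℂ)⁻¹ * b0)
    (h11 : (k11 : ℂ) = -(p : ℂ)⁻¹ * a0 + -(r : ℂ)⁻¹ * b0)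
    (hcount : r = 2 ∨ (r = 3 ∧ resid ℓ k00 = 0)) : False := by
  classical
  have hrℓ : r.Coprime ℓ := (Nat.coprime_primes hr (Fact.out : ℓ.Prime)).mpr (Ne.symm hℓr)
  have hrp0 : r * p ≠ 0 := mul_ne_zero (NeZero.ne r) (NeZero.ne p)
  have hp0 : p ≠ 0 := NeZero.ne p
  -- the `B`-side lifts
  obtain ⟨ir, hir⟩ : ∃ ir : lintRing ℓ, (ir : ℂ) = ((r : ℂ))⁻¹ := ⟨cc2_invR ℓ r hrℓ, rfl⟩
  have hir_res : resid ℓ ir ≠ 0 := by
    intro h0
    have hmul : ir * ((r : ℕ) : lintRing ℓ) = 1 := by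
      apply Subtype.ext
      have hr0 : (r : ℂ) ≠ 0 := Nat.cast_ne_zero.mpr (NeZero.ne r)
      show (ir : ℂ) * (((r : ℕ) : lintRing ℓ) : ℂ) = 1
      rw [hir]; push_cast; field_simp
    have := congrArg (resid ℓ) hmul
    rw [map_mul, h0, zero_mul, map_one] at this
    exact zero_ne_one this
  obtain ⟨D, hD⟩ : ∃ D : PowerSeries (lintRing ℓ), D = intR ℓ (deltaPS r) := ⟨_, rfl⟩
  have hDC : toC ℓ D = PowerSeries.map (Int.castRingHom ℂ) (deltaPS r) := by
    rw [hD]; exact cc_toC_intR ℓ _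
  have hD0 : PowerSeries.coeff 0 (redHom ℓ D) = 0 := by rw [hD]; exact cc2_coeff_zero_redDelta ℓ r
  have hD1 : PowerSeries.coeff 1 (redHom ℓ D) = 1 := by rw [hD]; exact cc2_coeff_one_redDelta ℓ r hr
  obtain ⟨β, hβdef⟩ : ∃ β : PowerSeries (lintRing ℓ), β = PowerSeries.C u * D := ⟨_, rfl⟩
  obtain ⟨β', hβ'def⟩ : ∃ β' : PowerSeries (lintRing ℓ), β' = PowerSeries.C (-(ir * u)) * D :=
    ⟨_, rfl⟩
  have hβC : toC ℓ β = (u : ℂ) • PowerSeries.map (Int.castRingHom ℂ) (deltaPS r) := by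
    rw [hβdef, map_mul, cc_toC_C, hDC, PowerSeries.smul_eq_C_mul]
  have hUD : UPS r (PowerSeries.map (Int.castRingHom ℂ) (deltaPS r)) =
      PowerSeries.map (Int.castRingHom ℂ) (deltaPS r) := by
    rw [cc_UPS_map, cc_UPS_deltaPS r hr]
  have hβ'C : toC ℓ β' = -(r : ℂ)⁻¹ • UPS r (toC ℓ β) := by
    rw [hβC, cc_UPS_smul, hUD, hβ'def, map_mul, cc_toC_C, hDC, smul_smul,
      PowerSeries.smul_eq_C_mul]
    congr 2
    show -((ir : ℂ) * (u : ℂ)) = -(r : ℂ)⁻¹ * (u : ℂ)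
    rw [hir]; ring
  -- reductions of the `B`-side
  have hβ0 : PowerSeries.coeff 0 (redHom ℓ β) = 0 := by
    rw [hβdef, map_mul, cc_redHom_C, PowerSeries.coeff_C_mul, hD0, mul_zero]
  have hβ1 : PowerSeries.coeff 1 (redHom ℓ β) ≠ 0 := by
    rw [hβdef, map_mul, cc_redHom_C, PowerSeries.coeff_C_mul, hD1, mul_one]
    exact hu
  have hβ'1 : PowerSeries.coeff 1 (redHom ℓ β') ≠ 0 := by
    rw [hβ'def, map_mul, cc_redHom_C, PowerSeries.coeff_C_mul, hD1, mul_one, map_neg, map_mul]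
    exact neg_ne_zero.mpr (mul_ne_zero hir_res hu)
  -- the lifts
  obtain ⟨c, hcdef⟩ : ∃ c : Option (Fin p) → Option (Fin r) → PowerSeries (lintRing ℓ),
      c = cc2_lift ℓ p r k00 0 k01 k11 α α' β β' := ⟨_, rfl⟩
  have hb' : b = PowerSeries.C b0 + toC ℓ β := by rw [hβC]; exact hb
  have h10' : ((0 : lintRing ℓ) : ℂ) = -(p : ℂ)⁻¹ * a0 + b0 := by rw [h10]; rfl
  have hc : ∀ x y, toC ℓ (c x y) = conjSeries p r a b x y := by
    intro x y
    rw [hcdef]
    exact cc2_toC_lift ℓ p r a b a0 b0 k00 0 k01 k11 α α' β β' ha hα' hb' hβ'C h00 h10' h01 h11 x y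
  -- shape of the reductions
  have hred_none : ∀ x : Option (Fin p), redHom ℓ (c x none) =
      PowerSeries.C (resid ℓ (cc2_kap ℓ p r k00 0 k01 k11 x none)) +
        PowerSeries.expand (r * p) hrp0 (redHom ℓ β) := by
    intro x
    rw [hcdef, cc2_redHom_lift, cc2_redHom_liftA_eq_zero ℓ p r α α' hα0 hα'0 x, add_zero,
      cc2_redHom_liftB_none]
  have hred_some : ∀ (x : Option (Fin p)) (i : Fin r), redHom ℓ (c x (some i)) =
      PowerSeries.C (resid ℓ (cc2_kap ℓ p r k00 0 k01 k11 x (some i))) +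
        PowerSeries.expand p hp0
          (PowerSeries.rescale (resid ℓ (cc2_zetaR ℓ r (i : ℕ))) (redHom ℓ β')) := by
    intro x i
    rw [hcdef, cc2_redHom_lift, cc2_redHom_liftA_eq_zero ℓ p r α α' hα0 hα'0 x, add_zero,
      cc2_redHom_liftB_some]
  -- non-vanishing
  have hne : ∀ x y, redHom ℓ (c x y) ≠ 0 := by
    intro x y
    cases y with
    | none =>
      apply cc2_ne_zero_of_coeff_ne_zero (r * p)
      rw [hred_none, map_add, cc2_coeff_C_of_ne_zero hrp0, zero_add, cc2_coeff_expand_self]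
      exact hβ1
    | some i =>
      apply cc2_ne_zero_of_coeff_ne_zero p
      rw [hred_some, map_add, cc2_coeff_C_of_ne_zero hp0, zero_add, cc2_coeff_expand_self,
        PowerSeries.coeff_rescale, pow_one]
      exact mul_ne_zero (cc2_resid_zetaR_ne_zero ℓ r i) hβ'1
  -- orders of the special factors
  have hord_some : ∀ j : Fin p, (redHom ℓ (c (some j) none)).order = ((r * p : ℕ) : ℕ∞) := by
    intro j
    rw [hred_none]
    simp only [cc2_kap, map_zero, zero_add]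
    exact cc2_order_expand (r * p) hrp0 hβ0 hβ1
  have hord_none : resid ℓ k00 = 0 → (redHom ℓ (c none none)).order = ((r * p : ℕ) : ℕ∞) := by
    intro hk
    rw [hred_none]
    simp only [cc2_kap, hk, map_zero, zero_add]
    exact cc2_order_expand (r * p) hrp0 hβ0 hβ1
  have hmain := hNI c hc hne
  -- lower bound for the sum of the orders
  have hsum : (redHom ℓ (c none none)).order + ∑ j : Fin p, (redHom ℓ (c (some j) none)).order ≤
      ∑ x : Option (Fin p), ∑ y : Option (Fin r), (redHom ℓ (c x y)).order := by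
    rw [Fintype.sum_option]
    apply add_le_add
    · rw [Fintype.sum_option]; exact le_self_add
    · apply Finset.sum_le_sum
      intro j _
      rw [Fintype.sum_option]; exact le_self_add
  have hsum2 : ∑ j : Fin p, (redHom ℓ (c (some j) none)).order = ((p * (r * p) : ℕ) : ℕ∞) := by
    rw [Finset.sum_congr rfl (fun j _ => hord_some j)]
    simp
  have hp2 : 2 ≤ p := hp.two_le
  rcases hcount with h2 | ⟨h3, hk⟩
  · -- `r = 2`
    have h1 : (6 : ℕ∞) * ((p * (r * p) : ℕ) : ℕ∞) ≤ ((r * p * ((p + 1) * (r + 1)) : ℕ) : ℕ∞) := by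
      refine le_trans (mul_le_mul_right ?_ 6) hmain
      rw [← hsum2]
      exact le_trans le_add_self hsum
    have h2' : 6 * (p * (r * p)) ≤ r * p * ((p + 1) * (r + 1)) := by exact_mod_cast h1
    subst h2
    nlinarith
  · -- `r = 3`, `k00 ≡ 0`
    have h1 : (6 : ℕ∞) * ((r * p + p * (r * p) : ℕ) : ℕ∞) ≤
        ((r * p * ((p + 1) * (r + 1)) : ℕ) : ℕ∞) := by
      refine le_trans (mul_le_mul_right ?_ 6) hmain
      rw [Nat.cast_add, ← hsum2, ← hord_none hk]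
      exact hsum
    have h2' : 6 * (r * p + p * (r * p)) ≤ r * p * ((p + 1) * (r + 1)) := by exact_mod_cast h1
    subst h3
    nlinarith

theorem cc2_UPS_zero {R : Type*} [Semiring R] (p : ℕ) : UPS p (0 : PowerSeries R) = 0 := by
  ext n; simp

/-- MASTER LEMMA, version `ℓ ≠ p`: the lift `α'` of `-(1/p) U_p (toC α)` is automatic. -/
theorem cc2_norm_master' (hp : p.Prime) (hr : r.Prime) (hℓp : ℓ ≠ p) (hℓr : ℓ ≠ r)
    (a b : PowerSeries ℂ)
    (hNI : ∀ c : Option (Fin p) → Option (Fin r) → PowerSeries (lintRing ℓ),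
      (∀ x y, toC ℓ (c x y) = conjSeries p r a b x y) → (∀ x y, redHom ℓ (c x y) ≠ 0) →
      6 * ∑ x : Option (Fin p), ∑ y : Option (Fin r), (redHom ℓ (c x y)).order
        ≤ ((r * p * ((p + 1) * (r + 1)) : ℕ) : ℕ∞))
    (a0 : ℂ) (α : PowerSeries (lintRing ℓ))
    (ha : a = PowerSeries.C a0 + toC ℓ α) (hα0 : redHom ℓ α = 0)
    (u : lintRing ℓ) (hu : resid ℓ u ≠ 0) (b0 : ℂ)
    (hb : b = PowerSeries.C b0 + (u : ℂ) • PowerSeries.map (Int.castRingHom ℂ) (deltaPS r))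
    (k00 k01 k11 : lintRing ℓ)
    (h00 : (k00 : ℂ) = a0 + b0) (h10 : -(p : ℂ)⁻¹ * a0 + b0 = 0)
    (h01 : (k01 : ℂ) = a0 + -(r : ℂ)⁻¹ * b0)
    (h11 : (k11 : ℂ) = -(p : ℂ)⁻¹ * a0 + -(r : ℂ)⁻¹ * b0)
    (hcount : r = 2 ∨ (r = 3 ∧ resid ℓ k00 = 0)) : False := by
  have hpℓ : p.Coprime ℓ := (Nat.coprime_primes hp (Fact.out : ℓ.Prime)).mpr (Ne.symm hℓp)
  obtain ⟨ip, hip⟩ : ∃ ip : lintRing ℓ, (ip : ℂ) = ((p : ℂ))⁻¹ := ⟨cc2_invR ℓ p hpℓ, rfl⟩
  refine cc2_norm_master ℓ p r hp hr hℓr a b hNI a0 α (PowerSeries.C (-ip) * UPS p α) ha ?_ hα0 ?_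
    u hu b0 hb k00 k01 k11 h00 h10 h01 h11 hcount
  · rw [map_mul, cc_toC_C, toC_UPS, PowerSeries.smul_eq_C_mul]
    congr 2
    show -(ip : ℂ) = -(p : ℂ)⁻¹
    rw [hip]
  · rw [map_mul, redHom_UPS, hα0, cc2_UPS_zero, mul_zero]

end master

/-! ### constants `m / n` in `lintRing ℓ` and their residues -/

section consts

variable (ℓ : ℕ)

/-- `m / n` (`m : ℤ`, `n : ℕ` prime to `ℓ`) is `ℓ`-integral -/
theorem cc2_div_mem (m : ℤ) (n : ℕ) (hn : n.Coprime ℓ) : (m : ℂ) / (n : ℂ) ∈ lintRing ℓ := by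
  have h1 : (m : ℂ) ∈ lintRing ℓ := by
    apply mem_lintRing_of_isIntegral
    have := isIntegral_algebraMap (R := ℤ) (A := ℂ) (x := m)
    simpa using this
  rw [div_eq_mul_inv]
  exact (lintRing ℓ).mul_mem h1 (cc2_inv_natCast_mem ℓ n hn)

/-- `m / n` as an element of `lintRing ℓ` -/
def cc2_divR (m : ℤ) (n : ℕ) (hn : n.Coprime ℓ) : lintRing ℓ := ⟨(m : ℂ) / (n : ℂ), cc2_div_mem ℓ m n hn⟩

@[simp] theorem cc2_coe_divR (m : ℤ) (n : ℕ) (hn : n.Coprime ℓ) :
    ((cc2_divR ℓ m n hn : lintRing ℓ) : ℂ) = (m : ℂ) / (n : ℂ) := rfl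

theorem cc2_divR_eq (m : ℤ) (n : ℕ) (hn : n.Coprime ℓ) :
    cc2_divR ℓ m n hn = (m : lintRing ℓ) * cc2_invR ℓ n hn := by
  apply Subtype.ext
  show (m : ℂ) / (n : ℂ) = ((m : lintRing ℓ) : ℂ) * ((n : ℂ))⁻¹
  rw [div_eq_mul_inv]; simp

variable [Fact ℓ.Prime]

theorem cc2_resid_intCast_eq_zero {m : ℤ} (h : (ℓ : ℤ) ∣ m) : resid ℓ (m : lintRing ℓ) = 0 := by
  obtain ⟨k, rfl⟩ := h
  have : (((ℓ : ℤ) * k : ℤ) : lintRing ℓ) = ((ℓ : ℕ) : lintRing ℓ) * (k : lintRing ℓ) := by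
    push_cast; ring
  rw [this, map_mul, resid_natCast_self, zero_mul]

theorem cc2_resid_intCast_ne_zero {m : ℤ} (h : ¬ (ℓ : ℤ) ∣ m) : resid ℓ (m : lintRing ℓ) ≠ 0 := by
  have hℓ : Prime (ℓ : ℤ) := Nat.prime_iff_prime_int.mp (Fact.out : ℓ.Prime)
  have hcop : IsCoprime (ℓ : ℤ) m := (Prime.coprime_iff_not_dvd hℓ).mpr h
  obtain ⟨x, y, hxy⟩ := hcop
  intro h0
  have := congrArg (fun z : ℤ => resid ℓ (z : lintRing ℓ)) hxy
  simp only [Int.cast_add, Int.cast_mul, Int.cast_natCast, Int.cast_one, map_add, map_mul,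
    map_one, resid_natCast_self, h0, mul_zero, add_zero] at this
  exact zero_ne_one this

theorem cc2_resid_invR_ne_zero (n : ℕ) (hn : n.Coprime ℓ) : resid ℓ (cc2_invR ℓ n hn) ≠ 0 := by
  intro h0
  have hn0 : n ≠ 0 := by
    rintro rfl
    have : ℓ = 1 := by simpa using hn
    exact (Fact.out : ℓ.Prime).one_lt.ne' this
  have hmul : cc2_invR ℓ n hn * ((n : ℕ) : lintRing ℓ) = 1 := by
    apply Subtype.ext
    have hr0 : (n : ℂ) ≠ 0 := Nat.cast_ne_zero.mpr hn0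
    show ((n : ℂ))⁻¹ * (((n : ℕ) : lintRing ℓ) : ℂ) = 1
    push_cast; field_simp
  have := congrArg (resid ℓ) hmul
  rw [map_mul, h0, zero_mul, map_one] at this
  exact zero_ne_one this

theorem cc2_resid_divR_eq_zero {m : ℤ} (n : ℕ) (hn : n.Coprime ℓ) (h : (ℓ : ℤ) ∣ m) :
    resid ℓ (cc2_divR ℓ m n hn) = 0 := by
  rw [cc2_divR_eq, map_mul, cc2_resid_intCast_eq_zero ℓ h, zero_mul]

theorem cc2_resid_divR_ne_zero {m : ℤ} (n : ℕ) (hn : n.Coprime ℓ) (h : ¬ (ℓ : ℤ) ∣ m) :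
    resid ℓ (cc2_divR ℓ m n hn) ≠ 0 := by
  rw [cc2_divR_eq, map_mul]
  exact mul_ne_zero (cc2_resid_intCast_ne_zero ℓ h) (cc2_resid_invR_ne_zero ℓ n hn)

end consts

/-! ### lifts that vanish modulo `lintMax ℓ` -/

section zerolifts

variable (ℓ : ℕ) [Fact ℓ.Prime]

/-- If the integer series `H` is `≡ 0 mod M` and `t = s * M` is in `lintMax ℓ`, then `s • H` has a
lift to `lintRing ℓ` with zero reduction. -/
theorem cc2_exists_lift_zero (H : PowerSeries ℤ) (M : ℕ)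
    (hH : ∀ n, (M : ℤ) ∣ PowerSeries.coeff n H) (s : ℂ) (t : lintRing ℓ)
    (ht : (t : ℂ) = s * M) (ht0 : resid ℓ t = 0) :
    ∃ α : PowerSeries (lintRing ℓ),
      toC ℓ α = s • PowerSeries.map (Int.castRingHom ℂ) H ∧ redHom ℓ α = 0 := by
  choose H' hH' using hH
  refine ⟨PowerSeries.C t * intR ℓ (PowerSeries.mk H'), ?_, ?_⟩
  · rw [map_mul, cc_toC_C, cc_toC_intR]
    ext n
    rw [PowerSeries.coeff_C_mul, PowerSeries.coeff_smul, PowerSeries.coeff_map,
      PowerSeries.coeff_map, PowerSeries.coeff_mk, hH' n, ht]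
    simp only [eq_intCast, Int.cast_mul, Int.cast_natCast, smul_eq_mul]
    ring
  · rw [map_mul, cc_redHom_C, ht0, map_zero, zero_mul]

/-- the typical `α`: `s • G + t • δ_p = (-s) • (δ_p - G) + (s + t) • δ_p` with
`δ_p ≡ G mod M`, `s M ≡ 0` and `s + t ≡ 0` modulo `lintMax ℓ`. -/
theorem cc2_exists_alpha (p : ℕ) (G : PowerSeries ℤ) (M : ℕ)
    (hG : ∀ n, (M : ℤ) ∣ PowerSeries.coeff n (deltaPS p - G)) (s t : ℂ)
    (t1 : lintRing ℓ) (ht1 : (t1 : ℂ) = -s * M) (ht1' : resid ℓ t1 = 0)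
    (t2 : lintRing ℓ) (ht2 : (t2 : ℂ) = s + t) (ht2' : resid ℓ t2 = 0) :
    ∃ α : PowerSeries (lintRing ℓ),
      toC ℓ α = s • PowerSeries.map (Int.castRingHom ℂ) G +
        t • PowerSeries.map (Int.castRingHom ℂ) (deltaPS p) ∧ redHom ℓ α = 0 := by
  obtain ⟨α1, h1, h1'⟩ := cc2_exists_lift_zero ℓ (deltaPS p - G) M hG (-s) t1 ht1 ht1'
  obtain ⟨α2, h2, h2'⟩ := cc2_exists_lift_zero ℓ (deltaPS p) 1 (fun n => one_dvd _) (s + t) t2
    (by rw [ht2]; simp) ht2'
  refine ⟨α1 + α2, ?_, by rw [map_add, h1', h2', add_zero]⟩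
  rw [map_add, h1, h2, map_sub]
  simp only [smul_sub, neg_smul, add_smul]
  abel

end zerolifts

/-! ### glue with modular forms -/

section glue

open UpperHalfPlane ModularForm ModularFormClass CongruenceSubgroup

/-- the `q`-expansion of the Eisenstein form `e_N` of `exists_eisForm` -/
theorem cc2_qExp_eis {N : ℕ} (e : ModularForm (Gamma0 N) 2)
    (h0 : PowerSeries.coeff 0 (qExpansion 1 e) = ((N : ℂ) - 1) / 24)
    (h : ∀ n : ℕ, 1 ≤ n → PowerSeries.coeff n (qExpansion 1 e) = (sigP N n : ℂ)) :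
    qExpansion 1 e = PowerSeries.C (((N : ℂ) - 1) / 24) +
      PowerSeries.map (Int.castRingHom ℂ) (deltaPS N) := by
  ext n
  rw [map_add, PowerSeries.coeff_C, PowerSeries.coeff_map, cc_coeff_deltaPS]
  rcases Nat.eq_zero_or_pos n with hn | hn
  · subst hn; simp [h0]
  · rw [if_neg hn.ne', if_neg hn.ne', h n hn]; simp

/-- from `IsEisCongr`: the integral series of `g`, congruent to `δ_p` modulo `M` -/
theorem cc2_exists_intPS_of_isEisCongr {p M : ℕ} (g : CuspForm (Gamma0 p) 2)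
    (hg : IsEisCongr p M g) :
    ∃ G : PowerSeries ℤ, PowerSeries.map (Int.castRingHom ℂ) G = qExpansion 1 g ∧
      ∀ n, (M : ℤ) ∣ PowerSeries.coeff n (deltaPS p - G) := by
  choose m hm using hg
  refine ⟨PowerSeries.mk m, ?_, ?_⟩
  · ext n
    rw [PowerSeries.coeff_map, PowerSeries.coeff_mk]
    have := (hm n).1
    unfold ModularFormClass.qCoeff at this
    rw [this]; simp
  · intro n
    rw [map_sub, cc_coeff_deltaPS, PowerSeries.coeff_mk]
    rcases Nat.eq_zero_or_pos n with hn | hn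
    · subst hn
      have h1 := (hm 0).1
      unfold ModularFormClass.qCoeff at h1
      rw [CuspFormClass.qExpansion_coeff_zero g one_pos (one_mem_strictPeriods_Gamma0 p)] at h1
      have : m 0 = 0 := by exact_mod_cast h1.symm
      simp [this]
    · rw [if_neg hn.ne']
      have h2 := (hm n).2 hn
      have h3 : (((sigP p n : ℤ) - m n : ℤ) : ZMod M) = 0 := by
        push_cast; rw [h2]; simp
      exact (ZMod.intCast_zmod_eq_zero_iff_dvd _ _).mp h3

/-- `q`-expansion of `s • g + t • e` (`g` a cusp form, `e` a modular form) -/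
theorem cc2_qExp_comb {N : ℕ} (g : CuspForm (Gamma0 N) 2) (e : ModularForm (Gamma0 N) 2)
    (s t : ℂ) :
    qExpansion 1 (s • CuspForm.toModularFormₗ g + t • e : ModularForm (Gamma0 N) 2) =
      s • qExpansion 1 g + t • qExpansion 1 e := by
  have hΓ := one_mem_strictPeriods_Gamma0 N
  have h1 : (⇑(s • CuspForm.toModularFormₗ g + t • e : ModularForm (Gamma0 N) 2) : ℍ → ℂ) =
      ⇑(s • CuspForm.toModularFormₗ g) + ⇑(t • e) := rfl
  rw [h1, ModularForm.qExpansion_add one_pos hΓ (s • CuspForm.toModularFormₗ g) (t • e)]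
  have h2 : (⇑(s • CuspForm.toModularFormₗ g : ModularForm (Gamma0 N) 2) : ℍ → ℂ) =
      s • ⇑(CuspForm.toModularFormₗ g) := rfl
  have h3 : (⇑(t • e : ModularForm (Gamma0 N) 2) : ℍ → ℂ) = t • ⇑e := rfl
  rw [h2, h3, ModularForm.qExpansion_smul one_pos hΓ s (CuspForm.toModularFormₗ g),
    ModularForm.qExpansion_smul one_pos hΓ t e]
  rfl

end glue

end

end Fermat.Agent.S16x
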