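/-
S16 project, shared helper for the NORM cases (CaseLarge, CaseP, CaseThreeA, CaseTwoA):
generic `ℓ`-integral lifts `cjl_c` of the `(p+1)(r+1)` conjugate series of `A + B`, their
reductions, and the generic contradiction with the norm inequality.  Author: helper41.

Input data: `a = C a0 + toC P1`, `p⁻¹ • UPS p (toC P1) = toC P2`, `b = C b0 + toC Q1`,
`r⁻¹ • UPS r (toC Q1) = toC Q2`, and four `ℓ`-integral constants
`k1 = a0 + b0`, `k2 = -a0/p + b0`, `k3 = a0 - b0/r`, `k4 = -a0/p - b0/r`.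
-/
import Fermat.Agent.S16x.Reduction
import Fermat.Agent.S16x.ConjCalc

set_option autoImplicit false

namespace Fermat.Agent.S16x

open PowerSeries

noncomputable section

variable (ℓ p r : ℕ) [NeZero p] [NeZero r]

/-- `ζ_N^j` as an element of `lintRing ℓ` -/
def cjl_zeta (N j : ℕ) [NeZero N] : lintRing ℓ := ⟨zeta N ^ j, zeta_pow_mem_lintRing ℓ N j⟩

omit [NeZero p] [NeZero r] in
theorem cjl_zeta_coe (N j : ℕ) [NeZero N] : ((cjl_zeta ℓ N j : lintRing ℓ) : ℂ) = zeta N ^ j := rfl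

omit [NeZero p] [NeZero r] in
theorem cjl_resid_zeta_ne_zero [Fact ℓ.Prime] (N j : ℕ) [NeZero N] :
    resid ℓ (cjl_zeta ℓ N j) ≠ 0 := resid_zeta_pow_ne_zero ℓ N j

/-- the generic `ℓ`-integral lifts of the conjugate series -/
def cjl_c (k1 k2 k3 k4 : lintRing ℓ) (P1 P2 Q1 Q2 : PowerSeries (lintRing ℓ)) :
    Option (Fin p) → Option (Fin r) → PowerSeries (lintRing ℓ)
  | none, none =>
      C k1 + expand (r * p) (mul_ne_zero (NeZero.ne r) (NeZero.ne p)) P1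
        + expand (r * p) (mul_ne_zero (NeZero.ne r) (NeZero.ne p)) Q1
  | some j, none =>
      C k2 - expand r (NeZero.ne r) (rescale (cjl_zeta ℓ p (j : ℕ)) P2)
        + expand (r * p) (mul_ne_zero (NeZero.ne r) (NeZero.ne p)) Q1
  | none, some i =>
      C k3 + expand (r * p) (mul_ne_zero (NeZero.ne r) (NeZero.ne p)) P1
        - expand p (NeZero.ne p) (rescale (cjl_zeta ℓ r (i : ℕ)) Q2)
  | some j, some i =>
      C k4 - expand r (NeZero.ne r) (rescale (cjl_zeta ℓ p (j : ℕ)) P2)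
        - expand p (NeZero.ne p) (rescale (cjl_zeta ℓ r (i : ℕ)) Q2)

variable {ℓ p r}

/-- conjugates of `a = C a0 + toC P1` -/
theorem cjl_conjA_none (a0 : ℂ) (P1 : PowerSeries (lintRing ℓ)) :
    conjA p r (C a0 + toC ℓ P1) none =
      C a0 + toC ℓ (expand (r * p) (mul_ne_zero (NeZero.ne r) (NeZero.ne p)) P1) := by
  rw [cc_conjA_add, cc_conjA_C_none, toC_expand]
  rfl

theorem cjl_conjA_some (a0 : ℂ) (P1 P2 : PowerSeries (lintRing ℓ))
    (h : (p : ℂ)⁻¹ • UPS p (toC ℓ P1) = toC ℓ P2) (j : Fin p) :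
    conjA p r (C a0 + toC ℓ P1) (some j) =
      C (-(p : ℂ)⁻¹ * a0)
        - toC ℓ (expand r (NeZero.ne r) (rescale (cjl_zeta ℓ p (j : ℕ)) P2)) := by
  rw [cc_conjA_add, cc_conjA_C_some, toC_expand, toC_rescale, cjl_zeta_coe, ← h]
  simp only [conjA]
  rw [neg_smul, map_neg, map_neg, sub_eq_add_neg]

theorem cjl_conjB_none (b0 : ℂ) (Q1 : PowerSeries (lintRing ℓ)) :
    conjB p r (C b0 + toC ℓ Q1) none =
      C b0 + toC ℓ (expand (r * p) (mul_ne_zero (NeZero.ne r) (NeZero.ne p)) Q1) := by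
  rw [cc_conjB_add, cc_conjB_C_none, toC_expand]
  rfl

theorem cjl_conjB_some (b0 : ℂ) (Q1 Q2 : PowerSeries (lintRing ℓ))
    (h : (r : ℂ)⁻¹ • UPS r (toC ℓ Q1) = toC ℓ Q2) (i : Fin r) :
    conjB p r (C b0 + toC ℓ Q1) (some i) =
      C (-(r : ℂ)⁻¹ * b0)
        - toC ℓ (expand p (NeZero.ne p) (rescale (cjl_zeta ℓ r (i : ℕ)) Q2)) := by
  rw [cc_conjB_add, cc_conjB_C_some, toC_expand, toC_rescale, cjl_zeta_coe, ← h]
  simp only [conjB]
  rw [neg_smul, map_neg, map_neg, sub_eq_add_neg]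

/-- MAIN: the lifts `cjl_c` are lifts of `conjSeries`. -/
theorem cjl_toC (a0 b0 : ℂ) (k1 k2 k3 k4 : lintRing ℓ) (P1 P2 Q1 Q2 : PowerSeries (lintRing ℓ))
    (hP : (p : ℂ)⁻¹ • UPS p (toC ℓ P1) = toC ℓ P2)
    (hQ : (r : ℂ)⁻¹ • UPS r (toC ℓ Q1) = toC ℓ Q2)
    (hk1 : (k1 : ℂ) = a0 + b0) (hk2 : (k2 : ℂ) = -(p : ℂ)⁻¹ * a0 + b0)
    (hk3 : (k3 : ℂ) = a0 + -(r : ℂ)⁻¹ * b0)
    (hk4 : (k4 : ℂ) = -(p : ℂ)⁻¹ * a0 + -(r : ℂ)⁻¹ * b0)
    (x : Option (Fin p)) (y : Option (Fin r)) :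
    toC ℓ (cjl_c ℓ p r k1 k2 k3 k4 P1 P2 Q1 Q2 x y) =
      conjSeries p r (C a0 + toC ℓ P1) (C b0 + toC ℓ Q1) x y := by
  unfold conjSeries
  cases x with
  | none =>
    cases y with
    | none =>
      rw [cjl_conjA_none, cjl_conjB_none]
      simp only [cjl_c, map_add, cc_toC_C, hk1]
      ring
    | some i =>
      rw [cjl_conjA_none, cjl_conjB_some b0 Q1 Q2 hQ]
      simp only [cjl_c, map_add, map_sub, cc_toC_C, hk3]
      ring
  | some j =>
    cases y with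
    | none =>
      rw [cjl_conjA_some a0 P1 P2 hP, cjl_conjB_none]
      simp only [cjl_c, map_add, map_sub, cc_toC_C, hk2]
      ring
    | some i =>
      rw [cjl_conjA_some a0 P1 P2 hP, cjl_conjB_some b0 Q1 Q2 hQ]
      simp only [cjl_c, map_add, map_sub, cc_toC_C, hk4]
      ring

/-! ### reductions -/

section red

variable [Fact ℓ.Prime]

theorem cjl_red_none_none (k1 k2 k3 k4 : lintRing ℓ) (P1 P2 Q1 Q2 : PowerSeries (lintRing ℓ)) :
    redHom ℓ (cjl_c ℓ p r k1 k2 k3 k4 P1 P2 Q1 Q2 none none) =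
      C (resid ℓ k1)
        + expand (r * p) (mul_ne_zero (NeZero.ne r) (NeZero.ne p)) (redHom ℓ P1)
        + expand (r * p) (mul_ne_zero (NeZero.ne r) (NeZero.ne p)) (redHom ℓ Q1) := by
  simp only [cjl_c, map_add, cc_redHom_C, redHom_expand]

theorem cjl_red_some_none (k1 k2 k3 k4 : lintRing ℓ) (P1 P2 Q1 Q2 : PowerSeries (lintRing ℓ))
    (j : Fin p) :
    redHom ℓ (cjl_c ℓ p r k1 k2 k3 k4 P1 P2 Q1 Q2 (some j) none) =
      C (resid ℓ k2)
        - expand r (NeZero.ne r) (rescale (resid ℓ (cjl_zeta ℓ p (j : ℕ))) (redHom ℓ P2))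
        + expand (r * p) (mul_ne_zero (NeZero.ne r) (NeZero.ne p)) (redHom ℓ Q1) := by
  simp only [cjl_c, map_add, map_sub, cc_redHom_C, redHom_expand, redHom_rescale]

theorem cjl_red_none_some (k1 k2 k3 k4 : lintRing ℓ) (P1 P2 Q1 Q2 : PowerSeries (lintRing ℓ))
    (i : Fin r) :
    redHom ℓ (cjl_c ℓ p r k1 k2 k3 k4 P1 P2 Q1 Q2 none (some i)) =
      C (resid ℓ k3)
        + expand (r * p) (mul_ne_zero (NeZero.ne r) (NeZero.ne p)) (redHom ℓ P1)
        - expand p (NeZero.ne p) (rescale (resid ℓ (cjl_zeta ℓ r (i : ℕ))) (redHom ℓ Q2)) := by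
  simp only [cjl_c, map_add, map_sub, cc_redHom_C, redHom_expand, redHom_rescale]

theorem cjl_red_some_some (k1 k2 k3 k4 : lintRing ℓ) (P1 P2 Q1 Q2 : PowerSeries (lintRing ℓ))
    (j : Fin p) (i : Fin r) :
    redHom ℓ (cjl_c ℓ p r k1 k2 k3 k4 P1 P2 Q1 Q2 (some j) (some i)) =
      C (resid ℓ k4)
        - expand r (NeZero.ne r) (rescale (resid ℓ (cjl_zeta ℓ p (j : ℕ))) (redHom ℓ P2))
        - expand p (NeZero.ne p) (rescale (resid ℓ (cjl_zeta ℓ r (i : ℕ))) (redHom ℓ Q2)) := by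
  simp only [cjl_c, map_sub, cc_redHom_C, redHom_expand, redHom_rescale]

/-- constant coefficient of `expand e (rescale u P)` -/
theorem cjl_coeff_zero_expand_rescale {K : Type*} [Field K] (e : ℕ) (he : e ≠ 0) (u : K)
    (P : PowerSeries K) :
    coeff 0 (expand e he (rescale u P)) = coeff 0 P := by
  have h := PowerSeries.coeff_expand_mul e he (rescale u P) 0
  rw [mul_zero] at h
  rw [h, coeff_rescale, pow_zero, one_mul]

/-- `(j, ∞)`: if `P2 ≡ 0`, `k2 ≡ 0` and `Q1 ≡ X·unit + …`, the order is exactly `r p`. -/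
theorem cjl_order_some_none (k1 k2 k3 k4 : lintRing ℓ) (P1 P2 Q1 Q2 : PowerSeries (lintRing ℓ))
    (hP2 : redHom ℓ P2 = 0) (hk2 : resid ℓ k2 = 0) (hQ1 : (redHom ℓ Q1).order = 1) (j : Fin p) :
    (redHom ℓ (cjl_c ℓ p r k1 k2 k3 k4 P1 P2 Q1 Q2 (some j) none)).order = ((r * p : ℕ) : ℕ∞) := by
  rw [cjl_red_some_none, hP2, hk2, map_zero, map_zero, map_zero, sub_zero, zero_add,
    PowerSeries.order_expand, hQ1]
  simp

/-- `(∞, ∞)` is non-zero mod `m` if `k1` is a unit or the `X`-coefficient of `P1 + Q1` is. -/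
theorem cjl_ne_none_none (k1 k2 k3 k4 : lintRing ℓ) (P1 P2 Q1 Q2 : PowerSeries (lintRing ℓ))
    (h0P : coeff 0 (redHom ℓ P1) = 0) (h0Q : coeff 0 (redHom ℓ Q1) = 0)
    (h : resid ℓ k1 ≠ 0 ∨ coeff 1 (redHom ℓ P1) + coeff 1 (redHom ℓ Q1) ≠ 0) :
    redHom ℓ (cjl_c ℓ p r k1 k2 k3 k4 P1 P2 Q1 Q2 none none) ≠ 0 := by
  rw [cjl_red_none_none]
  have hrp : r * p ≠ 0 := mul_ne_zero (NeZero.ne r) (NeZero.ne p)
  intro hz
  rcases h with h | h
  · have := congrArg (coeff 0) hz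
    rw [map_add, map_add, coeff_zero_C] at this
    have e1 := PowerSeries.coeff_expand_mul (r * p) hrp (redHom ℓ P1) 0
    have e2 := PowerSeries.coeff_expand_mul (r * p) hrp (redHom ℓ Q1) 0
    rw [mul_zero] at e1 e2
    rw [e1, e2, h0P, h0Q, add_zero, add_zero, map_zero] at this
    exact h this
  · have := congrArg (coeff (r * p * 1)) hz
    rw [map_add, map_add, PowerSeries.coeff_expand_mul, PowerSeries.coeff_expand_mul,
      coeff_C, if_neg (by simpa using hrp), zero_add, map_zero] at this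
    exact h this

/-- `(∞, i)` is non-zero mod `m` if `k3` is a unit or the `X`-coefficient of `Q2` is. -/
theorem cjl_ne_none_some (hp1 : 1 < r) (k1 k2 k3 k4 : lintRing ℓ)
    (P1 P2 Q1 Q2 : PowerSeries (lintRing ℓ))
    (h0P : coeff 0 (redHom ℓ P1) = 0) (h0Q : coeff 0 (redHom ℓ Q2) = 0)
    (h : resid ℓ k3 ≠ 0 ∨ coeff 1 (redHom ℓ Q2) ≠ 0) (i : Fin r) :
    redHom ℓ (cjl_c ℓ p r k1 k2 k3 k4 P1 P2 Q1 Q2 none (some i)) ≠ 0 := by
  rw [cjl_red_none_some]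
  have hrp : r * p ≠ 0 := mul_ne_zero (NeZero.ne r) (NeZero.ne p)
  intro hz
  rcases h with h | h
  · have := congrArg (coeff 0) hz
    rw [map_sub, map_add, coeff_zero_C, cjl_coeff_zero_expand_rescale] at this
    have e1 := PowerSeries.coeff_expand_mul (r * p) hrp (redHom ℓ P1) 0
    rw [mul_zero] at e1
    rw [e1, h0P, h0Q, add_zero, sub_zero, map_zero] at this
    exact h this
  · have := congrArg (coeff (p * 1)) hz
    have hnd : ¬ r * p ∣ p * 1 := by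
      rw [mul_one]
      intro hd
      have hp0 : 0 < p := Nat.pos_of_ne_zero (NeZero.ne p)
      have := Nat.le_of_dvd hp0 hd
      nlinarith
    rw [map_sub, map_add, PowerSeries.coeff_expand_mul,
      PowerSeries.coeff_expand_of_not_dvd (r * p) hrp _ hnd,
      coeff_C, if_neg (by simpa using NeZero.ne p), zero_add, zero_sub, map_zero,
      coeff_rescale, pow_one, neg_eq_zero] at this
    rcases mul_eq_zero.mp this with h1 | h1
    · exact cjl_resid_zeta_ne_zero ℓ r (i : ℕ) h1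
    · exact h h1

/-- `(j, i)` is non-zero mod `m` if `k4` is a unit. -/
theorem cjl_ne_some_some (k1 k2 k3 k4 : lintRing ℓ) (P1 P2 Q1 Q2 : PowerSeries (lintRing ℓ))
    (h0P : coeff 0 (redHom ℓ P2) = 0) (h0Q : coeff 0 (redHom ℓ Q2) = 0)
    (h : resid ℓ k4 ≠ 0) (j : Fin p) (i : Fin r) :
    redHom ℓ (cjl_c ℓ p r k1 k2 k3 k4 P1 P2 Q1 Q2 (some j) (some i)) ≠ 0 := by
  rw [cjl_red_some_some]
  intro hz
  have := congrArg (coeff 0) hz
  rw [map_sub, map_sub, coeff_zero_C, cjl_coeff_zero_expand_rescale,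
    cjl_coeff_zero_expand_rescale, h0P, h0Q, sub_zero, sub_zero, map_zero] at this
  exact h this

/-- GENERIC CONTRADICTION.  `hNI` is the conclusion of `norm_order_le` for the lifts `cjl_c`. -/
theorem cjl_false (hr1 : 1 < r) (hineq : (p + 1) * (r + 1) < 6 * p)
    (k1 k2 k3 k4 : lintRing ℓ) (P1 P2 Q1 Q2 : PowerSeries (lintRing ℓ))
    (hNI : (∀ x y, redHom ℓ (cjl_c ℓ p r k1 k2 k3 k4 P1 P2 Q1 Q2 x y) ≠ 0) →
      6 * ∑ x : Option (Fin p), ∑ y : Option (Fin r),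
        (redHom ℓ (cjl_c ℓ p r k1 k2 k3 k4 P1 P2 Q1 Q2 x y)).order
        ≤ ((r * p * ((p + 1) * (r + 1)) : ℕ) : ℕ∞))
    (h0P1 : coeff 0 (redHom ℓ P1) = 0) (h0P2 : coeff 0 (redHom ℓ P2) = 0)
    (h0Q1 : coeff 0 (redHom ℓ Q1) = 0) (h0Q2 : coeff 0 (redHom ℓ Q2) = 0)
    (hP2 : redHom ℓ P2 = 0) (hk2 : resid ℓ k2 = 0) (hQ1 : coeff 1 (redHom ℓ Q1) ≠ 0)
    (h11 : resid ℓ k1 ≠ 0 ∨ coeff 1 (redHom ℓ P1) + coeff 1 (redHom ℓ Q1) ≠ 0)
    (h13 : resid ℓ k3 ≠ 0 ∨ coeff 1 (redHom ℓ Q2) ≠ 0)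
    (h14 : resid ℓ k4 ≠ 0) : False := by
  have hordQ1 : (redHom ℓ Q1).order = 1 := by
    have : ((1 : ℕ) : ℕ∞) = 1 := rfl
    rw [← this]
    apply PowerSeries.order_eq_nat.mpr
    refine ⟨hQ1, ?_⟩
    intro i hi
    have : i = 0 := by omega
    subst this
    exact h0Q1
  have hord : ∀ j : Fin p,
      (redHom ℓ (cjl_c ℓ p r k1 k2 k3 k4 P1 P2 Q1 Q2 (some j) none)).order = ((r * p : ℕ) : ℕ∞) :=
    cjl_order_some_none k1 k2 k3 k4 P1 P2 Q1 Q2 hP2 hk2 hordQ1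
  have hne : ∀ x y, redHom ℓ (cjl_c ℓ p r k1 k2 k3 k4 P1 P2 Q1 Q2 x y) ≠ 0 := by
    intro x y
    cases x with
    | none =>
      cases y with
      | none => exact cjl_ne_none_none k1 k2 k3 k4 P1 P2 Q1 Q2 h0P1 h0Q1 h11
      | some i => exact cjl_ne_none_some hr1 k1 k2 k3 k4 P1 P2 Q1 Q2 h0P1 h0Q2 h13 i
    | some j =>
      cases y with
      | none =>
        intro hz
        have := hord j
        rw [hz, PowerSeries.order_zero] at this
        exact ENat.top_ne_natCast _ this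
      | some i => exact cjl_ne_some_some k1 k2 k3 k4 P1 P2 Q1 Q2 h0P2 h0Q2 h14 j i
  have hNI' := hNI hne
  -- lower bound for the sum
  have hge : ((p * (r * p) : ℕ) : ℕ∞) ≤ ∑ x : Option (Fin p), ∑ y : Option (Fin r),
      (redHom ℓ (cjl_c ℓ p r k1 k2 k3 k4 P1 P2 Q1 Q2 x y)).order := by
    rw [Fintype.sum_option]
    refine le_trans ?_ le_add_self
    calc ((p * (r * p) : ℕ) : ℕ∞)
        = ∑ _j : Fin p, ((r * p : ℕ) : ℕ∞) := by
          rw [Finset.sum_const, Finset.card_univ, Fintype.card_fin, nsmul_eq_mul]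
          push_cast; rfl
      _ ≤ ∑ j : Fin p, ∑ y : Option (Fin r),
            (redHom ℓ (cjl_c ℓ p r k1 k2 k3 k4 P1 P2 Q1 Q2 (some j) y)).order := by
          apply Finset.sum_le_sum
          intro j _
          rw [Fintype.sum_option, hord j]
          exact le_self_add
  have h6 : (6 : ℕ∞) * ((p * (r * p) : ℕ) : ℕ∞) ≤ ((r * p * ((p + 1) * (r + 1)) : ℕ) : ℕ∞) :=
    le_trans (by gcongr) hNI'
  have h6' : 6 * (p * (r * p)) ≤ r * p * ((p + 1) * (r + 1)) := by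
    have : ((6 * (p * (r * p)) : ℕ) : ℕ∞) ≤ ((r * p * ((p + 1) * (r + 1)) : ℕ) : ℕ∞) := by
      push_cast at h6 ⊢
      exact h6
    exact_mod_cast this
  have hrp : 0 < r * p := Nat.pos_of_ne_zero (mul_ne_zero (NeZero.ne r) (NeZero.ne p))
  have : 6 * p ≤ (p + 1) * (r + 1) := by
    have h' : (r * p) * (6 * p) ≤ (r * p) * ((p + 1) * (r + 1)) := by
      calc (r * p) * (6 * p) = 6 * (p * (r * p)) := by ring
        _ ≤ r * p * ((p + 1) * (r + 1)) := h6'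
    exact Nat.le_of_mul_le_mul_left h' hrp
  omega

end red

end

end Fermat.Agent.S16x
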