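import Mathlib

/-!
# S16 project: explicit coset representatives of `Γ₀(p)` in `SL(2, ℤ)`

For a prime `p` the `p + 1` matrices `1` and `S T^j` (`0 ≤ j < p`) represent the cosets
`Γ₀(p) \ SL(2, ℤ)`.  We plug them into Mathlib's `ModularForm.trace` / `ModularForm.norm`:
`trace F = ∑ₓ F ∣[k] γₓ`, `norm F = ∏ₓ F ∣[k] γₓ`.
-/

set_option autoImplicit false

namespace Fermat.Agent.S16x

open UpperHalfPlane ModularForm ModularFormClass CongruenceSubgroup SlashInvariantForm
open Matrix Matrix.SpecialLinearGroup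
open scoped MatrixGroups Manifold

noncomputable section

/-- the representatives `1`, `S T^j` -/
def crpRep (p : ℕ) : Option (Fin p) → SL(2, ℤ)
  | none => 1
  | some j => ModularGroup.S * ModularGroup.T ^ ((j : ℕ) : ℤ)

theorem crp_rep_none (p : ℕ) : crpRep p none = 1 := rfl

theorem crp_rep_some (p : ℕ) (j : Fin p) :
    crpRep p (some j) = ModularGroup.S * ModularGroup.T ^ ((j : ℕ) : ℤ) := rfl

/-- entries of `S T^j` -/
theorem crp_ST_coe (n : ℤ) :
    ((ModularGroup.S * ModularGroup.T ^ n : SL(2, ℤ)) : Matrix (Fin 2) (Fin 2) ℤ) = !![0, -1; 1, n] := by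
  have h1 := ModularGroup.coe_T_zpow n
  have h2 := ModularGroup.coe_S
  simp only [Matrix.SpecialLinearGroup.coe_mul, h1, h2]
  ext i j
  fin_cases i <;> fin_cases j <;> simp [Matrix.mul_apply, Fin.sum_univ_two]

/-- lower-left entry of `γₓ g` -/
theorem crp_rep_mul_lower (p : ℕ) (x : Option (Fin p)) (g : SL(2, ℤ)) :
    (crpRep p x * g) 1 0 = match x with
      | none => g 1 0
      | some j => g 0 0 + ((j : ℕ) : ℤ) * g 1 0 := by
  cases x with
  | none => simp [crpRep]
  | some j =>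
    have h := crp_ST_coe ((j : ℕ) : ℤ)
    simp only [crpRep]
    simp only [Matrix.SpecialLinearGroup.coe_mul] at h ⊢
    rw [h]
    simp [Matrix.mul_apply, Fin.sum_univ_two]

variable (p : ℕ) [hp : Fact p.Prime]

/-- existence: every `g` lies in some coset `γₓ⁻¹ Γ₀(p)` -/
theorem crp_exists_rep_mul_mem (g : SL(2, ℤ)) : ∃ x : Option (Fin p), crpRep p x * g ∈ Gamma0 p := by
  haveI : NeZero p := ⟨hp.out.ne_zero⟩
  by_cases hc : ((g 1 0 : ℤ) : ZMod p) = 0
  · refine ⟨none, ?_⟩
    rw [Gamma0_mem, crp_rep_mul_lower]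
    exact hc
  · set j : ZMod p := -((g 0 0 : ℤ) : ZMod p) * (((g 1 0 : ℤ) : ZMod p))⁻¹ with hj
    refine ⟨some ⟨j.val, ZMod.val_lt j⟩, ?_⟩
    rw [Gamma0_mem, crp_rep_mul_lower]
    simp only
    push_cast
    rw [ZMod.natCast_zmod_val, hj]
    field_simp
    ring

/-- uniqueness -/
theorem crp_rep_injective_mod {x y : Option (Fin p)}
    (h : crpRep p x * (crpRep p y)⁻¹ ∈ Gamma0 p) : x = y := by
  haveI : NeZero p := ⟨hp.out.ne_zero⟩
  haveI : Fact (1 < p) := ⟨hp.out.one_lt⟩
  rw [Gamma0_mem, crp_rep_mul_lower] at h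
  cases y with
  | none =>
    cases x with
    | none => rfl
    | some i =>
      exfalso
      simp only [crpRep, inv_one] at h
      simp at h
  | some j =>
    have hinv : ((crpRep p (some j))⁻¹ : SL(2, ℤ)) 0 0 = ((j : ℕ) : ℤ) ∧
        ((crpRep p (some j))⁻¹ : SL(2, ℤ)) 1 0 = -1 := by
      have h1 := crp_ST_coe ((j : ℕ) : ℤ)
      rw [crpRep]
      constructor
      · simp only [Matrix.SpecialLinearGroup.coe_inv, h1, Matrix.adjugate_fin_two]
        simp
      · simp only [Matrix.SpecialLinearGroup.coe_inv, h1, Matrix.adjugate_fin_two]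
        simp
    cases x with
    | none =>
      exfalso
      simp only at h
      rw [hinv.2] at h
      simp at h
    | some i =>
      simp only at h
      rw [hinv.1, hinv.2] at h
      push_cast at h
      have hij : ((j : ℕ) : ZMod p) = ((i : ℕ) : ZMod p) := by
        have : ((j : ℕ) : ZMod p) - ((i : ℕ) : ZMod p) = 0 := by
          rw [← h]; ring
        exact sub_eq_zero.mp this
      have hval := congrArg ZMod.val hij
      rw [ZMod.val_natCast_of_lt j.isLt, ZMod.val_natCast_of_lt i.isLt] at hval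
      congr 1
      exact Fin.ext hval.symm

/-- the coset space used by Mathlib's trace/norm -/
abbrev crpQ (p : ℕ) : Type :=
  ↥(𝒮ℒ) ⧸ ((Gamma0 p : Subgroup (GL (Fin 2) ℝ)).subgroupOf 𝒮ℒ)

/-- the representative as an element of `𝒮ℒ` -/
def crpGL (x : Option (Fin p)) : ↥(𝒮ℒ) := ⟨mapGL ℝ (crpRep p x), ⟨crpRep p x, rfl⟩⟩

/-- `x ↦ [γₓ⁻¹]` -/
def crpToQ (x : Option (Fin p)) : crpQ p := QuotientGroup.mk (crpGL p x)⁻¹

omit hp in
theorem crp_mem_subgroupOf_iff (g : SL(2, ℤ)) :
    (⟨mapGL ℝ g, ⟨g, rfl⟩⟩ : ↥(𝒮ℒ)) ∈ (Gamma0 p : Subgroup (GL (Fin 2) ℝ)).subgroupOf 𝒮ℒ ↔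
      g ∈ Gamma0 p := by
  rw [Subgroup.mem_subgroupOf]
  constructor
  · rintro ⟨g', hg', hgg⟩
    have : g' = g := mapGL_injective hgg
    rwa [← this]
  · intro hg
    exact ⟨g, hg, rfl⟩

theorem crpToQ_bijective : Function.Bijective (crpToQ p) := by
  constructor
  · intro x y hxy
    rw [crpToQ, crpToQ, QuotientGroup.eq] at hxy
    apply crp_rep_injective_mod p
    rw [← crp_mem_subgroupOf_iff]
    convert hxy using 1
    apply Subtype.ext
    simp [crpGL, map_mul, map_inv]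
  · intro q
    induction q using Quotient.inductionOn with
    | h r =>
      obtain ⟨r, ⟨g, rfl⟩⟩ := r
      obtain ⟨x, hx⟩ := crp_exists_rep_mul_mem p g
      refine ⟨x, ?_⟩
      rw [crpToQ]
      show (QuotientGroup.mk (crpGL p x)⁻¹ : crpQ p) = QuotientGroup.mk _
      rw [QuotientGroup.eq, inv_inv]
      rw [← crp_mem_subgroupOf_iff] at hx
      convert hx using 1
      apply Subtype.ext
      simp [crpGL, map_mul]

/-- the equivalence `Option (Fin p) ≃ SL₂(ℤ)/Γ₀(p)` -/
def crpEquiv : Option (Fin p) ≃ crpQ p := Equiv.ofBijective (crpToQ p) (crpToQ_bijective p)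

theorem crp_quotientFunc {k : ℤ} (F : ModularForm (Gamma0 p : Subgroup (GL (Fin 2) ℝ)) k)
    (x : Option (Fin p)) :
    quotientFunc F (crpEquiv p x) = (⇑F) ∣[k] (crpRep p x) := by
  show quotientFunc F (QuotientGroup.mk (crpGL p x)⁻¹) = _
  rw [show (QuotientGroup.mk (crpGL p x)⁻¹ : crpQ p) = ⟦(crpGL p x)⁻¹⟧ from rfl, quotientFunc_mk]
  simp only [crpGL, SL_slash, Subgroup.coe_inv, inv_inv]
  rfl

/-- TRACE in terms of the explicit representatives -/
theorem crp_trace_apply {k : ℤ} (F : ModularForm (Gamma0 p : Subgroup (GL (Fin 2) ℝ)) k) :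
    (⇑(ModularForm.trace 𝒮ℒ F) : ℍ → ℂ) = ∑ x : Option (Fin p), (⇑F) ∣[k] (crpRep p x) := by
  classical
  letI : Fintype (crpQ p) := Fintype.ofFinite _
  rw [ModularForm.coe_trace]
  rw [← (crpEquiv p).sum_comp]
  exact Finset.sum_congr rfl fun x _ => crp_quotientFunc p F x

/-- NORM in terms of the explicit representatives -/
theorem crp_norm_apply {k : ℤ} (F : ModularForm (Gamma0 p : Subgroup (GL (Fin 2) ℝ)) k) :
    (⇑(ModularForm.norm 𝒮ℒ F) : ℍ → ℂ) = ∏ x : Option (Fin p), (⇑F) ∣[k] (crpRep p x) := by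
  classical
  letI : Fintype (crpQ p) := Fintype.ofFinite _
  rw [ModularForm.coe_norm]
  rw [← (crpEquiv p).prod_comp]
  exact Finset.prod_congr rfl fun x _ => crp_quotientFunc p F x

/-- the index is `p + 1` -/
theorem crp_card : Nat.card (crpQ p) = p + 1 := by
  rw [← Nat.card_congr (crpEquiv p)]
  simp

end

end Fermat.Agent.S16x
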