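import Fermat.Agent.S16x.DualPerfect

/-!
# S16 project, duality module, part 4: from a character of `T` mod `k` to an integral form

If `χ : T →+* ZMod k` has `χ(T_q) = a_q` then there is an integral cusp form `g` with
`a_j(g) ≡ c_j (mod k)` for all `j ≥ 1`, where `c` is the sequence determined by the Hecke
recursion from the `a_q`.
-/

set_option autoImplicit false

open CuspForm ModularFormClass UpperHalfPlane CongruenceSubgroup

namespace Fermat.Agent.S16x

/-- the abstract induction: Hecke recursion for coefficient functionals -/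
theorem du_coeff_induction {T : Type*} [CommRing T] (N k : ℕ) (χ : T →+* ZMod k)
    (τ : Nat.Primes → T) (A : ℕ → T → ℤ) (a : Nat.Primes → ℤ) (c : ℕ → ℤ)
    (hrec : ∀ (q : Nat.Primes) (j : ℕ) (t : T), A j (τ q * t) = A (j * q) t +
      (if (q : ℕ) ∣ N then 0 else if (q : ℕ) ∣ j then (q : ℤ) * A (j / q) t else 0))
    (hbase : ∀ t, ((A 1 t : ℤ) : ZMod k) = χ t)
    (hχ : ∀ q, χ (τ q) = ((a q : ℤ) : ZMod k))
    (hc1 : c 1 = 1)
    (hc : ∀ (q : Nat.Primes) (j : ℕ), 1 ≤ j → c (j * q) = a q * c j -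
      (if (q : ℕ) ∣ N then 0 else if (q : ℕ) ∣ j then (q : ℤ) * c (j / q) else 0)) :
    ∀ j, 1 ≤ j → ∀ t : T, ((A j t : ℤ) : ZMod k) = χ t * ((c j : ℤ) : ZMod k) := by
  intro j
  induction j using Nat.strong_induction_on with
  | _ n ih =>
    intro hn t
    rcases eq_or_lt_of_le hn with h1 | h1
    · subst h1
      rw [hbase, hc1, Int.cast_one, mul_one]
    · obtain ⟨p, hp, hpn⟩ := Nat.exists_prime_and_dvd (show n ≠ 1 by omega)
      obtain ⟨m, hm⟩ : ∃ m, n = m * p := ⟨n / p, (Nat.div_mul_cancel hpn).symm⟩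
      have hp2 : 2 ≤ p := hp.two_le
      have hm1 : 1 ≤ m := by
        rcases Nat.eq_zero_or_pos m with h0 | h0
        · subst h0; omega
        · exact h0
      have hmn : m < n := by
        rw [hm]; nlinarith
      obtain ⟨q, hq⟩ : ∃ q : Nat.Primes, (q : ℕ) = p := ⟨⟨p, hp⟩, rfl⟩
      subst hq
      have h1' := ih m hmn hm1 (τ q * t)
      rw [hrec q m t, map_mul, hχ] at h1'
      rw [hm, hc q m hm1]
      by_cases hqN : (q : ℕ) ∣ N
      · rw [if_pos hqN] at h1' ⊢
        rw [add_zero] at h1'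
        rw [h1', sub_zero]
        push_cast
        ring
      · rw [if_neg hqN] at h1' ⊢
        by_cases hqm : (q : ℕ) ∣ m
        · rw [if_pos hqm] at h1' ⊢
          have hmq1 : 1 ≤ m / q := Nat.div_pos (Nat.le_of_dvd hm1 hqm) hp.pos
          have hmqn : m / q < n := lt_of_le_of_lt (Nat.div_le_self m q) hmn
          have h2' := ih (m / q) hmqn hmq1 t
          push_cast at h1' ⊢
          rw [h2'] at h1'
          linear_combination h1'
        · rw [if_neg hqm] at h1' ⊢
          rw [add_zero] at h1'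
          rw [h1', sub_zero]
          push_cast
          ring

variable {N : ℕ} [NeZero N]

/-- lifting an additive character of `T` to a `ℤ`-valued functional -/
theorem du_exists_lift (k : ℕ) (χ : ↥(heckeLatticeAlgebra N ∅) →+* ZMod k) :
    ∃ φ : ↥(heckeLatticeAlgebra N ∅) →ₗ[ℤ] ℤ, ∀ t, ((φ t : ℤ) : ZMod k) = χ t := by
  have hsurj : Function.Surjective ((Int.castAddHom (ZMod k)).toIntLinearMap) :=
    ZMod.intCast_surjective
  obtain ⟨φ, hφ⟩ := Module.projective_lifting_property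
    ((Int.castAddHom (ZMod k)).toIntLinearMap) (χ.toAddMonoidHom.toIntLinearMap) hsurj
  exact ⟨φ, fun t => LinearMap.congr_fun hφ t⟩

theorem du_mul_apply (s t : ↥(heckeLatticeAlgebra N ∅)) (g : ↥(intLattice N 2)) :
    ((s * t : ↥(heckeLatticeAlgebra N ∅)) : Module.End ℤ ↥(intLattice N 2)) g =
      (s : Module.End ℤ ↥(intLattice N 2)) ((t : Module.End ℤ ↥(intLattice N 2)) g) := rfl

theorem du_one_apply (g : ↥(intLattice N 2)) :
    ((1 : ↥(heckeLatticeAlgebra N ∅)) : Module.End ℤ ↥(intLattice N 2)) g = g := rfl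

/-- **Duality, character ⇒ form.** -/
theorem du_exists_form_of_char (k : ℕ) (χ : ↥(heckeLatticeAlgebra N ∅) →+* ZMod k)
    (a : Nat.Primes → ℤ) (hχ : ∀ q, χ (duGen N q) = ((a q : ℤ) : ZMod k))
    (c : ℕ → ℤ) (hc1 : c 1 = 1)
    (hc : ∀ (q : Nat.Primes) (j : ℕ), 1 ≤ j → c (j * q) = a q * c j -
      (if (q : ℕ) ∣ N then 0 else if (q : ℕ) ∣ j then (q : ℤ) * c (j / q) else 0)) :
    ∃ g : ↥(intLattice N 2), ∀ j, 1 ≤ j → ((duCoeff N j g : ℤ) : ZMod k) = ((c j : ℤ) : ZMod k) := by
  obtain ⟨φ, hφ⟩ := du_exists_lift k χ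
  obtain ⟨g, hg⟩ := du_exists_form_of_functional φ
  refine ⟨g, ?_⟩
  have key := du_coeff_induction N k χ (duGen N)
    (fun j t => duCoeff N j ((t : Module.End ℤ ↥(intLattice N 2)) g)) a c
    (fun q j t => by
      show duCoeff N j (((duGen N q * t : ↥(heckeLatticeAlgebra N ∅)) :
        Module.End ℤ ↥(intLattice N 2)) g) = _
      rw [du_mul_apply, duCoeff_duGen])
    (fun t => by
      show ((duCoeff N 1 ((t : Module.End ℤ ↥(intLattice N 2)) g) : ℤ) : ZMod k) = χ t
      rw [hg, hφ])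
    hχ hc1 hc
  intro j hj
  have h := key j hj 1
  rw [map_one, one_mul] at h
  exact h

end Fermat.Agent.S16x
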