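import Mathlib
import Fermat.Prelude.Def_CuspForm_HeckeLocal
import Fermat.Prelude.Def_CuspForm_HeckeEvalForms
import Fermat.Prelude.Thm_ModularFormClass_qCoeff_heckeT
import Fermat.Prelude.Thm_ModularFormClass_qCoeff_heckeU
import Fermat.Prelude.Thm_CongruenceSubgroup_one_mem_strictPeriods_Gamma0

/-!
# S16 project, duality module, part 1: integral `q`-coefficients on the lattice

* `duCoeff N j : ↥(intLattice N 2) →ₗ[ℤ] ℤ`, the `j`-th `q`-coefficient of an integral form;
* the action of the generators `T_q`, `U_q` of `heckeLatticeAlgebra N ∅` on `duCoeff`.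
-/

set_option autoImplicit false

open CuspForm ModularFormClass UpperHalfPlane CongruenceSubgroup

namespace Fermat.Agent.S16x

variable {N : ℕ}

/-! ### basic `q`-coefficient algebra (weight two, level `Γ₀(N)`) -/

theorem du_qCoeff_add (f g : CuspForm (Gamma0 N) 2) (n : ℕ) :
    qCoeff (⇑(f + g)) n = qCoeff (⇑f) n + qCoeff (⇑g) n := by
  unfold qCoeff
  rw [FunLike.coe_add, ModularForm.qExpansion_add one_pos
    (one_mem_strictPeriods_Gamma0 N) f g, map_add]

theorem du_qCoeff_smul (c : ℂ) (f : CuspForm (Gamma0 N) 2) (n : ℕ) :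
    qCoeff (⇑(c • f)) n = c * qCoeff (⇑f) n := by
  unfold qCoeff
  rw [FunLike.coe_smul, ModularForm.qExpansion_smul one_pos
    (one_mem_strictPeriods_Gamma0 N) c f, PowerSeries.coeff_smul, smul_eq_mul]

theorem du_qCoeff_zero_index (f : CuspForm (Gamma0 N) 2) : qCoeff (⇑f) 0 = 0 :=
  CuspFormClass.qExpansion_coeff_zero f one_pos (one_mem_strictPeriods_Gamma0 N)

theorem du_qCoeff_zero_form (n : ℕ) : qCoeff (⇑(0 : CuspForm (Gamma0 N) 2)) n = 0 := by
  have h := du_qCoeff_smul (N := N) 0 0 n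
  rw [zero_smul, zero_mul] at h
  exact h

theorem du_qCoeff_zsmul (c : ℤ) (f : CuspForm (Gamma0 N) 2) (n : ℕ) :
    qCoeff (⇑(c • f)) n = (c : ℂ) * qCoeff (⇑f) n := by
  rw [← Int.cast_smul_eq_zsmul ℂ c f, du_qCoeff_smul]

theorem du_qCoeff_heckeTLin {p : ℕ} (hp : p.Prime) (hpN : ¬ p ∣ N) (f : CuspForm (Gamma0 N) 2)
    (n : ℕ) :
    qCoeff (⇑(heckeTLin 2 hp hpN f)) n =
      qCoeff (⇑f) (n * p) + if p ∣ n then (p : ℂ) * qCoeff (⇑f) (n / p) else 0 := by
  rw [coe_heckeTLin_apply,
    ModularFormClass.qCoeff_heckeT f (one_mem_strictPeriods_Gamma0 N) hp.ne_zero n,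
    ModularForm.coeffHeckeT_apply]
  norm_num

theorem du_qCoeff_heckeULin [NeZero N] {p : ℕ} (hp : p.Prime) (hpN : p ∣ N)
    (f : CuspForm (Gamma0 N) 2) (n : ℕ) :
    qCoeff (⇑(heckeULin 2 hpN f)) n = qCoeff (⇑f) (n * p) := by
  rw [coe_heckeULin_apply,
    ModularFormClass.qCoeff_heckeU f (one_mem_strictPeriods_Gamma0 N) hp.ne_zero n,
    ModularForm.coeffHeckeU_apply]

/-- A cusp form all of whose `q`-coefficients vanish is zero. -/
theorem du_eq_zero_of_qCoeff (f : CuspForm (Gamma0 N) 2) (h : ∀ n, qCoeff f n = 0) :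
    f = 0 := by
  have hΓ := CongruenceSubgroup.one_mem_strictPeriods_Gamma0 N
  have : Fact (IsCusp OnePoint.infty
      (Subgroup.map (Matrix.SpecialLinearGroup.mapGL ℝ) (Gamma0 N))) :=
    ⟨Subgroup.isCusp_of_mem_strictPeriods one_pos hΓ⟩
  have hq : qExpansion 1 f = 0 := by
    ext n
    simpa [qCoeff] using h n
  have := (UpperHalfPlane.qExpansion_eq_zero_iff one_pos
    (SlashInvariantFormClass.periodic_comp_ofComplex f hΓ) (ModularFormClass.holo f)
    (ModularFormClass.bdd_at_infty f)).mp hq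
  exact DFunLike.coe_injective this

/-! ### the integral lattice is the set of forms with integral `q`-expansion -/

theorem du_mem_intLattice_iff (f : CuspForm (Gamma0 N) 2) :
    f ∈ intLattice N 2 ↔ ∀ n : ℕ, ∃ m : ℤ, qCoeff (⇑f) n = (m : ℂ) := by
  constructor
  · intro hf
    unfold intLattice at hf
    induction hf using Submodule.span_induction with
    | mem x hx => exact hx
    | zero => exact fun n => ⟨0, by rw [du_qCoeff_zero_form]; simp⟩
    | add x y _ _ hx hy =>
      intro n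
      obtain ⟨a, ha⟩ := hx n
      obtain ⟨b, hb⟩ := hy n
      exact ⟨a + b, by rw [du_qCoeff_add, ha, hb]; push_cast; rfl⟩
    | smul c x _ hx =>
      intro n
      obtain ⟨a, ha⟩ := hx n
      exact ⟨c * a, by rw [du_qCoeff_zsmul, ha]; push_cast; rfl⟩
  · intro hf
    exact Submodule.subset_span hf

/-- the `j`-th `q`-coefficient of an integral form, as an integer -/
noncomputable def duCoeffFun (N : ℕ) (j : ℕ) (f : ↥(intLattice N 2)) : ℤ :=
  Classical.choose ((du_mem_intLattice_iff f.1).mp f.2 j)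

theorem duCoeffFun_spec (j : ℕ) (f : ↥(intLattice N 2)) :
    qCoeff (⇑(f : CuspForm (Gamma0 N) 2)) j = ((duCoeffFun N j f : ℤ) : ℂ) :=
  Classical.choose_spec ((du_mem_intLattice_iff f.1).mp f.2 j)

/-- the `j`-th `q`-coefficient, as a `ℤ`-linear functional on the integral lattice -/
noncomputable def duCoeff (N : ℕ) (j : ℕ) : ↥(intLattice N 2) →ₗ[ℤ] ℤ where
  toFun := duCoeffFun N j
  map_add' f g := by
    apply Int.cast_injective (α := ℂ)
    rw [← duCoeffFun_spec, Submodule.coe_add, du_qCoeff_add, duCoeffFun_spec, duCoeffFun_spec]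
    push_cast
    rfl
  map_smul' c f := by
    apply Int.cast_injective (α := ℂ)
    rw [← duCoeffFun_spec, Submodule.coe_smul, du_qCoeff_zsmul, duCoeffFun_spec]
    simp

theorem duCoeff_spec (j : ℕ) (f : ↥(intLattice N 2)) :
    qCoeff (⇑(f : CuspForm (Gamma0 N) 2)) j = ((duCoeff N j f : ℤ) : ℂ) :=
  duCoeffFun_spec j f

theorem duCoeff_eq_iff (j : ℕ) (f : ↥(intLattice N 2)) (m : ℤ) :
    duCoeff N j f = m ↔ qCoeff (⇑(f : CuspForm (Gamma0 N) 2)) j = (m : ℂ) := by
  rw [duCoeff_spec]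
  exact Int.cast_inj.symm

theorem duCoeff_zero_index (f : ↥(intLattice N 2)) : duCoeff N 0 f = 0 := by
  rw [duCoeff_eq_iff, du_qCoeff_zero_index]
  simp

/-- an integral form whose coefficients `a_j`, `j ≥ 1`, all vanish is zero -/
theorem du_eq_zero_of_duCoeff (f : ↥(intLattice N 2)) (h : ∀ j, 1 ≤ j → duCoeff N j f = 0) :
    f = 0 := by
  apply Subtype.ext
  apply du_eq_zero_of_qCoeff
  intro n
  rcases Nat.eq_zero_or_pos n with h0 | h0
  · subst h0; exact du_qCoeff_zero_index _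
  · rw [duCoeff_spec, h n h0]; simp

end Fermat.Agent.S16x
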