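import Fermat.Agent.S16x.DualCoeff

/-!
# S16 project, duality module, part 2: the pairing `T × L → ℤ`, `(t, f) ↦ a₁(t f)`

`L = intLattice N 2`, `T = heckeLatticeAlgebra N ∅`.  We show that `L → Hom_ℤ(T, ℤ)` is bijective.
-/

set_option autoImplicit false

open CuspForm ModularFormClass UpperHalfPlane CongruenceSubgroup

namespace Fermat.Agent.S16x

variable {N : ℕ} [NeZero N]

/-- the generator `T_q` (`q ∤ N`) resp. `U_q` (`q ∣ N`) of the lattice Hecke algebra -/
noncomputable def duGen (N : ℕ) [NeZero N] (q : Nat.Primes) : ↥(heckeLatticeAlgebra N ∅) :=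
  latticeRestrictHom N ∅ (heckeFormsGen N 2 q)

theorem du_latticeRestrictHom_apply (s : ↥(heckeAlgebra N 2 ∅)) (f : ↥(intLattice N 2)) :
    (((latticeRestrictHom N ∅ s : ↥(heckeLatticeAlgebra N ∅)) :
      Module.End ℤ ↥(intLattice N 2)) f : CuspForm (Gamma0 N) 2) =
      (s : Module.End ℂ (CuspForm (Gamma0 N) 2)) (f : CuspForm (Gamma0 N) 2) := rfl

theorem duCoeff_duGen (q : Nat.Primes) (j : ℕ) (f : ↥(intLattice N 2)) :
    duCoeff N j ((duGen N q : Module.End ℤ ↥(intLattice N 2)) f) =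
      duCoeff N (j * q) f +
        (if (q : ℕ) ∣ N then 0 else if (q : ℕ) ∣ j then (q : ℤ) * duCoeff N (j / q) f else 0) := by
  rw [duCoeff_eq_iff, duGen, du_latticeRestrictHom_apply]
  by_cases hqN : (q : ℕ) ∣ N
  · rw [if_pos hqN, heckeFormsGen_of_dvd hqN, heckeAlgebra.coe_U, du_qCoeff_heckeULin q.2 hqN,
      duCoeff_spec]
    simp
  · rw [if_neg hqN, heckeFormsGen_of_not_dvd hqN, heckeAlgebra.coe_T, du_qCoeff_heckeTLin q.2 hqN,
      duCoeff_spec]
    split_ifs with hj
    · rw [duCoeff_spec]; push_cast; rfl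
    · simp

/-- For every `j ≥ 1` there is `t_j ∈ T` with `a₁(t_j f) = a_j(f)`. -/
theorem du_exists_hecke_coeff (j : ℕ) (hj : 1 ≤ j) :
    ∃ t : ↥(heckeLatticeAlgebra N ∅), ∀ f : ↥(intLattice N 2),
      duCoeff N 1 ((t : Module.End ℤ ↥(intLattice N 2)) f) = duCoeff N j f := by
  induction j using Nat.strong_induction_on with
  | _ n ih =>
    rcases eq_or_lt_of_le hj with h1 | h1
    · subst h1
      exact ⟨1, fun f => rfl⟩
    · obtain ⟨p, hp, hpn⟩ := Nat.exists_prime_and_dvd (show n ≠ 1 by omega)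
      obtain ⟨m, hm⟩ : ∃ m, n = m * p := ⟨n / p, (Nat.div_mul_cancel hpn).symm⟩
      have hp2 : 2 ≤ p := hp.two_le
      have hm1 : 1 ≤ m := by
        rcases Nat.eq_zero_or_pos m with h0 | h0
        · subst h0; omega
        · exact h0
      have hmn : m < n := by
        rw [hm]; nlinarith
      obtain ⟨tm, htm⟩ := ih m hmn hm1
      obtain ⟨q, hq⟩ : ∃ q : Nat.Primes, (q : ℕ) = p := ⟨⟨p, hp⟩, rfl⟩
      subst hq
      by_cases hpN : (q : ℕ) ∣ N
      · refine ⟨tm * duGen N q, fun f => ?_⟩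
        rw [Subalgebra.coe_mul, Module.End.mul_apply, htm, duCoeff_duGen, if_pos hpN, add_zero, hm]
      · by_cases hpm : (q : ℕ) ∣ m
        · have hmp1 : 1 ≤ m / q := Nat.div_pos (Nat.le_of_dvd hm1 hpm) hp.pos
          have hmpn : m / q < n := lt_of_le_of_lt (Nat.div_le_self m q) hmn
          obtain ⟨t', ht'⟩ := ih (m / q) hmpn hmp1
          refine ⟨tm * duGen N q - ((q : ℕ) : ℤ) • t', fun f => ?_⟩
          rw [Subalgebra.coe_sub, LinearMap.sub_apply, map_sub, Subalgebra.coe_mul,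
            Module.End.mul_apply, htm, duCoeff_duGen, if_neg hpN, if_pos hpm, Subalgebra.coe_smul,
            LinearMap.smul_apply, map_smul, ht', hm, smul_eq_mul]
          simp
        · refine ⟨tm * duGen N q, fun f => ?_⟩
          rw [Subalgebra.coe_mul, Module.End.mul_apply, htm, duCoeff_duGen, if_neg hpN, if_neg hpm,
            add_zero, hm]

/-- the pairing, as a map `L → Hom_ℤ(T, ℤ)` -/
noncomputable def duPairL (N : ℕ) [NeZero N] :
    ↥(intLattice N 2) →ₗ[ℤ] (↥(heckeLatticeAlgebra N ∅) →ₗ[ℤ] ℤ) where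
  toFun f :=
    { toFun := fun t => duCoeff N 1 ((t : Module.End ℤ ↥(intLattice N 2)) f)
      map_add' := fun s t => by
        rw [Subalgebra.coe_add, LinearMap.add_apply, map_add]
      map_smul' := fun c t => by
        rw [Subalgebra.coe_smul, LinearMap.smul_apply, map_smul]; rfl }
  map_add' f g := by
    ext t
    simp only [LinearMap.coe_mk, AddHom.coe_mk, LinearMap.add_apply, map_add]
  map_smul' c f := by
    ext t
    simp only [LinearMap.coe_mk, AddHom.coe_mk, LinearMap.smul_apply, map_smul, RingHom.id_apply]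

theorem duPairL_apply (f : ↥(intLattice N 2)) (t : ↥(heckeLatticeAlgebra N ∅)) :
    duPairL N f t = duCoeff N 1 ((t : Module.End ℤ ↥(intLattice N 2)) f) := rfl

/-- the pairing, as a map `T → Hom_ℤ(L, ℤ)` -/
noncomputable def duPairT (N : ℕ) [NeZero N] :
    ↥(heckeLatticeAlgebra N ∅) →ₗ[ℤ] (↥(intLattice N 2) →ₗ[ℤ] ℤ) where
  toFun t := (duCoeff N 1).comp (t : Module.End ℤ ↥(intLattice N 2))
  map_add' s t := by
    ext f
    simp only [LinearMap.comp_apply, Subalgebra.coe_add, LinearMap.add_apply, map_add]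
  map_smul' c t := by
    ext f
    simp only [LinearMap.comp_apply, Subalgebra.coe_smul, LinearMap.smul_apply, map_smul,
      RingHom.id_apply]

theorem duPairT_apply (f : ↥(intLattice N 2)) (t : ↥(heckeLatticeAlgebra N ∅)) :
    duPairT N t f = duCoeff N 1 ((t : Module.End ℤ ↥(intLattice N 2)) f) := rfl

theorem duPairL_injective : Function.Injective (duPairL N) := by
  rw [← LinearMap.ker_eq_bot, LinearMap.ker_eq_bot']
  intro f hf
  apply du_eq_zero_of_duCoeff
  intro j hj
  obtain ⟨t, ht⟩ := du_exists_hecke_coeff (N := N) j hj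
  rw [← ht f, ← duPairL_apply, hf]
  rfl

theorem duPairT_injective : Function.Injective (duPairT N) := by
  rw [← LinearMap.ker_eq_bot, LinearMap.ker_eq_bot']
  intro t ht
  apply Subtype.ext
  apply LinearMap.ext
  intro f
  apply du_eq_zero_of_duCoeff
  intro j hj
  obtain ⟨s, hs⟩ := du_exists_hecke_coeff (N := N) j hj
  rw [← hs]
  have hcomm : ((s : Module.End ℤ ↥(intLattice N 2)) ((t : Module.End ℤ ↥(intLattice N 2)) f)) =
      (t : Module.End ℤ ↥(intLattice N 2)) ((s : Module.End ℤ ↥(intLattice N 2)) f) := by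
    rw [← Module.End.mul_apply, ← Module.End.mul_apply, ← Subalgebra.coe_mul, ← Subalgebra.coe_mul,
      mul_comm]
  rw [hcomm, ← duPairT_apply, ht]
  rfl

end Fermat.Agent.S16x
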