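import Fermat.Agent.S16x.DualPairing

/-!
# S16 project, duality module, part 3: the pairing is perfect

Every `ℤ`-linear functional on `T = heckeLatticeAlgebra N ∅` is `t ↦ a₁(t f)` for a unique
integral form `f`.
-/

set_option autoImplicit false

open CuspForm ModularFormClass UpperHalfPlane CongruenceSubgroup

namespace Fermat.Agent.S16x

/-- an injective map between free `ℤ`-modules of the same finite rank has torsion cokernel -/
theorem du_exists_multiple_abstract {A B : Type*} [AddCommGroup A] [AddCommGroup B]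
    [Module.Free ℤ B] [Module.Finite ℤ B] (ι : A →ₗ[ℤ] B) (hι : Function.Injective ι)
    (hrk : Module.finrank ℤ A = Module.finrank ℤ B) (φ : B) :
    ∃ D : ℕ, D ≠ 0 ∧ ∃ f : A, ι f = (D : ℤ) • φ := by
  have hrk' : Module.finrank ℤ ↥(LinearMap.range ι) = Module.finrank ℤ B := by
    rw [LinearMap.finrank_range_of_inj hι, hrk]
  have hfin : Finite (B ⧸ LinearMap.range ι) :=
    Submodule.finiteQuotientOfFreeOfRankEq (LinearMap.range ι) hrk'
  have hc0 : Nat.card (B ⧸ LinearMap.range ι) ≠ 0 := Nat.card_pos.ne'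
  have h0 : Nat.card (B ⧸ LinearMap.range ι) •
      (Submodule.Quotient.mk φ : B ⧸ LinearMap.range ι) = 0 := card_nsmul_eq_zero'
  rw [← Submodule.Quotient.mk_smul, Submodule.Quotient.mk_eq_zero] at h0
  obtain ⟨f, hf⟩ := h0
  exact ⟨_, hc0, f, by rw [hf, natCast_zsmul]⟩

variable {N : ℕ} [NeZero N]

theorem du_finrank_eq (N : ℕ) [NeZero N] :
    Module.finrank ℤ ↥(intLattice N 2) = Module.finrank ℤ ↥(heckeLatticeAlgebra N ∅) := by
  have := intLattice.moduleFinite N
  have := intLattice.moduleFree N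
  apply le_antisymm
  · have h := LinearMap.finrank_le_finrank_of_injective (duPairL_injective (N := N))
    rwa [Module.finrank_linearMap_self ℤ ℤ ↥(heckeLatticeAlgebra N ∅)] at h
  · have h := LinearMap.finrank_le_finrank_of_injective (duPairT_injective (N := N))
    rwa [Module.finrank_linearMap_self ℤ ℤ ↥(intLattice N 2)] at h

/-- some nonzero multiple of any functional on `T` comes from an integral form -/
theorem du_exists_multiple (φ : ↥(heckeLatticeAlgebra N ∅) →ₗ[ℤ] ℤ) :
    ∃ D : ℕ, D ≠ 0 ∧ ∃ f : ↥(intLattice N 2), duPairL N f = (D : ℤ) • φ := by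
  refine du_exists_multiple_abstract (duPairL N) duPairL_injective ?_ φ
  rw [du_finrank_eq, Module.finrank_linearMap_self ℤ ℤ ↥(heckeLatticeAlgebra N ∅)]

end Fermat.Agent.S16x

namespace Fermat.Agent.S16x

open CuspForm ModularFormClass UpperHalfPlane CongruenceSubgroup

variable {N : ℕ} [NeZero N]

omit [NeZero N] in
/-- an integral form all of whose coefficients are divisible by `D` is `D` times an integral form -/
theorem du_divide (f₀ : ↥(intLattice N 2)) (D : ℕ) (hD : D ≠ 0)
    (h : ∀ j, (D : ℤ) ∣ duCoeff N j f₀) : ∃ f : ↥(intLattice N 2), (D : ℤ) • f = f₀ := by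
  have hDC : (D : ℂ) ≠ 0 := by exact_mod_cast hD
  have hmem : ((D : ℂ)⁻¹ • (f₀ : CuspForm (Gamma0 N) 2)) ∈ intLattice N 2 := by
    rw [du_mem_intLattice_iff]
    intro n
    obtain ⟨c, hc⟩ := h n
    refine ⟨c, ?_⟩
    rw [du_qCoeff_smul, duCoeff_spec, hc]
    push_cast
    field_simp
  refine ⟨⟨_, hmem⟩, Subtype.ext ?_⟩
  rw [Submodule.coe_smul, ← Int.cast_smul_eq_zsmul ℂ, smul_smul]
  simp [hDC]

/-- **Perfectness of the pairing**: every functional on `T` is `t ↦ a₁(t f)`. -/
theorem du_exists_form_of_functional (φ : ↥(heckeLatticeAlgebra N ∅) →ₗ[ℤ] ℤ) :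
    ∃ f : ↥(intLattice N 2), ∀ t : ↥(heckeLatticeAlgebra N ∅),
      duCoeff N 1 ((t : Module.End ℤ ↥(intLattice N 2)) f) = φ t := by
  obtain ⟨D, hD, f₀, hf₀⟩ := du_exists_multiple φ
  have hdiv : ∀ j, (D : ℤ) ∣ duCoeff N j f₀ := by
    intro j
    rcases Nat.eq_zero_or_pos j with h0 | h0
    · subst h0; rw [duCoeff_zero_index]; exact dvd_zero _
    · obtain ⟨t, ht⟩ := du_exists_hecke_coeff (N := N) j h0
      rw [← ht f₀, ← duPairL_apply, hf₀]
      exact ⟨φ t, rfl⟩
  obtain ⟨f, hf⟩ := du_divide f₀ D hD hdiv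
  refine ⟨f, fun t => ?_⟩
  have h1 : (D : ℤ) * duCoeff N 1 ((t : Module.End ℤ ↥(intLattice N 2)) f) = (D : ℤ) * φ t := by
    have h2 := congrArg (fun ψ : ↥(heckeLatticeAlgebra N ∅) →ₗ[ℤ] ℤ => ψ t) hf₀
    simp only [LinearMap.smul_apply, smul_eq_mul] at h2
    rw [← h2, ← hf, duPairL_apply, map_smul, map_smul, smul_eq_mul]
  exact mul_left_cancel₀ (by exact_mod_cast hD) h1

end Fermat.Agent.S16x
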