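/-
S16 / AN3 (helper73): the weight-2 Eisenstein series of level `Γ₀(N)`,
`e_N(z) = (N·E₂(Nz) − E₂(z))/24`, as a `ModularForm (Gamma0 N) 2`.
-/
import Mathlib
import Fermat.Prelude.Def_ModularForm_HeckeOperator

set_option autoImplicit false

noncomputable section

open scoped MatrixGroups ModularForm UpperHalfPlane Topology Manifold
open UpperHalfPlane ModularForm EisensteinSeries CongruenceSubgroup Matrix.SpecialLinearGroup Filter

namespace Fermat.Agent.S16x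

/-- `D2 γ` is bounded at `i∞`. -/
theorem an3_isBoundedAtImInfty_D2 (γ : SL(2, ℤ)) : IsBoundedAtImInfty (D2 γ) := by
  rw [isBoundedAtImInfty_iff]
  refine ⟨2 * Real.pi, 1, fun z hz => ?_⟩
  unfold D2
  by_cases hc : γ 1 0 = 0
  · simp [hc, Real.pi_pos.le]
  · have hc' : ((γ 1 0 : ℤ) : ℝ) ≠ 0 := by exact_mod_cast hc
    have hden : |((γ 1 0 : ℤ) : ℝ)| * z.im ≤ ‖denom γ z‖ := by
      have h1 : |(denom γ z).im| ≤ ‖denom γ z‖ := Complex.abs_im_le_norm _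
      have h2 : (denom γ z).im = ((γ 1 0 : ℤ) : ℝ) * z.im := by
        simp [denom]
      rw [h2, abs_mul, abs_of_pos z.im_pos] at h1
      exact h1
    have hpos : 0 < |((γ 1 0 : ℤ) : ℝ)| * z.im := mul_pos (abs_pos.mpr hc') z.im_pos
    rw [norm_div]
    rw [div_le_iff₀ (lt_of_lt_of_le hpos hden)]
    have hnum : ‖(2 * (Real.pi : ℂ) * Complex.I * ((γ 1 0 : ℤ) : ℂ))‖ = 2 * Real.pi * |((γ 1 0 : ℤ) : ℝ)| := by
      simp [abs_of_pos Real.pi_pos]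
    rw [hnum]
    calc 2 * Real.pi * |((γ 1 0 : ℤ) : ℝ)| = 2 * Real.pi * (|((γ 1 0 : ℤ) : ℝ)| * 1) := by ring
      _ ≤ 2 * Real.pi * (|((γ 1 0 : ℤ) : ℝ)| * z.im) := by
          apply mul_le_mul_of_nonneg_left _ (by positivity)
          exact mul_le_mul_of_nonneg_left hz (abs_nonneg _)
      _ ≤ 2 * Real.pi * ‖denom γ z‖ := by
          apply mul_le_mul_of_nonneg_left hden (by positivity)

/-- Every `SL(2,ℤ)`-translate of `E2` is bounded at `i∞`. -/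
theorem an3_isBoundedAtImInfty_E2_slash (γ : SL(2, ℤ)) :
    IsBoundedAtImInfty (E2 ∣[(2 : ℤ)] γ) := by
  rw [E2_slash_action]
  exact isBoundedAtImInfty_E2.sub ((an3_isBoundedAtImInfty_D2 γ).const_smul_left _)

/-- The diagonal matrix `diag(N,1)`; `f ∣[2] an3_diag N = N·f(N·)`. -/
abbrev an3_diag (N : ℕ) : GL (Fin 2) ℝ := ModularForm.heckeDiagMatrix N

/-- Boundedness at `i∞` of all `SL(2,ℤ)`-translates of `E2 ∣[2] diag(N,1)`. -/
theorem an3_isBoundedAtImInfty_E2_diag_slash (N : ℕ) [NeZero N] (γ : SL(2, ℤ)) :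
    IsBoundedAtImInfty ((E2 ∣[(2 : ℤ)] an3_diag N) ∣[(2 : ℤ)] γ) := by
  have hN : N ≠ 0 := NeZero.ne N
  -- first column of `diag(N,1) * γ` is `(N a, c)`
  set a : ℤ := γ 0 0 with ha
  set c : ℤ := γ 1 0 with hc
  -- reduce the first column
  obtain ⟨g, a', c', hg0, hNa, hcc, hcop⟩ : ∃ (g a' c' : ℤ), g ≠ 0 ∧ (N : ℤ) * a = g * a' ∧ c = g * c' ∧
      IsCoprime a' c' := by
    have hne : ¬ ((N : ℤ) * a = 0 ∧ c = 0) := by
      rintro ⟨h1, h2⟩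
      have ha0 : a = 0 := by
        rcases mul_eq_zero.mp h1 with h | h
        · exact absurd (by exact_mod_cast h) hN
        · exact h
      have hdet := Matrix.SpecialLinearGroup.det_coe γ
      rw [Matrix.det_fin_two] at hdet
      rw [← ha, ← hc, ha0, h2] at hdet
      simp at hdet
    have hgne : (Int.gcd ((N : ℤ) * a) c : ℤ) ≠ 0 := by
      intro h
      have := Int.gcd_eq_zero_iff.mp (by exact_mod_cast h)
      exact hne this
    obtain ⟨a', ha'⟩ := Int.gcd_dvd_left ((N : ℤ) * a) c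
    obtain ⟨c', hc'⟩ := Int.gcd_dvd_right ((N : ℤ) * a) c
    refine ⟨Int.gcd ((N : ℤ) * a) c, a', c', hgne, ha', hc', ?_⟩
    have hpos : 0 < Int.gcd ((N : ℤ) * a) c := Nat.pos_of_ne_zero (by exact_mod_cast hgne)
    rw [Int.isCoprime_iff_gcd_eq_one]
    have := Int.gcd_div_gcd_div_gcd (i := (N : ℤ) * a) (j := c) hpos
    have e1 : (N : ℤ) * a / (Int.gcd ((N : ℤ) * a) c : ℤ) = a' :=
      Int.ediv_eq_of_eq_mul_right hgne ha'
    have e2 : c / (Int.gcd ((N : ℤ) * a) c : ℤ) = c' :=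
      Int.ediv_eq_of_eq_mul_right hgne hc'
    rw [e1, e2] at this
    exact this
  obtain ⟨γ', hγ0, hγ1⟩ := hcop.exists_SL2_col 0
  -- the upper triangular matrix β = γ'⁻¹ * diag(N,1) * γ
  set β : GL (Fin 2) ℝ := (mapGL ℝ γ')⁻¹ * (an3_diag N * mapGL ℝ γ) with hβ
  have hmul : an3_diag N * mapGL ℝ γ = mapGL ℝ γ' * β := by
    rw [hβ, mul_inv_cancel_left]
  have hβ10 : β 1 0 = 0 := by
    have h1 : (β : Matrix (Fin 2) (Fin 2) ℝ) =
        ((mapGL ℝ γ'⁻¹ : GL (Fin 2) ℝ) : Matrix (Fin 2) (Fin 2) ℝ) *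
          ((an3_diag N : GL (Fin 2) ℝ) : Matrix (Fin 2) (Fin 2) ℝ) *
          ((mapGL ℝ γ : GL (Fin 2) ℝ) : Matrix (Fin 2) (Fin 2) ℝ) := by
      rw [hβ, map_inv]
      simp [Matrix.mul_assoc]
    have h2 : ((an3_diag N : GL (Fin 2) ℝ) : Matrix (Fin 2) (Fin 2) ℝ) = !![(N : ℝ), 0; 0, 1] :=
      ModularForm.val_heckeDiagMatrix hN
    have h3 : β 1 0 = (β : Matrix (Fin 2) (Fin 2) ℝ) 1 0 := rfl
    rw [h3, h1, h2]
    simp only [Matrix.mul_apply, Fin.sum_univ_two, mapGL_coe_matrix, Matrix.SpecialLinearGroup.map_apply_coe,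
      RingHom.mapMatrix_apply, Matrix.map_apply, Matrix.SpecialLinearGroup.coe_inv,
      Matrix.adjugate_fin_two, Matrix.of_apply, Matrix.cons_val', Matrix.cons_val_zero,
      Matrix.cons_val_one]
    simp only [← ha, ← hc, hγ0, hγ1]
    have : ((N : ℤ) * a : ℝ) = (g : ℝ) * a' := by exact_mod_cast congrArg (Int.cast : ℤ → ℝ) hNa
    have hc2 : (c : ℝ) = (g : ℝ) * c' := by exact_mod_cast congrArg (Int.cast : ℤ → ℝ) hcc
    simp
    push_cast at this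
    linear_combination (-(c' : ℝ)) * this + (a' : ℝ) * hc2
  have : (E2 ∣[(2 : ℤ)] an3_diag N) ∣[(2 : ℤ)] γ = (E2 ∣[(2 : ℤ)] γ') ∣[(2 : ℤ)] β := by
    have e1 : ∀ (f : ℍ → ℂ) (δ : SL(2, ℤ)), f ∣[(2 : ℤ)] δ = f ∣[(2 : ℤ)] (mapGL ℝ δ) :=
      fun _ _ => rfl
    rw [e1, ← SlashAction.slash_mul, hmul, SlashAction.slash_mul, ← e1]
  rw [this]
  exact (an3_isBoundedAtImInfty_E2_slash γ').slash _ hβ10

/-- The conjugate `diag(N,1) γ diag(N,1)⁻¹` of `γ ∈ Γ₀(N)`. -/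
def an3_conj (N : ℕ) (γ : SL(2, ℤ)) (c' : ℤ) (hc : γ 1 0 = N * c') : SL(2, ℤ) :=
  ⟨!![γ 0 0, N * γ 0 1; c', γ 1 1], by
    have hdet := Matrix.SpecialLinearGroup.det_coe γ
    rw [Matrix.det_fin_two] at hdet
    rw [Matrix.det_fin_two_of]
    rw [hc] at hdet
    linarith⟩

theorem an3_mapGL_apply (g : SL(2, ℤ)) (i j : Fin 2) :
    (mapGL ℝ g) i j = ((g i j : ℤ) : ℝ) := by
  simp [mapGL]

theorem an3_diag_mul (N : ℕ) [NeZero N] (γ : SL(2, ℤ)) (c' : ℤ) (hc : γ 1 0 = N * c') :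
    an3_diag N * mapGL ℝ γ = mapGL ℝ (an3_conj N γ c' hc) * an3_diag N := by
  have hN : N ≠ 0 := NeZero.ne N
  apply Units.ext
  have h2 : ((an3_diag N : GL (Fin 2) ℝ) : Matrix (Fin 2) (Fin 2) ℝ) = !![(N : ℝ), 0; 0, 1] :=
    ModularForm.val_heckeDiagMatrix hN
  rw [Units.val_mul, Units.val_mul, h2]
  have hcr : ((γ 1 0 : ℤ) : ℝ) = (N : ℝ) * (c' : ℝ) := by exact_mod_cast congrArg (Int.cast : ℤ → ℝ) hc
  ext i j
  rw [Matrix.mul_apply, Matrix.mul_apply]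
  simp only [Fin.sum_univ_two]
  have e : ∀ (g : SL(2, ℤ)) (i j : Fin 2),
      ((mapGL ℝ g : GL (Fin 2) ℝ) : Matrix (Fin 2) (Fin 2) ℝ) i j = ((g i j : ℤ) : ℝ) :=
    an3_mapGL_apply
  rw [e, e, e, e]
  fin_cases i <;> fin_cases j <;>
    simp [an3_conj, hcr, mul_comm]

/-- Transformation of `E2 ∣[2] diag(N,1)` under `Γ₀(N)`: the same defect `D2 γ` as for `E2`. -/
theorem an3_E2_diag_slash (N : ℕ) [NeZero N] (γ : SL(2, ℤ)) (hγ : γ ∈ Gamma0 N) :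
    (E2 ∣[(2 : ℤ)] an3_diag N) ∣[(2 : ℤ)] γ =
      E2 ∣[(2 : ℤ)] an3_diag N - (1 / (2 * riemannZeta 2)) • D2 γ := by
  have hN : N ≠ 0 := NeZero.ne N
  obtain ⟨c', hc⟩ : ∃ c' : ℤ, γ 1 0 = N * c' := by
    rw [Gamma0_mem] at hγ
    exact (ZMod.intCast_zmod_eq_zero_iff_dvd _ _).mp hγ
  have e1 : ∀ (f : ℍ → ℂ) (δ : SL(2, ℤ)), f ∣[(2 : ℤ)] δ = f ∣[(2 : ℤ)] (mapGL ℝ δ) :=
    fun _ _ => rfl
  rw [e1, ← SlashAction.slash_mul, an3_diag_mul N γ c' hc, SlashAction.slash_mul, ← e1,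
    E2_slash_action]
  ext τ
  rw [ModularForm.slash_heckeDiagMatrix_apply 2 hN]
  simp only [Pi.sub_apply, Pi.smul_apply]
  rw [ModularForm.slash_heckeDiagMatrix_apply 2 hN]
  have key : (N : ℂ) * D2 (an3_conj N γ c' hc) (ModularForm.heckeDiagMatrix N • τ) = D2 γ τ := by
    unfold D2
    have hd1 : denom (an3_conj N γ c' hc) ((ModularForm.heckeDiagMatrix N • τ : ℍ) : ℂ) =
        (c' : ℂ) * ((N : ℂ) * τ) + (γ 1 1 : ℤ) := by
      rw [← ModularForm.coe_heckeDiagMatrix_smul hN τ]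
      have e : ∀ (g : SL(2, ℤ)) (z : ℍ), denom g z = ((g 1 0 : ℤ) : ℂ) * z + ((g 1 1 : ℤ) : ℂ) := by
        intro g z
        simp [denom]
      rw [e]
      simp [an3_conj]
    have hd2 : denom γ τ = ((N : ℂ) * c') * τ + (γ 1 1 : ℤ) := by
      have : ((γ 1 0 : ℤ) : ℂ) = (N : ℂ) * c' := by exact_mod_cast congrArg (Int.cast : ℤ → ℂ) hc
      simp [denom, this]
    have hne : denom γ τ ≠ 0 := denom_ne_zero γ τ
    have h10 : (((an3_conj N γ c' hc) 1 0 : ℤ) : ℂ) = c' := by simp [an3_conj]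
    have h10' : ((γ 1 0 : ℤ) : ℂ) = (N : ℂ) * c' := by exact_mod_cast congrArg (Int.cast : ℤ → ℂ) hc
    rw [hd1, h10, h10']
    rw [hd2] at hne
    have hne' : (c' : ℂ) * ((N : ℂ) * τ) + (γ 1 1 : ℤ) ≠ 0 := by
      convert hne using 1; ring
    rw [hd2]
    field_simp
  rw [← key]
  simp only [smul_eq_mul]
  norm_num
  ring

/-- `N·E2(N·) − E2` as a function on the upper half plane. -/
def an3_fun (N : ℕ) : ℍ → ℂ := E2 ∣[(2 : ℤ)] an3_diag N - E2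

theorem an3_fun_apply (N : ℕ) [NeZero N] (τ : ℍ) :
    an3_fun N τ = (N : ℂ) * E2 (ModularForm.heckeDiagMatrix N • τ) - E2 τ := by
  have hN : N ≠ 0 := NeZero.ne N
  simp [an3_fun, ModularForm.slash_heckeDiagMatrix_apply 2 hN]

theorem an3_fun_slash (N : ℕ) [NeZero N] (γ : SL(2, ℤ)) (hγ : γ ∈ Gamma0 N) :
    an3_fun N ∣[(2 : ℤ)] γ = an3_fun N := by
  unfold an3_fun
  rw [sub_eq_add_neg, SlashAction.add_slash, SlashAction.neg_slash, an3_E2_diag_slash N γ hγ,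
    E2_slash_action]
  abel

theorem an3_fun_mdifferentiable (N : ℕ) : MDiff (an3_fun N) :=
  (E2_mdifferentiable.slash 2 _).sub E2_mdifferentiable

theorem an3_fun_isBoundedAtImInfty_slash (N : ℕ) [NeZero N] (γ : SL(2, ℤ)) :
    IsBoundedAtImInfty (an3_fun N ∣[(2 : ℤ)] γ) := by
  unfold an3_fun
  rw [sub_eq_add_neg, SlashAction.add_slash, SlashAction.neg_slash, ← sub_eq_add_neg]
  exact (an3_isBoundedAtImInfty_E2_diag_slash N γ).sub (an3_isBoundedAtImInfty_E2_slash γ)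

/-- The Eisenstein series `e_N = (N·E2(N·) − E2)/24` as a modular form of weight 2 on `Γ₀(N)`. -/
def an3_eis (N : ℕ) [NeZero N] : ModularForm (Gamma0 N) 2 where
  toFun := (1 / 24 : ℂ) • an3_fun N
  slash_action_eq' := by
    intro γ hγ
    obtain ⟨γ₀, hγ₀, rfl⟩ := Subgroup.mem_map.mp hγ
    have : ((1 / 24 : ℂ) • an3_fun N) ∣[(2 : ℤ)] γ₀ = (1 / 24 : ℂ) • an3_fun N := by
      rw [ModularForm.SL_smul_slash, an3_fun_slash N γ₀ hγ₀]
    exact this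
  holo' := (an3_fun_mdifferentiable N).const_smul _
  bdd_at_cusps' {c} hc := by
    rw [Subgroup.IsArithmetic.isCusp_iff_isCusp_SL2Z] at hc
    rw [OnePoint.isBoundedAt_iff_forall_SL2Z hc]
    intro γ _
    have : ((1 / 24 : ℂ) • an3_fun N) ∣[(2 : ℤ)] γ = (1 / 24 : ℂ) • (an3_fun N ∣[(2 : ℤ)] γ) := by
      rw [ModularForm.SL_smul_slash]
    show IsBoundedAtImInfty (((1 / 24 : ℂ) • an3_fun N) ∣[(2 : ℤ)] γ)
    rw [this]
    exact (an3_fun_isBoundedAtImInfty_slash N γ).const_smul_left _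

theorem an3_eis_apply (N : ℕ) [NeZero N] (τ : ℍ) :
    an3_eis N τ = ((N : ℂ) * E2 (ModularForm.heckeDiagMatrix N • τ) - E2 τ) / 24 := by
  show ((1 / 24 : ℂ) • an3_fun N) τ = _
  rw [Pi.smul_apply, an3_fun_apply, smul_eq_mul]
  ring

end Fermat.Agent.S16x
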