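/-
S16 project, lower bound, module L4c (`LiftAlg`): pure algebra.

A finitely generated abelian group `A` whose `Hom(A, 𝔽_l)` is, for every prime `l`, of dimension at
most the dimension of `Hom(A, ℂ)` is free; hence every homomorphism `A → ℤ/n` lifts to `A → ℤ`.
-/
import Mathlib

set_option autoImplicit false

namespace Fermat.Agent.S16x

open scoped DirectSum

section Model

variable {k : ℕ} {ι : Type} [Fintype ι] {p : ι → ℕ} {e : ι → ℕ}

/-- the torsion part is killed by a positive integer -/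
theorem lalg_torsion (d : ⨁ i : ι, ZMod (p i ^ e i)) : (∏ i, p i ^ e i) • d = 0 := by
  refine DFinsupp.ext fun i => ?_
  rw [DFinsupp.coe_nsmul, Pi.smul_apply, nsmul_eq_mul]
  have h : ((∏ j, p j ^ e j : ℕ) : ZMod (p i ^ e i)) = 0 :=
    (ZMod.natCast_eq_zero_iff _ _).mpr (Finset.dvd_prod_of_mem _ (Finset.mem_univ i))
  rw [h, zero_mul]
  rfl

theorem lalg_prod_pos (hp : ∀ i, (p i).Prime) : 0 < ∏ i, p i ^ e i :=
  Finset.prod_pos fun i _ => pow_pos (hp i).pos _

/-- a homomorphism to `ℂ` kills the torsion part -/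
theorem lalg_hom_torsion (hp : ∀ i, (p i).Prime)
    (φ : (Fin k →₀ ℤ) × (⨁ i : ι, ZMod (p i ^ e i)) →+ ℂ) (d : ⨁ i : ι, ZMod (p i ^ e i)) :
    φ (0, d) = 0 := by
  have h1 : (∏ i, p i ^ e i) • φ (0, d) = 0 := by
    rw [← map_nsmul, Prod.smul_mk, smul_zero, lalg_torsion, ← Prod.zero_eq_mk, map_zero]
  rcases smul_eq_zero.mp h1 with h | h
  · exact absurd h (lalg_prod_pos hp).ne'
  · exact h

/-- a homomorphism out of the free part is determined by its values on the basis -/
theorem lalg_free_ext {B : Type*} [AddCommGroup B] (φ : (Fin k →₀ ℤ) →+ B)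
    (h : ∀ j, φ (Finsupp.single j 1) = 0) : φ = 0 := by
  refine Finsupp.addHom_ext fun j m => ?_
  have : Finsupp.single j m = m • Finsupp.single j (1 : ℤ) := by
    rw [Finsupp.smul_single, smul_eq_mul, mul_one]
  rw [this, map_zsmul, h, smul_zero, AddMonoidHom.zero_apply]

end Model

section Main

variable {A : Type} [AddCommGroup A]

/-- dimension of `Hom(A, ℂ)` is at most the free rank -/
theorem lalg_finrank_complex_le {k : ℕ} {ι : Type} [Fintype ι] [DecidableEq ι] {p : ι → ℕ}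
    {e : ι → ℕ} (hp : ∀ i, (p i).Prime)
    (E : A ≃+ (Fin k →₀ ℤ) × (⨁ i : ι, ZMod (p i ^ e i))) :
    Module.finrank ℂ (A →+ ℂ) ≤ k := by
  let Φ : (A →+ ℂ) →ₗ[ℂ] (Fin k → ℂ) :=
    { toFun := fun φ j => φ (E.symm (Finsupp.single j 1, 0))
      map_add' := fun φ ψ => rfl
      map_smul' := fun c φ => rfl }
  have hinj : Function.Injective Φ := by
    rw [← LinearMap.ker_eq_bot, LinearMap.ker_eq_bot']
    intro φ hφ
    have hj : ∀ j, φ (E.symm (Finsupp.single j 1, 0)) = 0 := fun j => congrFun hφ j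
    set χ : (Fin k →₀ ℤ) × (⨁ i : ι, ZMod (p i ^ e i)) →+ ℂ :=
      φ.comp E.symm.toAddMonoidHom with hχ
    have h1 : χ.comp (AddMonoidHom.inl _ _) = 0 := lalg_free_ext _ fun j => hj j
    have hχ0 : χ = 0 := by
      ext ⟨f, d⟩
      have hsplit : ((f, d) : (Fin k →₀ ℤ) × (⨁ i : ι, ZMod (p i ^ e i))) = (f, 0) + (0, d) := by
        simp
      rw [hsplit, map_add, lalg_hom_torsion hp χ d, add_zero]
      exact DFunLike.congr_fun h1 f
    ext a
    have : φ a = χ (E a) := by simp [hχ]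
    rw [this, hχ0]
    rfl
  have h := LinearMap.finrank_le_finrank_of_injective hinj
  rwa [Module.finrank_fin_fun] at h

/-- finiteness of `Hom(A, ZMod l)` -/
theorem lalg_finite_hom {k : ℕ} {ι : Type} [Fintype ι] [DecidableEq ι] {p : ι → ℕ}
    {e : ι → ℕ} (hp : ∀ i, (p i).Prime)
    (E : A ≃+ (Fin k →₀ ℤ) × (⨁ i : ι, ZMod (p i ^ e i))) (l : ℕ) [NeZero l] :
    Finite (A →+ ZMod l) := by
  have : ∀ i, NeZero (p i ^ e i) := fun i => ⟨pow_ne_zero _ (hp i).ne_zero⟩
  have : ∀ i, Fintype (ZMod (p i ^ e i)) := fun i => ZMod.fintype _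
  have : Finite (⨁ i : ι, ZMod (p i ^ e i)) := by
    show Finite (Π₀ i : ι, ZMod (p i ^ e i))
    infer_instance
  let Ψ : (A →+ ZMod l) → (Fin k → ZMod l) × ((⨁ i : ι, ZMod (p i ^ e i)) → ZMod l) :=
    fun φ => (fun j => φ (E.symm (Finsupp.single j 1, 0)), fun d => φ (E.symm (0, d)))
  have hinj : Function.Injective Ψ := by
    intro φ ψ h
    have h1 : ∀ j, φ (E.symm (Finsupp.single j 1, 0)) = ψ (E.symm (Finsupp.single j 1, 0)) :=
      fun j => congrFun (congrArg Prod.fst h) j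
    have h2 : ∀ d, φ (E.symm (0, d)) = ψ (E.symm (0, d)) :=
      fun d => congrFun (congrArg Prod.snd h) d
    set χ : (Fin k →₀ ℤ) × (⨁ i : ι, ZMod (p i ^ e i)) →+ ZMod l :=
      (φ - ψ).comp E.symm.toAddMonoidHom with hχ
    have hf : χ.comp (AddMonoidHom.inl _ _) = 0 := lalg_free_ext _ fun j => by
      simp [hχ, h1 j]
    have hχ0 : χ = 0 := by
      ext ⟨f, d⟩
      have hsplit : ((f, d) : (Fin k →₀ ℤ) × (⨁ i : ι, ZMod (p i ^ e i))) = (f, 0) + (0, d) := by
        simp
      rw [hsplit, map_add]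
      have hd : χ (0, d) = 0 := by simp [hχ, h2 d]
      rw [hd, add_zero]
      exact DFunLike.congr_fun hf f
    ext a
    have : (φ - ψ) a = χ (E a) := by simp [hχ]
    have h0 : (φ - ψ) a = 0 := by rw [this, hχ0]; rfl
    exact sub_eq_zero.mp h0
  exact Finite.of_injective Ψ hinj

/-- if the torsion part has a non-trivial `l`-primary factor, then `Hom(A, 𝔽_l)` has dimension at
least `k + 1` -/
theorem lalg_succ_le_finrank {k : ℕ} {ι : Type} [Fintype ι] [DecidableEq ι] {p : ι → ℕ}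
    {e : ι → ℕ} (hp : ∀ i, (p i).Prime)
    (E : A ≃+ (Fin k →₀ ℤ) × (⨁ i : ι, ZMod (p i ^ e i))) (i₀ : ι) (he : e i₀ ≠ 0) :
    have : Fact (p i₀).Prime := ⟨hp i₀⟩
    k + 1 ≤ Module.finrank (ZMod (p i₀)) (A →+ ZMod (p i₀)) := by
  have : Fact (p i₀).Prime := ⟨hp i₀⟩
  have : Finite (A →+ ZMod (p i₀)) := lalg_finite_hom hp E (p i₀)
  have : Module.Finite (ZMod (p i₀)) (A →+ ZMod (p i₀)) := Module.Finite.of_finite
  have hdvd : p i₀ ∣ p i₀ ^ e i₀ := dvd_pow_self _ he
  -- the `k + 1` independent homomorphisms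
  let v : Option (Fin k) → (A →+ ZMod (p i₀)) := fun o =>
    match o with
    | some j => ((Int.castAddHom (ZMod (p i₀))).comp
        ((Finsupp.applyAddHom j).comp (AddMonoidHom.fst _ _))).comp E.toAddMonoidHom
    | none => ((ZMod.castHom hdvd (ZMod (p i₀))).toAddMonoidHom.comp
        ((DFinsupp.evalAddMonoidHom i₀).comp (AddMonoidHom.snd _ _))).comp E.toAddMonoidHom
  have hv : LinearIndependent (ZMod (p i₀)) v := by
    rw [Fintype.linearIndependent_iff]
    intro g hg o
    have hsum : ∀ a : A, ∑ o, g o • v o a = 0 := by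
      intro a
      have := DFunLike.congr_fun hg a
      simpa using this
    cases o with
    | some j =>
      have h := hsum (E.symm (Finsupp.single j 1, 0))
      rw [Fintype.sum_option] at h
      simp only [v, AddMonoidHom.comp_apply, AddEquiv.coe_toAddMonoidHom, AddEquiv.apply_symm_apply,
        AddMonoidHom.coe_snd, AddMonoidHom.coe_fst, map_zero, smul_zero, zero_add,
        Finsupp.applyAddHom_apply, Finsupp.single_apply, Int.coe_castAddHom] at h
      rw [Finset.sum_eq_single j] at h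
      · simpa using h
      · intro j' _ hj'
        rw [if_neg (Ne.symm hj')]
        simp
      · intro h'
        exact absurd (Finset.mem_univ j) h'
    | none =>
      have h := hsum (E.symm (0, DirectSum.of (fun i => ZMod (p i ^ e i)) i₀ 1))
      rw [Fintype.sum_option] at h
      simp only [v, AddMonoidHom.comp_apply, AddEquiv.coe_toAddMonoidHom, AddEquiv.apply_symm_apply,
        AddMonoidHom.coe_snd, AddMonoidHom.coe_fst, Finsupp.applyAddHom_apply, Finsupp.coe_zero,
        Pi.zero_apply, Int.coe_castAddHom, Int.cast_zero, smul_zero, Finset.sum_const_zero,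
        add_zero] at h
      have h1 : (DFinsupp.evalAddMonoidHom i₀)
          (DirectSum.of (fun i => ZMod (p i ^ e i)) i₀ 1) = 1 := DirectSum.of_eq_same _ _
      rw [h1] at h
      have h2 : (ZMod.castHom hdvd (ZMod (p i₀))).toAddMonoidHom 1 = 1 :=
        map_one (ZMod.castHom hdvd (ZMod (p i₀)))
      rw [h2, smul_eq_mul, mul_one] at h
      exact h
  have := hv.fintype_card_le_finrank
  simpa using this

/-- **L4c**: a finitely generated abelian group `A` with `dim Hom(A, 𝔽_l) ≤ r ≤ dim Hom(A, ℂ)` for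
all primes `l` is free, so every homomorphism `A → ℤ/n` lifts to `A → ℤ`. -/
theorem lift_of_dim_le [AddGroup.FG A] (r : ℕ)
    (hC : r ≤ Module.finrank ℂ (A →+ ℂ))
    (hl : ∀ l : ℕ, ∀ _ : Fact l.Prime, Module.finrank (ZMod l) (A →+ ZMod l) ≤ r)
    (n : ℕ) [NeZero n] (ψ : A →+ ZMod n) :
    ∃ ψ' : A →+ ℤ, ∀ a, ((ψ' a : ℤ) : ZMod n) = ψ a := by
  classical
  obtain ⟨k, ι, hι, p, hp, e, ⟨E⟩⟩ := AddCommGroup.equiv_free_prod_directSum_zmod A
  -- the torsion part is trivial
  have he : ∀ i, e i = 0 := by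
    intro i
    by_contra h
    have h1 := lalg_succ_le_finrank hp E i h
    have h2 := hl (p i) ⟨hp i⟩
    have h3 := lalg_finrank_complex_le hp E
    omega
  have hD : ∀ d : ⨁ i : ι, ZMod (p i ^ e i), d = 0 := by
    intro d
    refine DFinsupp.ext fun i => ?_
    have : Subsingleton (ZMod (p i ^ e i)) := by
      rw [he i, pow_zero]
      infer_instance
    exact Subsingleton.elim _ _
  -- the lift
  let c : Fin k → ℤ := fun j => (ψ (E.symm (Finsupp.single j 1, 0))).cast
  let ψB : (Fin k →₀ ℤ) →+ ℤ := Finsupp.liftAddHom fun j => AddMonoidHom.mulLeft (c j)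
  have hψB : ∀ j, ψB (Finsupp.single j 1) = c j := by
    intro j
    simp [ψB]
  refine ⟨(ψB.comp (AddMonoidHom.fst _ _)).comp E.toAddMonoidHom, fun a => ?_⟩
  set χ : (Fin k →₀ ℤ) × (⨁ i : ι, ZMod (p i ^ e i)) →+ ZMod n :=
    ((Int.castAddHom (ZMod n)).comp ((ψB.comp (AddMonoidHom.fst _ _)).comp E.toAddMonoidHom)
      - ψ).comp E.symm.toAddMonoidHom with hχ
  have hf : χ.comp (AddMonoidHom.inl _ _) = 0 := lalg_free_ext _ fun j => by
    simp only [hχ, AddMonoidHom.comp_apply, AddMonoidHom.inl_apply, AddMonoidHom.sub_apply,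
      AddEquiv.coe_toAddMonoidHom, AddEquiv.apply_symm_apply, AddMonoidHom.coe_fst,
      Int.coe_castAddHom, hψB, c]
    rw [ZMod.intCast_cast, ZMod.cast_id', id, sub_self]
  have hχ0 : χ = 0 := by
    ext ⟨f, d⟩
    rw [hD d]
    exact DFunLike.congr_fun hf f
  have h1 : χ (E a) = 0 := by rw [hχ0]; rfl
  have h2 : χ (E a) = (((ψB.comp (AddMonoidHom.fst _ _)).comp E.toAddMonoidHom) a : ℤ) - ψ a := by
    simp [hχ]
  rw [h2, sub_eq_zero] at h1
  exact h1

end Main

end Fermat.Agent.S16x
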