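/-
S16 project, lower bound, module L4 (LIFT), augmentation lemma over an arbitrary field `K`:
for a transitive action of a group generated by `s, t`, the augmentation kernel of `X → K` is
`(1 - s)V + (1 - t)V` (`K`-version of `S21x/Augment.lean`, with `lift_gop`).  (helper95)
-/
import Fermat.Agent.S16x.LiftDefs

set_option autoImplicit false

namespace Fermat.Agent.S16x

open Module

variable (K : Type) [Field K] {G : Type} [Group G] {X : Type} [Fintype X] [MulAction G X]

/-- the sum of all values, as a linear form -/
def laug_sum (X : Type) [Fintype X] : (X → K) →ₗ[K] K where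
  toFun v := ∑ x, v x
  map_add' v w := by simp [Finset.sum_add_distrib]
  map_smul' c v := by simp [Finset.mul_sum]

@[simp] theorem laug_sum_apply (v : X → K) : laug_sum K X v = ∑ x, v x := rfl

open Classical in
/-- point indicator -/
noncomputable def laug_e (x : X) : X → K := Pi.single x 1

omit [Fintype X] in
open Classical in
theorem laug_e_apply (x y : X) : laug_e K x y = if y = x then 1 else 0 := by
  simp [laug_e, Pi.single_apply]

omit [Fintype X] in
theorem laug_gop_e (g : G) (x : X) : lift_gop K g (laug_e K x) = laug_e K (g • x) := by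
  classical
  funext y
  rw [lift_gop_apply, laug_e_apply, laug_e_apply]
  by_cases h : y = g • x
  · rw [if_pos h, if_pos (by rw [h, inv_smul_smul])]
  · rw [if_neg h, if_neg (fun h' => h (by rw [← h', smul_inv_smul]))]

/-- every function is the sum of its values times point indicators -/
theorem laug_eq_sum_smul_e (v : X → K) : v = ∑ x, v x • laug_e K x := by
  classical
  funext y
  rw [Finset.sum_apply]
  simp only [Pi.smul_apply, laug_e_apply, smul_eq_mul, mul_ite, mul_one, mul_zero]
  rw [Finset.sum_ite_eq]
  simp

omit [Fintype X] in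
theorem laug_e_smul_sub_mem_range (g : G) (z : X) :
    laug_e K (g • z) - laug_e K z ∈
      LinearMap.range ((1 : (X → K) →ₗ[K] (X → K)) - lift_gop K g) := by
  refine ⟨-laug_e K z, ?_⟩
  rw [map_neg, LinearMap.sub_apply, Module.End.one_apply, laug_gop_e, neg_sub]

/-- **Augmentation lemma over `K`.** -/
theorem laug_ker_sum_le (s t : G) (hgen : Subgroup.closure {s, t} = ⊤)
    [MulAction.IsPretransitive G X] :
    LinearMap.ker (laug_sum K X) ≤
      LinearMap.range ((1 : (X → K) →ₗ[K] (X → K)) - lift_gop K s) ⊔
        LinearMap.range ((1 : (X → K) →ₗ[K] (X → K)) - lift_gop K t) := by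
  classical
  set M : Submodule K (X → K) :=
    LinearMap.range ((1 : (X → K) →ₗ[K] (X → K)) - lift_gop K s) ⊔
      LinearMap.range ((1 : (X → K) →ₗ[K] (X → K)) - lift_gop K t) with hM
  have hP : ∀ g : G, ∀ z : X, laug_e K (g • z) - laug_e K z ∈ M := by
    intro g
    have hg : g ∈ Subgroup.closure ({s, t} : Set G) := by rw [hgen]; exact Subgroup.mem_top g
    induction hg using Subgroup.closure_induction with
    | mem x hx =>
      intro z
      rcases hx with rfl | rfl
      · exact Submodule.mem_sup_left (laug_e_smul_sub_mem_range K _ z)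
      · exact Submodule.mem_sup_right (laug_e_smul_sub_mem_range K _ z)
    | one => intro z; rw [one_smul, sub_self]; exact Submodule.zero_mem _
    | mul x y _ _ hx hy =>
      intro z
      have : laug_e K ((x * y) • z) - laug_e K z =
          (laug_e K (x • (y • z)) - laug_e K (y • z)) + (laug_e K (y • z) - laug_e K z) := by
        rw [mul_smul]; abel
      rw [this]
      exact Submodule.add_mem _ (hx (y • z)) (hy z)
    | inv x _ hx =>
      intro z
      have : laug_e K (x⁻¹ • z) - laug_e K z =
          -(laug_e K (x • (x⁻¹ • z)) - laug_e K (x⁻¹ • z)) := by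
        rw [smul_inv_smul]; abel
      rw [this]
      exact Submodule.neg_mem _ (hx (x⁻¹ • z))
  intro v hv
  rw [LinearMap.mem_ker, laug_sum_apply] at hv
  rcases isEmpty_or_nonempty X with hX | ⟨⟨x₀⟩⟩
  · have : v = 0 := Subsingleton.elim _ _
    rw [this]; exact Submodule.zero_mem _
  · have hall : ∀ x : X, laug_e K x - laug_e K x₀ ∈ M := by
      intro x
      obtain ⟨g, rfl⟩ := MulAction.exists_smul_eq G x₀ x
      exact hP g x₀
    have hv' : v = ∑ x, v x • (laug_e K x - laug_e K x₀) := by
      conv_lhs => rw [laug_eq_sum_smul_e K v]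
      simp only [smul_sub, Finset.sum_sub_distrib]
      rw [← Finset.sum_smul, hv, zero_smul, sub_zero]
    rw [hv']
    exact Submodule.sum_mem _ fun x _ => Submodule.smul_mem _ _ (hall x)

/-- dual form used for the rank bound: a linear form on `X → K` which vanishes on
`range (1 - s)` and `range (1 - t)` is a multiple of the sum. -/
theorem laug_form_eq_smul_sum (s t : G) (hgen : Subgroup.closure {s, t} = ⊤)
    [MulAction.IsPretransitive G X] (f : (X → K) →ₗ[K] K)
    (hs : ∀ v, f (v - lift_gop K s v) = 0) (ht : ∀ v, f (v - lift_gop K t v) = 0) :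
    ∃ c : K, f = c • laug_sum K X := by
  classical
  have hker : LinearMap.ker (laug_sum K X) ≤ LinearMap.ker f := by
    refine (laug_ker_sum_le K s t hgen).trans (sup_le ?_ ?_)
    · rintro _ ⟨v, rfl⟩
      rw [LinearMap.mem_ker, LinearMap.sub_apply, Module.End.one_apply]
      exact hs v
    · rintro _ ⟨v, rfl⟩
      rw [LinearMap.mem_ker, LinearMap.sub_apply, Module.End.one_apply]
      exact ht v
  rcases isEmpty_or_nonempty X with hX | ⟨⟨x₀⟩⟩
  · refine ⟨0, ?_⟩
    apply LinearMap.ext
    intro v
    have : v = 0 := Subsingleton.elim _ _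
    rw [this]; simp
  · refine ⟨f (laug_e K x₀), ?_⟩
    apply LinearMap.ext
    intro v
    have h1 : laug_sum K X (laug_e K x₀) = 1 := by
      rw [laug_sum_apply]
      simp [laug_e_apply]
    have h2 : v - (laug_sum K X v) • laug_e K x₀ ∈ LinearMap.ker (laug_sum K X) := by
      rw [LinearMap.mem_ker, map_sub, map_smul, h1, smul_eq_mul, mul_one, sub_self]
    have h3 := hker h2
    rw [LinearMap.mem_ker, map_sub, map_smul, sub_eq_zero] at h3
    rw [h3, LinearMap.smul_apply, smul_eq_mul, smul_eq_mul, mul_comm]

end Fermat.Agent.S16x
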