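/-
S16 project, lower bound, module L4 (LIFT), final assembly (helper27):
`lift_exists` (exact `LiftSpec` / `SpecLower` statement) from the three inputs
`lift_ab_exists` (c), `lift_finrank_killHoms_le` (b) (both taken here as hypotheses) and the landed
`lift_finrank_killHoms_complex` (b2, `LiftComplex.lean`).  Also: `Γ₀(N)` is finitely generated.
-/
import Fermat.Agent.S16x.LiftComplex

set_option autoImplicit false

open CongruenceSubgroup ModularCurve ModularCurve.Period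
open scoped MatrixGroups

namespace Fermat.Agent.S16x

/-- `SL(2, ℤ)` is finitely generated (by `S` and `T`) -/
theorem liftf_fg_SL2Z : Group.FG SL(2, ℤ) := by
  classical
  refine ⟨⟨{ModularGroup.S, ModularGroup.T}, ?_⟩⟩
  rw [Finset.coe_insert, Finset.coe_singleton]
  exact SpecialLinearGroup.SL2Z_generators

/-- `Γ₀(N)` is finitely generated (Schreier) -/
theorem liftf_fg_Gamma0 (N : ℕ) [NeZero N] : Group.FG (Gamma0 N) := by
  have := liftf_fg_SL2Z
  exact Subgroup.fg_of_index_ne_zero (Gamma0 N)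

/-- `lift_exists` from the abstract lifting lemma (c) and the mod-`l` dimension bound (b). -/
theorem liftf_exists_of (N : ℕ) [NeZero N]
    (hab : ∀ (r : ℕ),
      r ≤ Module.finrank ℂ (lift_killHoms ℂ (Gamma0 N) (lift_PT N) ℂ) →
      (∀ l : ℕ, ∀ _ : Fact l.Prime,
        Module.finrank (ZMod l) (lift_killHoms (ZMod l) (Gamma0 N) (lift_PT N) (ZMod l)) ≤ r) →
      ∀ (n : ℕ) [NeZero n] (ψ : Additive (Gamma0 N) →+ ZMod n),
        (∀ g ∈ lift_PT N, ψ (Additive.ofMul g) = 0) →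
        ∃ ψ' : Additive (Gamma0 N) →+ ℤ, (∀ g ∈ lift_PT N, ψ' (Additive.ofMul g) = 0) ∧
          ∀ g, ((ψ' g : ℤ) : ZMod n) = ψ g)
    (hle : ∀ (l : ℕ), ∀ _ : Fact l.Prime,
      Module.finrank (ZMod l) (lift_killHoms (ZMod l) (Gamma0 N) (lift_PT N) (ZMod l))
        ≤ 2 * Module.finrank ℂ (CuspForm (Gamma0 N) 2))
    (n : ℕ) [NeZero n] (ψ : Additive (Gamma0 N) →+ ZMod n) (h : lift_IsPT N ψ) :
    ∃ ψ' : Additive (Gamma0 N) →+ ℤ,
      ψ' ∈ ModularCurve.Period.parabolicHoms ℤ (Gamma0 N) ℤ ∧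
        ∀ γ, ((ψ' γ : ℤ) : ZMod n) = ψ γ := by
  obtain ⟨ψ', h1, h2⟩ := hab (2 * Module.finrank ℂ (CuspForm (Gamma0 N) 2))
    (lift_finrank_killHoms_complex N).ge hle n ψ ((lift_isPT_iff N ψ).mp h)
  refine ⟨ψ', ?_, h2⟩
  rw [mem_parabolicHoms_iff]
  intro γ hγ
  exact h1 γ (Or.inl hγ)

end Fermat.Agent.S16x
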