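/-
S16 project, module L4 = LIFT (owner helper36): SPEC (statements only, `sorry` bodies; never imported
by real modules).  The real modules are `LiftOrb` (a1), `LiftBound` (a2), `LiftSL2` (b), `LiftAb` (c),
`Lift` (final).
-/
import Fermat.Agent.S16x.LiftDefs

set_option autoImplicit false

open CongruenceSubgroup
open scoped MatrixGroups

namespace Fermat.Agent.S16x.LiftSpec

open Fermat.Agent.S16x

/-! ### (a1) `LiftOrb.lean` : orbit sums for a cyclic group acting on a finite set (any field) -/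
section a1
variable {K : Type} [Field K] {G : Type} [Group G] {X : Type} [Fintype X] [MulAction G X]

theorem lift_sumOrb_surjective (g : G) : Function.Surjective (lift_sumOrb K (X := X) g) := sorry

theorem lift_finrank_ker_sumOrb (g : G) :
    Module.finrank K (LinearMap.ker (lift_sumOrb K (X := X) g)) + Nat.card (lift_Om X g)
      = Fintype.card X := sorry

theorem lift_sumOrb_gop (g : G) (w : X → K) :
    lift_sumOrb K g (lift_gop K g w) = lift_sumOrb K g w := sorry

theorem lift_sum_sumOrb (g : G) (w : X → K) [Fintype (lift_Om X g)] :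
    ∑ ω, lift_sumOrb K g w ω = ∑ x, w x := sorry

/-- KEY: if all "closed-loop sums" of `w` along `g` vanish, all orbit sums vanish -/
theorem lift_sumOrb_eq_zero (g : G) (w : X → K)
    (h : ∀ (x : X) (n : ℕ), 0 < n → g ^ n • x = x →
      ∑ i ∈ Finset.range n, w ((g ^ i)⁻¹ • x) = 0) :
    lift_sumOrb K g w = 0 := sorry

/-- Burnside for a cyclic group acting through a quotient of prime order `m` -/
theorem lift_card_orbits_prime (g : G) (m : ℕ) (hm : m.Prime) (hg : ∀ x : X, g ^ m • x = x) :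
    m * Nat.card (lift_Om X g) = Fintype.card X + (m - 1) * Nat.card (MulAction.fixedBy X g) := sorry

end a1

/-! ### (c) `LiftAb.lean` : pure algebra (f.g. abelian groups) -/

theorem lift_ab_exists {Γ : Type} [Group Γ] [Group.FG Γ] (P : Set Γ) (r : ℕ)
    (hC : r ≤ Module.finrank ℂ (lift_killHoms ℂ Γ P ℂ))
    (hl : ∀ l : ℕ, ∀ _ : Fact l.Prime,
      Module.finrank (ZMod l) (lift_killHoms (ZMod l) Γ P (ZMod l)) ≤ r)
    (n : ℕ) [NeZero n] (ψ : Additive Γ →+ ZMod n) (hψ : ∀ g ∈ P, ψ (Additive.ofMul g) = 0) :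
    ∃ ψ' : Additive Γ →+ ℤ, (∀ g ∈ P, ψ' (Additive.ofMul g) = 0) ∧
      ∀ g, ((ψ' g : ℤ) : ZMod n) = ψ g := sorry

/-! ### (b) `LiftSL2.lean` -/

theorem lift_finrank_killHoms_le (N : ℕ) [NeZero N] (K : Type) [Field K] :
    Module.finrank K (lift_killHoms K (Gamma0 N) (lift_PT N) K)
      ≤ 2 * Module.finrank ℂ (CuspForm (Gamma0 N) 2) := sorry

theorem lift_finrank_killHoms_complex (N : ℕ) [NeZero N] :
    Module.finrank ℂ (lift_killHoms ℂ (Gamma0 N) (lift_PT N) ℂ)
      = 2 * Module.finrank ℂ (CuspForm (Gamma0 N) 2) := sorry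

/-! ### final `Lift.lean` -/

theorem lift_exists (N : ℕ) [NeZero N] (n : ℕ) [NeZero n] (ψ : Additive (Gamma0 N) →+ ZMod n)
    (h : lift_IsPT N ψ) :
    ∃ ψ' : Additive (Gamma0 N) →+ ℤ,
      ψ' ∈ ModularCurve.Period.parabolicHoms ℤ (Gamma0 N) ℤ ∧
        ∀ γ, ((ψ' γ : ℤ) : ZMod n) = ψ γ := sorry

end Fermat.Agent.S16x.LiftSpec
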