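import Fermat.Agent.S16x.NormCase
import Fermat.Agent.S16x.EisForm
import Fermat.Prelude.Thm_CongruenceSubgroup_one_mem_strictPeriods_Gamma0

/-!
# S16 project: the norm cases with `A = g + p e_p`, `B = ((p-1)/(r-1)) e_r` (helper34)

`normCaseE_false`: if `ℓ ∣ p + 1`, `g ≡ δ mod ℓ`, `(p-1)/(r-1)` is a unit mod `m`, and the three
constants `(p²-1)/24`, `(p-1)(rp-1)/(24r)`, `-(p-1)(r+1)/(24r)` are integral, integral, unit: `False`.
Used by `CaseTwoA` (`ℓ = 2, r = 3, p ≡ 7 mod 8`) and `CaseThreeA` (`ℓ = 3, r = 2, p ≡ 2 mod 3`).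
-/

set_option autoImplicit false

open UpperHalfPlane ModularForm ModularFormClass CongruenceSubgroup
open scoped MatrixGroups Manifold

namespace Fermat.Agent.S16x

noncomputable section

/-- integers divisible by `ℓ` lie in `lintMax ℓ` -/
theorem nce_intCast_mem (ℓ : ℕ) [Fact ℓ.Prime] (n : ℤ) (h : (ℓ : ℤ) ∣ n) :
    ((n : ℤ) : lintRing ℓ) ∈ lintMax ℓ := by
  obtain ⟨t, rfl⟩ := h
  have : (((ℓ : ℤ) * t : ℤ) : lintRing ℓ) = ((ℓ : ℕ) : lintRing ℓ) * ((t : ℤ) : lintRing ℓ) := by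
    push_cast; rfl
  rw [this]
  exact Ideal.mul_mem_right _ _ (natCast_mem_lintMax ℓ)

/-- from `m ≡ σ mod ℓ` and `ℓ ∣ p + 1`: `ℓ ∣ m + p σ` -/
theorem nce_dvd_add (ℓ p : ℕ) (hdvd : ℓ ∣ p + 1) (m : ℤ) (s : ℕ)
    (h : ((m : ℤ) : ZMod ℓ) = ((s : ℕ) : ZMod ℓ)) : (ℓ : ℤ) ∣ m + (p : ℤ) * (s : ℤ) := by
  have h1 : ((m : ℤ) : ZMod ℓ) = (((s : ℕ) : ℤ) : ZMod ℓ) := by rw [h]; simp
  have h2 : (ℓ : ℤ) ∣ (s : ℤ) - m := (ZMod.intCast_eq_intCast_iff_dvd_sub m s ℓ).mp h1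
  have h3 : (ℓ : ℤ) ∣ ((p : ℤ) + 1) := by exact_mod_cast hdvd
  have : m + (p : ℤ) * (s : ℤ) = ((p : ℤ) + 1) * s - ((s : ℤ) - m) := by ring
  rw [this]
  exact dvd_sub (Dvd.dvd.mul_right h3 _) h2

theorem nce_qExpansion_A (p : ℕ) (g : CuspForm (Gamma0 p) 2) (e : ModularForm (Gamma0 p) 2)
    (n : ℕ) :
    PowerSeries.coeff n (qExpansion 1
        ((CuspForm.toModularFormₗ g + (p : ℂ) • e : ModularForm (Gamma0 p) 2) : ℍ → ℂ)) =
      PowerSeries.coeff n (qExpansion 1 g) + (p : ℂ) * PowerSeries.coeff n (qExpansion 1 e) := by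
  have h1 := ModularForm.qExpansion_add one_pos (one_mem_strictPeriods_Gamma0 p)
    (CuspForm.toModularFormₗ g) ((p : ℂ) • e)
  have h2 := ModularForm.qExpansion_smul one_pos (one_mem_strictPeriods_Gamma0 p) (p : ℂ) e
  have h3 : (⇑(CuspForm.toModularFormₗ g + (p : ℂ) • e) : ℍ → ℂ) =
      ⇑(CuspForm.toModularFormₗ g) + ⇑((p : ℂ) • e) := rfl
  have h4 : (⇑((p : ℂ) • e) : ℍ → ℂ) = (p : ℂ) • ⇑e := rfl
  have h5 : (⇑(CuspForm.toModularFormₗ g) : ℍ → ℂ) = ⇑g := rfl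
  rw [h3, h1, h4, h2, h5, map_add, PowerSeries.coeff_smul, smul_eq_mul]

theorem normCaseE_false (ℓ p r : ℕ) [Fact ℓ.Prime] [Fact p.Prime] [Fact r.Prime]
    (hpr : p ≠ r) (hℓr : ℓ ≠ r) (hℓp : ℓ ≠ p) (hineq : (p + 1) * (r + 1) < 6 * p)
    (hdvd : ℓ ∣ p + 1)
    (g : CuspForm (Gamma0 p) 2) (hg : IsEisCongr p ℓ g)
    (hu : ∃ x : lintRing ℓ, x ∉ lintMax ℓ ∧ (x : ℂ) = ((p : ℂ) - 1) / ((r : ℂ) - 1))
    (hk2 : ((p : ℂ) - 1) * ((p : ℂ) + 1) / 24 ∈ lintRing ℓ)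
    (hk3 : ((p : ℂ) - 1) * ((r : ℂ) * p - 1) / (24 * r) ∈ lintRing ℓ)
    (hk4 : ∃ x : lintRing ℓ, x ∉ lintMax ℓ ∧
      (x : ℂ) = -(((p : ℂ) - 1) * ((r : ℂ) + 1) / (24 * r))) :
    False := by
  have hpP : p.Prime := Fact.out
  have hrP : r.Prime := Fact.out
  have hℓP : ℓ.Prime := Fact.out
  have hpC : (p : ℂ) ≠ 0 := Nat.cast_ne_zero.mpr hpP.ne_zero
  have hrC : (r : ℂ) ≠ 0 := Nat.cast_ne_zero.mpr hrP.ne_zero
  have hr1C : (r : ℂ) - 1 ≠ 0 := by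
    have : (r : ℂ) ≠ 1 := by
      intro h
      have : r = 1 := by exact_mod_cast h
      exact hrP.one_lt.ne' this
    exact sub_ne_zero.mpr this
  obtain ⟨e, he0, hen⟩ := exists_eisForm p
  obtain ⟨er, her0, hern⟩ := exists_eisForm r
  set u : ℂ := ((p : ℂ) - 1) / ((r : ℂ) - 1) with hu_def
  let A : ModularForm (Gamma0 p) 2 := CuspForm.toModularFormₗ g + (p : ℂ) • e
  let B : ModularForm (Gamma0 r) 2 := u • er
  have hqB : ∀ n, PowerSeries.coeff n (qExpansion 1 B) = u * PowerSeries.coeff n (qExpansion 1 er) := by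
    intro n
    have h2 := ModularForm.qExpansion_smul one_pos (one_mem_strictPeriods_Gamma0 r) u er
    have h4 : (⇑B : ℍ → ℂ) = u • ⇑er := rfl
    rw [h4, h2, PowerSeries.coeff_smul, smul_eq_mul]
  have hg0 : PowerSeries.coeff 0 (qExpansion 1 g) = 0 :=
    CuspFormClass.qExpansion_coeff_zero g one_pos (one_mem_strictPeriods_Gamma0 p)
  let pinv : lintRing ℓ := ⟨(p : ℂ)⁻¹, nc_inv_mem_lintRing hℓP hpP hℓp⟩
  refine normCase_false ℓ p r hpr hℓr hineq A B ((p : ℂ) * (((p : ℂ) - 1) / 24))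
    (((p : ℂ) - 1) / 24) u ?_ ?_ hu ?_ ?_ ?_ ?_ ?_ ?_ ?_
  · rw [hqB, her0, hu_def]; field_simp
  · intro n hn
    rw [hqB, hern n hn]
  · rw [nce_qExpansion_A, hg0, he0, zero_add]
  · intro n hn
    obtain ⟨m, hm, hcong⟩ := hg n
    refine ⟨((m + (p : ℤ) * (sigP p n : ℤ) : ℤ) : lintRing ℓ),
      nce_intCast_mem ℓ _ (nce_dvd_add ℓ p hdvd m _ (hcong hn)), ?_⟩
    rw [nce_qExpansion_A, hen n hn]
    unfold ModularFormClass.qCoeff at hm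
    rw [hm]
    push_cast
    rfl
  · intro n hn
    have hnp : 1 ≤ n * p := Nat.one_le_iff_ne_zero.mpr
      (mul_ne_zero (Nat.one_le_iff_ne_zero.mp hn) hpP.ne_zero)
    obtain ⟨m, hm, hcong⟩ := hg (n * p)
    have hcong' := hcong hnp
    rw [nc_sigP_mul_self p n hpP] at hcong'
    refine ⟨-pinv * ((m + (p : ℤ) * (sigP p n : ℤ) : ℤ) : lintRing ℓ),
      Ideal.mul_mem_left _ _ (nce_intCast_mem ℓ _ (nce_dvd_add ℓ p hdvd m _ hcong')), ?_⟩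
    rw [nce_qExpansion_A, hen (n * p) hnp, nc_sigP_mul_self p n hpP]
    unfold ModularFormClass.qCoeff at hm
    rw [hm]
    push_cast
    rfl
  · field_simp
    ring
  · have : (p : ℂ) * (((p : ℂ) - 1) / 24) + ((p : ℂ) - 1) / 24 =
        ((p : ℂ) - 1) * ((p : ℂ) + 1) / 24 := by ring
    rw [this]; exact hk2
  · have : (p : ℂ) * (((p : ℂ) - 1) / 24) - (r : ℂ)⁻¹ * (((p : ℂ) - 1) / 24) =
        ((p : ℂ) - 1) * ((r : ℂ) * p - 1) / (24 * r) := by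
      field_simp
    rw [this]; exact hk3
  · obtain ⟨x, hx, hxC⟩ := hk4
    refine ⟨x, hx, ?_⟩
    rw [hxC]
    field_simp
    ring

/-! ### rational units of `lintRing ℓ` -/

/-- integers prime to `ℓ` are units modulo `lintMax ℓ` -/
theorem nce_intCast_not_mem (ℓ : ℕ) [Fact ℓ.Prime] (n : ℤ) (h : ¬ (ℓ : ℤ) ∣ n) :
    ((n : ℤ) : lintRing ℓ) ∉ lintMax ℓ := by
  intro hmem
  have hℓ : Prime (ℓ : ℤ) := Nat.prime_iff_prime_int.mp Fact.out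
  have hcop : IsCoprime (ℓ : ℤ) n := (Prime.coprime_iff_not_dvd hℓ).mpr h
  obtain ⟨a, b, hab⟩ := hcop
  have h1 : ((a : ℤ) : lintRing ℓ) * ((ℓ : ℕ) : lintRing ℓ) + ((b : ℤ) : lintRing ℓ) * ((n : ℤ) : lintRing ℓ)
      = 1 := by
    have := congrArg (fun t : ℤ => ((t : ℤ) : lintRing ℓ)) hab
    simpa using this
  have h2 : (1 : lintRing ℓ) ∈ lintMax ℓ := by
    rw [← h1]
    exact Ideal.add_mem _ (Ideal.mul_mem_left _ _ (natCast_mem_lintMax ℓ))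
      (Ideal.mul_mem_left _ _ hmem)
  exact (lintMax_isMaximal ℓ).ne_top ((Ideal.eq_top_iff_one _).mpr h2)

/-- `x = n / d` with `d` prime to `ℓ` is `ℓ`-integral -/
theorem nce_div_mem (ℓ : ℕ) (n : ℤ) (d : ℕ) (hd : d.Coprime ℓ) (x : ℂ)
    (hx : (d : ℂ) * x = (n : ℂ)) : x ∈ lintRing ℓ := by
  refine ⟨d, hd, ?_⟩
  rw [hx]
  have := isIntegral_algebraMap (R := ℤ) (A := ℂ) (x := n)
  simpa using this

/-- `x = n / d` with `d`, `n` prime to `ℓ` is a unit modulo `lintMax ℓ` -/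
theorem nce_div_unit (ℓ : ℕ) [Fact ℓ.Prime] (n : ℤ) (d : ℕ) (hd : d.Coprime ℓ)
    (hn : ¬ (ℓ : ℤ) ∣ n) (x : ℂ) (hx : (d : ℂ) * x = (n : ℂ)) :
    ∃ y : lintRing ℓ, y ∉ lintMax ℓ ∧ (y : ℂ) = x := by
  refine ⟨⟨x, nce_div_mem ℓ n d hd x hx⟩, ?_, rfl⟩
  intro hmem
  have h1 : ((d : ℕ) : lintRing ℓ) * ⟨x, nce_div_mem ℓ n d hd x hx⟩ = ((n : ℤ) : lintRing ℓ) := by
    apply Subtype.ext
    simpa using hx
  exact nce_intCast_not_mem ℓ n hn (h1 ▸ Ideal.mul_mem_left _ _ hmem)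

/-- (C2) `ℓ = 2`, `p ≡ 7 mod 8` -/
theorem nce_no_congr_two_seven (p : ℕ) [Fact p.Prime] (hp8 : p % 8 = 7)
    (g : CuspForm (Gamma0 p) 2) (hg : IsEisCongr p 2 g) : False := by
  obtain ⟨k, rfl⟩ : ∃ k, p = 8 * k + 7 := ⟨p / 8, by omega⟩
  refine normCaseE_false 2 (8 * k + 7) 3 (by omega) (by omega) (by omega) (by omega)
    ⟨4 * k + 4, by ring⟩ g hg ?_ ?_ ?_ ?_
  · refine nce_div_unit 2 (4 * k + 3) 1 (by norm_num) (by omega) _ ?_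
    push_cast; ring
  · refine nce_div_mem 2 (2 * (4 * k + 3) * (k + 1)) 3 (by norm_num) _ ?_
    push_cast; ring
  · refine nce_div_mem 2 ((4 * k + 3) * (6 * k + 5)) 9 (by norm_num) _ ?_
    push_cast; ring
  · refine nce_div_unit 2 (-(4 * k + 3)) 9 (by norm_num) (by omega) _ ?_
    push_cast; ring

/-- (C3+) `ℓ = 3`, `p ≡ 2 mod 3`, `p ≥ 5` -/
theorem nce_no_congr_three_two (p : ℕ) [Fact p.Prime] (hp : 5 ≤ p) (hp3 : p % 3 = 2)
    (g : CuspForm (Gamma0 p) 2) (hg : IsEisCongr p 3 g) : False := by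
  have hodd : p % 2 = 1 := by
    rcases (Fact.out : p.Prime).eq_two_or_odd with h | h
    · omega
    · exact h
  obtain ⟨j, rfl⟩ : ∃ j, p = 6 * j + 5 := ⟨p / 6, by omega⟩
  refine normCaseE_false 3 (6 * j + 5) 2 (by omega) (by omega) (by omega) (by omega)
    ⟨2 * j + 2, by ring⟩ g hg ?_ ?_ ?_ ?_
  · refine nce_div_unit 3 (6 * j + 4) 1 (by norm_num) (by omega) _ ?_
    push_cast; ring
  · refine nce_div_mem 3 ((3 * j + 2) * (j + 1)) 2 (by norm_num) _ ?_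
    push_cast; ring
  · refine nce_div_mem 3 ((3 * j + 2) * (4 * j + 3)) 8 (by norm_num) _ ?_
    push_cast; ring
  · refine nce_div_unit 3 (-(3 * j + 2)) 8 (by norm_num) (by omega) _ ?_
    push_cast; ring

end

end Fermat.Agent.S16x
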