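import Fermat.Agent.S16x.Defs
import Fermat.Agent.S16x.Reduction

/-!
# S16 project: generic "norm case" lemma, part 1: the lifts (helper34)

`nc_exists_lifts`: from coefficientwise hypotheses on `a = qExp A`, `b = qExp B = b0 + u ∑ σ'_r(n) qⁿ`
build the `ℓ`-integral lifts `c x y` of the `(p+1)(r+1)` conjugate series, show that their reductions
are non-zero and that the `p` conjugates `(some j, none)` have `w`-order `≥ r p`.
Part 2 (`NormCase.lean`): `normCase_false` (combination with `norm_order_le`).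
-/

set_option autoImplicit false

open UpperHalfPlane ModularForm ModularFormClass CongruenceSubgroup
open scoped MatrixGroups Manifold
open Fermat.Agent.S23x (IsMF IsMF1)

namespace Fermat.Agent.S16x

noncomputable section

/-! ### small power-series lemmas -/

/-- the series `∑_{n ≥ 1} σ'_r(n) Xⁿ` over any semiring -/
def ncSig (S : Type*) [Semiring S] (r : ℕ) : PowerSeries S :=
  PowerSeries.mk fun n => if n = 0 then 0 else (sigP r n : S)

@[simp] theorem nc_coeff_ncSig (S : Type*) [Semiring S] (r n : ℕ) :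
    PowerSeries.coeff n (ncSig S r) = if n = 0 then 0 else (sigP r n : S) := by
  simp [ncSig]

theorem nc_sigP_one (r : ℕ) (hr : 2 ≤ r) : sigP r 1 = 1 := by
  have : ¬ r ∣ 1 := by
    intro h
    have := Nat.le_of_dvd one_pos h
    omega
  rw [sigP, Nat.divisors_one, Finset.filter_singleton, if_pos this, Finset.sum_singleton]

theorem nc_map_ncSig {S T : Type*} [Semiring S] [Semiring T] (φ : S →+* T) (r : ℕ) :
    PowerSeries.map φ (ncSig S r) = ncSig T r := by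
  ext n
  by_cases hn : n = 0 <;> simp [hn]

/-- the generic lift shape -/
def ncShape {S : Type*} [CommRing S] (k : S) (e1 : ℕ) (he1 : e1 ≠ 0) (z1 : S) (P : PowerSeries S)
    (e2 : ℕ) (he2 : e2 ≠ 0) (z2 : S) (Q : PowerSeries S) : PowerSeries S :=
  PowerSeries.C k + PowerSeries.expand e1 he1 (PowerSeries.rescale z1 P)
    + PowerSeries.expand e2 he2 (PowerSeries.rescale z2 Q)

theorem nc_map_rescale {S T : Type*} [CommRing S] [CommRing T] (φ : S →+* T) (z : S)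
    (P : PowerSeries S) :
    PowerSeries.map φ (PowerSeries.rescale z P) = PowerSeries.rescale (φ z) (PowerSeries.map φ P) := by
  ext n
  simp [PowerSeries.coeff_rescale]

theorem nc_map_ncShape {S T : Type*} [CommRing S] [CommRing T] (φ : S →+* T) (k : S) (e1 : ℕ)
    (he1 : e1 ≠ 0) (z1 : S) (P : PowerSeries S) (e2 : ℕ) (he2 : e2 ≠ 0) (z2 : S)
    (Q : PowerSeries S) :
    PowerSeries.map φ (ncShape k e1 he1 z1 P e2 he2 z2 Q) =
      ncShape (φ k) e1 he1 (φ z1) (PowerSeries.map φ P) e2 he2 (φ z2) (PowerSeries.map φ Q) := by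
  simp only [ncShape, map_add, PowerSeries.map_C, PowerSeries.map_expand, nc_map_rescale]

theorem nc_rescale_C {S : Type*} [CommRing S] (z k : S) :
    PowerSeries.rescale z (PowerSeries.C k) = PowerSeries.C k := by
  ext n
  by_cases hn : n = 0
  · subst hn; simp [PowerSeries.coeff_rescale]
  · simp [PowerSeries.coeff_rescale, PowerSeries.coeff_C, hn]

/-- (G1) the shape computes the sum of the two conjugate series -/
theorem nc_shape_eq {S : Type*} [CommRing S] (k α0 β0 : S) (hk : k = α0 + β0) (e1 : ℕ)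
    (he1 : e1 ≠ 0) (z1 : S) (P : PowerSeries S) (e2 : ℕ) (he2 : e2 ≠ 0) (z2 : S)
    (Q : PowerSeries S) :
    ncShape k e1 he1 z1 P e2 he2 z2 Q =
      PowerSeries.expand e1 he1 (PowerSeries.rescale z1 (PowerSeries.C α0 + P))
      + PowerSeries.expand e2 he2 (PowerSeries.rescale z2 (PowerSeries.C β0 + Q)) := by
  simp only [ncShape, map_add, nc_rescale_C, PowerSeries.expand_C, hk]
  ring

/-! ### the reduced shape `C k + expand e (rescale z (C v * ncSig))` -/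

theorem nc_shape_zero {S : Type*} [CommRing S] (k : S) (e1 : ℕ) (he1 : e1 ≠ 0) (z1 : S) (e2 : ℕ)
    (he2 : e2 ≠ 0) (z2 : S) (Q : PowerSeries S) :
    ncShape k e1 he1 z1 0 e2 he2 z2 Q =
      PowerSeries.C k + PowerSeries.expand e2 he2 (PowerSeries.rescale z2 Q) := by
  simp [ncShape]

theorem nc_coeff_zero_shape {S : Type*} [CommRing S] (k : S) (e : ℕ) (he : e ≠ 0) (z v : S)
    (r : ℕ) :
    PowerSeries.coeff 0 (PowerSeries.C k + PowerSeries.expand e he
      (PowerSeries.rescale z (PowerSeries.C v * ncSig S r))) = k := by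
  rw [map_add, PowerSeries.coeff_zero_C, PowerSeries.coeff_zero_eq_constantCoeff_apply,
    PowerSeries.constantCoeff_expand, ← PowerSeries.coeff_zero_eq_constantCoeff_apply,
    PowerSeries.coeff_rescale]
  simp

theorem nc_coeff_e_shape {S : Type*} [CommRing S] (k : S) (e : ℕ) (he : e ≠ 0) (z v : S)
    (r : ℕ) (hr : 2 ≤ r) :
    PowerSeries.coeff e (PowerSeries.C k + PowerSeries.expand e he
      (PowerSeries.rescale z (PowerSeries.C v * ncSig S r))) = z * v := by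
  have h1 : PowerSeries.coeff e (PowerSeries.expand e he
      (PowerSeries.rescale z (PowerSeries.C v * ncSig S r))) = z * v := by
    have := PowerSeries.coeff_expand_mul e he
      (PowerSeries.rescale z (PowerSeries.C v * ncSig S r)) 1
    rw [mul_one] at this
    rw [this, PowerSeries.coeff_rescale, PowerSeries.coeff_C_mul, nc_coeff_ncSig]
    simp [nc_sigP_one r hr]
  rw [map_add, h1, PowerSeries.coeff_C, if_neg he, zero_add]

theorem nc_shape_ne_zero {S : Type*} [CommRing S] (k : S) (e : ℕ) (he : e ≠ 0) (z v : S)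
    (r : ℕ) (hr : 2 ≤ r) (hzv : z * v ≠ 0) :
    PowerSeries.C k + PowerSeries.expand e he
      (PowerSeries.rescale z (PowerSeries.C v * ncSig S r)) ≠ 0 := by
  intro h
  have := nc_coeff_e_shape k e he z v r hr
  rw [h] at this
  exact hzv (by simpa using this.symm)

theorem nc_shape_ne_zero' {S : Type*} [CommRing S] (k : S) (e : ℕ) (he : e ≠ 0) (z v : S)
    (r : ℕ) (hk : k ≠ 0) :
    PowerSeries.C k + PowerSeries.expand e he
      (PowerSeries.rescale z (PowerSeries.C v * ncSig S r)) ≠ 0 := by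
  intro h
  have := nc_coeff_zero_shape k e he z v r
  rw [h] at this
  exact hk (by simpa using this.symm)

theorem nc_le_order_shape {S : Type*} [CommRing S] (e : ℕ) (he : e ≠ 0) (z v : S) (r : ℕ) :
    (e : ℕ∞) ≤ (PowerSeries.C (0 : S) + PowerSeries.expand e he
      (PowerSeries.rescale z (PowerSeries.C v * ncSig S r))).order := by
  apply PowerSeries.nat_le_order
  intro i hi
  rw [map_zero, zero_add, PowerSeries.coeff_expand]
  split_ifs with hdvd
  · have hi0 : i = 0 := Nat.eq_zero_of_dvd_of_lt hdvd hi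
    subst hi0
    rw [Nat.zero_div, PowerSeries.coeff_rescale]
    simp
  · rfl

/-! ### `lintRing` facts -/

theorem nc_resid_ne_zero_iff (ℓ : ℕ) [Fact ℓ.Prime] (x : lintRing ℓ) :
    resid ℓ x ≠ 0 ↔ x ∉ lintMax ℓ := by
  rw [resid, Ne, Ideal.Quotient.eq_zero_iff_mem]

theorem nc_inv_mem_lintRing {ℓ r : ℕ} (hℓ : ℓ.Prime) (hr : r.Prime) (hℓr : ℓ ≠ r) :
    ((r : ℂ))⁻¹ ∈ lintRing ℓ := by
  refine ⟨r, (Nat.coprime_primes hr hℓ).mpr (Ne.symm hℓr), ?_⟩
  have hr0 : (r : ℂ) ≠ 0 := Nat.cast_ne_zero.mpr hr.ne_zero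
  rw [mul_inv_cancel₀ hr0]
  exact isIntegral_one

/-- coefficientwise description of a series over `lintRing ℓ` with all coefficients in `lintMax ℓ` -/
theorem nc_redHom_eq_zero (ℓ : ℕ) [Fact ℓ.Prime] (P : PowerSeries (lintRing ℓ))
    (h : ∀ n, PowerSeries.coeff n P ∈ lintMax ℓ) : redHom ℓ P = 0 := by
  ext n
  rw [redHom, PowerSeries.coeff_map, map_zero, resid, Ideal.Quotient.eq_zero_iff_mem]
  exact h n

theorem nc_redHom_C_mul_sig (ℓ : ℕ) [Fact ℓ.Prime] (v : lintRing ℓ) (r : ℕ) :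
    redHom ℓ (PowerSeries.C v * ncSig (lintRing ℓ) r) =
      PowerSeries.C (resid ℓ v) * ncSig (kappa ℓ) r := by
  rw [redHom, map_mul, PowerSeries.map_C, nc_map_ncSig]

theorem nc_toC_C_mul_sig (ℓ : ℕ) (v : lintRing ℓ) (r : ℕ) :
    toC ℓ (PowerSeries.C v * ncSig (lintRing ℓ) r) =
      PowerSeries.C (v : ℂ) * ncSig ℂ r := by
  rw [toC, map_mul, PowerSeries.map_C, nc_map_ncSig]
  rfl

theorem nc_sigP_mul_self (r n : ℕ) (hr : r.Prime) : sigP r (n * r) = sigP r n := by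
  rcases Nat.eq_zero_or_pos n with rfl | hn
  · simp
  unfold sigP
  congr 1
  ext d
  simp only [Finset.mem_filter, Nat.mem_divisors]
  constructor
  · rintro ⟨⟨hd, hne⟩, hrd⟩
    refine ⟨⟨?_, hn.ne'⟩, hrd⟩
    have hcop : Nat.Coprime d r := ((Nat.Prime.coprime_iff_not_dvd hr).mpr hrd).symm
    exact hcop.dvd_of_dvd_mul_right hd
  · rintro ⟨⟨hd, hne⟩, hrd⟩
    exact ⟨⟨Dvd.dvd.mul_right hd r, mul_ne_zero hne hr.ne_zero⟩, hrd⟩

theorem nc_coeff_toC (ℓ n : ℕ) (P : PowerSeries (lintRing ℓ)) :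
    PowerSeries.coeff n (toC ℓ P) = ((PowerSeries.coeff n P : lintRing ℓ) : ℂ) := by
  simp [toC]

/-- decomposition `series = C (constant) + toC (positive part)` from coefficientwise data -/
theorem nc_decomp (ℓ : ℕ) (s : PowerSeries ℂ) (s0 : ℂ) (x : ℕ → lintRing ℓ)
    (h0 : PowerSeries.coeff 0 s = s0) (hx : ∀ n, 1 ≤ n → (x n : ℂ) = PowerSeries.coeff n s) :
    s = PowerSeries.C s0 + toC ℓ (PowerSeries.mk fun n => if n = 0 then 0 else x n) := by
  ext n
  rw [map_add, nc_coeff_toC, PowerSeries.coeff_mk, PowerSeries.coeff_C]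
  by_cases hn : n = 0
  · subst hn; simp [h0]
  · simp [hn, hx n (Nat.one_le_iff_ne_zero.mpr hn)]

theorem nc_toC_shape_eq (ℓ : ℕ) (k : lintRing ℓ) (α0 β0 : ℂ) (hk : (k : ℂ) = α0 + β0) (e1 : ℕ)
    (he1 : e1 ≠ 0) (z1 : lintRing ℓ) (P : PowerSeries (lintRing ℓ)) (e2 : ℕ) (he2 : e2 ≠ 0)
    (z2 : lintRing ℓ) (Q : PowerSeries (lintRing ℓ)) (α β : PowerSeries ℂ)
    (hα : α = PowerSeries.C α0 + toC ℓ P) (hβ : β = PowerSeries.C β0 + toC ℓ Q) :
    toC ℓ (ncShape k e1 he1 z1 P e2 he2 z2 Q) =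
      PowerSeries.expand e1 he1 (PowerSeries.rescale (z1 : ℂ) α)
      + PowerSeries.expand e2 he2 (PowerSeries.rescale (z2 : ℂ) β) := by
  rw [hα, hβ, ← nc_shape_eq (k : ℂ) α0 β0 hk]
  exact nc_map_ncShape _ _ _ _ _ _ _ _ _ _

theorem nc_redHom_shape (ℓ : ℕ) [Fact ℓ.Prime] (k : lintRing ℓ) (e1 : ℕ)
    (he1 : e1 ≠ 0) (z1 : lintRing ℓ) (P : PowerSeries (lintRing ℓ)) (hP : redHom ℓ P = 0) (e2 : ℕ)
    (he2 : e2 ≠ 0) (z2 v : lintRing ℓ) (r : ℕ) :
    redHom ℓ (ncShape k e1 he1 z1 P e2 he2 z2 (PowerSeries.C v * ncSig (lintRing ℓ) r)) =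
      PowerSeries.C (resid ℓ k) + PowerSeries.expand e2 he2
        (PowerSeries.rescale (resid ℓ z2) (PowerSeries.C (resid ℓ v) * ncSig (kappa ℓ) r)) := by
  rw [← nc_redHom_C_mul_sig, ← nc_shape_zero (resid ℓ k) e1 he1 (resid ℓ z1), ← hP]
  exact nc_map_ncShape _ _ _ _ _ _ _ _ _ _

/-- `ζ_N^j` as an element of `lintRing ℓ` -/
def ncZeta (ℓ N : ℕ) [NeZero N] (j : ℕ) : lintRing ℓ := ⟨zeta N ^ j, zeta_pow_mem_lintRing ℓ N j⟩

theorem nc_conjA_none (p r : ℕ) [NeZero p] [NeZero r] (a : PowerSeries ℂ) :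
    conjA p r a none = PowerSeries.expand (r * p) (mul_ne_zero (NeZero.ne r) (NeZero.ne p))
      (PowerSeries.rescale 1 a) := by
  simp [conjA]

theorem nc_conjB_none (p r : ℕ) [NeZero p] [NeZero r] (b : PowerSeries ℂ) :
    conjB p r b none = PowerSeries.expand (r * p) (mul_ne_zero (NeZero.ne r) (NeZero.ne p))
      (PowerSeries.rescale 1 b) := by
  simp [conjB]

theorem nc_exists_lifts (ℓ p r : ℕ) [Fact ℓ.Prime] [NeZero p] [NeZero r] (hr : r.Prime)
    (hℓr : ℓ ≠ r) (a b : PowerSeries ℂ) (a0 b0 u : ℂ)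
    (hB0 : PowerSeries.coeff 0 b = b0)
    (hB : ∀ n : ℕ, 1 ≤ n → PowerSeries.coeff n b = u * (sigP r n : ℂ))
    (hu : ∃ x : lintRing ℓ, x ∉ lintMax ℓ ∧ (x : ℂ) = u)
    (hA0 : PowerSeries.coeff 0 a = a0)
    (hA1 : ∀ n : ℕ, 1 ≤ n → ∃ x : lintRing ℓ, x ∈ lintMax ℓ ∧ (x : ℂ) = PowerSeries.coeff n a)
    (hA2 : ∀ n : ℕ, 1 ≤ n → ∃ x : lintRing ℓ, x ∈ lintMax ℓ ∧
      (x : ℂ) = -(p : ℂ)⁻¹ * PowerSeries.coeff (n * p) a)
    (hk1 : -(p : ℂ)⁻¹ * a0 + b0 = 0)
    (hk2 : a0 + b0 ∈ lintRing ℓ)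
    (hk3 : a0 - (r : ℂ)⁻¹ * b0 ∈ lintRing ℓ)
    (hk4 : ∃ x : lintRing ℓ, x ∉ lintMax ℓ ∧ (x : ℂ) = -(p : ℂ)⁻¹ * a0 - (r : ℂ)⁻¹ * b0) :
    ∃ c : Option (Fin p) → Option (Fin r) → PowerSeries (lintRing ℓ),
      (∀ x y, toC ℓ (c x y) = conjSeries p r a b x y) ∧
      (∀ x y, redHom ℓ (c x y) ≠ 0) ∧
      (∀ j : Fin p, ((r * p : ℕ) : ℕ∞) ≤ (redHom ℓ (c (some j) none)).order) := by
  classical
  obtain ⟨uR, huR, huC⟩ := hu
  obtain ⟨k4R, hk4R, hk4C⟩ := hk4
  have hℓ : ℓ.Prime := Fact.out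
  have hr2 : 2 ≤ r := hr.two_le
  have hr0 : r ≠ 0 := NeZero.ne r
  have hp0 : p ≠ 0 := NeZero.ne p
  have hrp : r * p ≠ 0 := mul_ne_zero hr0 hp0
  have hrC : (r : ℂ) ≠ 0 := Nat.cast_ne_zero.mpr hr0
  let rinv : lintRing ℓ := ⟨(r : ℂ)⁻¹, nc_inv_mem_lintRing hℓ hr hℓr⟩
  let k2R : lintRing ℓ := ⟨_, hk2⟩
  let k3R : lintRing ℓ := ⟨_, hk3⟩
  choose! x1 hx1m hx1C using hA1
  choose! x2 hx2m hx2C using hA2
  let Ap : PowerSeries (lintRing ℓ) := PowerSeries.mk fun n => if n = 0 then 0 else x1 n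
  let A2p : PowerSeries (lintRing ℓ) := PowerSeries.mk fun n => if n = 0 then 0 else x2 n
  let Sig : PowerSeries (lintRing ℓ) := ncSig (lintRing ℓ) r
  let v2 : lintRing ℓ := -(rinv * uR)
  -- the four decompositions
  have hIa : a = PowerSeries.C a0 + toC ℓ Ap := nc_decomp ℓ a a0 x1 hA0 hx1C
  have hIb : -(p : ℂ)⁻¹ • UPS p a = PowerSeries.C (-(p : ℂ)⁻¹ * a0) + toC ℓ A2p := by
    refine nc_decomp ℓ _ _ x2 ?_ ?_
    · rw [PowerSeries.coeff_smul, coeff_UPS, zero_mul, hA0, smul_eq_mul]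
    · intro n hn
      rw [hx2C n hn, PowerSeries.coeff_smul, coeff_UPS, smul_eq_mul]
  have hIc : b = PowerSeries.C b0 + toC ℓ (PowerSeries.C uR * Sig) := by
    rw [nc_toC_C_mul_sig]
    ext n
    rw [map_add, PowerSeries.coeff_C, PowerSeries.coeff_C_mul, nc_coeff_ncSig]
    by_cases hn : n = 0
    · subst hn; simp [hB0]
    · rw [hB n (Nat.one_le_iff_ne_zero.mpr hn), if_neg hn, if_neg hn, huC, zero_add]
  have hId : -(r : ℂ)⁻¹ • UPS r b =
      PowerSeries.C (-(r : ℂ)⁻¹ * b0) + toC ℓ (PowerSeries.C v2 * Sig) := by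
    rw [nc_toC_C_mul_sig]
    ext n
    by_cases hn : n = 0
    · subst hn
      rw [PowerSeries.coeff_smul, coeff_UPS, zero_mul, hB0, smul_eq_mul, map_add,
        PowerSeries.coeff_zero_C, PowerSeries.coeff_C_mul, nc_coeff_ncSig, if_pos rfl, mul_zero,
        add_zero]
    · have hnr : 1 ≤ n * r := Nat.one_le_iff_ne_zero.mpr (mul_ne_zero hn hr0)
      have hv2 : ((v2 : lintRing ℓ) : ℂ) = -((r : ℂ)⁻¹ * u) := by
        simp [v2, rinv, huC]
      simp only [map_add, PowerSeries.coeff_smul, coeff_UPS, smul_eq_mul, PowerSeries.coeff_C,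
        if_neg hn, zero_add, PowerSeries.coeff_C_mul, nc_coeff_ncSig]
      rw [hB (n * r) hnr, nc_sigP_mul_self r n hr, hv2]
      ring
  -- reductions of the building blocks
  have hredA : redHom ℓ Ap = 0 := by
    apply nc_redHom_eq_zero
    intro n
    rw [PowerSeries.coeff_mk]
    split_ifs with hn
    · exact zero_mem _
    · exact hx1m n (Nat.one_le_iff_ne_zero.mpr hn)
  have hredA2 : redHom ℓ A2p = 0 := by
    apply nc_redHom_eq_zero
    intro n
    rw [PowerSeries.coeff_mk]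
    split_ifs with hn
    · exact zero_mem _
    · exact hx2m n (Nat.one_le_iff_ne_zero.mpr hn)
  have hu0 : resid ℓ uR ≠ 0 := (nc_resid_ne_zero_iff ℓ uR).mpr huR
  have hk40 : resid ℓ k4R ≠ 0 := (nc_resid_ne_zero_iff ℓ k4R).mpr hk4R
  have hrinv0 : resid ℓ rinv ≠ 0 := by
    intro h0
    have h1 : rinv * ((r : ℕ) : lintRing ℓ) = 1 := by
      apply Subtype.ext
      simp [rinv, inv_mul_cancel₀ hrC]
    have := congrArg (resid ℓ) h1
    rw [map_mul, h0, zero_mul, map_one] at this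
    exact zero_ne_one this
  have hv20 : resid ℓ v2 ≠ 0 := by
    simp only [v2, map_neg, map_mul, neg_ne_zero]
    exact mul_ne_zero hrinv0 hu0
  have hζr0 : ∀ i : ℕ, resid ℓ (ncZeta ℓ r i) ≠ 0 := fun i => resid_zeta_pow_ne_zero ℓ r i
  -- the lifts
  refine ⟨fun x y => match x, y with
    | none, none => ncShape k2R (r * p) hrp 1 Ap (r * p) hrp 1 (PowerSeries.C uR * Sig)
    | some j, none =>
        ncShape 0 r hr0 (ncZeta ℓ p j) A2p (r * p) hrp 1 (PowerSeries.C uR * Sig)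
    | none, some i =>
        ncShape k3R (r * p) hrp 1 Ap p hp0 (ncZeta ℓ r i) (PowerSeries.C v2 * Sig)
    | some j, some i =>
        ncShape k4R r hr0 (ncZeta ℓ p j) A2p p hp0 (ncZeta ℓ r i) (PowerSeries.C v2 * Sig),
    ?_, ?_, ?_⟩
  · intro x y
    rcases x with _ | j <;> rcases y with _ | i
    · show _ = conjA p r a none + conjB p r b none
      rw [nc_conjA_none, nc_conjB_none]
      have := nc_toC_shape_eq ℓ k2R a0 b0 rfl (r * p) hrp 1 Ap (r * p) hrp 1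
        (PowerSeries.C uR * Sig) a b hIa hIc
      simpa using this
    · show _ = conjA p r a none + conjB p r b (some i)
      rw [nc_conjA_none]
      have := nc_toC_shape_eq ℓ k3R a0 (-(r : ℂ)⁻¹ * b0) (by simp [k3R]; ring) (r * p) hrp 1 Ap p hp0
        (ncZeta ℓ r i) (PowerSeries.C v2 * Sig) a _ hIa hId
      simpa [conjB, ncZeta] using this
    · show _ = conjA p r a (some j) + conjB p r b none
      rw [nc_conjB_none]
      have := nc_toC_shape_eq ℓ 0 (-(p : ℂ)⁻¹ * a0) b0 (by rw [hk1]; rfl) r hr0 (ncZeta ℓ p j) A2p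
        (r * p) hrp 1 (PowerSeries.C uR * Sig) _ b hIb hIc
      simpa [conjA, ncZeta] using this
    · show _ = conjA p r a (some j) + conjB p r b (some i)
      have := nc_toC_shape_eq ℓ k4R (-(p : ℂ)⁻¹ * a0) (-(r : ℂ)⁻¹ * b0) (by rw [hk4C]; ring) r hr0
        (ncZeta ℓ p j) A2p p hp0 (ncZeta ℓ r i) (PowerSeries.C v2 * Sig) _ _ hIb hId
      simpa [conjA, conjB, ncZeta] using this
  · intro x y
    rcases x with _ | j <;> rcases y with _ | i
    · show redHom ℓ (ncShape k2R (r * p) hrp 1 Ap (r * p) hrp 1 (PowerSeries.C uR * Sig)) ≠ 0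
      rw [nc_redHom_shape ℓ _ _ _ _ _ hredA]
      apply nc_shape_ne_zero _ _ _ _ _ _ hr2
      rw [map_one, one_mul]; exact hu0
    · show redHom ℓ (ncShape k3R (r * p) hrp 1 Ap p hp0 (ncZeta ℓ r i)
        (PowerSeries.C v2 * Sig)) ≠ 0
      rw [nc_redHom_shape ℓ _ _ _ _ _ hredA]
      apply nc_shape_ne_zero _ _ _ _ _ _ hr2
      exact mul_ne_zero (hζr0 i) hv20
    · show redHom ℓ (ncShape 0 r hr0 (ncZeta ℓ p j) A2p (r * p) hrp 1
        (PowerSeries.C uR * Sig)) ≠ 0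
      rw [nc_redHom_shape ℓ _ _ _ _ _ hredA2]
      apply nc_shape_ne_zero _ _ _ _ _ _ hr2
      rw [map_one, one_mul]; exact hu0
    · show redHom ℓ (ncShape k4R r hr0 (ncZeta ℓ p j) A2p p hp0 (ncZeta ℓ r i)
        (PowerSeries.C v2 * Sig)) ≠ 0
      rw [nc_redHom_shape ℓ _ _ _ _ _ hredA2]
      exact nc_shape_ne_zero' _ _ _ _ _ _ hk40
  · intro j
    show ((r * p : ℕ) : ℕ∞) ≤ (redHom ℓ (ncShape 0 r hr0 (ncZeta ℓ p j) A2p (r * p) hrp 1
        (PowerSeries.C uR * Sig))).order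
    rw [nc_redHom_shape ℓ _ _ _ _ _ hredA2, map_zero]
    exact nc_le_order_shape _ _ _ _ _

end

end Fermat.Agent.S16x
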