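/-
S16 project, module AN1c (`NormFactor`, helper72): the pointwise expansions, in the variable
`w = exp(2πi z / (rp))`, of the individual conjugates `A_x` (`x ∈ P¹(𝔽_p)`) and `B_y`
(`y ∈ P¹(𝔽_r)`), from the plain `q`-expansion of `A` and the expansion of `A ∣ S` (KEY FACT, AN0,
taken as a hypothesis in the shape of `Spec.hasSum_slashS`).  Prefix `nfc_`.
-/
import Fermat.Agent.S16x.NormQExp

set_option autoImplicit false

namespace Fermat.Agent.S16x

open UpperHalfPlane ModularForm ModularFormClass CongruenceSubgroup Complex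
open scoped MatrixGroups Manifold Real

noncomputable section

/-! ### slash by `T ^ j` is translation -/

theorem nfc_slash_T_pow (f : ℍ → ℂ) (k : ℤ) (j : ℕ) (z : ℍ) :
    (f ∣[k] (ModularGroup.T ^ j)) z = f ((j : ℝ) +ᵥ z) := by
  rw [ModularForm.SL_slash_apply]
  have h1 : ModularGroup.T ^ j • z = (j : ℝ) +ᵥ z := by
    have := UpperHalfPlane.modular_T_zpow_smul z (j : ℤ)
    simpa using this
  rw [h1]
  have h3 : ((ModularGroup.T ^ j : SL(2, ℤ)) : Matrix (Fin 2) (Fin 2) ℤ) =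
      !![1, (j : ℤ); 0, 1] := by
    have := ModularGroup.coe_T_zpow (j : ℤ)
    simpa using this
  have h2 : denom (Matrix.SpecialLinearGroup.toGL
      ((Matrix.SpecialLinearGroup.map (Int.castRingHom ℝ)) (ModularGroup.T ^ j))) (z : ℂ) = 1 := by
    have := ModularGroup.denom_apply (ModularGroup.T ^ j) z
    rw [h3] at this
    simpa using this
  rw [h2]
  simp

theorem nfc_conjFun_some_apply (p : ℕ) (A : ℍ → ℂ) (j : Fin p) (z : ℍ) :
    nl_conjFun p A (some j) z = (A ∣[(2 : ℤ)] ModularGroup.S) ((((j : ℕ) : ℝ)) +ᵥ z) := by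
  rw [nl_conjFun_some, SlashAction.slash_mul, nfc_slash_T_pow]

/-! ### the variable `w` -/

theorem nfc_w_pow (M N : ℕ) (hM : M ≠ 0) (z : ℍ) : nl_w (M * N) z ^ M = nl_w N z := by
  rcases Nat.eq_zero_or_pos N with rfl | hN
  · simp [nl_w]
  have hM' : (M : ℂ) ≠ 0 := Nat.cast_ne_zero.mpr hM
  have hN' : (N : ℂ) ≠ 0 := Nat.cast_ne_zero.mpr hN.ne'
  simp only [nl_w, ← Complex.exp_nat_mul]
  congr 1
  push_cast
  field_simp

theorem nfc_zeta_pow (N j : ℕ) :
    Complex.exp (2 * π * Complex.I * (j : ℂ) / (N : ℂ)) = zeta N ^ j := by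
  rw [zeta, ← Complex.exp_nat_mul]
  congr 1
  ring

/-- `exp(2πi m (z + j)/p) = (ζ_p^j)^m · w_p(z)^m` -/
theorem nfc_exp_shift (p j m : ℕ) (z : ℍ) :
    Complex.exp (2 * π * Complex.I * (m : ℂ) * ((((j : ℝ) +ᵥ z : ℍ)) : ℂ) / (p : ℂ)) =
      (zeta p ^ j) ^ m * nl_w p z ^ m := by
  rw [← nfc_zeta_pow, nl_w, ← Complex.exp_nat_mul, ← Complex.exp_nat_mul, ← Complex.exp_add,
    UpperHalfPlane.coe_vadd]
  congr 1
  push_cast
  ring

/-! ### change of variable `w_N ↦ w_{MN}` -/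

theorem nfc_hasWExp_expand {N : ℕ} {F : ℍ → ℂ} {c : PowerSeries ℂ} (hF : HasWExp N F c)
    {M : ℕ} (hM : M ≠ 0) : HasWExp (M * N) F (PowerSeries.expand M hM c) := by
  intro z
  have hMpos : 0 < M := Nat.pos_of_ne_zero hM
  have hsum := hF z
  have hinj : Function.Injective (fun k : ℕ => M * k) := fun a b hab =>
    Nat.eq_of_mul_eq_mul_left hMpos hab
  rw [← hinj.hasSum_iff]
  · convert hsum using 2 with k
    simp only [Function.comp_apply, PowerSeries.coeff_expand, dvd_mul_right, if_true,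
      Nat.mul_div_cancel_left _ hMpos, pow_mul, nfc_w_pow M N hM]
  · intro x hx
    have : ¬ M ∣ x := fun ⟨k, hk⟩ => hx ⟨k, hk.symm⟩
    simp [PowerSeries.coeff_expand, this]

/-! ### the translates of `A ∣ S` -/

/-- from the KEY FACT expansion of `A ∣ S` to the expansion of `(A ∣ S)(z + j)` in `w_p` -/
theorem nfc_hasWExp_slashS_tr (p : ℕ) {A : ℍ → ℂ} {a : PowerSeries ℂ}
    (hS : ∀ z : ℍ, HasSum (fun m : ℕ => -(p : ℂ)⁻¹ * PowerSeries.coeff (m * p) a *
      Complex.exp (2 * π * Complex.I * m * z / p)) ((A ∣[(2 : ℤ)] ModularGroup.S) z))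
    (j : ℕ) :
    HasWExp p (fun z => (A ∣[(2 : ℤ)] ModularGroup.S) ((j : ℝ) +ᵥ z))
      (PowerSeries.rescale (zeta p ^ j) (-(p : ℂ)⁻¹ • UPS p a)) := by
  intro z
  have h := hS ((j : ℝ) +ᵥ z)
  convert h using 2 with m
  rw [nfc_exp_shift, PowerSeries.coeff_rescale, PowerSeries.coeff_smul, coeff_UPS, smul_eq_mul]
  ring

/-! ### the expansions of the conjugates -/

/-- **AN1c (A-side).** -/
theorem nfc_hasWExp_conjA (p r : ℕ) [NeZero p] [NeZero r] {A : ℍ → ℂ} {a : PowerSeries ℂ}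
    (hA : HasWExp 1 A a)
    (hS : ∀ z : ℍ, HasSum (fun m : ℕ => -(p : ℂ)⁻¹ * PowerSeries.coeff (m * p) a *
      Complex.exp (2 * π * Complex.I * m * z / p)) ((A ∣[(2 : ℤ)] ModularGroup.S) z))
    (x : Option (Fin p)) : HasWExp (r * p) (nl_conjFun p A x) (conjA p r a x) := by
  cases x with
  | none =>
    have h := nfc_hasWExp_expand hA (mul_ne_zero (NeZero.ne r) (NeZero.ne p))
    rw [Nat.mul_one] at h
    exact h
  | some j =>
    have h := nfc_hasWExp_expand (nfc_hasWExp_slashS_tr p hS (j : ℕ)) (NeZero.ne r)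
    intro z
    rw [nfc_conjFun_some_apply]
    exact h z

/-- **AN1c (B-side).** -/
theorem nfc_hasWExp_conjB (p r : ℕ) [NeZero p] [NeZero r] {B : ℍ → ℂ} {b : PowerSeries ℂ}
    (hB : HasWExp 1 B b)
    (hS : ∀ z : ℍ, HasSum (fun m : ℕ => -(r : ℂ)⁻¹ * PowerSeries.coeff (m * r) b *
      Complex.exp (2 * π * Complex.I * m * z / r)) ((B ∣[(2 : ℤ)] ModularGroup.S) z))
    (y : Option (Fin r)) : HasWExp (r * p) (nl_conjFun r B y) (conjB p r b y) := by
  cases y with
  | none =>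
    have h := nfc_hasWExp_expand hB (mul_ne_zero (NeZero.ne r) (NeZero.ne p))
    rw [Nat.mul_one] at h
    exact h
  | some i =>
    have h := nfc_hasWExp_expand (nfc_hasWExp_slashS_tr r hS (i : ℕ)) (NeZero.ne p)
    rw [Nat.mul_comm p r] at h
    intro z
    rw [nfc_conjFun_some_apply]
    exact h z

/-- **AN1c.** the expansions of `A_x + B_y`, in the shape needed by
`nqe_expand_qExpansion_eq_prod_prod`. -/
theorem nfc_hasSum_conjSeries (p r : ℕ) [NeZero p] [NeZero r] {A B : ℍ → ℂ}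
    {a b : PowerSeries ℂ} (hA : HasWExp 1 A a) (hB : HasWExp 1 B b)
    (hSA : ∀ z : ℍ, HasSum (fun m : ℕ => -(p : ℂ)⁻¹ * PowerSeries.coeff (m * p) a *
      Complex.exp (2 * π * Complex.I * m * z / p)) ((A ∣[(2 : ℤ)] ModularGroup.S) z))
    (hSB : ∀ z : ℍ, HasSum (fun m : ℕ => -(r : ℂ)⁻¹ * PowerSeries.coeff (m * r) b *
      Complex.exp (2 * π * Complex.I * m * z / r)) ((B ∣[(2 : ℤ)] ModularGroup.S) z))
    (x : Option (Fin p)) (y : Option (Fin r)) (z : ℍ) :
    HasSum (fun n : ℕ => PowerSeries.coeff n (conjSeries p r a b x y) * nl_w (r * p) z ^ n)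
      (nl_conjFun p A x z + nl_conjFun r B y z) :=
  ((nfc_hasWExp_conjA p r hA hSA x).add (nfc_hasWExp_conjB p r hB hSB y)) z

/-! ### specialisation to modular forms -/

theorem nfc_w_one (z : ℍ) : nl_w 1 z = Function.Periodic.qParam 1 (z : ℂ) := by
  simp [nl_w, Function.Periodic.qParam]

/-- the plain `q`-expansion of a modular form on `Γ₀(N)`, in `HasWExp` form -/
theorem nfc_hasWExp_mf (N : ℕ) [NeZero N] {k : ℤ} (A : ModularForm (Gamma0 N) k) :
    HasWExp 1 (⇑A) (qExpansion 1 A) := by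
  intro z
  have hnice : S23x.IsNice (⇑A) := S23x.IsMF.isNice (N := N) (k := k) ⟨A, rfl⟩
  have h := hasSum_qExpansion one_pos hnice.periodic_comp_ofComplex hnice.1 hnice.2.2 z
  convert h using 2 with n
  rw [nfc_w_one, smul_eq_mul]

/-- **AN1c for modular forms**: `hSA`, `hSB` are exactly `Spec.hasSum_slashS p A`,
`Spec.hasSum_slashS r B`. -/
theorem nfc_hasSum_conjSeries_mf (p r : ℕ) [NeZero p] [NeZero r]
    (A : ModularForm (Gamma0 p) 2) (B : ModularForm (Gamma0 r) 2)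
    (hSA : ∀ z : ℍ, HasSum (fun m : ℕ => -(p : ℂ)⁻¹ * PowerSeries.coeff (m * p) (qExpansion 1 A) *
      Complex.exp (2 * π * Complex.I * m * z / p)) ((⇑A ∣[(2 : ℤ)] ModularGroup.S) z))
    (hSB : ∀ z : ℍ, HasSum (fun m : ℕ => -(r : ℂ)⁻¹ * PowerSeries.coeff (m * r) (qExpansion 1 B) *
      Complex.exp (2 * π * Complex.I * m * z / r)) ((⇑B ∣[(2 : ℤ)] ModularGroup.S) z))
    (x : Option (Fin p)) (y : Option (Fin r)) (z : ℍ) :
    HasSum (fun n : ℕ => PowerSeries.coeff n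
        (conjSeries p r (qExpansion 1 A) (qExpansion 1 B) x y) * nl_w (r * p) z ^ n)
      (nl_conjFun p (⇑A) x z + nl_conjFun r (⇑B) y z) :=
  nfc_hasSum_conjSeries p r (nfc_hasWExp_mf p A) (nfc_hasWExp_mf r B) hSA hSB x y z

end

end Fermat.Agent.S16x
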