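/-
S16 project, module AN1 (`NormLevelOneB`, helper72; shadow of AN1a + final assembly):
the product of the `(p+1)(r+1)` conjugates `A_x + B_y` is a level one form of weight
`2(p+1)(r+1)` (invariance: helper73's `cp_prod_slash`), and its `q`-expansion, expanded to the
variable `w = q^{1/(rp)}`, is the product of the explicit series `conjSeries`
(helper23's `nqe_expand_qExpansion_eq_prod` + `NormFactor`).  The KEY FACT (AN0) enters as the
hypotheses `hSA`, `hSB` (verbatim `Spec.hasSum_slashS`).  Prefix `nlb_`.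
-/
import Fermat.Agent.S16x.NormFactor
import Fermat.Agent.S16x.CosetPerm

set_option autoImplicit false

namespace Fermat.Agent.S16x

open UpperHalfPlane ModularForm ModularFormClass CongruenceSubgroup Complex
open scoped MatrixGroups Manifold Real
open Fermat.Agent.S23x (IsMF1)

noncomputable section

/-- the conjugates in terms of the coset representatives `cp_rep` -/
theorem nlb_conjFun_eq (p : ℕ) (A : ℍ → ℂ) (x : Option (Fin p)) :
    nl_conjFun p A x = A ∣[(2 : ℤ)] cp_rep p x := by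
  cases x with
  | none => simp [cp_rep]
  | some j => rfl

/-- the product of all conjugates `A_x + B_y` -/
def nlbFun (p r : ℕ) (A B : ℍ → ℂ) : ℍ → ℂ :=
  ∏ xy : Option (Fin p) × Option (Fin r), (nl_conjFun p A xy.1 + nl_conjFun r B xy.2)

theorem nlbFun_apply (p r : ℕ) (A B : ℍ → ℂ) (z : ℍ) :
    nlbFun p r A B z =
      ∏ x : Option (Fin p), ∏ y : Option (Fin r), (nl_conjFun p A x z + nl_conjFun r B y z) := by
  rw [nlbFun, Finset.prod_apply, Fintype.prod_prod_type]
  rfl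

theorem nlb_card (p r : ℕ) :
    (Finset.univ : Finset (Option (Fin p) × Option (Fin r))).card = (p + 1) * (r + 1) := by
  simp [Finset.card_univ, Fintype.card_prod, Fintype.card_option]

theorem nlb_slash_mem_Gamma0 {N : ℕ} {k : ℤ} (A : ModularForm (Gamma0 N) k) :
    ∀ δ ∈ Gamma0 N, (⇑A) ∣[k] δ = ⇑A := by
  intro γ hγ
  rw [ModularForm.SL_slash]
  exact SlashInvariantFormClass.slash_action_eq A _ (Subgroup.mem_map_of_mem _ hγ)

/-- invariance of the product under `SL₂(ℤ)` -/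
theorem nlb_invariant (p r : ℕ) [Fact p.Prime] [Fact r.Prime] (A : ModularForm (Gamma0 p) 2)
    (B : ModularForm (Gamma0 r) 2) (γ : SL(2, ℤ)) :
    (nlbFun p r A B) ∣[((2 * ((p + 1) * (r + 1)) : ℕ) : ℤ)] γ = nlbFun p r A B := by
  have h := cp_prod_slash p r 2 (⇑A) (⇑B) (nlb_slash_mem_Gamma0 A) (nlb_slash_mem_Gamma0 B) γ
  have hw : ((2 * ((p + 1) * (r + 1)) : ℕ) : ℤ) =
      2 * ((Finset.univ : Finset (Option (Fin p) × Option (Fin r))).card : ℤ) := by
    rw [nlb_card]
    push_cast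
    ring
  have hfun : nlbFun p r A B = ∏ xy : Option (Fin p) × Option (Fin r),
      ((⇑A) ∣[(2 : ℤ)] cp_rep p xy.1 + (⇑B) ∣[(2 : ℤ)] cp_rep r xy.2) := by
    unfold nlbFun
    refine Finset.prod_congr rfl fun xy _ => ?_
    rw [nlb_conjFun_eq, nlb_conjFun_eq]
  rw [hw, hfun]
  exact h

theorem nlb_mdiff_conj (p : ℕ) [NeZero p] (A : ModularForm (Gamma0 p) 2) (x : Option (Fin p)) :
    MDiff (nl_conjFun p (⇑A) x) := by
  rw [nlb_conjFun_eq, ModularForm.SL_slash]
  exact (ModularFormClass.holo A).slash 2 _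

theorem nlb_bdd_conj (p : ℕ) [NeZero p] (A : ModularForm (Gamma0 p) 2) (x : Option (Fin p)) :
    IsBoundedAtImInfty (nl_conjFun p (⇑A) x) := by
  rw [nlb_conjFun_eq]
  exact ModularFormClass.bdd_at_infty_slash A (cp_rep p x)

theorem nlb_mdiff (p r : ℕ) [NeZero p] [NeZero r] (A : ModularForm (Gamma0 p) 2)
    (B : ModularForm (Gamma0 r) 2) : MDiff (nlbFun p r A B) :=
  MDifferentiable.prod fun xy _ => (nlb_mdiff_conj p A xy.1).add (nlb_mdiff_conj r B xy.2)

theorem nlb_bdd (p r : ℕ) [NeZero p] [NeZero r] (A : ModularForm (Gamma0 p) 2)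
    (B : ModularForm (Gamma0 r) 2) : IsBoundedAtImInfty (nlbFun p r A B) := by
  classical
  unfold nlbFun
  induction (Finset.univ : Finset (Option (Fin p) × Option (Fin r))) using Finset.induction_on with
  | empty =>
    rw [Finset.prod_empty]
    exact Filter.const_boundedAtFilter _ (1 : ℂ)
  | insert a s ha ih =>
    rw [Finset.prod_insert ha]
    exact ((nlb_bdd_conj p A a.1).add (nlb_bdd_conj r B a.2)).mul ih

/-- **AN1a.** the product of the conjugates is a level one form -/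
def nlbForm (p r : ℕ) [Fact p.Prime] [Fact r.Prime] (A : ModularForm (Gamma0 p) 2)
    (B : ModularForm (Gamma0 r) 2) :
    ModularForm 𝒮ℒ ((2 * ((p + 1) * (r + 1)) : ℕ) : ℤ) :=
  haveI : NeZero p := ⟨(Fact.out : p.Prime).ne_zero⟩
  haveI : NeZero r := ⟨(Fact.out : r.Prime).ne_zero⟩
  { toFun := nlbFun p r A B
    slash_action_eq' := by
      rintro _ ⟨γ, rfl⟩
      have := nlb_invariant p r A B γ
      rwa [ModularForm.SL_slash] at this
    holo' := nlb_mdiff p r A B
    bdd_at_cusps' := by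
      intro c hc
      rw [OnePoint.isBoundedAt_iff_forall_SL2Z hc]
      intro γ _
      rw [nlb_invariant p r A B γ]
      exact nlb_bdd p r A B }

theorem nlb_isMF1 (p r : ℕ) [Fact p.Prime] [Fact r.Prime] (A : ModularForm (Gamma0 p) 2)
    (B : ModularForm (Gamma0 r) 2) :
    IsMF1 ((2 * ((p + 1) * (r + 1)) : ℕ) : ℤ) (nlbFun p r A B) :=
  ⟨nlbForm p r A B, rfl⟩

/-- **AN1** modulo the KEY FACT (`hSA`, `hSB` = `Spec.hasSum_slashS p A`, `Spec.hasSum_slashS r B`). -/
theorem nlb_exists_levelOne_norm_of (p r : ℕ) [Fact p.Prime] [Fact r.Prime]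
    (A : ModularForm (Gamma0 p) 2) (B : ModularForm (Gamma0 r) 2)
    (hSA : ∀ z : ℍ, HasSum (fun m : ℕ => -(p : ℂ)⁻¹ * PowerSeries.coeff (m * p) (qExpansion 1 A) *
      Complex.exp (2 * π * Complex.I * m * z / p)) ((⇑A ∣[(2 : ℤ)] ModularGroup.S) z))
    (hSB : ∀ z : ℍ, HasSum (fun m : ℕ => -(r : ℂ)⁻¹ * PowerSeries.coeff (m * r) (qExpansion 1 B) *
      Complex.exp (2 * π * Complex.I * m * z / r)) ((⇑B ∣[(2 : ℤ)] ModularGroup.S) z)) :
    haveI : NeZero p := ⟨(Fact.out : p.Prime).ne_zero⟩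
    haveI : NeZero r := ⟨(Fact.out : r.Prime).ne_zero⟩
    ∃ f : ℍ → ℂ, IsMF1 ((2 * ((p + 1) * (r + 1)) : ℕ) : ℤ) f ∧
      PowerSeries.expand (r * p) (mul_ne_zero (NeZero.ne r) (NeZero.ne p)) (qExpansion 1 f) =
        ∏ x : Option (Fin p), ∏ y : Option (Fin r),
          conjSeries p r (qExpansion 1 A) (qExpansion 1 B) x y := by
  haveI : NeZero p := ⟨(Fact.out : p.Prime).ne_zero⟩
  haveI : NeZero r := ⟨(Fact.out : r.Prime).ne_zero⟩
  refine ⟨nlbFun p r A B, nlb_isMF1 p r A B, ?_⟩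
  exact nqe_expand_qExpansion_eq_prod_prod _ (nlb_isMF1 p r A B)
    (fun x y => nl_conjFun p (⇑A) x + nl_conjFun r (⇑B) y)
    (fun x y => conjSeries p r (qExpansion 1 A) (qExpansion 1 B) x y)
    (fun z => nlbFun_apply p r A B z)
    (fun x y z => nfc_hasSum_conjSeries_mf p r A B hSA hSB x y z)

end

end Fermat.Agent.S16x
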