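import Fermat.Agent.S16x.Defs

/-!
# S16 project: INTERFACE SPEC (all `sorry`; NEVER imported by final files)

Maths: docs `S16_C2_solved_uniform_helper15` (+ `S16_notes_helper1`, `S16_l3_solution_helper36`,
`S16_notes_helper85`).  Real proofs go to `Fermat/Agent/S16x/<Module>.lean`, namespace
`Fermat.Agent.S16x`, SAME names and statements as here (the namespace `Fermat.Agent.S16x.Spec` is used
only in this file).  Table `s16_plan` lists modules / owners.  Lower bound: `SpecLower.lean`.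

Notation: `a = qExpansion 1 A` etc.; `w = q^{1/(rp)}`; `ℓ` = the prime at which we work,
`R = lintRing ℓ`, `κ = kappa ℓ`, `toC ℓ : R⟦X⟧ → ℂ⟦X⟧`, `redHom ℓ : R⟦X⟧ → κ⟦X⟧`.
-/

set_option autoImplicit false

open UpperHalfPlane ModularForm ModularFormClass CongruenceSubgroup
open scoped MatrixGroups Manifold
open Fermat.Agent.S23x (IsMF IsMF1)

namespace Fermat.Agent.S16x.Spec

noncomputable section

/-! ## ALG0 `Reduction.lean` : algebra of `lintRing`, `toC`, `redHom` (pure algebra, Mathlib only) -/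

/-- `ℓ = 0` in the residue field -/
theorem resid_natCast_self (ℓ : ℕ) [Fact ℓ.Prime] : resid ℓ ((ℓ : ℕ) : lintRing ℓ) = 0 := sorry

/-- a rational number with denominator prime to `ℓ` is `ℓ`-integral -/
theorem ratCast_mem_lintRing {ℓ : ℕ} (x : ℚ) (h : x.den.Coprime ℓ) : ((x : ℚ) : ℂ) ∈ lintRing ℓ := sorry

/-- roots of unity are `ℓ`-integral -/
theorem zeta_pow_mem_lintRing (ℓ N j : ℕ) [NeZero N] : zeta N ^ j ∈ lintRing ℓ := sorry

/-- `ζ_N^j` is a unit of `R`, so its residue is non-zero -/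
theorem resid_zeta_pow_ne_zero (ℓ N j : ℕ) [Fact ℓ.Prime] [NeZero N] :
    resid ℓ ⟨zeta N ^ j, zeta_pow_mem_lintRing ℓ N j⟩ ≠ 0 := sorry

/-- `toC` commutes with `expand`, `rescale`, `UPS` -/
theorem toC_expand (ℓ e : ℕ) (he : e ≠ 0) (P : PowerSeries (lintRing ℓ)) :
    toC ℓ (PowerSeries.expand e he P) = PowerSeries.expand e he (toC ℓ P) := sorry
theorem toC_rescale (ℓ : ℕ) (u : lintRing ℓ) (P : PowerSeries (lintRing ℓ)) :
    toC ℓ (PowerSeries.rescale u P) = PowerSeries.rescale (u : ℂ) (toC ℓ P) := sorry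
theorem toC_UPS (ℓ p : ℕ) (P : PowerSeries (lintRing ℓ)) : toC ℓ (UPS p P) = UPS p (toC ℓ P) := sorry

/-- `redHom` commutes with `expand`, `rescale`, `UPS` -/
theorem redHom_expand (ℓ e : ℕ) [Fact ℓ.Prime] (he : e ≠ 0) (P : PowerSeries (lintRing ℓ)) :
    redHom ℓ (PowerSeries.expand e he P) = PowerSeries.expand e he (redHom ℓ P) := sorry
theorem redHom_rescale (ℓ : ℕ) [Fact ℓ.Prime] (u : lintRing ℓ) (P : PowerSeries (lintRing ℓ)) :
    redHom ℓ (PowerSeries.rescale u P) = PowerSeries.rescale (resid ℓ u) (redHom ℓ P) := sorry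
theorem redHom_UPS (ℓ p : ℕ) [Fact ℓ.Prime] (P : PowerSeries (lintRing ℓ)) :
    redHom ℓ (UPS p P) = UPS p (redHom ℓ P) := sorry

/-- orders: `expand` multiplies the order, `rescale` by a non-zero scalar of a field keeps it -/
theorem order_expand {K : Type*} [Field K] (e : ℕ) (he : e ≠ 0) (P : PowerSeries K) :
    (PowerSeries.expand e he P).order = e * P.order := sorry
theorem order_rescale {K : Type*} [Field K] {u : K} (hu : u ≠ 0) (P : PowerSeries K) :
    (PowerSeries.rescale u P).order = P.order := sorry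

/-- a finite product of non-zero series over a field: the order is the sum of the orders -/
theorem order_prod {K : Type*} [Field K] {ι : Type*} (s : Finset ι) (P : ι → PowerSeries K) :
    (∏ i ∈ s, P i).order = ∑ i ∈ s, (P i).order := sorry

/-! ## I1 `LevelOneBound.lean` : the level-one order bound modulo `lintMax ℓ`
(induction on the weight, dividing by `Δ`; uses `S23x/LevelOne`, integrality of `E₄, E₆, Δ`) -/

theorem levelOne_redHom_order_le (ℓ : ℕ) [Fact ℓ.Prime] {k : ℕ} {f : ℍ → ℂ} (hf : IsMF1 (k : ℤ) f)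
    (P : PowerSeries (lintRing ℓ)) (hP : toC ℓ P = qExpansion 1 f) (hne : redHom ℓ P ≠ 0) :
    12 * (redHom ℓ P).order ≤ (k : ℕ∞) := sorry

/-! ## AN3 `EisForm.lean` : the weight-2 Eisenstein series of prime level
`e_N = (N-1)/24 + ∑ σ'_N(n) qⁿ = -(E₂(z) - N E₂(Nz))/24` (Mathlib: `E2_slash_action`,
`E2_eq_tsum_cexp`, `E2_mdifferentiable`) -/

theorem exists_eisForm (N : ℕ) [Fact N.Prime] :
    ∃ e : ModularForm (Gamma0 N) 2,
      PowerSeries.coeff 0 (qExpansion 1 e) = ((N : ℂ) - 1) / 24 ∧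
      ∀ n : ℕ, 1 ≤ n → PowerSeries.coeff n (qExpansion 1 e) = (sigP N n : ℂ) := sorry

/-! ## AN0 `SlashS.lean` : KEY FACT `A|S = -(1/p) (U_p A)(z/p)` for `A ∈ M₂(Γ₀(p))`
(trace to level one vanishes because `M₂(SL₂ℤ) = 0`; applied to `A` and to `A|W`) -/

/-- `A ∣ S` is holomorphic, `p`-periodic and bounded at `i∞` -/
theorem slashS_nice (p : ℕ) [Fact p.Prime] (A : ModularForm (Gamma0 p) 2) :
    MDiff (⇑A ∣[(2 : ℤ)] ModularGroup.S) ∧
    (∀ z : ℍ, (⇑A ∣[(2 : ℤ)] ModularGroup.S) ((p : ℝ) +ᵥ z) = (⇑A ∣[(2 : ℤ)] ModularGroup.S) z) ∧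
    IsBoundedAtImInfty (⇑A ∣[(2 : ℤ)] ModularGroup.S) := sorry

/-- the expansion of `A ∣ S` in `q^{1/p}` -/
theorem qExpansion_slashS (p : ℕ) [Fact p.Prime] (A : ModularForm (Gamma0 p) 2) :
    qExpansion (p : ℝ) (⇑A ∣[(2 : ℤ)] ModularGroup.S) = -(p : ℂ)⁻¹ • UPS p (qExpansion 1 A) := sorry

/-- pointwise form: `(A|S)(z) = -(1/p) ∑ₘ a_{pm} e^{2πi m z/p}` -/
theorem hasSum_slashS (p : ℕ) [Fact p.Prime] (A : ModularForm (Gamma0 p) 2) (z : ℍ) :
    HasSum (fun m : ℕ => -(p : ℂ)⁻¹ * PowerSeries.coeff (m * p) (qExpansion 1 A) *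
      Complex.exp (2 * Real.pi * Complex.I * m * z / p)) ((⇑A ∣[(2 : ℤ)] ModularGroup.S) z) := sorry

/-! ## AN1 `NormLevelOne.lean` : the product of the `(p+1)(r+1)` conjugates of `A + B` is a level one
form of weight `2(p+1)(r+1)`, and its `q`-expansion (expanded to the variable `w`) is the product
of the explicit series `conjSeries` -/

theorem exists_levelOne_norm (p r : ℕ) [Fact p.Prime] [Fact r.Prime] (hpr : p ≠ r)
    (A : ModularForm (Gamma0 p) 2) (B : ModularForm (Gamma0 r) 2) :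
    haveI : NeZero p := ⟨(Fact.out : p.Prime).ne_zero⟩
    haveI : NeZero r := ⟨(Fact.out : r.Prime).ne_zero⟩
    ∃ f : ℍ → ℂ, IsMF1 ((2 * ((p + 1) * (r + 1)) : ℕ) : ℤ) f ∧
      PowerSeries.expand (r * p) (mul_ne_zero (NeZero.ne r) (NeZero.ne p)) (qExpansion 1 f) =
        ∏ x : Option (Fin p), ∏ y : Option (Fin r),
          conjSeries p r (qExpansion 1 A) (qExpansion 1 B) x y := sorry

/-! ## AN2 `TraceLevelOne.lean` : traces to level one of `A · G(pz)` and of `G(pz)`, `G` of level one -/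

theorem exists_levelOne_trace (p : ℕ) [Fact p.Prime] (A : ModularForm (Gamma0 p) 2) {k : ℕ}
    {G : ℍ → ℂ} (hG : IsMF1 (k : ℤ) G) :
    ∃ f : ℍ → ℂ, IsMF1 ((k + 2 : ℕ) : ℤ) f ∧
      qExpansion 1 f =
        qExpansion 1 A * PowerSeries.expand p (Fact.out : p.Prime).ne_zero (qExpansion 1 G)
          - ((p : ℂ)⁻¹) ^ k • UPS p (UPS p (qExpansion 1 A) * qExpansion 1 G) := sorry

theorem exists_levelOne_traceV (p : ℕ) [Fact p.Prime] {k : ℕ} (hk : 1 ≤ k) {G : ℍ → ℂ}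
    (hG : IsMF1 (k : ℤ) G) :
    ∃ f : ℍ → ℂ, IsMF1 (k : ℤ) f ∧
      qExpansion 1 f = PowerSeries.expand p (Fact.out : p.Prime).ne_zero (qExpansion 1 G)
          + ((p : ℂ)⁻¹) ^ (k - 1) • UPS p (qExpansion 1 G) := sorry

/-! ## NI `NormIneq.lean` : the norm inequality (AN1 + I1 + ALG0) -/

/-- If the `(p+1)(r+1)` conjugate series of `A + B` have `ℓ`-integral coefficients (lifts `c x y`)
and non-zero reductions, then the sum of their `w`-orders is at most `rp · 2(p+1)(r+1)/12`. -/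
theorem norm_order_le (ℓ p r : ℕ) [Fact ℓ.Prime] [Fact p.Prime] [Fact r.Prime] (hpr : p ≠ r)
    (A : ModularForm (Gamma0 p) 2) (B : ModularForm (Gamma0 r) 2)
    (c : Option (Fin p) → Option (Fin r) → PowerSeries (lintRing ℓ))
    (hc : haveI : NeZero p := ⟨(Fact.out : p.Prime).ne_zero⟩
          haveI : NeZero r := ⟨(Fact.out : r.Prime).ne_zero⟩
          ∀ x y, toC ℓ (c x y) = conjSeries p r (qExpansion 1 A) (qExpansion 1 B) x y)
    (hne : ∀ x y, redHom ℓ (c x y) ≠ 0) :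
    6 * ∑ x : Option (Fin p), ∑ y : Option (Fin r), (redHom ℓ (c x y)).order
      ≤ ((r * p * ((p + 1) * (r + 1)) : ℕ) : ℕ∞) := sorry

/-! ## CASES : no cusp form congruent to `δ` (each file: power-series arithmetic + NI or AN2 + I1) -/

/-- (B') `CaseLarge.lean` : `ℓ ≥ 5`, `ℓ ≠ p`, `p ≥ 5` (norm with `r = 2`, `A = F`, `B = p⁻¹ b₂`) -/
theorem no_congr_large (p ℓ : ℕ) [Fact p.Prime] [Fact ℓ.Prime] (hℓ : 5 ≤ ℓ) (hp : 5 ≤ p) (hℓp : ℓ ≠ p)
    (g : CuspForm (Gamma0 p) 2) (hg : IsEisCongr p (ℓ ^ (padicValNat ℓ (p - 1) + 1)) g) : False := sorry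

/-- (P) `CaseP.lean` : `ℓ = p ≥ 5` (norm with `r = 2`, `A = p F`, `B = b₂`) -/
theorem no_congr_p (p : ℕ) [Fact p.Prime] (hp : 5 ≤ p)
    (g : CuspForm (Gamma0 p) 2) (hg : IsEisCongr p p g) : False := sorry

/-- (C3+) `CaseThreeA.lean` : `ℓ = 3`, `p ≡ 2 mod 3`, `p ≥ 5` (norm with `r = 2`, `X' = g + p e + c b₂`) -/
theorem no_congr_three_two (p : ℕ) [Fact p.Prime] (hp : 5 ≤ p) (hp3 : p % 3 = 2)
    (g : CuspForm (Gamma0 p) 2) (hg : IsEisCongr p 3 g) : False := sorry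

/-- (C2) `CaseTwoA.lean` : `ℓ = 2`, `p ≡ 7 mod 8` (norm with `r = 3`, `X' = g + p e + c b₃`) -/
theorem no_congr_two_seven (p : ℕ) [Fact p.Prime] (hp8 : p % 8 = 7)
    (g : CuspForm (Gamma0 p) 2) (hg : IsEisCongr p 2 g) : False := sorry

/-- (A3) `CaseThreeB.lean` : `ℓ = 3`, `p ≡ 1 mod 3` (trace of `F · Δ(pz)`, weight 18 bound) -/
theorem no_congr_three_one (p : ℕ) [Fact p.Prime] (hp3 : p % 3 = 1)
    (g : CuspForm (Gamma0 p) 2) (hg : IsEisCongr p (3 ^ padicValNat 3 (p - 1)) g) : False := sorry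

/-- (A2a) `CaseTwoB.lean` : `ℓ = 2`, `p ≡ 1 mod 4` (trace, `F ≡ 1 mod 4`, `v₂(p+1) = 1`) -/
theorem no_congr_two_one (p : ℕ) [Fact p.Prime] (hp4 : p % 4 = 1)
    (g : CuspForm (Gamma0 p) 2) (hg : IsEisCongr p (2 ^ (padicValNat 2 (p - 1) - 1)) g) : False := sorry

/-- (A2b) `CaseTwoC.lean` : `ℓ = 2`, `p ≡ 3 mod 8` (trace, `F ≡ 1 mod 8`, `v₂(p+1) = 2`) -/
theorem no_congr_two_three (p : ℕ) [Fact p.Prime] (hp8 : p % 8 = 3)
    (g : CuspForm (Gamma0 p) 2) (hg : IsEisCongr p 2 g) : False := sorry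

/-! ## UB `Upper.lean` : assembly of the cases + arithmetic of `eisensteinNumerator`
(`p = 2, 3`: `S₂(Γ₀(p)) = 0` by S07 / S20, so `IsEisCongr p M g` forces `M = 1`) -/

theorem upper (p ℓ s : ℕ) [Fact p.Prime] [Fact ℓ.Prime] (g : CuspForm (Gamma0 p) 2)
    (hg : IsEisCongr p (ℓ ^ s) g) : ℓ ^ s ∣ ModularCurve.eisensteinNumerator p := sorry

/-! ## DUAL `Duality.lean` : from a character of the Hecke algebra to a congruent cusp form
(perfect pairing `(t, f) ↦ a₁(t f)`; S22 finite generation, S23 integral structure,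
Prelude `qCoeff_heckeT / qCoeff_heckeU`; strong induction on `n`) -/

theorem exists_eisCongr (p M : ℕ) [Fact p.Prime] [NeZero M]
    (h : ∀ x : ModularCurve.HeckeAlg, CuspForm.heckeEvalForms p 2 x = 0 → eisEval p M x = 0) :
    ∃ g : CuspForm (Gamma0 p) 2, IsEisCongr p M g := sorry

/-! ## LOWER (see `SpecLower.lean`) -/

theorem lower (p : ℕ) [Fact p.Prime] :
    ∀ x : ModularCurve.HeckeAlg, CuspForm.heckeEvalForms p 2 x = 0 →
      eisEval p (ModularCurve.eisensteinNumerator p) x = 0 := sorry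

/-! ## FINAL `Final.lean` + `S16.lean` : `T/I ≅ ℤ/m`, `m = n` -/

theorem heckeEvalForms_surjective (p : ℕ) [Fact p.Prime] :
    Function.Surjective (CuspForm.heckeEvalForms p 2) := sorry

/-- abstract count: for a surjection `φ : ℤ[X] → T` and `ev : ℤ[X] → ℤ` surjective with kernel `I`:
`#(T / φ(I)) = n` as soon as `ev (ker φ) ⊆ nℤ` and every prime power `ℓ^s` with
`ev (ker φ) ⊆ ℓ^s ℤ` divides `n`. -/
theorem card_quotient_eq (p : ℕ) [Fact p.Prime]
    (hlow : ∀ x : ModularCurve.HeckeAlg, CuspForm.heckeEvalForms p 2 x = 0 →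
      eisEval p (ModularCurve.eisensteinNumerator p) x = 0)
    (hup : ∀ (ℓ s : ℕ), ℓ.Prime →
      (∀ x : ModularCurve.HeckeAlg, CuspForm.heckeEvalForms p 2 x = 0 → eisEval p (ℓ ^ s) x = 0) →
      ℓ ^ s ∣ ModularCurve.eisensteinNumerator p) :
    Nat.card (↥(CuspForm.heckeAlgebra p 2 ∅) ⧸
        Ideal.map (CuspForm.heckeEvalForms p 2) (ModularCurve.eisensteinIdeal p)) =
      ModularCurve.eisensteinNumerator p := sorry

end

end Fermat.Agent.S16x.Spec
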