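import Mathlib
import Fermat.Prelude.Def_CuspForm_HeckeLocal
import Fermat.Prelude.Def_CuspForm_HeckeEvalForms
import Fermat.Prelude.Def_HeckeGalois_EichlerShimura
import Fermat.Prelude.Def_ModularCurve_ModularUnit
import Fermat.Prelude.Def_ModularCurve_PeriodHomPair

/-!
# S16 project, LOWER BOUND `n ∣ m`: INTERFACE SPEC (all `sorry`; never imported by final files)

Owner of this file: helper1.  Real proofs go to `Fermat/Agent/S16x/<Module>.lean`, namespace
`Fermat.Agent.S16x`, SAME names and statements as here (the namespace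
`Fermat.Agent.S16x.SpecLower` is used only in this file).

Goal (`lower_dvd` / `lower`): if `x : HeckeAlg` (an integer polynomial in the `T_ℓ`, `ℓ ≠ p`, and `U_p`)
acts as `0` on `S₂(Γ₀(p))`, then `n = eisensteinNumerator p` divides the Eisenstein value
`aeval (eisensteinSystem p) x`.

Route: the Shimura class `shim p : Γ₀(p) → ZMod n` (`γ ↦ χ(a_γ mod p)`) is an eigenvector of the
cohomological Hecke operators `cohOpGen p ℓ` with the Eisenstein eigenvalues (L3), it lifts to a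
`ℤ`-valued PARABOLIC homomorphism (L4; `H₁(X₀(p), ℤ)` is torsion free), the parabolic homs to `ℂ` are
`S₂ × S₂` by S21 and this identification is Hecke-equivariant (L2).  Assembly = L5 (proved below from
the sorried interface, so the interface is known to be sufficient).

Modules / owners (table `s16_plan`):
* L1 `CohHecke.lean`   (helper95): `heckeReps`, `cohOpGen`, `cohOpGen_comp`, `exists_heckeReps_rel`,
                                   `cohOpGen_apply`
* L2 `CohEquiv.lean`   (helper95): `periodMap_heckeFormsGen`, `charInvolution_cohOpGen`,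
                                   `periodHomPair_heckeFormsGen`
* L3 `Shimura.lean`    (helper85): `shim`, `shim_parabolic`, `shim_finOrder`, `shim_surj`, `shim_eigen`
* L4 `Lift*.lean`      (helper36): `lift_IsPT`, `lift_exists`
* L5 `LowerAssembly.lean` (helper1): `lower_dvd`, `lower`
-/

set_option autoImplicit false

open UpperHalfPlane CongruenceSubgroup ModularCurve ModularCurve.Period CuspForm
open scoped MatrixGroups

namespace Fermat.Agent.S16x.SpecLower

noncomputable section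

/-! ## L1 : cohomological Hecke operators on `Hom(Γ₀(N), B)` -/

/-- The standard representatives of the Hecke double coset at the prime `ℓ`, level `N`:
`[[1,j],[0,ℓ]]` (`0 ≤ j < ℓ`) and, if `ℓ ∤ N`, also `[[ℓ,0],[0,1]]`.
(They are the integer versions of the Prelude's `heckeMatrix ℓ j`, `heckeDiagMatrix ℓ`.) -/
def heckeReps (N ℓ : ℕ) : Finset (Matrix (Fin 2) (Fin 2) ℤ) :=
  (Finset.range ℓ).image (fun j : ℕ => !![1, (j : ℤ); 0, (ℓ : ℤ)]) ∪
    (if ℓ ∣ N then ∅ else {!![(ℓ : ℤ), 0; 0, 1]})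

/-- for every `g ∈ Γ₀(N)` the representatives are permuted: `A g = h_A · τ(A)` with `h_A ∈ Γ₀(N)`. -/
theorem exists_heckeReps_rel (N : ℕ) [NeZero N] (ℓ : Nat.Primes) (g : Gamma0 N) :
    ∃ (τ : Matrix (Fin 2) (Fin 2) ℤ → Matrix (Fin 2) (Fin 2) ℤ)
      (h : Matrix (Fin 2) (Fin 2) ℤ → Gamma0 N),
      Set.BijOn τ (heckeReps N ℓ) (heckeReps N ℓ) ∧
      ∀ A ∈ heckeReps N ℓ,
        (((h A : Gamma0 N) : SL(2, ℤ)) : Matrix (Fin 2) (Fin 2) ℤ) * τ A =
          A * (((g : Gamma0 N) : SL(2, ℤ)) : Matrix (Fin 2) (Fin 2) ℤ) := sorry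

/-- The Hecke operator (`T_ℓ` if `ℓ ∤ N`, `U_ℓ` if `ℓ ∣ N`) on `Hom(Γ₀(N), B)`, `B` any abelian group:
`(cohOpGen ψ)(g) = ∑_A ψ(h_A)` where `A g = h_A τ(A)`. -/
def cohOpGen (N : ℕ) [NeZero N] (ℓ : Nat.Primes) {B : Type*} [AddCommGroup B] :
    (Additive (Gamma0 N) →+ B) →+ (Additive (Gamma0 N) →+ B) := sorry

/-- COMPUTATION LEMMA: any solution `(τ, h)` of the relations computes `cohOpGen`. -/
theorem cohOpGen_apply (N : ℕ) [NeZero N] (ℓ : Nat.Primes) {B : Type*} [AddCommGroup B]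
    (ψ : Additive (Gamma0 N) →+ B) (g : Gamma0 N)
    (τ : Matrix (Fin 2) (Fin 2) ℤ → Matrix (Fin 2) (Fin 2) ℤ)
    (h : Matrix (Fin 2) (Fin 2) ℤ → Gamma0 N)
    (hτ : ∀ A ∈ heckeReps N ℓ, τ A ∈ heckeReps N ℓ)
    (hh : ∀ A ∈ heckeReps N ℓ,
        (((h A : Gamma0 N) : SL(2, ℤ)) : Matrix (Fin 2) (Fin 2) ℤ) * τ A =
          A * (((g : Gamma0 N) : SL(2, ℤ)) : Matrix (Fin 2) (Fin 2) ℤ)) :
    cohOpGen N ℓ ψ (Additive.ofMul g) = ∑ A ∈ heckeReps N ℓ, ψ (Additive.ofMul (h A)) := sorry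

/-- functoriality in the coefficient group -/
theorem cohOpGen_comp (N : ℕ) [NeZero N] (ℓ : Nat.Primes) {B B' : Type*} [AddCommGroup B]
    [AddCommGroup B'] (u : B →+ B') (ψ : Additive (Gamma0 N) →+ B) :
    u.comp (cohOpGen N ℓ ψ) = cohOpGen N ℓ (u.comp ψ) := sorry

/-! ## L2 : Hecke-equivariance of the period map (S21) -/

/-- `P(T f) = T P(f)` for the Prelude generator `heckeFormsGen N 2 ℓ` (`= T_ℓ` or `U_ℓ`).
Proof: `G := ∑_A prim f ∘ A` is an equivariant primitive of `T f` (Prelude: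
`(f∣[2]heckeMatrix ℓ j)(τ) = ℓ⁻¹ f((τ+j)/ℓ)`, `(f∣[2]heckeDiagMatrix ℓ)(τ) = ℓ f(ℓτ)`), then
`S21x.periodMap_apply_of` and the relations `A g = h_A τ(A)`. -/
theorem periodMap_heckeFormsGen (N : ℕ) [NeZero N] (ℓ : Nat.Primes)
    (f : CuspForm (Gamma0 N) 2) :
    periodMap N (((heckeFormsGen N 2 ℓ : heckeAlgebra N 2 ∅) :
        Module.End ℂ (CuspForm (Gamma0 N) 2)) f) = cohOpGen N ℓ (periodMap N f) := sorry

/-- `ι` commutes with the Hecke operators (conjugation by `diag(1,-1)` permutes `heckeReps`). -/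
theorem charInvolution_cohOpGen (N : ℕ) [NeZero N] (ℓ : Nat.Primes) {B : Type*} [AddCommGroup B]
    (ψ : Additive (Gamma0 N) →+ B) :
    charInvolution N ℤ B (cohOpGen N ℓ ψ) = cohOpGen N ℓ (charInvolution N ℤ B ψ) := sorry

/-- consequence (with `S21x.periodHomPair_apply`) -/
theorem periodHomPair_heckeFormsGen (N : ℕ) [NeZero N] (ℓ : Nat.Primes)
    (f g : CuspForm (Gamma0 N) 2) :
    periodHomPair N
        ((((heckeFormsGen N 2 ℓ : heckeAlgebra N 2 ∅) :
            Module.End ℂ (CuspForm (Gamma0 N) 2)) f),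
         (((heckeFormsGen N 2 ℓ : heckeAlgebra N 2 ∅) :
            Module.End ℂ (CuspForm (Gamma0 N) 2)) g)) =
      cohOpGen N ℓ (periodHomPair N (f, g)) := sorry

/-! ## L3 : the Shimura class -/

theorem eisensteinNumerator_pos (p : ℕ) [Fact p.Prime] : 0 < eisensteinNumerator p := sorry

instance (p : ℕ) [Fact p.Prime] : NeZero (eisensteinNumerator p) :=
  ⟨(eisensteinNumerator_pos p).ne'⟩

/-- The Shimura class `Γ₀(p) → (ℤ/p)ˣ → ℤ/n`, `γ ↦ χ(a_γ mod p)` where
`χ : (ℤ/p)ˣ ↠ ℤ/n` is any surjective character (its kernel is the `12`-torsion of `(ℤ/p)ˣ`). -/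
def shim (p : ℕ) [Fact p.Prime] : Additive (Gamma0 p) →+ ZMod (eisensteinNumerator p) := sorry

theorem shim_parabolic (p : ℕ) [Fact p.Prime] (g : Gamma0 p)
    (hg : ((g : SL(2, ℤ)) : Matrix (Fin 2) (Fin 2) ℤ).trace ^ 2 = 4) :
    shim p (Additive.ofMul g) = 0 := sorry

theorem shim_finOrder (p : ℕ) [Fact p.Prime] (g : Gamma0 p) (hg : IsOfFinOrder g) :
    shim p (Additive.ofMul g) = 0 := sorry

theorem shim_surj (p : ℕ) [Fact p.Prime] : ∃ g : Gamma0 p, shim p (Additive.ofMul g) = 1 := sorry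

/-- Eisenstein eigenvalues: `T_ℓ shim = (1+ℓ) shim` (`ℓ ≠ p`), `U_p shim = p · shim = shim`
(`a`-entry rule: from `h_A τ(A) = A g` one gets `a(h_A) a(τ A) ≡ a(A) a(g) mod p`). -/
theorem shim_eigen (p : ℕ) [Fact p.Prime] (ℓ : Nat.Primes) :
    cohOpGen p ℓ (shim p) = (eisensteinSystem p ℓ) • shim p := sorry

/-! ## L4 : lifting to `ℤ`-valued parabolic homs (`H₁(X₀(N), ℤ)` is torsion free) -/

/-- kills parabolic (trace² = 4) and finite-order elements -/
def lift_IsPT {B : Type*} [AddCommGroup B] (N : ℕ) (φ : Additive (Gamma0 N) →+ B) : Prop :=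
  (∀ g : Gamma0 N, ((g : SL(2, ℤ)) : Matrix (Fin 2) (Fin 2) ℤ).trace ^ 2 = 4 →
      φ (Additive.ofMul g) = 0) ∧
    (∀ g : Gamma0 N, IsOfFinOrder g → φ (Additive.ofMul g) = 0)

theorem lift_exists (N : ℕ) [NeZero N] (n : ℕ) [NeZero n] (ψ : Additive (Gamma0 N) →+ ZMod n)
    (h : lift_IsPT N ψ) :
    ∃ ψ' : Additive (Gamma0 N) →+ ℤ, ψ' ∈ parabolicHoms ℤ (Gamma0 N) ℤ ∧
      ∀ g, ((ψ' g : ℤ) : ZMod n) = ψ g := sorry

/-! ## External: S21 (landed, `Fermat.Agent.S21.result`) -/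

theorem s21 (N : ℕ) [NeZero N] :
    Function.Injective (periodHomPair N)
      ∧ LinearMap.range (periodHomPair N) = parabolicHoms ℂ (Gamma0 N) ℂ := sorry

/-! ## L5 : assembly -/

theorem lower_dvd (p : ℕ) [Fact p.Prime] (x : HeckeAlg) (hx : heckeEvalForms p 2 x = 0) :
    (eisensteinNumerator p : ℤ) ∣ MvPolynomial.aeval (eisensteinSystem p) x := sorry

/-- reduction mod `n` of the Eisenstein eigencharacter -/
def eisEval (p : ℕ) : HeckeAlg →+* ZMod (eisensteinNumerator p) :=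
  (Int.castRingHom (ZMod (eisensteinNumerator p))).comp
    (MvPolynomial.aeval (eisensteinSystem p) : HeckeAlg →ₐ[ℤ] ℤ).toRingHom

theorem lower (p : ℕ) [Fact p.Prime] :
    ∀ x : HeckeAlg, heckeEvalForms p 2 x = 0 → eisEval p x = 0 := by
  intro x hx
  have h := lower_dvd p x hx
  show ((MvPolynomial.aeval (eisensteinSystem p) x : ℤ) : ZMod (eisensteinNumerator p)) = 0
  exact (ZMod.intCast_zmod_eq_zero_iff_dvd _ _).mpr h

end

end Fermat.Agent.S16x.SpecLower
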