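/-
S16 project, shared by the trace cases (helper57): construction of the form `F = c⁻¹ (e - g)`,
`c = (p-1)/24`, with an `ℓ`-integral lift of its `q`-expansion congruent to `1` modulo `ℓ^s`,
from a cusp form `g ≡ δ mod M`, when `24 M / (p-1) ∈ ℓ^s ℤ_(ℓ)`.
-/
import Fermat.Agent.S16x.Defs
import Fermat.Agent.S16x.EisForm
import Fermat.Prelude.Thm_CongruenceSubgroup_one_mem_strictPeriods_Gamma0

set_option autoImplicit false

namespace Fermat.Agent.S16x

open PowerSeries UpperHalfPlane ModularForm ModularFormClass CongruenceSubgroup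
open scoped MatrixGroups Manifold

noncomputable section

/-- From `g ≡ δ mod M` and `24 M = ℓ^s t (p-1)` with `t` an `ℓ`-integral number:
a form `F ∈ M₂(Γ₀(p))` with `ℓ`-integral `q`-expansion `≡ 1 mod ℓ^s`. -/
theorem tcf_exists_F (ℓ p M s : ℕ) [Fact p.Prime] (t : lintRing ℓ)
    (ht : (M : ℂ) * 24 = (ℓ : ℂ) ^ s * (t : ℂ) * ((p : ℂ) - 1))
    (g : CuspForm (Gamma0 p) 2) (hg : IsEisCongr p M g) :
    ∃ (F : ModularForm (Gamma0 p) 2) (a : PowerSeries (lintRing ℓ)),
      toC ℓ a = qExpansion 1 F ∧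
      ∀ n, coeff n a - coeff n (1 : PowerSeries (lintRing ℓ))
        ∈ Ideal.span {((ℓ : ℕ) : lintRing ℓ) ^ s} := by
  have hp : p.Prime := Fact.out
  have hΓ := CongruenceSubgroup.one_mem_strictPeriods_Gamma0 p
  obtain ⟨e, he0, hen⟩ := exists_eisForm p
  have hp1 : ((p : ℂ) - 1) ≠ 0 := by
    have : (p : ℂ) ≠ 1 := by exact_mod_cast hp.one_lt.ne'
    exact sub_ne_zero.mpr this
  set c : ℂ := ((p : ℂ) - 1) / 24 with hc
  have hc0 : c ≠ 0 := div_ne_zero hp1 (by norm_num)
  -- the integers `m n` with `a_n(g) = m n`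
  choose mg hmg using hg
  -- `M ∣ σ'(n) - m n`
  have hdiv : ∀ n, 1 ≤ n → ∃ k : ℤ, (sigP p n : ℤ) - mg n = (M : ℤ) * k := by
    intro n hn
    have h := (hmg n).2 hn
    have h' : (((sigP p n : ℤ) - mg n : ℤ) : ZMod M) = 0 := by
      push_cast; rw [h]; simp
    exact (ZMod.intCast_zmod_eq_zero_iff_dvd _ M).mp h'
  choose! k hk using hdiv
  set F : ModularForm (Gamma0 p) 2 := c⁻¹ • (e - CuspForm.toModularFormₗ g) with hF
  have hqF : qExpansion 1 F = c⁻¹ • (qExpansion 1 e - qExpansion 1 g) := by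
    rw [hF, FunLike.coe_smul, ModularForm.qExpansion_smul one_pos hΓ, FunLike.coe_sub,
      ModularForm.qExpansion_sub one_pos hΓ]
    rfl
  have hg0 : coeff 0 (qExpansion 1 g) = 0 :=
    CuspFormClass.qExpansion_coeff_zero g one_pos hΓ
  refine ⟨F, PowerSeries.mk fun n => if n = 0 then 1 else
    ((ℓ : ℕ) : lintRing ℓ) ^ s * ((k n : ℤ) • t), ?_, ?_⟩
  · ext n
    rw [toC, coeff_map, coeff_mk, hqF, coeff_smul, map_sub, smul_eq_mul]
    by_cases hn : n = 0
    · subst hn
      rw [if_pos rfl, he0, hg0, sub_zero, inv_mul_cancel₀ hc0]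
      simp
    · rw [if_neg hn]
      have hn1 : 1 ≤ n := Nat.one_le_iff_ne_zero.mpr hn
      have h1 : coeff n (qExpansion 1 g) = (mg n : ℂ) := (hmg n).1
      have h2 : ((sigP p n : ℂ)) - (mg n : ℂ) = (M : ℂ) * (k n : ℂ) := by
        exact_mod_cast congrArg (Int.cast (R := ℂ)) (hk n hn1)
      rw [hen n hn1, h1, h2, hc]
      simp only [Subring.coe_subtype, Subring.coe_mul, Subring.coe_pow, Subring.coe_natCast,
        zsmul_eq_mul, Subring.coe_intCast]
      field_simp
      linear_combination (-(k n : ℂ)) * ht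
  · intro n
    rw [coeff_mk, coeff_one]
    by_cases hn : n = 0
    · simp [hn]
    · rw [if_neg hn, if_neg hn, sub_zero]
      exact Ideal.mul_mem_right _ _ (Ideal.subset_span rfl)

end

end Fermat.Agent.S16x
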