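/-
S16 project (helper57): the three "trace" cases (CASE_ThreeB, CASE_TwoB, CASE_TwoC) in hypothesis
form (AN2 `exists_levelOne_trace` at `k = 12`, `G = Δ` as an explicit hypothesis), from the shared
core `trc_trace_contra` (TraceCore) and the form construction `tcf_exists_F` (TraceForm).
-/
import Fermat.Agent.S16x.TraceCore
import Fermat.Agent.S16x.TraceForm
import Fermat.Agent.S16x.TraceV
import Fermat.Agent.S16x.LevelOneBound

set_option autoImplicit false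

namespace Fermat.Agent.S16x

open PowerSeries UpperHalfPlane ModularForm ModularFormClass CongruenceSubgroup EisensteinSeries
open scoped MatrixGroups Manifold
open Fermat.Agent.S23x (IsMF IsMF1)

noncomputable section

/-- the hypothesis form of AN2 (`Spec.exists_levelOne_trace` at `k = 12`, `G = Δ`) -/
def tcf_TraceHyp (p : ℕ) [hp : Fact p.Prime] : Prop :=
  ∀ A : ModularForm (Gamma0 p) 2, ∃ f : ℍ → ℂ, IsMF1 ((12 + 2 : ℕ) : ℤ) f ∧ qExpansion 1 f =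
    qExpansion 1 A * PowerSeries.expand p hp.out.ne_zero (qExpansion 1 ModularForm.discriminant)
      - ((p : ℂ)⁻¹) ^ 12 • UPS p (UPS p (qExpansion 1 A) * qExpansion 1 ModularForm.discriminant)

/-- `ℓ`-integral lifts of the `q`-expansions of `E₄`, `E₆` -/
def tcf_e4 (ℓ : ℕ) : PowerSeries (lintRing ℓ) := PowerSeries.map (Int.castRingHom (lintRing ℓ)) lo_E4
def tcf_e6 (ℓ : ℕ) : PowerSeries (lintRing ℓ) := PowerSeries.map (Int.castRingHom (lintRing ℓ)) lo_E6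

theorem tcf_toC_e4 (ℓ : ℕ) : toC ℓ (tcf_e4 ℓ) = qExpansion 1 (⇑E₄) := by
  rw [lo_qExpansion_E4, tcf_e4, toC]
  exact PowerSeries.ext fun n => by simp

theorem tcf_toC_e6 (ℓ : ℕ) : toC ℓ (tcf_e6 ℓ) = qExpansion 1 (⇑E₆) := by
  rw [lo_qExpansion_E6, tcf_e6, toC]
  exact PowerSeries.ext fun n => by simp

theorem tcf_mem_span_of_dvd (ℓ s : ℕ) (c : ℤ) (hc : ((ℓ ^ s : ℕ) : ℤ) ∣ c) (x : lintRing ℓ) :
    ((c : ℤ) : lintRing ℓ) * x ∈ Ideal.span {((ℓ : ℕ) : lintRing ℓ) ^ s} := by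
  obtain ⟨d, rfl⟩ := hc
  have : (((((ℓ ^ s : ℕ) : ℤ) * d : ℤ)) : lintRing ℓ) * x
      = ((ℓ : ℕ) : lintRing ℓ) ^ s * (((d : ℤ) : lintRing ℓ) * x) := by
    push_cast; ring
  rw [this]
  exact Ideal.mul_mem_right _ _ (Ideal.subset_span rfl)

theorem tcf_e4_congr (ℓ s : ℕ) (hs24 : ℓ ^ s ∣ 24) (n : ℕ) :
    coeff n (tcf_e4 ℓ) - coeff n (1 : PowerSeries (lintRing ℓ))
      ∈ Ideal.span {((ℓ : ℕ) : lintRing ℓ) ^ s} := by
  have h : tcf_e4 ℓ = 1 + C (((240 : ℤ)) : lintRing ℓ)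
      * PowerSeries.map (Int.castRingHom (lintRing ℓ)) lo_A := by
    have h240 : (240 : PowerSeries (lintRing ℓ)) = C (((240 : ℤ)) : lintRing ℓ) := by
      rw [Int.cast_ofNat, map_ofNat]
    rw [tcf_e4, lo_E4, map_add, map_one, map_mul, map_ofNat, h240]
  rw [h, map_add, add_sub_cancel_left, coeff_C_mul]
  refine tcf_mem_span_of_dvd ℓ s 240 ?_ _
  have : ((ℓ ^ s : ℕ) : ℤ) ∣ 24 := by exact_mod_cast hs24
  exact this.trans ⟨10, by norm_num⟩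

theorem tcf_e6_congr (ℓ s : ℕ) (hs24 : ℓ ^ s ∣ 24) (n : ℕ) :
    coeff n (tcf_e6 ℓ) - coeff n (1 : PowerSeries (lintRing ℓ))
      ∈ Ideal.span {((ℓ : ℕ) : lintRing ℓ) ^ s} := by
  have h : tcf_e6 ℓ = 1 + C (((-504 : ℤ)) : lintRing ℓ)
      * PowerSeries.map (Int.castRingHom (lintRing ℓ)) lo_B := by
    have h504 : -(504 : PowerSeries (lintRing ℓ)) = C (((-504 : ℤ)) : lintRing ℓ) := by
      rw [Int.cast_neg, Int.cast_ofNat, map_neg, map_ofNat]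
    rw [tcf_e6, lo_E6, map_sub, map_one, map_mul, map_ofNat, sub_eq_add_neg, ← neg_mul, h504]
  rw [h, map_add, add_sub_cancel_left, coeff_C_mul]
  refine tcf_mem_span_of_dvd ℓ s (-504) ?_ _
  have : ((ℓ ^ s : ℕ) : ℤ) ∣ 24 := by exact_mod_cast hs24
  exact this.trans ⟨-21, by norm_num⟩

/-- **Generic trace case**: `g ≡ δ mod M` is impossible as soon as `24 M/(p-1) ∈ ℓ^s ℤ_(ℓ)`,
`ℓ^s ∣ 24` and `v_ℓ(p+1) = w < s`. -/
theorem tcf_no_congr_of (ℓ p M s w m : ℕ) [hℓ : Fact ℓ.Prime] [hp : Fact p.Prime] (hℓp : ℓ ≠ p)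
    (hs24 : ℓ ^ s ∣ 24) (hws : w < s) (hm : p + 1 = ℓ ^ w * m) (hmℓ : m.Coprime ℓ)
    (t : lintRing ℓ) (ht : (M : ℂ) * 24 = (ℓ : ℂ) ^ s * (t : ℂ) * ((p : ℂ) - 1))
    (hAN2 : tcf_TraceHyp p)
    (g : CuspForm (Gamma0 p) 2) (hg : IsEisCongr p M g) : False := by
  obtain ⟨F, a, haF, ha⟩ := tcf_exists_F ℓ p M s t ht g hg
  have hΔ : IsMF1 ((12 : ℕ) : ℤ) ModularForm.discriminant := by
    have := Fermat.Agent.S23x.m05_isMF1_discriminant
    exact_mod_cast this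
  exact trc_trace_contra ℓ p s w m hℓp hws hm hmℓ F a (tcf_e4 ℓ) (tcf_e6 ℓ) haF ha
    (tcf_toC_e4 ℓ) (tcf_e4_congr ℓ s hs24) (tcf_toC_e6 ℓ) (tcf_e6_congr ℓ s hs24)
    (hAN2 F) (exists_levelOne_traceV p (by norm_num) hΔ)
    (fun hf P hP hne => levelOne_redHom_order_le ℓ hf P hP hne)

/-- `(p : ℂ) - 1` from a factorisation `p - 1 = a * r` in `ℕ` -/
theorem tcf_cast_sub_one (p a r : ℕ) (hp : 1 ≤ p) (h : p - 1 = a * r) :
    (p : ℂ) - 1 = (a : ℂ) * (r : ℂ) := by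
  have : (p : ℂ) = ((p - 1 : ℕ) : ℂ) + 1 := by
    rw [Nat.cast_sub hp]; push_cast; ring
  rw [this, h]; push_cast; ring

/-- (A2b) `ℓ = 2`, `p ≡ 3 mod 8`, hypothesis form -/
theorem tcf_no_congr_two_three_of (p : ℕ) [hp : Fact p.Prime] (hp8 : p % 8 = 3)
    (hAN2 : tcf_TraceHyp p) (g : CuspForm (Gamma0 p) 2) (hg : IsEisCongr p 2 g) : False := by
  haveI : Fact (Nat.Prime 2) := ⟨Nat.prime_two⟩
  have hr0 : (p - 1) / 2 ≠ 0 := by omega
  have hrc : ((p - 1) / 2).Coprime 2 :=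
    Nat.Coprime.symm ((Nat.Prime.coprime_iff_not_dvd Nat.prime_two).mpr (by omega))
  have hmc : ((p + 1) / 4).Coprime 2 :=
    Nat.Coprime.symm ((Nat.Prime.coprime_iff_not_dvd Nat.prime_two).mpr (by omega))
  have hp1 := tcf_cast_sub_one p 2 ((p - 1) / 2) hp.out.one_le (by omega)
  have hrC : (((p - 1) / 2 : ℕ) : ℂ) ≠ 0 := Nat.cast_ne_zero.mpr hr0
  refine tcf_no_congr_of 2 p 2 3 2 ((p + 1) / 4) (by omega) (by norm_num) (by norm_num) (by omega)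
    hmc ⟨(3 : ℕ) * ((((p - 1) / 2 : ℕ) : ℂ))⁻¹, trc_div_mem 2 3 ((p - 1) / 2) hrc hr0⟩ ?_ hAN2 g hg
  simp only []
  rw [hp1]
  push_cast
  field_simp
  norm_num

/-- (A2a) `ℓ = 2`, `p ≡ 1 mod 4`, hypothesis form -/
theorem tcf_no_congr_two_one_of (p : ℕ) [hp : Fact p.Prime] (hp4 : p % 4 = 1)
    (hAN2 : tcf_TraceHyp p) (g : CuspForm (Gamma0 p) 2)
    (hg : IsEisCongr p (2 ^ (padicValNat 2 (p - 1) - 1)) g) : False := by
  haveI : Fact (Nat.Prime 2) := ⟨Nat.prime_two⟩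
  have hp5 : 5 ≤ p := by
    have := hp.out.two_le
    omega
  have hn0 : p - 1 ≠ 0 := by omega
  set v := padicValNat 2 (p - 1) with hv
  obtain ⟨r, hr⟩ : 2 ^ v ∣ p - 1 := pow_padicValNat_dvd
  have hv1 : 1 ≤ v := by
    have : 2 ∣ p - 1 := by omega
    exact one_le_padicValNat_of_dvd hn0 this
  have hr0 : r ≠ 0 := by
    rintro rfl
    simp at hr
    exact hn0 hr
  have hrodd : ¬ 2 ∣ r := by
    intro h2
    obtain ⟨r', rfl⟩ := h2
    have : 2 ^ (v + 1) ∣ p - 1 := ⟨r', by rw [hr, pow_succ]; ring⟩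
    exact pow_succ_padicValNat_not_dvd hn0 this
  have hrc : r.Coprime 2 :=
    Nat.Coprime.symm ((Nat.Prime.coprime_iff_not_dvd Nat.prime_two).mpr hrodd)
  have hmc : ((p + 1) / 2).Coprime 2 :=
    Nat.Coprime.symm ((Nat.Prime.coprime_iff_not_dvd Nat.prime_two).mpr (by omega))
  have hp1 := tcf_cast_sub_one p (2 ^ v) r hp.out.one_le hr
  have hrC : (r : ℂ) ≠ 0 := Nat.cast_ne_zero.mpr hr0
  refine tcf_no_congr_of 2 p (2 ^ (v - 1)) 2 1 ((p + 1) / 2) (by omega) (by norm_num) (by norm_num)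
    (by omega) hmc ⟨(3 : ℕ) * ((r : ℂ))⁻¹, trc_div_mem 2 3 r hrc hr0⟩ ?_ hAN2 g hg
  simp only []
  rw [hp1]
  obtain ⟨u, hu⟩ : ∃ u, v = u + 1 := ⟨v - 1, by omega⟩
  rw [hu]
  push_cast
  field_simp
  ring

/-- (A3) `ℓ = 3`, `p ≡ 1 mod 3`, hypothesis form -/
theorem tcf_no_congr_three_one_of (p : ℕ) [hp : Fact p.Prime] (hp3 : p % 3 = 1)
    (hAN2 : tcf_TraceHyp p) (g : CuspForm (Gamma0 p) 2)
    (hg : IsEisCongr p (3 ^ padicValNat 3 (p - 1)) g) : False := by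
  haveI : Fact (Nat.Prime 3) := ⟨Nat.prime_three⟩
  have hp5 : 4 ≤ p := by
    have := hp.out.two_le
    omega
  have hn0 : p - 1 ≠ 0 := by omega
  set v := padicValNat 3 (p - 1) with hv
  obtain ⟨r, hr⟩ : 3 ^ v ∣ p - 1 := pow_padicValNat_dvd
  have hr0 : r ≠ 0 := by
    rintro rfl
    simp at hr
    exact hn0 hr
  have hrodd : ¬ 3 ∣ r := by
    intro h3
    obtain ⟨r', rfl⟩ := h3
    have : 3 ^ (v + 1) ∣ p - 1 := ⟨r', by rw [hr, pow_succ]; ring⟩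
    exact pow_succ_padicValNat_not_dvd hn0 this
  have hrc : r.Coprime 3 :=
    Nat.Coprime.symm ((Nat.Prime.coprime_iff_not_dvd Nat.prime_three).mpr hrodd)
  have hmc : (p + 1).Coprime 3 :=
    Nat.Coprime.symm ((Nat.Prime.coprime_iff_not_dvd Nat.prime_three).mpr (by omega))
  have hp1 := tcf_cast_sub_one p (3 ^ v) r hp.out.one_le hr
  have hrC : (r : ℂ) ≠ 0 := Nat.cast_ne_zero.mpr hr0
  refine tcf_no_congr_of 3 p (3 ^ v) 1 0 (p + 1) (by omega) (by norm_num) (by norm_num)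
    (by simp) hmc ⟨(8 : ℕ) * ((r : ℂ))⁻¹, trc_div_mem 3 8 r hrc hr0⟩ ?_ hAN2 g hg
  simp only []
  rw [hp1]
  push_cast
  field_simp
  ring

end

end Fermat.Agent.S16x
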